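import Mathlib
import Fermat.Prelude.Def_ModularCurve_GenusNumerics

/-!
# S20, part G (helper19): the arithmetic identity behind `index (Gamma0 N) = dedekindPsi N`

`∑ d ∈ N.divisors, #{x < N/d | x coprime to gcd(d, N/d)} = dedekindPsi N`.
-/

namespace Fermat.Agent.S20.H19

open Finset Nat

/-- Counting residues coprime to `g` in a range of length `k * g`. -/
lemma card_filter_coprime_range_mul (g k : ℕ) :
    ((range (k * g)).filter (fun x => Nat.Coprime x g)).card = k * φ g := by
  induction k with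
  | zero => simp
  | succ k ih =>
    have h1 : range ((k + 1) * g) = range (k * g) ∪ Ico (k * g) (k * g + g) := by
      ext x
      simp only [mem_range, mem_union, mem_Ico]
      have : (k + 1) * g = k * g + g := by ring
      omega
    have hdisj : Disjoint (range (k * g)) (Ico (k * g) (k * g + g)) := by
      rw [Finset.disjoint_left]
      intro x hx hx'
      simp only [mem_range, mem_Ico] at hx hx'
      omega
    rw [h1, filter_union, card_union_of_disjoint (disjoint_filter_filter hdisj), ih]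
    have h2 : ((Ico (k * g) (k * g + g)).filter (fun x => Nat.Coprime x g)).card = φ g := by
      rw [← Nat.filter_coprime_Ico_eq_totient g (k * g)]
      congr 1
      apply filter_congr
      intro x _
      exact Nat.coprime_comm
    rw [h2]
    ring

/-- Counting residues coprime to `g` in a range of length `m`, `g ∣ m`. -/
lemma card_filter_coprime_range {g m : ℕ} (h : g ∣ m) :
    ((range m).filter (fun x => Nat.Coprime x g)).card = m / g * φ g := by
  rcases Nat.eq_zero_or_pos g with rfl | hg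
  · have : m = 0 := Nat.eq_zero_of_zero_dvd h
    subst this
    simp
  obtain ⟨k, rfl⟩ := h
  rw [mul_comm g k, card_filter_coprime_range_mul, Nat.mul_div_cancel _ hg]

/-- Sum over the divisors of a product of coprime numbers. -/
lemma sum_divisors_mul_of_coprime {M : Type*} [AddCommMonoid M] {a b : ℕ} (hab : a.Coprime b)
    (f : ℕ → M) :
    ∑ d ∈ (a * b).divisors, f d = ∑ d₁ ∈ a.divisors, ∑ d₂ ∈ b.divisors, f (d₁ * d₂) := by
  rw [hab.divisors_mul, Finset.sum_map]
  change ∑ x ∈ (a.divisors ×ˢ b.divisors).attach, (fun p : ℕ × ℕ => f (p.1 * p.2)) x.1 = _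
  rw [Finset.sum_attach (a.divisors ×ˢ b.divisors) (fun p => f (p.1 * p.2)), Finset.sum_product]

/-- The summand of the index formula. -/
def indexTerm (N d : ℕ) : ℕ := (N / d) / Nat.gcd d (N / d) * φ (Nat.gcd d (N / d))

/-- The index formula as a function of `N`. -/
def indexSum (N : ℕ) : ℕ := ∑ d ∈ N.divisors, indexTerm N d

lemma sum_card_filter_eq_indexSum (N : ℕ) :
    ∑ d ∈ N.divisors, ((range (N / d)).filter (fun x => Nat.Coprime x (Nat.gcd d (N / d)))).card
      = indexSum N := by
  rw [indexSum]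
  apply sum_congr rfl
  intro d _
  rw [card_filter_coprime_range (Nat.gcd_dvd_right d (N / d)), indexTerm]

lemma indexTerm_mul {a b d₁ d₂ : ℕ} (hab : a.Coprime b) (h₁ : d₁ ∣ a) (h₂ : d₂ ∣ b)
    (ha : a ≠ 0) (hb : b ≠ 0) :
    indexTerm (a * b) (d₁ * d₂) = indexTerm a d₁ * indexTerm b d₂ := by
  have hd₁ : d₁ ≠ 0 := fun h => ha (by simpa [h] using h₁)
  have hd₂ : d₂ ≠ 0 := fun h => hb (by simpa [h] using h₂)
  have hdiv : a * b / (d₁ * d₂) = a / d₁ * (b / d₂) := Nat.mul_div_mul_comm h₁ h₂
  have he₁ : a / d₁ ∣ a := Nat.div_dvd_of_dvd h₁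
  have he₂ : b / d₂ ∣ b := Nat.div_dvd_of_dvd h₂
  -- coprimality facts
  have c12 : (d₁).Coprime (b / d₂) := (hab.coprime_dvd_left h₁).coprime_dvd_right he₂
  have c21 : (d₂).Coprime (a / d₁) := (hab.symm.coprime_dvd_left h₂).coprime_dvd_right he₁
  have cee : (a / d₁).Coprime (b / d₂) := (hab.coprime_dvd_left he₁).coprime_dvd_right he₂
  have hg : Nat.gcd (d₁ * d₂) (a / d₁ * (b / d₂)) = Nat.gcd d₁ (a / d₁) * Nat.gcd d₂ (b / d₂) := by
    rw [Nat.Coprime.gcd_mul _ cee]
    congr 1
    · exact Nat.Coprime.gcd_mul_right_cancel _ c21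
    · exact Nat.Coprime.gcd_mul_left_cancel _ c12
  have cgg : (Nat.gcd d₁ (a / d₁)).Coprime (Nat.gcd d₂ (b / d₂)) :=
    (cee.coprime_dvd_left (Nat.gcd_dvd_right _ _)).coprime_dvd_right (Nat.gcd_dvd_right _ _)
  rw [indexTerm, indexTerm, indexTerm, hdiv, hg, Nat.totient_mul cgg,
    Nat.mul_div_mul_comm (Nat.gcd_dvd_right _ _) (Nat.gcd_dvd_right _ _)]
  ring

lemma indexSum_mul {a b : ℕ} (hab : a.Coprime b) (ha : a ≠ 0) (hb : b ≠ 0) :
    indexSum (a * b) = indexSum a * indexSum b := by
  rw [indexSum, indexSum, indexSum, sum_divisors_mul_of_coprime hab, Finset.sum_mul_sum]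
  apply sum_congr rfl
  intro d₁ hd₁
  apply sum_congr rfl
  intro d₂ hd₂
  exact indexTerm_mul hab (Nat.dvd_of_mem_divisors hd₁) (Nat.dvd_of_mem_divisors hd₂) ha hb

lemma dedekindPsi_mul {a b : ℕ} (hab : a.Coprime b) :
    ModularCurve.dedekindPsi (a * b) = ModularCurve.dedekindPsi a * ModularCurve.dedekindPsi b := by
  simp only [ModularCurve.dedekindPsi]
  rw [Finset.sum_filter, sum_divisors_mul_of_coprime hab, Finset.sum_filter, Finset.sum_filter,
    Finset.sum_mul_sum]
  apply sum_congr rfl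
  intro d₁ hd₁
  apply sum_congr rfl
  intro d₂ hd₂
  have h₁ := Nat.dvd_of_mem_divisors hd₁
  have h₂ := Nat.dvd_of_mem_divisors hd₂
  have c : d₁.Coprime d₂ := (hab.coprime_dvd_left h₁).coprime_dvd_right h₂
  rw [Nat.mul_div_mul_comm h₁ h₂]
  by_cases s₁ : Squarefree d₁ <;> by_cases s₂ : Squarefree d₂ <;>
    simp [Nat.squarefree_mul c, s₁, s₂]

lemma dedekindPsi_prime_pow {p : ℕ} (hp : p.Prime) {n : ℕ} (hn : 0 < n) :
    ModularCurve.dedekindPsi (p ^ n) = p ^ n + p ^ (n - 1) := by
  obtain ⟨m, rfl⟩ : ∃ m, n = m + 1 := ⟨n - 1, by omega⟩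
  simp only [ModularCurve.dedekindPsi]
  rw [Finset.sum_filter, Nat.sum_divisors_prime_pow hp, Finset.sum_range_succ',
    Finset.sum_range_succ']
  have hrest : ∑ k ∈ range m, (if Squarefree (p ^ (k + 1 + 1)) then p ^ (m + 1) / p ^ (k + 1 + 1)
      else 0) = 0 := by
    apply Finset.sum_eq_zero
    intro k _
    rw [if_neg]
    intro hsq
    have := (Nat.squarefree_pow_iff hp.ne_one (by omega : k + 1 + 1 ≠ 0)).mp hsq
    omega
  rw [hrest]
  simp only [zero_add, pow_zero, Nat.div_one, squarefree_one, if_true, pow_one]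
  rw [if_pos hp.squarefree]
  have : p ^ (m + 1) / p = p ^ m := by
    rw [pow_succ, Nat.mul_div_cancel _ hp.pos]
  rw [this]
  simp
  ring

lemma indexSum_prime_pow {p : ℕ} (hp : p.Prime) {n : ℕ} (hn : 0 < n) :
    indexSum (p ^ n) = p ^ n + p ^ (n - 1) := by
  obtain ⟨m, rfl⟩ : ∃ m, n = m + 1 := ⟨n - 1, by omega⟩
  rw [indexSum, Nat.sum_divisors_prime_pow hp]
  -- term at exponent `i`
  have hterm : ∀ i ∈ range (m + 2), indexTerm (p ^ (m + 1)) (p ^ i) =
      if i = 0 then p ^ (m + 1) else if i = m + 1 then 1 else p ^ (m - i) * (p - 1) := by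
    intro i hi
    rw [mem_range] at hi
    have hdiv : p ^ (m + 1) / p ^ i = p ^ (m + 1 - i) := Nat.pow_div (by omega) hp.pos
    have hgcd : Nat.gcd (p ^ i) (p ^ (m + 1 - i)) = p ^ (min i (m + 1 - i)) := by
      rcases le_total i (m + 1 - i) with h | h
      · rw [min_eq_left h, Nat.gcd_eq_left (pow_dvd_pow p h)]
      · rw [min_eq_right h, Nat.gcd_eq_right (pow_dvd_pow p h)]
    rw [indexTerm, hdiv, hgcd]
    by_cases h0 : i = 0
    · subst h0
      simp
    rw [if_neg h0]
    by_cases hm : i = m + 1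
    · subst hm
      simp
    rw [if_neg hm]
    have hmin_pos : 0 < min i (m + 1 - i) := by
      apply lt_min <;> omega
    rw [Nat.totient_prime_pow hp hmin_pos, Nat.pow_div (min_le_right _ _) hp.pos, ← mul_assoc,
      ← pow_add]
    congr 2
    rcases le_total i (m + 1 - i) with h | h
    · rw [min_eq_left h]; omega
    · rw [min_eq_right h]; omega
  rw [sum_congr rfl hterm]
  -- now a telescoping sum
  have key : ∀ m : ℕ, ∑ i ∈ range (m + 2),
      (if i = 0 then p ^ (m + 1) else if i = m + 1 then 1 else p ^ (m - i) * (p - 1))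
        = p ^ (m + 1) + p ^ m := by
    intro m
    rw [Finset.sum_range_succ', Finset.sum_range_succ]
    simp only [if_true, Nat.add_eq_zero_iff, one_ne_zero, and_false, if_false]
    have hmid : ∑ x ∈ range m, (if x + 1 = m + 1 then 1 else p ^ (m - (x + 1)) * (p - 1))
        = ∑ x ∈ range m, p ^ (m - (x + 1)) * (p - 1) := by
      apply sum_congr rfl
      intro x hx
      rw [mem_range] at hx
      rw [if_neg (by omega)]
    rw [hmid]
    have hgeom : ∀ m : ℕ, ∑ x ∈ range m, p ^ (m - (x + 1)) * (p - 1) + 1 = p ^ m := by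
      intro m
      induction m with
      | zero => simp
      | succ m ih =>
        rw [Finset.sum_range_succ']
        have h1 : ∑ k ∈ range m, p ^ (m + 1 - (k + 1 + 1)) * (p - 1)
            = ∑ k ∈ range m, p ^ (m - (k + 1)) * (p - 1) := by
          apply sum_congr rfl
          intro k _
          congr 2
          omega
        rw [h1]
        have h2 : p ^ (m + 1 - (0 + 1)) * (p - 1) = p ^ m * (p - 1) := by
          congr 2
        rw [h2]
        have hp1 : 1 ≤ p := hp.one_le
        calc ∑ k ∈ range m, p ^ (m - (k + 1)) * (p - 1) + p ^ m * (p - 1) + 1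
            = (∑ k ∈ range m, p ^ (m - (k + 1)) * (p - 1) + 1) + p ^ m * (p - 1) := by ring
          _ = p ^ m + p ^ m * (p - 1) := by rw [ih]
          _ = p ^ m * (1 + (p - 1)) := by ring
          _ = p ^ (m + 1) := by rw [Nat.add_sub_cancel' hp1, pow_succ]
    have := hgeom m
    omega
  rw [key m]
  simp

/-- **G1b**: the arithmetic identity. -/
theorem indexSum_eq_dedekindPsi (N : ℕ) (hN : N ≠ 0) :
    indexSum N = ModularCurve.dedekindPsi N := by
  induction N using Nat.recOnPosPrimePosCoprime with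
  | prime_pow p n hp hn =>
    rw [indexSum_prime_pow hp hn, dedekindPsi_prime_pow hp hn]
  | zero => exact absurd rfl hN
  | one => rw [ModularCurve.dedekindPsi_one]; simp [indexSum, indexTerm]
  | coprime a b ha hb hab iha ihb =>
    have ha0 : a ≠ 0 := by omega
    have hb0 : b ≠ 0 := by omega
    rw [indexSum_mul hab ha0 hb0, dedekindPsi_mul hab, iha ha0, ihb hb0]

/-- **G1b**, count form. -/
theorem G1b (N : ℕ) (hN : N ≠ 0) :
    ∑ d ∈ N.divisors, ((range (N / d)).filter (fun x => Nat.Coprime x (Nat.gcd d (N / d)))).card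
      = ModularCurve.dedekindPsi N := by
  rw [sum_card_filter_eq_indexSum, indexSum_eq_dedekindPsi N hN]

end Fermat.Agent.S20.H19
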