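import Fermat.Agent.S20.H19_NormalForm
import Fermat.Agent.S20.H19_Arith

/-!
# S20, part G (helper19): `G1`, the index of `Gamma0 N` in `SL(2, ℤ)` is `dedekindPsi N`
-/

namespace Fermat.Agent.S20.H19

open CongruenceSubgroup MatrixGroups

/-- **G1**: `[SL(2, ℤ) : Γ₀(N)] = ψ(N)`. -/
theorem G1 (N : ℕ) [NeZero N] : (Gamma0 N).index = ModularCurve.dedekindPsi N := by
  rw [index_Gamma0_eq_sum, G1b N (NeZero.ne N)]

/-- **G1**, cardinality form. -/
theorem G1_card (N : ℕ) [NeZero N] :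
    Nat.card (SL(2, ℤ) ⧸ Gamma0 N) = ModularCurve.dedekindPsi N := by
  rw [← Subgroup.index_eq_card, G1]

end Fermat.Agent.S20.H19
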