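import Mathlib
import Fermat.Prelude.Def_ModularCurve_GenusNumerics

/-!
# S20 / S21 / S24, part G2 + G3 (helper54)

Counting the cosets of `Gamma0 N` in `SL(2, ℤ)` fixed by `S` resp. `S * T`:
* `G2 : Nat.card {q : SL(2, ℤ) ⧸ Gamma0 N // S • q = q} = nuTwo N`
* `G3 : Nat.card {q : SL(2, ℤ) ⧸ Gamma0 N // (S * T) • q = q} = nuThree N`
and the `MulAction.fixedBy` forms `wp_card_fixedBy_S`, `wp_card_fixedBy_ST`.

Method: explicit representatives `rep x = [[x, -1], [1, 0]]`; a coset `g Γ0(N)` with first column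
`(a, c)` is fixed by `S` iff `a^2 + c^2 = 0 mod N`, by `S * T` iff `a^2 + a c + c^2 = 0 mod N`; then
`c` is a unit mod `N` and the coset is that of `rep (a / c)`.
-/

set_option autoImplicit false

open scoped MatrixGroups
open CongruenceSubgroup ModularGroup Matrix

namespace Fermat.Agent.S20.H54

/-- the matrix `[[x, -1], [1, 0]]` of `SL(2, ℤ)`. -/
def rep (x : ℤ) : SL(2, ℤ) := ⟨!![x, -1; 1, 0], by simp [Matrix.det_fin_two]⟩

lemma inv_mul_apply_one_zero (h g : SL(2, ℤ)) :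
    (h⁻¹ * g) 1 0 = h 0 0 * g 1 0 - h 1 0 * g 0 0 := by
  rw [Matrix.SpecialLinearGroup.coe_mul, Matrix.SpecialLinearGroup.coe_inv,
    Matrix.adjugate_fin_two, Matrix.mul_apply, Fin.sum_univ_two]
  simp
  ring

lemma rep_apply_zero_zero (x : ℤ) : (rep x) 0 0 = x := rfl
lemma rep_apply_one_zero (x : ℤ) : (rep x) 1 0 = 1 := rfl

lemma S_mul_apply_zero_zero (g : SL(2, ℤ)) : (S * g) 0 0 = - g 1 0 := by
  rw [Matrix.SpecialLinearGroup.coe_mul, ModularGroup.coe_S, Matrix.mul_apply, Fin.sum_univ_two]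
  simp

lemma S_mul_apply_one_zero (g : SL(2, ℤ)) : (S * g) 1 0 = g 0 0 := by
  rw [Matrix.SpecialLinearGroup.coe_mul, ModularGroup.coe_S, Matrix.mul_apply, Fin.sum_univ_two]
  simp

lemma T_mul_apply_zero_zero (g : SL(2, ℤ)) : (T * g) 0 0 = g 0 0 + g 1 0 := by
  rw [Matrix.SpecialLinearGroup.coe_mul, ModularGroup.coe_T, Matrix.mul_apply, Fin.sum_univ_two]
  simp

lemma T_mul_apply_one_zero (g : SL(2, ℤ)) : (T * g) 1 0 = g 1 0 := by
  rw [Matrix.SpecialLinearGroup.coe_mul, ModularGroup.coe_T, Matrix.mul_apply, Fin.sum_univ_two]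
  simp

/-- lower-left entry of `(rep x)⁻¹ * g`. -/
lemma rep_inv_mul_apply (x : ℤ) (g : SL(2, ℤ)) :
    ((rep x)⁻¹ * g) 1 0 = x * g 1 0 - g 0 0 := by
  rw [inv_mul_apply_one_zero, rep_apply_zero_zero, rep_apply_one_zero, one_mul]

/-- lower-left entry of `g⁻¹ * (S * g)`. -/
lemma inv_mul_S_mul_apply (g : SL(2, ℤ)) :
    (g⁻¹ * (S * g)) 1 0 = g 0 0 ^ 2 + g 1 0 ^ 2 := by
  rw [inv_mul_apply_one_zero, S_mul_apply_zero_zero, S_mul_apply_one_zero]
  ring

/-- lower-left entry of `g⁻¹ * (S * T * g)`. -/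
lemma inv_mul_ST_mul_apply (g : SL(2, ℤ)) :
    (g⁻¹ * (S * T * g)) 1 0 = g 0 0 ^ 2 + g 0 0 * g 1 0 + g 1 0 ^ 2 := by
  rw [inv_mul_apply_one_zero, mul_assoc, S_mul_apply_zero_zero, S_mul_apply_one_zero,
    T_mul_apply_zero_zero, T_mul_apply_one_zero]
  ring

lemma det_eq (g : SL(2, ℤ)) : g 0 0 * g 1 1 - g 0 1 * g 1 0 = 1 := by
  have := g.2
  rw [Matrix.det_fin_two] at this
  exact this

variable (N : ℕ)

/-- a coset is fixed by `γ` iff the lower-left entry of `g⁻¹ γ g` vanishes mod `N`. -/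
lemma smul_mk_eq_iff (γ g : SL(2, ℤ)) :
    γ • (g : SL(2, ℤ) ⧸ Gamma0 N) = (g : SL(2, ℤ) ⧸ Gamma0 N) ↔
      (((g⁻¹ * (γ * g)) 1 0 : ℤ) : ZMod N) = 0 := by
  rw [← Gamma0_mem]
  have h1 : γ • (g : SL(2, ℤ) ⧸ Gamma0 N) = ((γ * g : SL(2, ℤ)) : SL(2, ℤ) ⧸ Gamma0 N) := rfl
  rw [h1, eq_comm, QuotientGroup.eq]

/-- the coset of `rep x` equals that of `g` iff `x * c = a` mod `N`, `(a, c)` first column of `g`. -/
lemma mk_rep_eq_iff (x : ℤ) (g : SL(2, ℤ)) :
    ((rep x : SL(2, ℤ)) : SL(2, ℤ) ⧸ Gamma0 N) = (g : SL(2, ℤ) ⧸ Gamma0 N) ↔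
      (x : ZMod N) * ((g 1 0 : ℤ) : ZMod N) = ((g 0 0 : ℤ) : ZMod N) := by
  rw [QuotientGroup.eq, Gamma0_mem, rep_inv_mul_apply]
  push_cast
  rw [sub_eq_zero]

/-- in a commutative ring: `ad - bc = 1` and `a^2 + c^2 = 0` make `c` invertible. -/
lemma unit_of_sq_add_sq {R : Type*} [CommRing R] {a b c d : R} (hdet : a * d - b * c = 1)
    (h : a ^ 2 + c ^ 2 = 0) : c * (-(c * d + a * b) * d - b) = 1 := by
  have ha : a = c * (-(c * d + a * b)) := by
    linear_combination (-a) * hdet + d * h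
  calc c * (-(c * d + a * b) * d - b) = (c * (-(c * d + a * b))) * d - b * c := by ring
    _ = a * d - b * c := by rw [← ha]
    _ = 1 := hdet

/-- in a commutative ring: `ad - bc = 1` and `a^2 + ac + c^2 = 0` make `c` invertible. -/
lemma unit_of_sq_add_mul_add_sq {R : Type*} [CommRing R] {a b c d : R} (hdet : a * d - b * c = 1)
    (h : a ^ 2 + a * c + c ^ 2 = 0) : c * (-((a + c) * d + a * b) * d - b) = 1 := by
  have ha : a = c * (-((a + c) * d + a * b)) := by
    linear_combination (-a) * hdet + d * h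
  calc c * (-((a + c) * d + a * b) * d - b)
      = (c * (-((a + c) * d + a * b))) * d - b * c := by ring
    _ = a * d - b * c := by rw [← ha]
    _ = 1 := hdet

lemma det_eq_cast (g : SL(2, ℤ)) :
    ((g 0 0 : ℤ) : ZMod N) * ((g 1 1 : ℤ) : ZMod N) -
      ((g 0 1 : ℤ) : ZMod N) * ((g 1 0 : ℤ) : ZMod N) = 1 := by
  have := congrArg (Int.cast : ℤ → ZMod N) (det_eq g)
  push_cast at this
  exact this

variable [NeZero N]

/-- the map `x ↦ rep x Γ0(N)` from roots of `x^2+1` to `S`-fixed cosets. -/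
noncomputable def toFixedS (x : {x : ZMod N // x ^ 2 + 1 = 0}) :
    {q : SL(2, ℤ) ⧸ Gamma0 N // S • q = q} :=
  ⟨((rep (x.1.val : ℤ) : SL(2, ℤ)) : SL(2, ℤ) ⧸ Gamma0 N), by
    rw [smul_mk_eq_iff, inv_mul_S_mul_apply, rep_apply_zero_zero, rep_apply_one_zero]
    push_cast
    rw [ZMod.natCast_zmod_val]
    exact x.2⟩

lemma toFixedS_bijective : Function.Bijective (toFixedS N) := by
  constructor
  · intro x y hxy
    have h := congrArg Subtype.val hxy
    simp only [toFixedS] at h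
    rw [mk_rep_eq_iff, rep_apply_zero_zero, rep_apply_one_zero] at h
    push_cast at h
    rw [ZMod.natCast_zmod_val, ZMod.natCast_zmod_val, mul_one] at h
    exact Subtype.ext h
  · rintro ⟨q, hq⟩
    obtain ⟨g, rfl⟩ := QuotientGroup.mk_surjective q
    rw [smul_mk_eq_iff, inv_mul_S_mul_apply] at hq
    push_cast at hq
    have hdet := det_eq_cast N g
    set a : ZMod N := ((g 0 0 : ℤ) : ZMod N) with ha
    set b : ZMod N := ((g 0 1 : ℤ) : ZMod N) with hb
    set c : ZMod N := ((g 1 0 : ℤ) : ZMod N) with hc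
    set d : ZMod N := ((g 1 1 : ℤ) : ZMod N) with hd
    have hu := unit_of_sq_add_sq hdet hq
    set ci : ZMod N := -(c * d + a * b) * d - b with hci
    have hx : (a * ci) ^ 2 + 1 = 0 := by
      have : (a * ci) ^ 2 + 1 = (a ^ 2 + c ^ 2) * ci ^ 2 + (1 - (c * ci) ^ 2) := by ring
      rw [this, hq, hu]; ring
    refine ⟨⟨a * ci, hx⟩, ?_⟩
    apply Subtype.ext
    simp only [toFixedS]
    rw [mk_rep_eq_iff]
    push_cast
    rw [ZMod.natCast_zmod_val, ← hc, ← ha]
    calc a * ci * c = a * (c * ci) := by ring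
      _ = a := by rw [hu, mul_one]

/-- **G2**: the number of `S`-fixed cosets of `Gamma0 N` is `nuTwo N`. -/
theorem G2 : Nat.card {q : SL(2, ℤ) ⧸ Gamma0 N // S • q = q} = ModularCurve.nuTwo N := by
  rw [ModularCurve.nuTwo]
  exact (Nat.card_eq_of_bijective _ (toFixedS_bijective N)).symm

/-- the map `x ↦ rep x Γ0(N)` from roots of `x^2+x+1` to `S * T`-fixed cosets. -/
noncomputable def toFixedST (x : {x : ZMod N // x ^ 2 + x + 1 = 0}) :
    {q : SL(2, ℤ) ⧸ Gamma0 N // (S * T) • q = q} :=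
  ⟨((rep (x.1.val : ℤ) : SL(2, ℤ)) : SL(2, ℤ) ⧸ Gamma0 N), by
    rw [smul_mk_eq_iff, inv_mul_ST_mul_apply, rep_apply_zero_zero, rep_apply_one_zero]
    push_cast
    rw [ZMod.natCast_zmod_val, mul_one]
    exact x.2⟩

lemma toFixedST_bijective : Function.Bijective (toFixedST N) := by
  constructor
  · intro x y hxy
    have h := congrArg Subtype.val hxy
    simp only [toFixedST] at h
    rw [mk_rep_eq_iff, rep_apply_zero_zero, rep_apply_one_zero] at h
    push_cast at h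
    rw [ZMod.natCast_zmod_val, ZMod.natCast_zmod_val, mul_one] at h
    exact Subtype.ext h
  · rintro ⟨q, hq⟩
    obtain ⟨g, rfl⟩ := QuotientGroup.mk_surjective q
    rw [smul_mk_eq_iff, inv_mul_ST_mul_apply] at hq
    push_cast at hq
    have hdet := det_eq_cast N g
    set a : ZMod N := ((g 0 0 : ℤ) : ZMod N) with ha
    set b : ZMod N := ((g 0 1 : ℤ) : ZMod N) with hb
    set c : ZMod N := ((g 1 0 : ℤ) : ZMod N) with hc
    set d : ZMod N := ((g 1 1 : ℤ) : ZMod N) with hd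
    have hu := unit_of_sq_add_mul_add_sq hdet hq
    set ci : ZMod N := -((a + c) * d + a * b) * d - b with hci
    have hx : (a * ci) ^ 2 + a * ci + 1 = 0 := by
      have : (a * ci) ^ 2 + a * ci + 1
          = (a ^ 2 + a * c + c ^ 2) * ci ^ 2 + (1 - c * ci) * (a * ci + 1 + c * ci) := by ring
      rw [this, hq, hu]; ring
    refine ⟨⟨a * ci, hx⟩, ?_⟩
    apply Subtype.ext
    simp only [toFixedST]
    rw [mk_rep_eq_iff]
    push_cast
    rw [ZMod.natCast_zmod_val, ← hc, ← ha]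
    calc a * ci * c = a * (c * ci) := by ring
      _ = a := by rw [hu, mul_one]

/-- **G3**: the number of `S * T`-fixed cosets of `Gamma0 N` is `nuThree N`. -/
theorem G3 :
    Nat.card {q : SL(2, ℤ) ⧸ Gamma0 N // (S * T) • q = q} = ModularCurve.nuThree N := by
  rw [ModularCurve.nuThree]
  exact (Nat.card_eq_of_bijective _ (toFixedST_bijective N)).symm

/-- `MulAction.fixedBy` form of G2 (S24 work package C3). -/
theorem wp_card_fixedBy_S :
    Nat.card (MulAction.fixedBy (SL(2, ℤ) ⧸ Gamma0 N) S) = ModularCurve.nuTwo N :=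
  G2 N

/-- `MulAction.fixedBy` form of G3 (S24 work package C4). -/
theorem wp_card_fixedBy_ST :
    Nat.card (MulAction.fixedBy (SL(2, ℤ) ⧸ Gamma0 N) (S * T)) = ModularCurve.nuThree N :=
  G3 N

end Fermat.Agent.S20.H54
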