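import Mathlib.NumberTheory.ModularForms.Derivative
import Mathlib.NumberTheory.ModularForms.LevelOne.DimensionFormula
import Mathlib.NumberTheory.ModularForms.LevelOne.GradedRing

/-!
# Ramanujan's identities for `E₄`, `E₆` and simplicity of zeros (S20, part A2; helper70)

* `D_eq_qParam_mul_deriv_cuspFunction` : `D f z = q * (cuspFunction 1 f)'(q)`, `q = 𝕢 z`.
* `tendsto_D_atImInfty` : `D f → 0` at `i∞` for level one modular forms.
* `serreDerivativeMF` : the Serre derivative as a map `M_k(SL₂ℤ) → M_{k+2}(SL₂ℤ)`.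
* `ramanujan_E₄`, `ramanujan_E₆`.
-/

set_option autoImplicit false

noncomputable section

namespace Fermat.Agent.S20.H70

open UpperHalfPlane hiding I
open ModularForm EisensteinSeries Derivative Filter Topology Complex
open scoped MatrixGroups Manifold Real

local notation "𝕢" => Function.Periodic.qParam

/-- On the upper half plane `f ∘ ofComplex` agrees with `cuspFunction 1 f ∘ 𝕢 1`. -/
lemma comp_ofComplex_eventuallyEq {k : ℤ} (f : ModularForm 𝒮ℒ k) (z : ℍ) :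
    (⇑f ∘ ofComplex) =ᶠ[𝓝 (z : ℂ)] fun w ↦ cuspFunction 1 f (𝕢 1 w) := by
  filter_upwards [isOpen_upperHalfPlaneSet.mem_nhds z.im_pos] with w hw
  have := SlashInvariantFormClass.eq_cuspFunction (h := 1) f ⟨w, hw⟩ one_mem_strictPeriods_SL
    one_ne_zero
  simp only [Function.comp_apply, ofComplex_apply_of_im_pos hw]
  exact this.symm

lemma norm_qParam_lt_one (z : ℍ) : ‖𝕢 1 (z : ℂ)‖ < 1 := by
  simpa using UpperHalfPlane.norm_qParam_lt_one 1 z

/-- `D f z = q * (d/dq) (cuspFunction f) (q)`. -/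
lemma D_eq_qParam_mul_deriv_cuspFunction {k : ℤ} (f : ModularForm 𝒮ℒ k) (z : ℍ) :
    D f z = 𝕢 1 (z : ℂ) * deriv (cuspFunction 1 f) (𝕢 1 (z : ℂ)) := by
  have hq : HasDerivAt (𝕢 1) (2 * π * I * 𝕢 1 (z : ℂ)) (z : ℂ) := by
    have h1 : HasDerivAt (fun w : ℂ ↦ 2 * π * I * w / ((1 : ℝ) : ℂ)) (2 * π * I) (z : ℂ) := by
      simpa using ((hasDerivAt_id (z : ℂ)).const_mul (2 * π * I)).div_const ((1 : ℝ) : ℂ)
    have h2 : HasDerivAt (fun w : ℂ ↦ cexp (2 * π * I * w / ((1 : ℝ) : ℂ)))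
        (cexp (2 * π * I * z / ((1 : ℝ) : ℂ)) * (2 * π * I)) (z : ℂ) := h1.cexp
    have h3 : (𝕢 1) = fun w : ℂ ↦ cexp (2 * π * I * w / ((1 : ℝ) : ℂ)) := by
      funext w; simp [Function.Periodic.qParam]
    rw [h3]
    convert h2 using 1
    ring
  have hc : HasDerivAt (cuspFunction 1 f) (deriv (cuspFunction 1 f) (𝕢 1 (z : ℂ)))
      (𝕢 1 (z : ℂ)) :=
    (ModularFormClass.differentiableAt_cuspFunction f one_pos one_mem_strictPeriods_SL
      (norm_qParam_lt_one z)).hasDerivAt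
  have hcomp : HasDerivAt (fun w ↦ cuspFunction 1 f (𝕢 1 w))
      (deriv (cuspFunction 1 f) (𝕢 1 (z : ℂ)) * (2 * π * I * 𝕢 1 (z : ℂ))) (z : ℂ) :=
    hc.comp (z : ℂ) hq
  have hd : deriv (⇑f ∘ ofComplex) (z : ℂ) =
      deriv (cuspFunction 1 f) (𝕢 1 (z : ℂ)) * (2 * π * I * 𝕢 1 (z : ℂ)) := by
    rw [(comp_ofComplex_eventuallyEq f z).deriv_eq]
    exact hcomp.deriv
  have h2pi : (2 * π * I : ℂ) ≠ 0 := by
    simp [Real.pi_ne_zero, I_ne_zero]
  rw [normalizedDerivOfComplex, hd]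
  field_simp

/-- The normalized derivative of a level one modular form tends to `0` at `i∞`. -/
lemma tendsto_D_atImInfty {k : ℤ} (f : ModularForm 𝒮ℒ k) :
    Tendsto (D f) atImInfty (𝓝 0) := by
  have hq : Tendsto (fun τ : ℍ ↦ 𝕢 1 (τ : ℂ)) atImInfty (𝓝 0) :=
    qParam_tendsto_atImInfty one_pos
  have hdiff : DifferentiableOn ℂ (cuspFunction 1 f) (Metric.ball 0 1) := fun q hq ↦
    (ModularFormClass.differentiableAt_cuspFunction f one_pos one_mem_strictPeriods_SL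
      (by simpa using hq)).differentiableWithinAt
  have hcont : ContinuousAt (deriv (cuspFunction 1 f)) 0 :=
    ((hdiff.analyticOnNhd Metric.isOpen_ball).deriv 0 (by simp)).continuousAt
  have h1 : Tendsto (fun τ : ℍ ↦ deriv (cuspFunction 1 f) (𝕢 1 (τ : ℂ))) atImInfty
      (𝓝 (deriv (cuspFunction 1 f) 0)) := hcont.tendsto.comp hq
  have h2 := hq.mul h1
  rw [zero_mul] at h2
  refine h2.congr fun τ ↦ ?_
  exact (D_eq_qParam_mul_deriv_cuspFunction f τ).symm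


lemma isBoundedAtImInfty_D {k : ℤ} (f : ModularForm 𝒮ℒ k) : IsBoundedAtImInfty (D f) :=
  (tendsto_D_atImInfty f).isBigO_one ℝ

lemma isBoundedAtImInfty_serreDerivative {k : ℤ} (f : ModularForm 𝒮ℒ k) :
    IsBoundedAtImInfty (serreDerivative k f) := by
  have h1 : IsBoundedAtImInfty (D f) := isBoundedAtImInfty_D f
  have h2 : IsBoundedAtImInfty (fun z : ℍ ↦ (k : ℂ) * 12⁻¹ * E2 z * f z) := by
    have hf : IsBoundedAtImInfty (f : ℍ → ℂ) := ModularFormClass.bdd_at_infty f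
    have := (isBoundedAtImInfty_E2.mul hf).const_mul_left ((k : ℂ) * 12⁻¹)
    refine this.congr_left fun z ↦ ?_
    simp [mul_assoc]
  have := h1.sub h2
  exact this

lemma serreDerivative_slash_SL {k : ℤ} (f : ModularForm 𝒮ℒ k) (γ : SL(2, ℤ)) :
    serreDerivative k f ∣[k + 2] γ = serreDerivative k f :=
  serreDerivative_slash_invariant (ModularFormClass.holo f)
    (SlashInvariantFormClass.slash_action_eq f (Matrix.SpecialLinearGroup.mapGL ℝ γ)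
      (MonoidHom.mem_range.mpr ⟨γ, rfl⟩))

/-- The Serre derivative `∂_k : M_k(SL₂(ℤ)) → M_{k+2}(SL₂(ℤ))`. -/
def serreDerivativeMF {k : ℤ} (f : ModularForm 𝒮ℒ k) : ModularForm 𝒮ℒ (k + 2) where
  toFun := serreDerivative k f
  slash_action_eq' A hA := by
    obtain ⟨γ, rfl⟩ := hA
    exact serreDerivative_slash_SL f γ
  holo' := serreDerivative_mdifferentiable k (ModularFormClass.holo f)
  bdd_at_cusps' hc := by
    rw [Subgroup.IsArithmetic.isCusp_iff_isCusp_SL2Z] at hc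
    rw [OnePoint.isBoundedAt_iff_forall_SL2Z hc]
    intro γ _
    rw [serreDerivative_slash_SL f γ]
    exact isBoundedAtImInfty_serreDerivative f

@[simp] lemma serreDerivativeMF_apply {k : ℤ} (f : ModularForm 𝒮ℒ k) (z : ℍ) :
    serreDerivativeMF f z = D f z - k * 12⁻¹ * E2 z * f z := rfl


/-- A level one modular form tends to its constant `q`-coefficient at `i∞`. -/
lemma tendsto_atImInfty_coeff_zero {k : ℤ} (f : ModularForm 𝒮ℒ k) :
    Tendsto f atImInfty (𝓝 ((qExpansion 1 f).coeff 0)) := by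
  have han : AnalyticAt ℂ (cuspFunction 1 f) 0 :=
    ModularFormClass.analyticAt_cuspFunction_zero f one_pos one_mem_strictPeriods_SL
  have h0 : (qExpansion 1 f).coeff 0 = cuspFunction 1 f 0 := by
    simp [qExpansion_coeff]
  rw [h0]
  have := han.continuousAt.tendsto.comp (qParam_tendsto_atImInfty one_pos)
  refine this.congr fun τ ↦ ?_
  exact SlashInvariantFormClass.eq_cuspFunction (h := 1) f τ one_mem_strictPeriods_SL one_ne_zero

lemma E2_periodic : Function.Periodic (E2 ∘ ofComplex) (1 : ℝ) := by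
  intro w
  by_cases! hw : 0 < im w
  · have hw' : 0 < im (w + ((1 : ℝ) : ℂ)) := by simp [hw]
    simp only [Function.comp_apply, ofComplex_apply_of_im_pos hw',
      ofComplex_apply_of_im_pos hw, E2_eq_tsum_cexp]
    have : cexp (2 * π * I * ((w : ℂ) + ((1 : ℝ) : ℂ))) = cexp (2 * π * I * w) := by
      rw [mul_add, Complex.exp_add]
      simp [Complex.exp_two_pi_mul_I]
    simp only [this]
  · have hw' : im (w + ((1 : ℝ) : ℂ)) ≤ 0 := by simpa using hw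
    simp only [Function.comp_apply]
    rw [ofComplex_apply_of_im_nonpos hw', ofComplex_apply_of_im_nonpos hw]

/-- The `q`-expansion coefficients of `E2`. -/
def E2coeff (m : ℕ) : ℂ := if m = 0 then 1 else -24 * (ArithmeticFunction.sigma 1 m : ℂ)

lemma hasSum_E2_qParam (τ : ℍ) :
    HasSum (fun m : ℕ ↦ E2coeff m • 𝕢 1 (τ : ℂ) ^ m) (E2 τ) := by
  simpa only [Function.Periodic.qParam, ofReal_one, div_one, E2coeff]
    using hasSum_qExpansion_E2 (z := τ)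

lemma analyticAt_cuspFunction_E2 : AnalyticAt ℂ (cuspFunction 1 E2) 0 :=
  UpperHalfPlane.analyticAt_cuspFunction_zero (h := 1) (f := E2) one_pos E2_periodic
    E2_mdifferentiable isBoundedAtImInfty_E2

lemma cuspFunction_E2_zero : cuspFunction 1 E2 0 = 1 := by
  have h := UpperHalfPlane.hasFPowerSeriesOnBall_cuspFunction (h := 1) (f := E2) (c := E2coeff)
      one_pos analyticAt_cuspFunction_E2 hasSum_E2_qParam
  have h2 := h.coeff_zero (fun _ ↦ 0)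
  rw [← h2]
  simp [E2coeff, FormalMultilinearSeries.ofScalars]

/-- `E2 → 1` at `i∞`. -/
lemma tendsto_E2_atImInfty : Tendsto E2 atImInfty (𝓝 1) := by
  have := analyticAt_cuspFunction_E2.continuousAt.tendsto.comp
    (qParam_tendsto_atImInfty (h := 1) one_pos)
  rw [cuspFunction_E2_zero] at this
  refine this.congr fun τ ↦ ?_
  exact UpperHalfPlane.eq_cuspFunction (h := 1) (f := E2) τ one_ne_zero E2_periodic

lemma tendsto_E₄_atImInfty : Tendsto E₄ atImInfty (𝓝 1) := by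
  simpa [E_qExpansion_coeff_zero _ ⟨2, rfl⟩] using tendsto_atImInfty_coeff_zero E₄

lemma tendsto_E₆_atImInfty : Tendsto E₆ atImInfty (𝓝 1) := by
  simpa [E_qExpansion_coeff_zero _ ⟨3, rfl⟩] using tendsto_atImInfty_coeff_zero E₆

/-- Serre derivative `∂_k f → -(k/12) a₀(f)` at `i∞`. -/
lemma tendsto_serreDerivative_atImInfty {k : ℤ} (f : ModularForm 𝒮ℒ k) :
    Tendsto (serreDerivative k f) atImInfty
      (𝓝 (- ((k : ℂ) * 12⁻¹ * (qExpansion 1 f).coeff 0))) := by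
  have h1 := tendsto_D_atImInfty f
  have h2 := (tendsto_E2_atImInfty.const_mul ((k : ℂ) * 12⁻¹)).mul (tendsto_atImInfty_coeff_zero f)
  have := h1.sub h2
  simp only [mul_one, zero_sub] at this
  exact this


/-- `∂₄ E₄ = -(1/3) E₆`. -/
theorem serreDerivative_E₄ (z : ℍ) : serreDerivative 4 E₄ z = -(1 / 3 : ℂ) * E₆ z := by
  let F : ModularForm 𝒮ℒ 6 := serreDerivativeMF E₄
  obtain ⟨c, hc⟩ : ∃ c : ℂ, c • E₆ = F :=
    (finrank_eq_one_iff_of_nonzero' E₆ (E_ne_zero _ ⟨3, rfl⟩)).mp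
      (Module.rank_eq_one_iff_finrank_eq_one.mp levelOne_weight_six_rank_one) _
  have hF : ∀ τ : ℍ, F τ = serreDerivative 4 E₄ τ := fun τ ↦ rfl
  have hcE : ∀ τ : ℍ, c * E₆ τ = serreDerivative 4 E₄ τ := fun τ ↦ by
    rw [← hF, ← hc]; rfl
  have h1 : Tendsto (fun τ : ℍ ↦ c * E₆ τ) atImInfty (𝓝 (c * 1)) :=
    tendsto_E₆_atImInfty.const_mul c
  have h2 : Tendsto (fun τ : ℍ ↦ c * E₆ τ) atImInfty
      (𝓝 (- (((4 : ℤ) : ℂ) * 12⁻¹ * (qExpansion 1 E₄).coeff 0))) :=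
    (tendsto_serreDerivative_atImInfty E₄).congr fun τ ↦ (hcE τ).symm
  have hc' : c = -(1 / 3 : ℂ) := by
    have := tendsto_nhds_unique h1 h2
    rw [E_qExpansion_coeff_zero _ ⟨2, rfl⟩] at this
    rw [mul_one] at this
    rw [this]
    norm_num
  rw [← hcE, hc']

/-- `∂₆ E₆ = -(1/2) E₄²`. -/
theorem serreDerivative_E₆ (z : ℍ) : serreDerivative 6 E₆ z = -(1 / 2 : ℂ) * E₄ z ^ 2 := by
  let F : ModularForm 𝒮ℒ 8 := serreDerivativeMF E₆
  let E8 : ModularForm 𝒮ℒ 8 := E₄.mul E₄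
  have hE8 : ∀ τ : ℍ, E8 τ = E₄ τ ^ 2 := fun τ ↦ by
    rw [pow_two]; rfl
  have hE8_tendsto : Tendsto E8 atImInfty (𝓝 1) := by
    have := tendsto_E₄_atImInfty.mul tendsto_E₄_atImInfty
    rw [one_mul] at this
    exact this.congr fun τ ↦ rfl
  have hE8ne : E8 ≠ 0 := by
    intro h
    have h0 : Tendsto E8 atImInfty (𝓝 0) := by
      rw [h]; exact tendsto_const_nhds
    exact one_ne_zero (tendsto_nhds_unique hE8_tendsto h0)
  have hrank : Module.rank ℂ (ModularForm 𝒮ℒ 8) = 1 := by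
    have := dimension_level_one 8 ⟨4, rfl⟩
    simpa [Nat.ModEq] using this
  obtain ⟨c, hc⟩ : ∃ c : ℂ, c • E8 = F :=
    (finrank_eq_one_iff_of_nonzero' E8 hE8ne).mp
      (Module.rank_eq_one_iff_finrank_eq_one.mp hrank) _
  have hF : ∀ τ : ℍ, F τ = serreDerivative 6 E₆ τ := fun τ ↦ rfl
  have hcE : ∀ τ : ℍ, c * E8 τ = serreDerivative 6 E₆ τ := fun τ ↦ by
    rw [← hF, ← hc]; rfl
  have h1 : Tendsto (fun τ : ℍ ↦ c * E8 τ) atImInfty (𝓝 (c * 1)) :=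
    hE8_tendsto.const_mul c
  have h2 : Tendsto (fun τ : ℍ ↦ c * E8 τ) atImInfty
      (𝓝 (- (((6 : ℤ) : ℂ) * 12⁻¹ * (qExpansion 1 E₆).coeff 0))) :=
    (tendsto_serreDerivative_atImInfty E₆).congr fun τ ↦ (hcE τ).symm
  have hc' : c = -(1 / 2 : ℂ) := by
    have := tendsto_nhds_unique h1 h2
    rw [E_qExpansion_coeff_zero _ ⟨3, rfl⟩] at this
    rw [mul_one] at this
    rw [this]
    norm_num
  rw [← hcE, hc', hE8]

/-- **Ramanujan's identity** `D E₄ = (E₂ E₄ - E₆) / 3`. -/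
theorem ramanujan_E₄ (z : ℍ) : D E₄ z = (E2 z * E₄ z - E₆ z) / 3 := by
  have := serreDerivative_E₄ z
  simp only [serreDerivative_apply] at this
  linear_combination this

/-- **Ramanujan's identity** `D E₆ = (E₂ E₆ - E₄²) / 2`. -/
theorem ramanujan_E₆ (z : ℍ) : D E₆ z = (E2 z * E₆ z - E₄ z ^ 2) / 2 := by
  have := serreDerivative_E₆ z
  simp only [serreDerivative_apply] at this
  linear_combination this


lemma two_pi_I_ne_zero' : (2 * π * I : ℂ) ≠ 0 := by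
  simp [Real.pi_ne_zero, I_ne_zero]

lemma deriv_comp_ofComplex_eq (F : ℍ → ℂ) (z : ℍ) :
    deriv (F ∘ ofComplex) z = 2 * π * I * D F z := by
  rw [normalizedDerivOfComplex]
  field_simp [two_pi_I_ne_zero']

lemma hasDerivAt_comp_ofComplex {k : ℤ} (f : ModularForm 𝒮ℒ k) (z : ℍ) :
    HasDerivAt (⇑f ∘ ofComplex) (2 * π * I * D f z) (z : ℂ) := by
  rw [← deriv_comp_ofComplex_eq]
  exact (mdifferentiableAt_iff.mp (ModularFormClass.holo f z)).hasDerivAt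

/-- `E₄` and `E₆` have no common zero. -/
lemma E₄_E₆_not_both_zero (z : ℍ) (h4 : E₄ z = 0) (h6 : E₆ z = 0) : False := by
  have h := discriminant_eq_E₄_cube_sub_E₆_sq z
  rw [h4, h6] at h
  exact discriminant_ne_zero z (by rw [h]; norm_num)

/-- The zeros of `E₄` are simple. -/
theorem deriv_E₄_ne_zero (z : ℍ) (hz : E₄ z = 0) : deriv (E₄ ∘ ofComplex) z ≠ 0 := by
  rw [deriv_comp_ofComplex_eq, ramanujan_E₄, hz]
  have h6 : E₆ z ≠ 0 := fun h6 ↦ E₄_E₆_not_both_zero z hz h6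
  refine mul_ne_zero two_pi_I_ne_zero' ?_
  rw [mul_zero, zero_sub]
  exact div_ne_zero (neg_ne_zero.mpr h6) (by norm_num)

/-- The zeros of `E₆` are simple. -/
theorem deriv_E₆_ne_zero (z : ℍ) (hz : E₆ z = 0) : deriv (E₆ ∘ ofComplex) z ≠ 0 := by
  rw [deriv_comp_ofComplex_eq, ramanujan_E₆, hz]
  have h4 : E₄ z ≠ 0 := fun h4 ↦ E₄_E₆_not_both_zero z h4 hz
  refine mul_ne_zero two_pi_I_ne_zero' ?_
  rw [mul_zero, zero_sub]
  exact div_ne_zero (neg_ne_zero.mpr (pow_ne_zero 2 h4)) (by norm_num)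

/-- The derivative of `B_{z₀} = E₆(z₀)² E₄³ - E₄(z₀)³ E₆²`. -/
lemma hasDerivAt_B (z₀ z : ℍ) :
    HasDerivAt ((fun τ : ℍ => E₆ z₀ ^ 2 * E₄ τ ^ 3 - E₄ z₀ ^ 3 * E₆ τ ^ 2) ∘ ofComplex)
      (2 * π * I * (E2 z * (E₆ z₀ ^ 2 * E₄ z ^ 3 - E₄ z₀ ^ 3 * E₆ z ^ 2)
        + (E₄ z₀ ^ 3 - E₆ z₀ ^ 2) * E₄ z ^ 2 * E₆ z)) (z : ℂ) := by
  have h4 := hasDerivAt_comp_ofComplex E₄ z
  have h6 := hasDerivAt_comp_ofComplex E₆ z
  have h : HasDerivAt (fun w : ℂ ↦ E₆ z₀ ^ 2 * (⇑E₄ ∘ ofComplex) w ^ 3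
      - E₄ z₀ ^ 3 * (⇑E₆ ∘ ofComplex) w ^ 2)
      (E₆ z₀ ^ 2 * (((3 : ℕ) : ℂ) * (⇑E₄ ∘ ofComplex) z ^ (3 - 1) * (2 * π * I * D E₄ z)) -
        E₄ z₀ ^ 3 * (((2 : ℕ) : ℂ) * (⇑E₆ ∘ ofComplex) z ^ (2 - 1) * (2 * π * I * D E₆ z)))
      (z : ℂ) :=
    ((h4.pow 3).const_mul (E₆ z₀ ^ 2)).sub ((h6.pow 2).const_mul (E₄ z₀ ^ 3))
  refine HasDerivAt.congr_deriv (f := fun w : ℂ ↦ E₆ z₀ ^ 2 * (⇑E₄ ∘ ofComplex) w ^ 3
      - E₄ z₀ ^ 3 * (⇑E₆ ∘ ofComplex) w ^ 2) h ?_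
  simp only [Function.comp_apply, ofComplex_apply, ramanujan_E₄, ramanujan_E₆]
  push_cast
  ring

/-- The zeros of `B_{z₀}` away from the zeros of `E₄ E₆` are simple. -/
theorem deriv_B_ne_zero (z₀ z : ℍ) (h4 : E₄ z ≠ 0) (h6 : E₆ z ≠ 0)
    (hz : E₆ z₀ ^ 2 * E₄ z ^ 3 - E₄ z₀ ^ 3 * E₆ z ^ 2 = 0) :
    deriv ((fun τ : ℍ => E₆ z₀ ^ 2 * E₄ τ ^ 3 - E₄ z₀ ^ 3 * E₆ τ ^ 2) ∘ ofComplex) z ≠ 0 := by
  rw [(hasDerivAt_B z₀ z).deriv, hz, mul_zero, zero_add]
  have hΔ : E₄ z₀ ^ 3 - E₆ z₀ ^ 2 ≠ 0 := by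
    intro h
    have h' := discriminant_eq_E₄_cube_sub_E₆_sq z₀
    rw [h, zero_div] at h'
    exact discriminant_ne_zero z₀ h'
  exact mul_ne_zero two_pi_I_ne_zero' (mul_ne_zero (mul_ne_zero hΔ (pow_ne_zero 2 h4)) h6)

end Fermat.Agent.S20.H70
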