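import Mathlib

/-!
# S20 (helper2): abstract linear algebra core of the cusp filtration (INF1 / INF2)

A finite decreasing filtration `Fil 0 = ⊤ ≥ Fil 1 ≥ … ≥ Fil N` of a finite dimensional space `M`,
"leading term" maps `L a : Fil a → V` with kernel `Fil (a+1)` and values in independent
subspaces `W a` (`a < N`), and `dim M = dim Fil N + dim V`.  Then `range (L a) = W a`,
the `W a` span `V`, and one can extract an adapted family.
-/

set_option autoImplicit false

open Module

namespace Fermat.Agent.S20.H2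

section indep

variable {ι : Type*} [Fintype ι] {V : Type*} [AddCommGroup V] [Module ℂ V]
  [FiniteDimensional ℂ V]

/-- For an independent family of subspaces, the dimension of the span is the sum of the
dimensions. -/
theorem finrank_iSup_of_iSupIndep (W : ι → Submodule ℂ V) (h : iSupIndep W) :
    finrank ℂ (↥(⨆ i, W i)) = ∑ i, finrank ℂ (W i) := by
  classical
  have hinj := h.dfinsupp_lsum_injective
  have hrange : (⨆ i, W i) = LinearMap.range (DFinsupp.lsum ℕ fun i => (W i).subtype) :=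
    Submodule.iSup_eq_range_dfinsupp_lsum W
  rw [hrange, LinearMap.finrank_range_of_inj hinj]
  exact finrank_directSum ℂ (fun i => W i)

theorem sum_finrank_le_of_iSupIndep (W : ι → Submodule ℂ V) (h : iSupIndep W) :
    ∑ i, finrank ℂ (W i) ≤ finrank ℂ V := by
  rw [← finrank_iSup_of_iSupIndep W h]
  exact Submodule.finrank_le _

end indep

section filtration

variable {M V : Type*} [AddCommGroup M] [Module ℂ M] [FiniteDimensional ℂ M]
  [AddCommGroup V] [Module ℂ V] [FiniteDimensional ℂ V]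

/-- One step of the filtration: rank-nullity. -/
theorem finrank_Fil_succ (Fil : ℕ → Submodule ℂ M)
    (hanti : ∀ a, Fil (a + 1) ≤ Fil a) (L : ∀ a, Fil a →ₗ[ℂ] V)
    (hker : ∀ a (f : Fil a), L a f = 0 ↔ (f : M) ∈ Fil (a + 1)) (a : ℕ) :
    finrank ℂ (Fil a) = finrank ℂ (Fil (a + 1)) + finrank ℂ (LinearMap.range (L a)) := by
  have h1 := LinearMap.finrank_range_add_finrank_ker (L a)
  have h2 : LinearMap.ker (L a) = Submodule.comap (Fil a).subtype (Fil (a + 1)) := by
    ext f
    rw [LinearMap.mem_ker, hker a f]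
    rfl
  have h3 : finrank ℂ (LinearMap.ker (L a)) = finrank ℂ (Fil (a + 1)) := by
    rw [h2]
    exact (Submodule.comapSubtypeEquivOfLe (hanti a)).finrank_eq
  omega

/-- Telescoping. -/
theorem finrank_Fil_zero (Fil : ℕ → Submodule ℂ M)
    (hanti : ∀ a, Fil (a + 1) ≤ Fil a) (L : ∀ a, Fil a →ₗ[ℂ] V)
    (hker : ∀ a (f : Fil a), L a f = 0 ↔ (f : M) ∈ Fil (a + 1)) (n : ℕ) :
    finrank ℂ (Fil 0) = finrank ℂ (Fil n) +
      ∑ a ∈ Finset.range n, finrank ℂ (LinearMap.range (L a)) := by
  induction n with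
  | zero => simp
  | succ n ih =>
    rw [Finset.sum_range_succ, ih, finrank_Fil_succ Fil hanti L hker n]
    ring

/-- **Core of INF1/INF2**: the leading term maps are onto the `W a`, and the `W a` span `V`.
Only the inequality `dim Fil N + dim V ≤ dim M` is needed. -/
theorem filtration_core (N : ℕ) (Fil : ℕ → Submodule ℂ M) (hFil0 : Fil 0 = ⊤)
    (hanti : ∀ a, Fil (a + 1) ≤ Fil a) (L : ∀ a, Fil a →ₗ[ℂ] V)
    (hker : ∀ a (f : Fil a), L a f = 0 ↔ (f : M) ∈ Fil (a + 1))
    (W : ℕ → Submodule ℂ V) (hW : ∀ a (f : Fil a), L a f ∈ W a)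
    (hind : iSupIndep (fun a : Fin N => W a))
    (hdim : finrank ℂ (Fil N) + finrank ℂ V ≤ finrank ℂ M) :
    (∀ a < N, LinearMap.range (L a) = W a) ∧
    (⨆ a : Fin N, LinearMap.range (L (a : ℕ))) = ⊤ ∧
    (∀ a < N, finrank ℂ (Fil a) = finrank ℂ (Fil (a + 1)) + finrank ℂ (W a)) ∧
    finrank ℂ M = finrank ℂ (Fil N) + finrank ℂ V := by
  have hle : ∀ a, LinearMap.range (L a) ≤ W a := by
    rintro a _ ⟨f, rfl⟩
    exact hW a f
  have htel := finrank_Fil_zero Fil hanti L hker N
  have h0 : finrank ℂ (Fil 0) = finrank ℂ M := by rw [hFil0]; exact finrank_top ℂ M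
  have hsumW : ∑ a ∈ Finset.range N, finrank ℂ (W a) ≤ finrank ℂ V := by
    have := sum_finrank_le_of_iSupIndep (fun a : Fin N => W a) hind
    rwa [Fin.sum_univ_eq_sum_range (fun a => finrank ℂ (W a)) N] at this
  have hterm : ∀ a ∈ Finset.range N,
      finrank ℂ (LinearMap.range (L a)) ≤ finrank ℂ (W a) :=
    fun a _ => Submodule.finrank_mono (hle a)
  have hsum_le := Finset.sum_le_sum hterm
  have hsumr : ∑ a ∈ Finset.range N, finrank ℂ (LinearMap.range (L a)) = finrank ℂ V := by
    omega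
  have heq : ∀ a ∈ Finset.range N,
      finrank ℂ (LinearMap.range (L a)) = finrank ℂ (W a) := by
    have hsum_eq : ∑ a ∈ Finset.range N, finrank ℂ (LinearMap.range (L a))
        = ∑ a ∈ Finset.range N, finrank ℂ (W a) := by omega
    exact (Finset.sum_eq_sum_iff_of_le hterm).1 hsum_eq
  have hrange : ∀ a < N, LinearMap.range (L a) = W a := fun a ha =>
    Submodule.eq_of_le_of_finrank_eq (hle a) (heq a (Finset.mem_range.2 ha))
  refine ⟨hrange, ?_, ?_, ?_⟩
  · have h1 : (⨆ a : Fin N, LinearMap.range (L (a : ℕ))) = ⨆ a : Fin N, W a := by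
      congr 1
      funext a
      exact hrange a a.2
    rw [h1]
    apply Submodule.eq_top_of_finrank_eq
    rw [finrank_iSup_of_iSupIndep (fun a : Fin N => W a) hind,
      Fin.sum_univ_eq_sum_range (fun a => finrank ℂ (W a)) N]
    omega
  · intro a ha
    rw [finrank_Fil_succ Fil hanti L hker a, heq a (Finset.mem_range.2 ha)]
  · omega

/-- Variant of `filtration_core` with `Fil N = ⊥`-free statement: the span of the `W a` is
everything (so `∑ dim W a = dim V`). -/
theorem filtration_core_iSup_W (N : ℕ) (Fil : ℕ → Submodule ℂ M) (hFil0 : Fil 0 = ⊤)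
    (hanti : ∀ a, Fil (a + 1) ≤ Fil a) (L : ∀ a, Fil a →ₗ[ℂ] V)
    (hker : ∀ a (f : Fil a), L a f = 0 ↔ (f : M) ∈ Fil (a + 1))
    (W : ℕ → Submodule ℂ V) (hW : ∀ a (f : Fil a), L a f ∈ W a)
    (hind : iSupIndep (fun a : Fin N => W a))
    (hdim : finrank ℂ (Fil N) + finrank ℂ V ≤ finrank ℂ M) :
    (⨆ a : Fin N, W a) = ⊤ := by
  obtain ⟨h1, h2, -, -⟩ := filtration_core N Fil hFil0 hanti L hker W hW hind hdim
  rw [← h2]
  congr 1
  funext a
  exact (h1 a a.2).symm

end filtration

section adapted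

variable {M : Type*} [AddCommGroup M] [Module ℂ M]

/-- Extraction of an adapted family: if the ranges of the leading term maps span `C → ℂ`, we can
choose for each `i : C` a level `a i < N` and an element `G i ∈ Fil (a i)` such that the leading
terms `L (a i) (G i)` are linearly independent (hence a basis of `C → ℂ`). -/
theorem exists_adapted_family {C : Type*} [Fintype C] (N : ℕ) (Fil : ℕ → Submodule ℂ M)
    (L : ∀ a, Fil a →ₗ[ℂ] (C → ℂ))
    (htop : (⨆ a : Fin N, LinearMap.range (L (a : ℕ))) = ⊤) :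
    ∃ (a : C → ℕ) (G : ∀ i, Fil (a i)), (∀ i, a i < N) ∧
      LinearIndependent ℂ (fun i => L (a i) (G i)) := by
  classical
  set S : Set (C → ℂ) := ⋃ a : Fin N, (LinearMap.range (L (a : ℕ)) : Set (C → ℂ)) with hS
  have hspan : Submodule.span ℂ S = ⊤ := by
    rw [hS, Submodule.span_iUnion]
    simp only [Submodule.span_eq]
    exact htop
  obtain ⟨b, hbS, hbspan, hbli⟩ := exists_linearIndependent ℂ S
  rw [hspan] at hbspan
  -- `b` is a basis of `C → ℂ`
  let B : Module.Basis b ℂ (C → ℂ) := Module.Basis.mk hbli (by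
    rw [Subtype.range_coe]; exact hbspan.ge)
  haveI : Fintype b := FiniteDimensional.fintypeBasisIndex B
  have hcard : Fintype.card b = Fintype.card C := by
    have h1 := Module.finrank_eq_card_basis B
    have h2 : finrank ℂ (C → ℂ) = Fintype.card C := Module.finrank_fintype_fun_eq_card ℂ
    omega
  let e : C ≃ b := (Fintype.equivOfCardEq hcard).symm
  have hmem : ∀ i : C, ∃ a : Fin N, ∃ f : Fil (a : ℕ), L (a : ℕ) f = (e i : C → ℂ) := by
    intro i
    have h := hbS (e i).2
    rw [hS, Set.mem_iUnion] at h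
    obtain ⟨a, f, hf⟩ := h
    exact ⟨a, f, hf⟩
  choose a G hG using hmem
  refine ⟨fun i => (a i : ℕ), G, fun i => (a i).2, ?_⟩
  have : (fun i => L (a i : ℕ) (G i)) = (fun x : b => (x : C → ℂ)) ∘ e := by
    funext i
    exact hG i
  rw [this]
  exact hbli.comp e e.injective

/-- Same, with the elements of the adapted family given as elements of `M` with membership
proofs. -/
theorem exists_adapted_family' {C : Type*} [Fintype C] (N : ℕ) (Fil : ℕ → Submodule ℂ M)
    (L : ∀ a, Fil a →ₗ[ℂ] (C → ℂ))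
    (htop : (⨆ a : Fin N, LinearMap.range (L (a : ℕ))) = ⊤) :
    ∃ (a : C → ℕ) (G : C → M) (hG : ∀ i, G i ∈ Fil (a i)), (∀ i, a i < N) ∧
      LinearIndependent ℂ (fun i => L (a i) ⟨G i, hG i⟩) := by
  obtain ⟨a, G, ha, hli⟩ := exists_adapted_family N Fil L htop
  exact ⟨a, fun i => (G i : M), fun i => (G i).2, ha, hli⟩

end adapted



end Fermat.Agent.S20.H2
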