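import Mathlib.LinearAlgebra.Trace
import Mathlib.LinearAlgebra.Matrix.ToLin
import Mathlib.LinearAlgebra.FiniteDimensional.Lemmas
import Mathlib.LinearAlgebra.Dimension.Constructions
import Mathlib.GroupTheory.GroupAction.Quotient
import Mathlib.Analysis.Complex.Basic

/-!
# S20 core, work packages P3 and P4 (helper89)

* `P3_sum_eq_card_fixed`: if the columns `Φ · j` form a basis of `C → ℂ` consisting of
  eigenvectors (eigenvalues `d j`) of the permutation operator `v ↦ v ∘ σ`, then
  `∑ j, d j = #Fix(σ)` (two computations of the trace).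
* `P4_finrank_of_mem_iff`, `P4_finrank_invFun`: the space of functions constant on the orbits
  of a group action on a finite set has dimension the number of orbits.
-/

set_option autoImplicit false

namespace Fermat.Agent.S20.H89

open Module

/-! ## P3 -/

theorem trace_funLeft_perm {C : Type*} [Fintype C] [DecidableEq C] (σ : Equiv.Perm C) :
    LinearMap.trace ℂ (C → ℂ) (LinearMap.funLeft ℂ ℂ σ) =
      (Fintype.card {q // σ q = q} : ℂ) := by
  rw [LinearMap.trace_eq_matrix_trace ℂ (Pi.basisFun ℂ C), Matrix.trace]
  simp only [Matrix.diag_apply, LinearMap.toMatrix_apply, Pi.basisFun_apply, Pi.basisFun_repr,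
    LinearMap.funLeft_apply, Pi.single_apply]
  rw [Fintype.card_subtype, Finset.sum_boole]

theorem P3_sum_eq_card_fixed {C J : Type*} [Fintype C] [Fintype J] [DecidableEq C]
    (σ : Equiv.Perm C) (Φ : C → J → ℂ) (d : J → ℂ)
    (hΦ : LinearIndependent ℂ (fun j : J => fun q : C => Φ q j))
    (hcard : Fintype.card J = Fintype.card C)
    (h : ∀ q j, Φ (σ q) j = d j * Φ q j) :
    ∑ j, d j = (Fintype.card {q // σ q = q} : ℂ) := by
  classical
  rcases isEmpty_or_nonempty J with hJ | hJ
  · have hC : IsEmpty C := by
      rw [← Fintype.card_eq_zero_iff, ← hcard, Fintype.card_eq_zero_iff]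
      exact hJ
    rw [Finset.sum_of_isEmpty, Fintype.card_eq_zero, Nat.cast_zero]
  rw [← trace_funLeft_perm σ]
  have hfr : Fintype.card J = finrank ℂ (C → ℂ) := by
    rw [hcard, Module.finrank_fintype_fun_eq_card]
  let b : Basis J ℂ (C → ℂ) := basisOfLinearIndependentOfCardEqFinrank hΦ hfr
  have hb : ∀ j, b j = fun q => Φ q j := fun j => by
    simp only [b, coe_basisOfLinearIndependentOfCardEqFinrank]
  have heig : ∀ j, LinearMap.funLeft ℂ ℂ σ (b j) = d j • b j := by
    intro j
    funext q
    rw [LinearMap.funLeft_apply, hb j, Pi.smul_apply, smul_eq_mul]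
    exact h q j
  rw [LinearMap.trace_eq_matrix_trace ℂ b, Matrix.trace]
  refine Finset.sum_congr rfl fun j _ => ?_
  rw [Matrix.diag_apply, LinearMap.toMatrix_apply, heig j, map_smul, Finsupp.smul_apply,
    Basis.repr_self, Finsupp.single_eq_same, smul_eq_mul, mul_one]

/-! ## P4 -/

/-- functions constant on orbits (same definition as `Fermat.Agent.S20.H74.invFun`). -/
def invFun (G C : Type*) [Group G] [MulAction G C] : Submodule ℂ (C → ℂ) where
  carrier := {v | ∀ (g : G) (q : C), v (g • q) = v q}
  add_mem' := by intro a b ha hb g q; simp [ha g q, hb g q]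
  zero_mem' := by intro g q; rfl
  smul_mem' := by intro c a ha g q; simp [ha g q]

/-- The invariant functions are the functions on the orbit space. -/
noncomputable def invFunEquiv (G C : Type*) [Group G] [MulAction G C] :
    invFun G C ≃ₗ[ℂ] (MulAction.orbitRel.Quotient G C → ℂ) where
  toFun v := fun x => Quotient.liftOn' x (v : C → ℂ) (by
    intro a b hab
    obtain ⟨g, rfl⟩ := (MulAction.orbitRel_apply (G := G)).mp hab
    exact v.2 g b)
  invFun w := ⟨fun q => w (Quotient.mk'' q), by
    intro g q
    show w (Quotient.mk'' (g • q)) = w (Quotient.mk'' q)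
    congr 1
    exact Quotient.sound' ((MulAction.orbitRel_apply (G := G)).mpr ⟨g, rfl⟩)⟩
  map_add' v w := by
    funext x
    induction x using Quotient.inductionOn' with
    | h q => rfl
  map_smul' c v := by
    funext x
    induction x using Quotient.inductionOn' with
    | h q => rfl
  left_inv v := by
    apply Subtype.ext
    funext q
    rfl
  right_inv w := by
    funext x
    induction x using Quotient.inductionOn' with
    | h q => rfl

theorem P4_finrank_invFun (G C : Type*) [Group G] [MulAction G C] [Finite C] :
    Module.finrank ℂ (invFun G C) = Nat.card (MulAction.orbitRel.Quotient G C) := by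
  classical
  let _ : Fintype C := Fintype.ofFinite C
  have : Finite (MulAction.orbitRel.Quotient G C) := Quotient.finite _
  let _ : Fintype (MulAction.orbitRel.Quotient G C) := Fintype.ofFinite _
  rw [(invFunEquiv G C).finrank_eq, Module.finrank_fintype_fun_eq_card, Nat.card_eq_fintype_card]

/-- Definition-independent form of P4: any submodule `W` of `C → ℂ` whose members are exactly
the functions constant on orbits has dimension the number of orbits. -/
theorem P4_finrank_of_mem_iff (G C : Type*) [Group G] [MulAction G C] [Finite C]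
    (W : Submodule ℂ (C → ℂ)) (hW : ∀ v : C → ℂ, v ∈ W ↔ ∀ (g : G) (q : C), v (g • q) = v q) :
    Module.finrank ℂ W = Nat.card (MulAction.orbitRel.Quotient G C) := by
  have : W = invFun G C := by
    ext v
    rw [hW v]
    rfl
  rw [this]
  exact P4_finrank_invFun G C

end Fermat.Agent.S20.H89
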