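import Fermat.Agent.S20.H74_Defs
import Fermat.Agent.S20.H89_Perm
import Fermat.Agent.S20.H2_FilCore

/-!
# S20 (helper2): packages F7 + F8 of the cusp filtration, and the abstract assembly

* `iSupIndep_of_eigen` (F7): subspaces of `C → ℂ` on which `v ∘ σ = ζ ^ a • v` are independent
  for `a < N` as soon as the `ζ ^ a` (`a < N`) are pairwise distinct.
* `exp_pow_inj`: the `N` powers of `exp (2πi/N)` are distinct.
* `finrank_T_invariant` (F8): the space of `T`-invariant functions on the cosets has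
  dimension `cuspNum Γ`.
* `cusp_filtration_main`: the abstract assembly (telescoping + F7 + F8): from the filtration
  data one gets `dim Fil 0 = dim Fil 1 + cuspNum Γ` and an adapted family.
-/

set_option autoImplicit false

open Module MatrixGroups

namespace Fermat.Agent.S20.H2

/-- (F7) Independence of "eigenspaces" of the shift operator `v ↦ v ∘ σ`. -/
theorem iSupIndep_of_eigen {C : Type*} (σ : C → C) (N : ℕ) (ζ : ℂ)
    (hζ : ∀ a < N, ∀ b < N, ζ ^ a = ζ ^ b → a = b)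
    (W : ℕ → Submodule ℂ (C → ℂ))
    (hW : ∀ a, ∀ v ∈ W a, ∀ q, v (σ q) = ζ ^ a * v q) :
    iSupIndep (fun a : Fin N => W a) := by
  let P : Module.End ℂ (C → ℂ) := LinearMap.funLeft ℂ ℂ σ
  have h1 : iSupIndep P.eigenspace := Module.End.eigenspaces_iSupIndep P
  have hinj : Function.Injective (fun a : Fin N => ζ ^ (a : ℕ)) := by
    intro a b hab
    exact Fin.ext (hζ a a.2 b b.2 hab)
  have h2 : iSupIndep (fun a : Fin N => P.eigenspace (ζ ^ (a : ℕ))) := h1.comp hinj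
  refine h2.mono fun a v hv => ?_
  rw [Module.End.mem_eigenspace_iff]
  funext q
  simp only [P, LinearMap.funLeft_apply, Pi.smul_apply, smul_eq_mul]
  exact hW a v hv q

/-- The `N` powers `ζ ^ a`, `a < N`, of `ζ = exp (2πi/N)` are pairwise distinct. -/
theorem exp_pow_inj (N : ℕ) (hN : 0 < N) :
    ∀ a < N, ∀ b < N,
      Complex.exp (2 * Real.pi * Complex.I / N) ^ a
        = Complex.exp (2 * Real.pi * Complex.I / N) ^ b → a = b := by
  intro a ha b hb hab
  exact (Complex.isPrimitiveRoot_exp N hN.ne').pow_inj ha hb hab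

variable {Γ : Subgroup SL(2, ℤ)}

/-- A function on the cosets invariant under `T⁻¹` is invariant under `⟨T⟩`. -/
theorem invariant_zpowers_of_T_inv {C : Type*} [MulAction SL(2, ℤ) C] (v : C → ℂ)
    (h : ∀ q, v (ModularGroup.T⁻¹ • q) = v q) (g : Subgroup.zpowers ModularGroup.T) (q : C) :
    v (g • q) = v q := by
  obtain ⟨g, n, rfl⟩ := g
  show v ((ModularGroup.T ^ n) • q) = v q
  have hT : ∀ q, v (ModularGroup.T • q) = v q := by
    intro q
    have := h (ModularGroup.T • q)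
    rw [inv_smul_smul] at this
    exact this.symm
  induction n using Int.induction_on generalizing q with
  | zero => simp
  | succ n ih =>
    rw [zpow_add_one, mul_smul, ih]
    exact hT q
  | pred n ih =>
    rw [zpow_sub_one, mul_smul, ih]
    exact h q

/-- (F8) The space of `T⁻¹`-invariant functions on the cosets has dimension `cuspNum Γ`. -/
theorem finrank_T_invariant [Γ.FiniteIndex] (W : Submodule ℂ ((SL(2, ℤ) ⧸ Γ) → ℂ))
    (hW : ∀ v : (SL(2, ℤ) ⧸ Γ) → ℂ, v ∈ W ↔ ∀ q, v (ModularGroup.T⁻¹ • q) = v q) :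
    finrank ℂ W = H74.cuspNum Γ := by
  haveI : Finite (SL(2, ℤ) ⧸ Γ) := Subgroup.finite_quotient_of_finiteIndex
  unfold H74.cuspNum
  refine H89.P4_finrank_of_mem_iff (Subgroup.zpowers ModularGroup.T) (SL(2, ℤ) ⧸ Γ) W ?_
  intro v
  rw [hW v]
  constructor
  · intro h g q
    exact invariant_zpowers_of_T_inv v h g q
  · intro h q
    have hmem : ModularGroup.T⁻¹ ∈ Subgroup.zpowers ModularGroup.T :=
      (Subgroup.zpowers ModularGroup.T).inv_mem (Subgroup.mem_zpowers _)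
    exact h ⟨ModularGroup.T⁻¹, hmem⟩ q

/-- The `ζ ^ a`-eigenspace of the shift `v ↦ v (T⁻¹ • ·)` on functions on the cosets. -/
def eigT (Γ : Subgroup SL(2, ℤ)) (ζ : ℂ) (a : ℕ) : Submodule ℂ ((SL(2, ℤ) ⧸ Γ) → ℂ) where
  carrier := {v | ∀ q, v (ModularGroup.T⁻¹ • q) = ζ ^ a * v q}
  add_mem' := by
    intro v w hv hw q
    simp only [Pi.add_apply, hv q, hw q, mul_add]
  zero_mem' := by intro q; simp
  smul_mem' := by
    intro c v hv q
    simp only [Pi.smul_apply, smul_eq_mul, hv q]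
    ring

theorem mem_eigT {ζ : ℂ} {a : ℕ} {v : (SL(2, ℤ) ⧸ Γ) → ℂ} :
    v ∈ eigT Γ ζ a ↔ ∀ q, v (ModularGroup.T⁻¹ • q) = ζ ^ a * v q := Iff.rfl

theorem eigT_iSupIndep (N : ℕ) (ζ : ℂ) (hζ : ∀ a < N, ∀ b < N, ζ ^ a = ζ ^ b → a = b) :
    iSupIndep (fun a : Fin N => eigT Γ ζ a) :=
  iSupIndep_of_eigen (fun q : SL(2, ℤ) ⧸ Γ => ModularGroup.T⁻¹ • q) N ζ hζ
    (fun a => eigT Γ ζ a) (fun _ _ hv q => hv q)

theorem finrank_eigT_zero [Γ.FiniteIndex] (ζ : ℂ) :
    finrank ℂ (eigT Γ ζ 0) = H74.cuspNum Γ :=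
  finrank_T_invariant (eigT Γ ζ 0) (fun v => by simp [mem_eigT])

/-- **Abstract assembly of INF1 + INF2.**  `M` is the space of forms (`MF Γ K`), `Fil` the cusp
filtration, `L a` the leading term maps.  Hypotheses: (F0) `hFil0`, (F1) `hanti`, (F2) `hker`,
(F3) `hT`, and the dimension inequality `dim Fil N + index ≤ dim M`.  Conclusions:
`dim Fil 0 = dim Fil 1 + cuspNum Γ` (INF1 once `Fil 1 = CF`), `range (L 0)` = the `T`-invariant
functions, and an adapted family (INF2). -/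
theorem cusp_filtration_main [Γ.FiniteIndex] {M : Type*} [AddCommGroup M] [Module ℂ M]
    [FiniteDimensional ℂ M] (N : ℕ) (hN : 0 < N) (ζ : ℂ)
    (hζ : ∀ a < N, ∀ b < N, ζ ^ a = ζ ^ b → a = b)
    (Fil : ℕ → Submodule ℂ M) (hFil0 : Fil 0 = ⊤)
    (hanti : ∀ a, Fil (a + 1) ≤ Fil a) (L : ∀ a, Fil a →ₗ[ℂ] ((SL(2, ℤ) ⧸ Γ) → ℂ))
    (hker : ∀ a (f : Fil a), L a f = 0 ↔ (f : M) ∈ Fil (a + 1))
    (hT : ∀ a (f : Fil a) (q : SL(2, ℤ) ⧸ Γ), L a f (ModularGroup.T⁻¹ • q) = ζ ^ a * L a f q)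
    (hdim : finrank ℂ (Fil N) + Γ.index ≤ finrank ℂ M) :
    finrank ℂ M = finrank ℂ (Fil 1) + H74.cuspNum Γ ∧
    finrank ℂ M = finrank ℂ (Fil N) + Γ.index ∧
    (∀ a < N, LinearMap.range (L a) = eigT Γ ζ a) ∧
    ∃ (a : (SL(2, ℤ) ⧸ Γ) → ℕ) (G : ∀ i, Fil (a i)), (∀ i, a i < N) ∧
      LinearIndependent ℂ (fun i => L (a i) (G i)) := by
  classical
  haveI : Finite (SL(2, ℤ) ⧸ Γ) := Subgroup.finite_quotient_of_finiteIndex
  letI : Fintype (SL(2, ℤ) ⧸ Γ) := Fintype.ofFinite _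
  have hV : finrank ℂ ((SL(2, ℤ) ⧸ Γ) → ℂ) = Γ.index := by
    rw [Module.finrank_fintype_fun_eq_card, ← Nat.card_eq_fintype_card]
    rfl
  have hdim' : finrank ℂ (Fil N) + finrank ℂ ((SL(2, ℤ) ⧸ Γ) → ℂ) ≤ finrank ℂ M := by
    rw [hV]; exact hdim
  obtain ⟨h1, h2, h3, h4⟩ := filtration_core N Fil hFil0 hanti L hker (fun a => eigT Γ ζ a)
    (fun a f q => hT a f q) (eigT_iSupIndep N ζ hζ) hdim'
  refine ⟨?_, ?_, h1, exists_adapted_family N Fil L h2⟩
  · have := h3 0 hN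
    rw [finrank_eigT_zero, hFil0, finrank_top] at this
    exact this
  · rw [h4, hV]

end Fermat.Agent.S20.H2
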