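import Fermat.Agent.S20.H74_Defs

/-!
# S20, cusp filtration (helper44): the two ends of the filtration

* (F5) `Fil N = Δ * MF Γ (K - 12)`: `F5_div`, `F5_bdd`, `mulDelta`, `mem_range_mulDelta_iff`.
* (F4) `Fil 1 = CF Γ K`: `F4_iff`.
* key lemma: for a holomorphic `N`-periodic `ψ`: `ψ → 0` iff `exp(-2πi z / N) ψ` is bounded.
-/

set_option autoImplicit false

namespace Fermat.Agent.S20.H44

open UpperHalfPlane ModularForm MatrixGroups Filter Fermat.Agent.S20.H74
open scoped Manifold Topology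

variable {Γ : Subgroup SL(2, ℤ)} {K : ℤ}

/-- `Δ` as an element of `MF ⊤ 12`. -/
lemma discriminant_mem_MF : (discriminant : ℍ → ℂ) ∈ MF ⊤ 12 :=
  CF_le_MF (coe_mem_CF_top CuspForm.discriminant)

lemma discriminant_slash (γ : SL(2, ℤ)) : (discriminant : ℍ → ℂ) ∣[(12 : ℤ)] γ = discriminant :=
  MF.slash_top discriminant_mem_MF γ

lemma discriminant_smul (γ : SL(2, ℤ)) (z : ℍ) :
    discriminant (γ • z) = denom γ z ^ (12 : ℤ) * discriminant z := by
  have h := congrFun (discriminant_slash γ) z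
  rw [SL_slash_apply] at h
  have hd : denom γ z ≠ 0 := denom_ne_zero _ z
  rw [← h, mul_comm, mul_assoc, ← zpow_add₀ hd]
  simp

/-- slash of a quotient by `Δ`. -/
lemma div_discriminant_slash (f : ℍ → ℂ) (γ : SL(2, ℤ)) :
    (fun z => f z / discriminant z) ∣[K - 12] γ = fun z => (f ∣[K] γ) z / discriminant z := by
  funext z
  rw [SL_slash_apply, SL_slash_apply, discriminant_smul]
  have hd : denom γ z ≠ 0 := denom_ne_zero _ z
  have hΔ : discriminant z ≠ 0 := discriminant_ne_zero z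
  rw [show -(K - 12) = -K + 12 by ring, zpow_add₀ hd]
  field_simp

lemma mdiff_div_discriminant {f : ℍ → ℂ} (hf : MDiff f) :
    MDiff (fun z => f z / discriminant z) := by
  intro z
  rw [UpperHalfPlane.mdifferentiableAt_iff]
  have h1 := UpperHalfPlane.mdifferentiableAt_iff.mp (hf z)
  have h2 := UpperHalfPlane.mdifferentiableAt_iff.mp (discriminant_mem_MF.1 z)
  have h3 : ((discriminant : ℍ → ℂ) ∘ ofComplex) (z : ℂ) ≠ 0 := by
    simpa [Function.comp_apply, ofComplex_apply] using discriminant_ne_zero z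
  exact h1.div h2 h3

/-- `exp(2πi z) / Δ(z)` is bounded at `i∞`. -/
lemma exp_div_discriminant_bdd :
    IsBoundedAtImInfty (fun z : ℍ => Complex.exp (2 * Real.pi * Complex.I * z) / discriminant z) := by
  have h := exp_isBigO_discriminant
  obtain ⟨C, hC⟩ := h.bound
  refine Asymptotics.IsBigO.of_bound C ?_
  filter_upwards [hC] with z hz
  have hΔ : discriminant z ≠ 0 := discriminant_ne_zero z
  have hpos : 0 < ‖discriminant z‖ := norm_pos_iff.mpr hΔ
  rw [norm_div, Pi.one_apply, norm_one, mul_one, div_le_iff₀ hpos]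
  have hn : ‖Complex.exp (2 * Real.pi * Complex.I * z)‖ = Real.exp (-2 * Real.pi * z.im) := by
    rw [Complex.norm_exp]
    congr 1
    simp [Complex.mul_re]
  rw [hn]
  rw [Real.norm_of_nonneg (Real.exp_pos _).le] at hz
  exact hz

/-- `exp(-2πi z) * Δ(z)` is bounded at `i∞`. -/
lemma exp_mul_discriminant_bdd :
    IsBoundedAtImInfty (fun z : ℍ => Complex.exp (-2 * Real.pi * Complex.I * z) * discriminant z) := by
  have h2 : (discriminant : ℍ → ℂ) =O[atImInfty] (fun z : ℍ => Real.exp (-2 * Real.pi * z.im)) := by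
    have := CuspFormClass.exp_decay_atImInfty (h := 1) CuspForm.discriminant one_pos
      one_mem_strictPeriods_SL
    simpa using this
  obtain ⟨C, hC⟩ := h2.bound
  refine Asymptotics.IsBigO.of_bound C ?_
  filter_upwards [hC] with z hz
  rw [norm_mul, Pi.one_apply, norm_one, mul_one]
  have hn : ‖Complex.exp (-2 * Real.pi * Complex.I * z)‖ = Real.exp (2 * Real.pi * z.im) := by
    rw [Complex.norm_exp]
    congr 1
    simp [Complex.mul_re]
  rw [hn]
  rw [Real.norm_of_nonneg (Real.exp_pos _).le] at hz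
  calc Real.exp (2 * Real.pi * z.im) * ‖discriminant z‖
      ≤ Real.exp (2 * Real.pi * z.im) * (C * Real.exp (-2 * Real.pi * z.im)) :=
        mul_le_mul_of_nonneg_left hz (Real.exp_pos _).le
    _ = C * (Real.exp (2 * Real.pi * z.im) * Real.exp (-2 * Real.pi * z.im)) := by ring
    _ = C := by rw [← Real.exp_add]; simp

/-- **(F5 ⊆)**: a form all of whose coset functions are `O(exp(-2π Im z))` is divisible by `Δ`. -/
theorem F5_div {f : ℍ → ℂ} (hf : f ∈ MF Γ K)
    (hb : ∀ q : SL(2, ℤ) ⧸ Γ, IsBoundedAtImInfty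
      (fun z : ℍ => Complex.exp (-2 * Real.pi * Complex.I * z) * cf Γ K f q z)) :
    ∃ g ∈ MF Γ (K - 12), f = discriminant * g := by
  refine ⟨fun z => f z / discriminant z, ⟨mdiff_div_discriminant hf.1, fun γ hγ => ?_, fun γ => ?_⟩, ?_⟩
  · rw [div_discriminant_slash, hf.2.1 γ hγ]
  · rw [div_discriminant_slash, slash_eq_cf hf.2.1]
    have h1 := (hb ((γ⁻¹ : SL(2, ℤ)) : SL(2, ℤ) ⧸ Γ)).mul exp_div_discriminant_bdd
    have heq : (fun z => cf Γ K f ((γ⁻¹ : SL(2, ℤ)) : SL(2, ℤ) ⧸ Γ) z / discriminant z)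
        = (fun z : ℍ => Complex.exp (-2 * Real.pi * Complex.I * z) *
            cf Γ K f ((γ⁻¹ : SL(2, ℤ)) : SL(2, ℤ) ⧸ Γ) z) *
          (fun z : ℍ => Complex.exp (2 * Real.pi * Complex.I * z) / discriminant z) := by
      funext z
      simp only [Pi.mul_apply]
      have he : Complex.exp (-2 * Real.pi * Complex.I * z) *
          Complex.exp (2 * Real.pi * Complex.I * z) = 1 := by
        rw [← Complex.exp_add]
        simp
      calc cf Γ K f ((γ⁻¹ : SL(2, ℤ)) : SL(2, ℤ) ⧸ Γ) z / discriminant z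
          = (Complex.exp (-2 * Real.pi * Complex.I * z) *
              Complex.exp (2 * Real.pi * Complex.I * z)) *
              (cf Γ K f ((γ⁻¹ : SL(2, ℤ)) : SL(2, ℤ) ⧸ Γ) z / discriminant z) := by
            rw [he, one_mul]
        _ = _ := by ring
    rw [heq]
    exact h1
  · funext z
    simp only [Pi.mul_apply]
    field_simp [discriminant_ne_zero z]

/-- **(F5 ⊇)**: coset functions of `Δ * g` are `O(exp(-2π Im z))`. -/
theorem F5_bdd {g : ℍ → ℂ} (hg : g ∈ MF Γ (K - 12)) (q : SL(2, ℤ) ⧸ Γ) :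
    IsBoundedAtImInfty (fun z : ℍ =>
      Complex.exp (-2 * Real.pi * Complex.I * z) * cf Γ K (discriminant * g) q z) := by
  rw [cf_mul' (k := K - 12) discriminant_mem_MF (by ring) q]
  have h1 := exp_mul_discriminant_bdd.mul (cf_bdd hg q)
  have heq : (fun z : ℍ => Complex.exp (-2 * Real.pi * Complex.I * z) *
      ((discriminant : ℍ → ℂ) * cf Γ (K - 12) g q) z)
      = (fun z : ℍ => Complex.exp (-2 * Real.pi * Complex.I * z) * discriminant z) *
        cf Γ (K - 12) g q := by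
    funext z
    simp only [Pi.mul_apply]
    ring
  rw [heq]
  exact h1

lemma discriminant_mul_mem {g : ℍ → ℂ} (hg : g ∈ MF Γ (K - 12)) :
    (discriminant : ℍ → ℂ) * g ∈ MF Γ K :=
  MF.mul' discriminant_mem_MF hg (by ring)

/-- Multiplication by `Δ`, `MF Γ (K - 12) → MF Γ K`. -/
noncomputable def mulDelta (Γ : Subgroup SL(2, ℤ)) (K : ℤ) : MF Γ (K - 12) →ₗ[ℂ] MF Γ K where
  toFun g := ⟨discriminant * g.1, discriminant_mul_mem g.2⟩
  map_add' g h := by
    apply Subtype.ext
    simp [mul_add]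
  map_smul' c g := by
    apply Subtype.ext
    simp

@[simp] lemma mulDelta_coe (g : MF Γ (K - 12)) :
    ((mulDelta Γ K g : MF Γ K) : ℍ → ℂ) = discriminant * (g : ℍ → ℂ) := rfl

lemma mulDelta_injective : Function.Injective (mulDelta Γ K) := by
  intro g h hgh
  apply Subtype.ext
  have := congrArg Subtype.val hgh
  simp only [mulDelta_coe] at this
  funext z
  have hz := congrFun this z
  simp only [Pi.mul_apply] at hz
  exact mul_left_cancel₀ (discriminant_ne_zero z) hz

/-- **(F5)**: the range of multiplication by `Δ` is the top step of the cusp filtration. -/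
theorem mem_range_mulDelta_iff (f : MF Γ K) :
    f ∈ LinearMap.range (mulDelta Γ K) ↔
      ∀ q : SL(2, ℤ) ⧸ Γ, IsBoundedAtImInfty
        (fun z : ℍ => Complex.exp (-2 * Real.pi * Complex.I * z) * cf Γ K (f : ℍ → ℂ) q z) := by
  constructor
  · rintro ⟨g, rfl⟩ q
    exact F5_bdd g.2 q
  · intro hb
    obtain ⟨g, hg, hfg⟩ := F5_div f.2 hb
    exact ⟨⟨g, hg⟩, Subtype.ext hfg.symm⟩

theorem finrank_range_mulDelta :
    Module.finrank ℂ (LinearMap.range (mulDelta Γ K)) = Module.finrank ℂ (MF Γ (K - 12)) :=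
  LinearMap.finrank_range_of_inj mulDelta_injective

/-! ### Periodicity -/

/-- A function on `ℍ` invariant under `z ↦ h + z` is `h`-periodic after `ofComplex`. -/
lemma periodic_of_vadd {ψ : ℍ → ℂ} {h : ℝ} (hψ : ∀ z : ℍ, ψ (h +ᵥ z) = ψ z) :
    Function.Periodic (ψ ∘ ofComplex) (h : ℂ) := by
  intro w
  by_cases hw : 0 < w.im
  · have hw' : 0 < (w + h).im := by simp [hw]
    simp only [Function.comp_apply, ofComplex_apply_of_im_pos hw', ofComplex_apply_of_im_pos hw]
    rw [← hψ ⟨w, hw⟩]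
    congr 1
    ext
    simp [add_comm]
  · have hw1 : w.im ≤ 0 := not_lt.mp hw
    have hw' : (w + h).im ≤ 0 := by simpa using hw1
    simp [ofComplex_apply_of_im_nonpos hw', ofComplex_apply_of_im_nonpos hw1]

lemma denom_T_zpow (n : ℤ) (z : ℍ) : denom ((ModularGroup.T ^ n : SL(2, ℤ))) z = 1 := by
  rw [ModularGroup.denom_apply]
  simp [ModularGroup.coe_T_zpow]

/-- The coset function at `q` is invariant under `z ↦ n + z` when `T ^ n` fixes `q`. -/
lemma cf_vadd {f : ℍ → ℂ} (hf : ∀ γ ∈ Γ, f ∣[K] γ = f) (q : SL(2, ℤ) ⧸ Γ) (n : ℤ)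
    (hq : (ModularGroup.T ^ n : SL(2, ℤ)) • q = q) (z : ℍ) :
    cf Γ K f q ((n : ℝ) +ᵥ z) = cf Γ K f q z := by
  rw [← modular_T_zpow_smul, cf_apply_smul hf, denom_T_zpow, one_zpow, one_mul]
  congr 1
  rw [inv_smul_eq_iff, hq]

lemma cf_periodic {f : ℍ → ℂ} (hf : ∀ γ ∈ Γ, f ∣[K] γ = f) (q : SL(2, ℤ) ⧸ Γ) (N : ℕ)
    (hq : (ModularGroup.T ^ N : SL(2, ℤ)) • q = q) :
    Function.Periodic (cf Γ K f q ∘ ofComplex) ((N : ℝ) : ℂ) := by
  apply periodic_of_vadd
  intro z
  have := cf_vadd hf q (N : ℤ) (by simpa using hq) z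
  simpa using this

/-! ### The key lemma: decay of holomorphic periodic functions -/

lemma norm_exp_mul_I_mul (c : ℝ) (z : ℍ) :
    ‖Complex.exp ((c : ℂ) * Complex.I * z)‖ = Real.exp (-c * z.im) := by
  rw [Complex.norm_exp]
  congr 1
  simp [Complex.mul_re]

lemma twist_one_eq (N : ℕ) (z : ℍ) :
    Complex.exp (-2 * Real.pi * Complex.I * z / N)
      = Complex.exp (((-2 * Real.pi / N : ℝ) : ℂ) * Complex.I * z) := by
  congr 1
  push_cast
  ring

/-- **Key lemma.** A holomorphic `N`-periodic function on `ℍ` tends to `0` at `i∞` iff its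
twist by `exp(-2πi z / N)` is bounded at `i∞`. -/
theorem isZeroAtImInfty_iff_bdd_twist {ψ : ℍ → ℂ} {N : ℕ} (hN : 0 < N) (hψ : MDiff ψ)
    (hper : Function.Periodic (ψ ∘ ofComplex) ((N : ℝ) : ℂ)) :
    IsZeroAtImInfty ψ ↔
      IsBoundedAtImInfty (fun z : ℍ => Complex.exp (-2 * Real.pi * Complex.I * z / N) * ψ z) := by
  have hN' : (0 : ℝ) < N := by exact_mod_cast hN
  constructor
  · intro hz
    have h1 := hz.exp_decay_atImInfty hN' hper hψ hz.isBoundedAtImInfty
    obtain ⟨C, hC⟩ := h1.bound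
    refine Asymptotics.IsBigO.of_bound C ?_
    filter_upwards [hC] with z hz
    rw [norm_mul, Pi.one_apply, norm_one, mul_one, twist_one_eq, norm_exp_mul_I_mul]
    rw [Real.norm_of_nonneg (Real.exp_pos _).le] at hz
    calc Real.exp (-(-2 * Real.pi / N) * z.im) * ‖ψ z‖
        ≤ Real.exp (-(-2 * Real.pi / N) * z.im) * (C * Real.exp (-2 * Real.pi * z.im / N)) :=
          mul_le_mul_of_nonneg_left hz (Real.exp_pos _).le
      _ = C * (Real.exp (-(-2 * Real.pi / N) * z.im) * Real.exp (-2 * Real.pi * z.im / N)) := by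
          ring
      _ = C := by
          rw [← Real.exp_add]
          have : -(-2 * Real.pi / N) * z.im + -2 * Real.pi * z.im / N = 0 := by ring
          rw [this, Real.exp_zero, mul_one]
  · intro hb
    have hq : IsZeroAtImInfty (fun τ : ℍ => Function.Periodic.qParam (N : ℝ) τ) :=
      qParam_tendsto_atImInfty hN'
    have h1 := Filter.ZeroAtFilter.mul_boundedAtFilter hq hb
    have heq : ψ = (fun τ : ℍ => Function.Periodic.qParam (N : ℝ) τ) *
        (fun z : ℍ => Complex.exp (-2 * Real.pi * Complex.I * z / N) * ψ z) := by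
      funext z
      simp only [Pi.mul_apply, Function.Periodic.qParam]
      rw [← mul_assoc, ← Complex.exp_add]
      have : 2 * (Real.pi : ℂ) * Complex.I * (z : ℂ) / ((N : ℝ) : ℂ) +
          -2 * (Real.pi : ℂ) * Complex.I * (z : ℂ) / (N : ℂ) = 0 := by
        push_cast
        ring
      rw [this, Complex.exp_zero, one_mul]
    rw [heq]
    exact h1

/-- **(F4)**: the first step of the cusp filtration is the space of cusp forms. -/
theorem F4_iff {f : ℍ → ℂ} (hf : f ∈ MF Γ K) (N : ℕ) (hN : 0 < N)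
    (hT : ∀ q : SL(2, ℤ) ⧸ Γ, (ModularGroup.T ^ N : SL(2, ℤ)) • q = q) :
    f ∈ CF Γ K ↔ ∀ q : SL(2, ℤ) ⧸ Γ, IsBoundedAtImInfty
      (fun z : ℍ => Complex.exp (-2 * Real.pi * Complex.I * z / N) * cf Γ K f q z) := by
  rw [mem_CF_iff_cf]
  constructor
  · rintro ⟨_, _, h⟩ q
    exact (isZeroAtImInfty_iff_bdd_twist hN (cf_mdiff hf.1 q)
      (cf_periodic hf.2.1 q N (hT q))).mp (h q)
  · intro h
    exact ⟨hf.1, hf.2.1, fun q => (isZeroAtImInfty_iff_bdd_twist hN (cf_mdiff hf.1 q)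
      (cf_periodic hf.2.1 q N (hT q))).mpr (h q)⟩

end Fermat.Agent.S20.H44
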