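import Fermat.Agent.S20.H19_InfAnalytic
import Fermat.Agent.S20.H44_Fil
import Fermat.Agent.S20.H2_Eig

/-!
# S20 core, packages INF1 and INF2 (helper19): the cusp filtration

`Fil a = {f ∈ M_K(Γ) | ∀ cosets q, exp(-2πi a z/N) (f|q) bounded at i∞}` and the leading term
maps `lead a : Fil a → (cosets → ℂ)`.  Assembly with helper2's linear algebra
(`H2.cusp_filtration_main`) and helper44's `Fil N = Δ M_{K-12}`.
-/

set_option autoImplicit false

namespace Fermat.Agent.S20.H19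

open UpperHalfPlane ModularForm MatrixGroups Filter
open scoped Manifold Topology
open Fermat.Agent.S20.H74

variable {Γ : Subgroup SL(2, ℤ)} {K : ℤ}

/-- `T` has finite order on the cosets. -/
theorem exists_period (Γ : Subgroup SL(2, ℤ)) [Γ.FiniteIndex] :
    ∃ N : ℕ, 0 < N ∧ ∀ q : SL(2, ℤ) ⧸ Γ, (ModularGroup.T ^ N : SL(2, ℤ)) • q = q := by
  have : Finite (SL(2, ℤ) ⧸ Γ) := Subgroup.finite_quotient_of_finiteIndex
  let σ : Equiv.Perm (SL(2, ℤ) ⧸ Γ) := MulAction.toPermHom SL(2, ℤ) (SL(2, ℤ) ⧸ Γ) ModularGroup.T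
  refine ⟨orderOf σ, orderOf_pos σ, fun q => ?_⟩
  have h1 : MulAction.toPermHom SL(2, ℤ) (SL(2, ℤ) ⧸ Γ) (ModularGroup.T ^ orderOf σ) = 1 := by
    rw [map_pow]
    exact pow_orderOf_eq_one σ
  have h2 := congrArg (fun τ : Equiv.Perm (SL(2, ℤ) ⧸ Γ) => τ q) h1
  simpa using h2

/-- The cusp filtration on `M_K(Γ)`. -/
def Fil (Γ : Subgroup SL(2, ℤ)) (K : ℤ) (N a : ℕ) : Submodule ℂ (MF Γ K) where
  carrier := {f | ∀ q : SL(2, ℤ) ⧸ Γ, IsBoundedAtImInfty (tw N a (cf Γ K (f : ℍ → ℂ) q))}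
  add_mem' := by
    intro f g hf hg q
    rw [Submodule.coe_add, cf_add, tw_add]
    exact (hf q).add (hg q)
  zero_mem' := by
    intro q
    rw [Submodule.coe_zero, cf_zero]
    have : tw N a (0 : ℍ → ℂ) = 0 := by funext z; simp [tw]
    rw [this]
    exact zero_form_isBoundedAtImInfty
  smul_mem' := by
    intro c f hf q
    rw [Submodule.coe_smul, cf_smul, tw_smul]
    exact (hf q).const_smul_left c

lemma mem_Fil {N a : ℕ} {f : MF Γ K} :
    f ∈ Fil Γ K N a ↔ ∀ q : SL(2, ℤ) ⧸ Γ, IsBoundedAtImInfty (tw N a (cf Γ K (f : ℍ → ℂ) q)) :=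
  Iff.rfl

lemma Fil_zero (N : ℕ) : Fil Γ K N 0 = ⊤ := by
  rw [eq_top_iff]
  intro f _ q
  rw [tw_zero]
  exact cf_bdd f.2 q

section period

variable {N : ℕ} (hN : 0 < N) (hT : ∀ q : SL(2, ℤ) ⧸ Γ, (ModularGroup.T ^ N : SL(2, ℤ)) • q = q)
include hN hT

lemma tw_cf_periodic (a : ℕ) (f : MF Γ K) (q : SL(2, ℤ) ⧸ Γ) :
    Function.Periodic (tw N a (cf Γ K (f : ℍ → ℂ) q) ∘ ofComplex) ((N : ℝ) : ℂ) := by
  apply periodic_comp_ofComplex_of_vadd
  intro z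
  apply tw_vadd hN
  intro z
  have := H44.cf_vadd (K := K) f.2.2.1 q (N : ℤ) (by simpa using hT q) z
  simpa using this

lemma tendsto_tw_cf {a : ℕ} {f : MF Γ K} (hf : f ∈ Fil Γ K N a) (q : SL(2, ℤ) ⧸ Γ) :
    Tendsto (tw N a (cf Γ K (f : ℍ → ℂ) q)) atImInfty
      (𝓝 (valueAtInfty (tw N a (cf Γ K (f : ℍ → ℂ) q)))) :=
  tendsto_valueAtInfty (by exact_mod_cast hN) (tw_cf_periodic hN hT a f q)
    (mdiff_tw N a (cf_mdiff f.2.1 q)) (hf q)

lemma Fil_succ_iff {a : ℕ} {f : MF Γ K} (hf : f ∈ Fil Γ K N a) :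
    f ∈ Fil Γ K N (a + 1) ↔
      ∀ q : SL(2, ℤ) ⧸ Γ, valueAtInfty (tw N a (cf Γ K (f : ℍ → ℂ) q)) = 0 := by
  constructor
  · intro h q
    have hb : IsBoundedAtImInfty (fun z : ℍ =>
        Complex.exp (-2 * Real.pi * Complex.I * z / N) * tw N a (cf Γ K (f : ℍ → ℂ) q) z) := by
      have := h q
      have e : tw N (a + 1) (cf Γ K (f : ℍ → ℂ) q) = fun z : ℍ =>
          Complex.exp (-2 * Real.pi * Complex.I * z / N) * tw N a (cf Γ K (f : ℍ → ℂ) q) z := by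
        funext z; exact tw_succ N a _ z
      rwa [e] at this
    exact (isZeroAtImInfty_of_bdd_twist hN hb).valueAtInfty_eq_zero
  · intro h q
    have ht := tendsto_tw_cf hN hT hf q
    rw [h q] at ht
    have hb := bdd_twist_of_isZeroAtImInfty hN (tw_cf_periodic hN hT a f q)
      (mdiff_tw N a (cf_mdiff f.2.1 q)) ht
    have e : tw N (a + 1) (cf Γ K (f : ℍ → ℂ) q) = fun z : ℍ =>
        Complex.exp (-2 * Real.pi * Complex.I * z / N) * tw N a (cf Γ K (f : ℍ → ℂ) q) z := by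
      funext z; exact tw_succ N a _ z
    rw [e]
    exact hb

omit hT in
lemma Fil_anti (a : ℕ) : Fil Γ K N (a + 1) ≤ Fil Γ K N a := by
  intro f h q
  have hb : IsBoundedAtImInfty (fun z : ℍ =>
      Complex.exp (-2 * Real.pi * Complex.I * z / N) * tw N a (cf Γ K (f : ℍ → ℂ) q) z) := by
    have := h q
    have e : tw N (a + 1) (cf Γ K (f : ℍ → ℂ) q) = fun z : ℍ =>
        Complex.exp (-2 * Real.pi * Complex.I * z / N) * tw N a (cf Γ K (f : ℍ → ℂ) q) z := by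
      funext z; exact tw_succ N a _ z
    rwa [e] at this
  exact (isZeroAtImInfty_of_bdd_twist hN hb).isBoundedAtImInfty

/-- The leading term map. -/
noncomputable def lead (a : ℕ) : Fil Γ K N a →ₗ[ℂ] ((SL(2, ℤ) ⧸ Γ) → ℂ) where
  toFun f := fun q => valueAtInfty (tw N a (cf Γ K ((f : MF Γ K) : ℍ → ℂ) q))
  map_add' f g := by
    funext q
    have hf := tendsto_tw_cf hN hT f.2 q
    have hg := tendsto_tw_cf hN hT g.2 q
    have hfg := tendsto_tw_cf hN hT (f + g).2 q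
    have e : tw N a (cf Γ K (((f + g : Fil Γ K N a) : MF Γ K) : ℍ → ℂ) q)
        = tw N a (cf Γ K ((f : MF Γ K) : ℍ → ℂ) q) + tw N a (cf Γ K ((g : MF Γ K) : ℍ → ℂ) q) := by
      rw [Submodule.coe_add, Submodule.coe_add, cf_add, tw_add]
    have hsum : Tendsto (tw N a (cf Γ K (((f + g : Fil Γ K N a) : MF Γ K) : ℍ → ℂ) q)) atImInfty
        (𝓝 (valueAtInfty (tw N a (cf Γ K ((f : MF Γ K) : ℍ → ℂ) q)) +
          valueAtInfty (tw N a (cf Γ K ((g : MF Γ K) : ℍ → ℂ) q)))) := by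
      rw [e]
      exact hf.add hg
    exact tendsto_nhds_unique hfg hsum
  map_smul' c f := by
    funext q
    have hf := tendsto_tw_cf hN hT f.2 q
    have hcf := tendsto_tw_cf hN hT (c • f).2 q
    have e : tw N a (cf Γ K (((c • f : Fil Γ K N a) : MF Γ K) : ℍ → ℂ) q)
        = c • tw N a (cf Γ K ((f : MF Γ K) : ℍ → ℂ) q) := by
      rw [Submodule.coe_smul, Submodule.coe_smul, cf_smul, tw_smul]
    have hsm : Tendsto (tw N a (cf Γ K (((c • f : Fil Γ K N a) : MF Γ K) : ℍ → ℂ) q)) atImInfty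
        (𝓝 (c • valueAtInfty (tw N a (cf Γ K ((f : MF Γ K) : ℍ → ℂ) q)))) := by
      rw [e]
      exact hf.const_smul c
    exact tendsto_nhds_unique hcf hsm

lemma lead_apply (a : ℕ) (f : Fil Γ K N a) (q : SL(2, ℤ) ⧸ Γ) :
    lead hN hT a f q = valueAtInfty (tw N a (cf Γ K ((f : MF Γ K) : ℍ → ℂ) q)) := rfl

lemma tendsto_lead (a : ℕ) (f : Fil Γ K N a) (q : SL(2, ℤ) ⧸ Γ) :
    Tendsto (tw N a (cf Γ K ((f : MF Γ K) : ℍ → ℂ) q)) atImInfty (𝓝 (lead hN hT a f q)) :=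
  tendsto_tw_cf hN hT f.2 q

lemma lead_eq_zero_iff (a : ℕ) (f : Fil Γ K N a) :
    lead hN hT a f = 0 ↔ (f : MF Γ K) ∈ Fil Γ K N (a + 1) := by
  rw [Fil_succ_iff hN hT f.2]
  constructor
  · intro h q
    have := congrFun h q
    simpa [lead_apply] using this
  · intro h
    funext q
    simpa [lead_apply] using h q

omit hN hT in
lemma tendsto_T_smul_atImInfty :
    Tendsto (fun z : ℍ => ModularGroup.T • z) atImInfty atImInfty := by
  rw [atImInfty, tendsto_comap_iff]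
  have e : (UpperHalfPlane.im ∘ fun z : ℍ => ModularGroup.T • z) = UpperHalfPlane.im := by
    funext z
    exact ModularGroup.im_T_smul z
  rw [e]
  exact tendsto_comap

omit hN hT in
lemma cf_T_smul (f : MF Γ K) (q : SL(2, ℤ) ⧸ Γ) (z : ℍ) :
    cf Γ K (f : ℍ → ℂ) q (ModularGroup.T • z) = cf Γ K (f : ℍ → ℂ) (ModularGroup.T⁻¹ • q) z := by
  rw [cf_apply_smul f.2.2.1 q ModularGroup.T z]
  have h := H44.denom_T_zpow 1 z
  rw [zpow_one] at h
  rw [h, one_zpow, one_mul]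

omit hT in
lemma tw_cf_T_inv (a : ℕ) (f : MF Γ K) (q : SL(2, ℤ) ⧸ Γ) (z : ℍ) :
    tw N a (cf Γ K (f : ℍ → ℂ) (ModularGroup.T⁻¹ • q)) z =
      Complex.exp (2 * Real.pi * Complex.I / N) ^ a *
        tw N a (cf Γ K (f : ℍ → ℂ) q) (ModularGroup.T • z) := by
  rw [tw_apply, tw_apply, cf_T_smul, ← mul_assoc, ← Complex.exp_nat_mul, ← Complex.exp_add]
  congr 2
  have hN' : (N : ℂ) ≠ 0 := Nat.cast_ne_zero.mpr hN.ne'
  have hz : ((ModularGroup.T • z : ℍ) : ℂ) = z + 1 := by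
    have := ModularGroup.coe_T_zpow_smul_eq z (n := 1)
    simpa using this
  rw [hz]
  field_simp
  ring

lemma lead_T_inv (a : ℕ) (f : Fil Γ K N a) (q : SL(2, ℤ) ⧸ Γ) :
    lead hN hT a f (ModularGroup.T⁻¹ • q) =
      Complex.exp (2 * Real.pi * Complex.I / N) ^ a * lead hN hT a f q := by
  have h1 := tendsto_lead hN hT a f (ModularGroup.T⁻¹ • q)
  have h2 := ((tendsto_lead hN hT a f q).comp tendsto_T_smul_atImInfty).const_mul
    (Complex.exp (2 * Real.pi * Complex.I / N) ^ a)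
  refine tendsto_nhds_unique h1 (h2.congr fun z => ?_)
  rw [Function.comp_apply, tw_cf_T_inv hN]

end period

/-! ### Assembly -/

/-- `Fil N` is contained in the range of multiplication by `Δ`. -/
lemma Fil_top_le {N : ℕ} (hN : 0 < N) :
    Fil Γ K N N ≤ LinearMap.range (H44.mulDelta Γ K) := by
  intro f hf
  rw [H44.mem_range_mulDelta_iff]
  intro q
  have e : (fun z : ℍ => Complex.exp (-2 * Real.pi * Complex.I * z) * cf Γ K (f : ℍ → ℂ) q z)
      = tw N N (cf Γ K (f : ℍ → ℂ) q) := by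
    funext z
    rw [tw_apply]
    congr 2
    have hN' : (N : ℂ) ≠ 0 := Nat.cast_ne_zero.mpr hN.ne'
    field_simp
  rw [e]
  exact hf q

/-- `Fil 1` corresponds to the cusp forms. -/
lemma mem_Fil_one_iff {N : ℕ} (hN : 0 < N)
    (hT : ∀ q : SL(2, ℤ) ⧸ Γ, (ModularGroup.T ^ N : SL(2, ℤ)) • q = q) (f : MF Γ K) :
    f ∈ Fil Γ K N 1 ↔ (f : ℍ → ℂ) ∈ CF Γ K := by
  have h0 : f ∈ Fil Γ K N 0 := by rw [Fil_zero]; trivial
  rw [Fil_succ_iff hN hT h0, mem_CF_iff_cf]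
  constructor
  · intro h
    refine ⟨f.2.1, f.2.2.1, fun q => ?_⟩
    have ht := tendsto_tw_cf hN hT h0 q
    rw [h q, tw_zero] at ht
    exact ht
  · intro h q
    rw [tw_zero]
    exact (h.2.2 q).valueAtInfty_eq_zero

lemma finrank_Fil_one {N : ℕ} (hN : 0 < N)
    (hT : ∀ q : SL(2, ℤ) ⧸ Γ, (ModularGroup.T ^ N : SL(2, ℤ)) • q = q) :
    Module.finrank ℂ (Fil Γ K N 1) = Module.finrank ℂ (CF Γ K) := by
  have e : Fil Γ K N 1 = Submodule.comap (MF Γ K).subtype (CF Γ K) := by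
    ext f
    rw [mem_Fil_one_iff hN hT]
    rfl
  rw [e]
  exact (Submodule.comapSubtypeEquivOfLe CF_le_MF).finrank_eq

/-- The assembled cusp filtration statement. -/
theorem cusp_filtration [Γ.FiniteIndex] (K : ℤ) (hfin : Module.Finite ℂ (MF Γ K))
    (h : Module.finrank ℂ (MF Γ K) = Module.finrank ℂ (MF Γ (K - 12)) + Γ.index)
    {N : ℕ} (hN : 0 < N)
    (hT : ∀ q : SL(2, ℤ) ⧸ Γ, (ModularGroup.T ^ N : SL(2, ℤ)) • q = q) :
    Module.finrank ℂ (MF Γ K) = Module.finrank ℂ (CF Γ K) + cuspNum Γ ∧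
    ∃ (a : (SL(2, ℤ) ⧸ Γ) → ℕ) (G : ∀ i, Fil Γ K N (a i)), (∀ i, a i < N) ∧
      LinearIndependent ℂ (fun i => lead hN hT (a i) (G i)) := by
  have hdim : Module.finrank ℂ (Fil Γ K N N) + Γ.index ≤ Module.finrank ℂ (MF Γ K) := by
    rw [h]
    have := Submodule.finrank_mono (Fil_top_le (Γ := Γ) (K := K) hN)
    rw [H44.finrank_range_mulDelta] at this
    omega
  obtain ⟨h1, -, -, h4⟩ := H2.cusp_filtration_main (Γ := Γ) (M := MF Γ K) N hN
    (Complex.exp (2 * Real.pi * Complex.I / N)) (H2.exp_pow_inj N hN)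
    (Fil Γ K N) (Fil_zero N) (Fil_anti hN) (lead hN hT)
    (lead_eq_zero_iff hN hT) (lead_T_inv hN hT) hdim
  refine ⟨?_, h4⟩
  rw [h1, finrank_Fil_one hN hT]

/-- **INF1**: for `K` with `dim M_K = dim M_{K-12} + index`, the Eisenstein part has dimension
`cuspNum Γ`. -/
theorem INF1_eis [Γ.FiniteIndex] (K : ℤ) (hfin : Module.Finite ℂ (MF Γ K))
    (h : Module.finrank ℂ (MF Γ K) = Module.finrank ℂ (MF Γ (K - 12)) + Γ.index) :
    Module.finrank ℂ (MF Γ K) = Module.finrank ℂ (CF Γ K) + cuspNum Γ := by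
  obtain ⟨N, hN, hT⟩ := exists_period Γ
  exact (cusp_filtration K hfin h hN hT).1

/-- **INF2**: an adapted family: forms whose leading terms at `i∞` form an invertible matrix. -/
theorem INF2_adapted [Γ.FiniteIndex] (K : ℤ) (hfin : Module.Finite ℂ (MF Γ K))
    (h : Module.finrank ℂ (MF Γ K) = Module.finrank ℂ (MF Γ (K - 12)) + Γ.index) :
    ∃ (N : ℕ) (_ : 0 < N) (G : (SL(2, ℤ) ⧸ Γ) → ℍ → ℂ) (a : (SL(2, ℤ) ⧸ Γ) → ℕ)
      (E₀ : (SL(2, ℤ) ⧸ Γ) → (SL(2, ℤ) ⧸ Γ) → ℂ),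
      (∀ i, G i ∈ MF Γ K) ∧ (∀ i, a i < N) ∧
      LinearIndependent ℂ (fun i => fun q => E₀ q i) ∧
      ∀ q i, Tendsto (fun z : ℍ =>
        Complex.exp (-2 * Real.pi * Complex.I * (a i) * z / N) * cf Γ K (G i) q z)
        atImInfty (𝓝 (E₀ q i)) := by
  obtain ⟨N, hN, hT⟩ := exists_period Γ
  obtain ⟨a, G, ha, hli⟩ := (cusp_filtration K hfin h hN hT).2
  refine ⟨N, hN, fun i => ((G i : MF Γ K) : ℍ → ℂ), a, fun q i => lead hN hT (a i) (G i) q,
    fun i => (G i : MF Γ K).2, ha, hli, fun q i => ?_⟩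
  exact tendsto_lead hN hT (a i) (G i) q

end Fermat.Agent.S20.H19
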