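import Mathlib.Analysis.Complex.RemovableSingularity
import Mathlib.Analysis.Complex.UpperHalfPlane.Manifold

/-!
# S20 core, package P1 (helper53): holomorphic division

If `B, g : ℍ → ℂ` are holomorphic, all zeros of `B` are simple and `g` vanishes at every zero
of `B`, then `g = B * h` with `h` holomorphic.
-/

set_option autoImplicit false

namespace Fermat.Agent.S20.H53

open UpperHalfPlane Filter
open scoped Manifold Topology

/-- Local statement on `ℂ`: division by a function with a simple zero. -/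
theorem differentiableAt_div_of_simple_zero {U : Set ℂ} (hU : IsOpen U) {b g : ℂ → ℂ}
    (hb : DifferentiableOn ℂ b U) (hg : DifferentiableOn ℂ g U) {z₀ : ℂ} (hz₀ : z₀ ∈ U)
    (hb0 : b z₀ = 0) (hg0 : g z₀ = 0) (hb' : deriv b z₀ ≠ 0) :
    DifferentiableAt ℂ (dslope g z₀ / dslope b z₀) z₀ ∧
      ∀ᶠ z in 𝓝 z₀, (z ≠ z₀ → b z ≠ 0) ∧
        (dslope g z₀ / dslope b z₀) z =
          if b z = 0 then deriv g z / deriv b z else g z / b z := by
  have hUn : U ∈ 𝓝 z₀ := hU.mem_nhds hz₀
  have hdb : DifferentiableOn ℂ (dslope b z₀) U := (Complex.differentiableOn_dslope hUn).mpr hb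
  have hdg : DifferentiableOn ℂ (dslope g z₀) U := (Complex.differentiableOn_dslope hUn).mpr hg
  have hdb0 : dslope b z₀ z₀ ≠ 0 := by rw [dslope_same]; exact hb'
  have hdbA : DifferentiableAt ℂ (dslope b z₀) z₀ := hdb.differentiableAt hUn
  have hdgA : DifferentiableAt ℂ (dslope g z₀) z₀ := hdg.differentiableAt hUn
  refine ⟨hdgA.div hdbA hdb0, ?_⟩
  have hne : ∀ᶠ z in 𝓝 z₀, dslope b z₀ z ≠ 0 :=
    hdbA.continuousAt.eventually_ne hdb0
  filter_upwards [hne] with z hz
  have hbz : b z = (z - z₀) * dslope b z₀ z := by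
    have := sub_smul_dslope b z₀ z
    rw [hb0, sub_zero, smul_eq_mul] at this
    exact this.symm
  have hgz : g z = (z - z₀) * dslope g z₀ z := by
    have := sub_smul_dslope g z₀ z
    rw [hg0, sub_zero, smul_eq_mul] at this
    exact this.symm
  refine ⟨fun hzne => ?_, ?_⟩
  · rw [hbz]
    exact mul_ne_zero (sub_ne_zero.mpr hzne) hz
  · by_cases hzz : z = z₀
    · subst hzz
      rw [if_pos hb0, Pi.div_apply, dslope_same, dslope_same]
    · have hbne : b z ≠ 0 := by
        rw [hbz]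
        exact mul_ne_zero (sub_ne_zero.mpr hzz) hz
      rw [if_neg hbne, Pi.div_apply, hbz, hgz]
      rw [mul_div_mul_left _ _ (sub_ne_zero.mpr hzz)]

/-- Division on an open subset of `ℂ`. -/
theorem differentiableOn_div_of_simple_zeros {U : Set ℂ} (hU : IsOpen U) {b g : ℂ → ℂ}
    (hb : DifferentiableOn ℂ b U) (hg : DifferentiableOn ℂ g U)
    (hsimple : ∀ z ∈ U, b z = 0 → deriv b z ≠ 0)
    (hvan : ∀ z ∈ U, b z = 0 → g z = 0) :
    DifferentiableOn ℂ (fun z => if b z = 0 then deriv g z / deriv b z else g z / b z) U := by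
  intro z₀ hz₀
  refine DifferentiableAt.differentiableWithinAt ?_
  by_cases hb0 : b z₀ = 0
  · obtain ⟨hd, hev⟩ := differentiableAt_div_of_simple_zero hU hb hg hz₀ hb0
      (hvan z₀ hz₀ hb0) (hsimple z₀ hz₀ hb0)
    refine hd.congr_of_eventuallyEq ?_
    filter_upwards [hev] with z hz
    exact hz.2.symm
  · have hUn : U ∈ 𝓝 z₀ := hU.mem_nhds hz₀
    have hbA : DifferentiableAt ℂ b z₀ := hb.differentiableAt hUn
    have hgA : DifferentiableAt ℂ g z₀ := hg.differentiableAt hUn
    have hne : ∀ᶠ z in 𝓝 z₀, b z ≠ 0 := hbA.continuousAt.eventually_ne hb0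
    refine (hgA.div hbA hb0).congr_of_eventuallyEq ?_
    filter_upwards [hne] with z hz
    rw [if_neg hz, Pi.div_apply]

/-- **P1** (holomorphic division on `ℍ`). -/
theorem P1_exists_mdiff_quotient (B g : ℍ → ℂ) (hB : MDiff B) (hg : MDiff g)
    (hsimple : ∀ z : ℍ, B z = 0 → deriv (B ∘ ofComplex) z ≠ 0)
    (hvan : ∀ z : ℍ, B z = 0 → g z = 0) :
    ∃ h : ℍ → ℂ, MDiff h ∧ g = B * h := by
  classical
  have hU : IsOpen {z : ℂ | 0 < z.im} := isOpen_upperHalfPlaneSet
  have hBt : DifferentiableOn ℂ (B ∘ ofComplex) {z | 0 < z.im} := mdifferentiable_iff.mp hB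
  have hgt : DifferentiableOn ℂ (g ∘ ofComplex) {z | 0 < z.im} := mdifferentiable_iff.mp hg
  have hval : ∀ (f : ℍ → ℂ) (τ : ℍ), (f ∘ ofComplex) (τ : ℂ) = f τ := fun f τ => by
    rw [Function.comp_apply, ofComplex_apply]
  have hvalU : ∀ (f : ℍ → ℂ) (z : ℂ) (hz : 0 < z.im), (f ∘ ofComplex) z = f ⟨z, hz⟩ :=
    fun f z hz => hval f ⟨z, hz⟩
  have key := differentiableOn_div_of_simple_zeros hU hBt hgt
    (fun z hz hb => by
      have := hsimple ⟨z, hz⟩ (by rw [← hvalU B z hz]; exact hb)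
      exact this)
    (fun z hz hb => by
      rw [hvalU g z hz]
      exact hvan ⟨z, hz⟩ (by rw [← hvalU B z hz]; exact hb))
  set ht : ℂ → ℂ := fun z =>
    if (B ∘ ofComplex) z = 0 then deriv (g ∘ ofComplex) z / deriv (B ∘ ofComplex) z
    else (g ∘ ofComplex) z / (B ∘ ofComplex) z with hht
  refine ⟨fun τ => ht (τ : ℂ), ?_, ?_⟩
  · rw [mdifferentiable_iff]
    refine key.congr ?_
    intro z hz
    change ht ((ofComplex z : ℍ) : ℂ) = ht z
    have : ((ofComplex z : ℍ) : ℂ) = z := by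
      rw [ofComplex_apply_of_im_pos hz]
    rw [this]
  · funext τ
    rw [Pi.mul_apply]
    rw [hht]
    simp only [hval]
    by_cases hb : B τ = 0
    · rw [if_pos hb, hb, zero_mul]
      exact hvan τ hb
    · rw [if_neg hb, mul_div_cancel₀ _ hb]

end Fermat.Agent.S20.H53
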