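import Fermat.Agent.S20.H74_Defs
import Fermat.Agent.S20.H53_P1
import Mathlib.Analysis.Analytic.IsolatedZeros

/-!
# S20 core, package B (helper70): division by a level one form with simple zeros

`B_div` has the statement of `H74_Skeleton.lean`; it uses helper53's `P1_exists_mdiff_quotient`.
-/

set_option autoImplicit false

namespace Fermat.Agent.S20.H70

open UpperHalfPlane hiding I
open ModularForm MatrixGroups Filter EisensteinSeries
open Fermat.Agent.S20.H74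
open scoped Manifold Topology

variable {Γ : Subgroup SL(2, ℤ)}

/-- Holomorphic functions on `ℍ` have no zero divisors. -/
lemma mdiff_mul_eq_zero_BDiv {g h : ℍ → ℂ} (hg : MDiff g) (hh : MDiff h) (h0 : g * h = 0) :
    g = 0 ∨ h = 0 := by
  have hG : AnalyticOnNhd ℂ (g ∘ ofComplex) {z | 0 < z.im} :=
    (UpperHalfPlane.mdifferentiable_iff.mp hg).analyticOnNhd isOpen_upperHalfPlaneSet
  have hH : AnalyticOnNhd ℂ (h ∘ ofComplex) {z | 0 < z.im} :=
    (UpperHalfPlane.mdifferentiable_iff.mp hh).analyticOnNhd isOpen_upperHalfPlaneSet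
  have hU : IsPreconnected {z : ℂ | 0 < z.im} := (convex_halfSpace_im_gt 0).isPreconnected
  rcases hG.eq_zero_or_eq_zero_of_mul_eq_zero hH (fun z _ => by
      have := congrFun h0 (ofComplex z); simpa using this) hU with h1 | h1
  · left
    funext z
    have := h1 z z.im_pos
    simpa [ofComplex_apply] using this
  · right
    funext z
    have := h1 z z.im_pos
    simpa [ofComplex_apply] using this

/-- A function tending to a nonzero limit at `i∞` is not identically zero. -/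
lemma ne_zero_of_tendsto_ne_zero {B : ℍ → ℂ}
    (hBinf : ∃ c : ℂ, c ≠ 0 ∧ Tendsto B atImInfty (𝓝 c)) : B ≠ 0 := by
  rintro rfl
  obtain ⟨c, hc, ht⟩ := hBinf
  have h0 : Tendsto (0 : ℍ → ℂ) atImInfty (𝓝 0) := tendsto_const_nhds
  exact hc (tendsto_nhds_unique ht h0)

/-- If `B * u` is bounded at `i∞` and `B → c ≠ 0`, then `u` is bounded at `i∞`. -/
lemma isBoundedAtImInfty_of_mul {B u : ℍ → ℂ}
    (hBinf : ∃ c : ℂ, c ≠ 0 ∧ Tendsto B atImInfty (𝓝 c))
    (hbd : IsBoundedAtImInfty (B * u)) : IsBoundedAtImInfty u := by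
  obtain ⟨c, hc, ht⟩ := hBinf
  have hcpos : 0 < ‖c‖ := norm_pos_iff.mpr hc
  have hev : ∀ᶠ z in atImInfty, ‖c‖ / 2 < ‖B z‖ := by
    have h1 : Tendsto (fun z => ‖B z‖) atImInfty (𝓝 ‖c‖) := ht.norm
    exact h1.eventually (lt_mem_nhds (by linarith))
  rw [IsBoundedAtImInfty, BoundedAtFilter, Asymptotics.isBigO_iff] at hbd ⊢
  obtain ⟨M, hM⟩ := hbd
  refine ⟨M / (‖c‖ / 2), ?_⟩
  filter_upwards [hM, hev] with z hz hBz
  simp only [Pi.mul_apply, norm_mul, Pi.one_apply, norm_one, mul_one] at hz ⊢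
  have hM0 : 0 ≤ M := le_trans (by positivity) hz
  rw [le_div_iff₀ (by positivity)]
  calc ‖u z‖ * (‖c‖ / 2) ≤ ‖u z‖ * ‖B z‖ := by
        exact mul_le_mul_of_nonneg_left hBz.le (norm_nonneg _)
    _ = ‖B z‖ * ‖u z‖ := mul_comm _ _
    _ ≤ M := hz

/-- B: division inside `M_*(Γ)` (from P1; boundedness at cusps because `B → c ≠ 0`). -/
theorem B_div {w : ℤ} {B : ℍ → ℂ} (hB : B ∈ MF ⊤ w)
    (hBinf : ∃ c : ℂ, c ≠ 0 ∧ Tendsto B atImInfty (𝓝 c))
    (hsimple : ∀ z : ℍ, B z = 0 → deriv (B ∘ ofComplex) z ≠ 0) : DivProp Γ w B := by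
  intro K g hg hvan
  obtain ⟨h, hh, hgh⟩ := H53.P1_exists_mdiff_quotient B g hB.1 hg.1 hsimple hvan
  have hBne : B ≠ 0 := ne_zero_of_tendsto_ne_zero hBinf
  have hK : K = w + (K - w) := by ring
  have hslash : ∀ γ : SL(2, ℤ), g ∣[K] γ = B * (h ∣[K - w] γ) := by
    intro γ
    have h1 : g ∣[w + (K - w)] γ = (B ∣[w] γ) * (h ∣[K - w] γ) := by
      rw [hgh]
      exact mul_slash_SL2 w (K - w) γ B h
    rw [MF.slash_top hB] at h1
    rw [← h1]
    congr 1
  refine ⟨h, ⟨hh, fun γ hγ => ?_, fun γ => ?_⟩, hgh⟩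
  · have h2 : B * (h ∣[K - w] γ - h) = 0 := by
      rw [mul_sub, ← hslash γ, hg.2.1 γ hγ, ← hgh, sub_self]
    rcases mdiff_mul_eq_zero_BDiv hB.1 ((mdiff_slash hh γ).sub hh) h2 with h3 | h3
    · exact absurd h3 hBne
    · exact sub_eq_zero.mp h3
  · apply isBoundedAtImInfty_of_mul hBinf
    rw [← hslash γ]
    exact hg.2.2 γ

end Fermat.Agent.S20.H70
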