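import Fermat.Agent.S20.H74_Defs
import Mathlib.RingTheory.RootsOfUnity.Complex
import Mathlib.Analysis.Complex.Polynomial.Basic

/-!
# S20 core, packages LI1–LI5 (helper61): local independence of an `RBasis`

Main tool: `liAt_of_data`. If `δ • z₀ = z₀`, `B` is a level one form with the division property
whose zero set is the orbit of `z₀`, and the weights in each `denom δ z₀`-eigenclass can be
levelled by level one forms not vanishing at `z₀`, then the basis is locally independent at `z₀`.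
-/

set_option autoImplicit false

namespace Fermat.Agent.S20.H61

open Fermat.Agent.S20.H74
open UpperHalfPlane ModularForm MatrixGroups Filter EisensteinSeries
open scoped Manifold Topology

variable {Γ : Subgroup SL(2, ℤ)}

/-- Coset functions of a combination `∑ a_j F_j` with level one coefficients. -/
theorem cf_comb (b : RBasis Γ) (s : Finset b.J) (K : ℤ) (a : b.J → ℍ → ℂ)
    (ha : ∀ j ∈ s, a j ∈ MF ⊤ (K - b.wt j)) (q : SL(2, ℤ) ⧸ Γ) (z : ℍ) :
    cf Γ K (∑ j ∈ s, a j * b.F j) q z = ∑ j ∈ s, a j z * b.ev z j q := by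
  rw [cf_sum, Finset.sum_apply]
  refine Finset.sum_congr rfl fun j hj => ?_
  rw [cf_mul' (k := b.wt j) (ha j hj) (by ring)]
  rfl

theorem comb_mem (b : RBasis Γ) (s : Finset b.J) (K : ℤ) (a : b.J → ℍ → ℂ)
    (ha : ∀ j ∈ s, a j ∈ MF ⊤ (K - b.wt j)) : (∑ j ∈ s, a j * b.F j) ∈ MF Γ K := by
  refine Submodule.sum_mem _ fun j hj => ?_
  exact MF.mul' (ha j hj) (b.mem j) (by ring)

/-- The division step. -/
theorem core_step (b : RBasis Γ) (z₀ : ℍ) {w : ℤ} {B : ℍ → ℂ} (hBmem : B ∈ MF ⊤ w)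
    (hdiv : DivProp Γ w B) (hB0 : B z₀ = 0)
    (hzeros : ∀ z, B z = 0 → ∃ γ : SL(2, ℤ), z = γ • z₀)
    (s : Finset b.J) (K : ℤ) (a : b.J → ℍ → ℂ) (ha : ∀ j ∈ s, a j ∈ MF ⊤ (K - b.wt j))
    (hrel : ∀ q, ∑ j ∈ s, a j z₀ * b.ev z₀ j q = 0) : ∀ j ∈ s, a j z₀ = 0 := by
  classical
  set g : ℍ → ℂ := ∑ j ∈ s, a j * b.F j with hg
  have hgmem : g ∈ MF Γ K := comb_mem b s K a ha
  have hgq : ∀ q, cf Γ K g q z₀ = 0 := fun q => by rw [hg, cf_comb b s K a ha]; exact hrel q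
  have hgvan : ∀ z, B z = 0 → g z = 0 := by
    intro z hz
    obtain ⟨γ, rfl⟩ := hzeros z hz
    have h1 := cf_apply_smul (k := K) hgmem.2.1 ((1 : SL(2, ℤ)) : SL(2, ℤ) ⧸ Γ) γ z₀
    rw [cf_one hgmem.2.1] at h1
    rw [h1, hgq, mul_zero]
  obtain ⟨g', hg'mem, hgg'⟩ := hdiv K g hgmem hgvan
  obtain ⟨s', a', ha', hg'⟩ := b.gen (K - w) g' hg'mem
  -- combined coefficients
  set c : b.J → ℍ → ℂ := fun j =>
    (if j ∈ s then a j else 0) - (if j ∈ s' then B * a' j else 0) with hc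
  have hcmem : ∀ j ∈ s ∪ s', c j ∈ MF ⊤ (K - b.wt j) := by
    intro j _
    refine Submodule.sub_mem _ ?_ ?_
    · split_ifs with h
      · exact ha j h
      · exact Submodule.zero_mem _
    · split_ifs with h
      · exact MF.mul' hBmem (ha' j h) (by ring)
      · exact Submodule.zero_mem _
  have hsum : ∑ j ∈ s ∪ s', c j * b.F j = 0 := by
    have e1 : ∑ j ∈ s ∪ s', (if j ∈ s then a j else 0) * b.F j = g := by
      rw [hg]
      rw [← Finset.sum_subset (Finset.subset_union_left (s₂ := s'))]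
      · exact Finset.sum_congr rfl fun j hj => by rw [if_pos hj]
      · intro j _ hj; rw [if_neg hj, zero_mul]
    have e2 : ∑ j ∈ s ∪ s', (if j ∈ s' then B * a' j else 0) * b.F j = g := by
      rw [hgg', hg', Finset.mul_sum]
      rw [← Finset.sum_subset (Finset.subset_union_right (s₁ := s))]
      · exact Finset.sum_congr rfl fun j hj => by rw [if_pos hj, mul_assoc]
      · intro j _ hj; rw [if_neg hj, zero_mul]
    simp only [hc, sub_mul, Finset.sum_sub_distrib, e1, e2, sub_self]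
  have hzero := b.indep K (s ∪ s') c hcmem hsum
  intro j hj
  have h1 := hzero j (Finset.mem_union_left _ hj)
  have h2 := congrFun h1 z₀
  simp only [hc, if_pos hj, Pi.sub_apply, Pi.zero_apply] at h2
  split_ifs at h2 with h
  · simp only [Pi.mul_apply, hB0, zero_mul, sub_zero] at h2; exact h2
  · simpa using h2

/-! ### Eigen-splitting -/

/-- Pure linear algebra: a vanishing combination of eigenvectors splits by eigenvalue. -/
theorem sum_filter_eq_zero_of_eigen {V J : Type*} [AddCommGroup V] [Module ℂ V]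
    (P : Module.End ℂ V) (v : J → V) (μ : J → ℂ) (hP : ∀ j, P (v j) = μ j • v j)
    (s : Finset J) (c : J → ℂ) (hsum : ∑ j ∈ s, c j • v j = 0) (t : ℂ) :
    ∑ j ∈ s with μ j = t, c j • v j = 0 := by
  classical
  set u : ℂ → V := fun t => ∑ j ∈ s with μ j = t, c j • v j with hu
  have hmem : ∀ t ∈ s.image μ, u t ∈ P.eigenspace t := by
    intro t _
    rw [Module.End.mem_eigenspace_iff, hu]
    simp only [map_sum, map_smul, Finset.smul_sum]
    refine Finset.sum_congr rfl fun j hj => ?_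
    rw [hP j, (Finset.mem_filter.1 hj).2, smul_comm]
  have htot : ∑ t ∈ s.image μ, u t = 0 := by
    rw [← hsum, hu]
    exact Finset.sum_image' (fun j => c j • v j) (fun j _ => rfl)
  have hind := (iSupIndep_iff_finsetSum_eq_zero_imp_eq_zero P.eigenspace).1
    P.eigenspaces_iSupIndep (s.image μ) u hmem htot
  by_cases ht : t ∈ s.image μ
  · exact hind t ht
  · apply Finset.sum_eq_zero
    intro j hj
    exact absurd (Finset.mem_image.2 ⟨j, (Finset.mem_filter.1 hj).1, (Finset.mem_filter.1 hj).2⟩) ht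

/-- The evaluation vectors at a fixed point of `δ` are eigenvectors of the coset permutation. -/
theorem ev_eigen (b : RBasis Γ) (z₀ : ℍ) (δ : SL(2, ℤ)) (hδ : δ • z₀ = z₀) (j : b.J) :
    (LinearMap.funLeft ℂ ℂ (fun q : SL(2, ℤ) ⧸ Γ => δ⁻¹ • q)) (b.ev z₀ j)
      = (denom δ z₀) ^ (-(b.wt j)) • b.ev z₀ j := by
  funext q
  have h := cf_apply_smul (k := b.wt j) (b.mem j).2.1 q δ z₀
  rw [hδ] at h
  simp only [LinearMap.funLeft_apply, Pi.smul_apply, smul_eq_mul, RBasis.ev]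
  rw [h, ← mul_assoc, ← zpow_add₀ (denom_ne_zero _ z₀)]
  simp

/-- **General local independence criterion.** -/
theorem liAt_of_data (b : RBasis Γ) (z₀ : ℍ) (δ : SL(2, ℤ)) (hδ : δ • z₀ = z₀)
    {w : ℤ} {B : ℍ → ℂ} (hBmem : B ∈ MF ⊤ w) (hdiv : DivProp Γ w B) (hB0 : B z₀ = 0)
    (hzeros : ∀ z, B z = 0 → ∃ γ : SL(2, ℤ), z = γ • z₀)
    {m : ℤ} (hm : 0 < m)
    (hclass : ∀ k k' : ℤ, (denom δ z₀) ^ k = (denom δ z₀) ^ k' → m ∣ k - k')
    (hforms : ∃ n₀ : ℤ, ∀ n : ℤ, n₀ ≤ n → ∃ A ∈ MF ⊤ (m * n), A z₀ ≠ 0) : b.LIAt z₀ := by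
  classical
  rw [RBasis.LIAt, linearIndependent_iff']
  intro s c hsum j₀ hj₀
  set ζ := denom δ z₀ with hζ
  have hζ0 : ζ ≠ 0 := denom_ne_zero _ z₀
  -- the class of `j₀`
  have hcls := sum_filter_eq_zero_of_eigen
    (LinearMap.funLeft ℂ ℂ (fun q : SL(2, ℤ) ⧸ Γ => δ⁻¹ • q)) (b.ev z₀)
    (fun j => ζ ^ (-(b.wt j))) (fun j => ev_eigen b z₀ δ hδ j) s c hsum (ζ ^ (-(b.wt j₀)))
  set s₀ := s.filter (fun j => ζ ^ (-(b.wt j)) = ζ ^ (-(b.wt j₀))) with hs₀
  have hj₀s₀ : j₀ ∈ s₀ := Finset.mem_filter.2 ⟨hj₀, rfl⟩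
  have hdvd : ∀ j ∈ s₀, m ∣ b.wt j₀ - b.wt j := by
    intro j hj
    have := hclass _ _ (Finset.mem_filter.1 hj).2
    simpa [sub_eq_add_neg, add_comm] using this
  obtain ⟨n₀, hn₀⟩ := hforms
  -- a common weight
  set M : ℤ := ∑ j ∈ s₀, |b.wt j₀ - b.wt j| with hM
  have hMge : ∀ j ∈ s₀, |b.wt j₀ - b.wt j| ≤ M := fun j hj =>
    Finset.single_le_sum (f := fun j => |b.wt j₀ - b.wt j|) (fun i _ => abs_nonneg _) hj
  set K : ℤ := b.wt j₀ + m * (|n₀| + M) with hK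
  have hex : ∀ j ∈ s₀, ∃ A ∈ MF ⊤ (K - b.wt j), A z₀ ≠ 0 := by
    intro j hj
    obtain ⟨t, ht⟩ := hdvd j hj
    have hKj : K - b.wt j = m * (t + |n₀| + M) := by rw [hK]; linear_combination ht
    rw [hKj]
    apply hn₀
    have h1 : |m * t| ≤ M := by rw [← ht]; exact hMge j hj
    have h2 : |t| ≤ |m * t| := by
      rw [abs_mul]
      have : 1 ≤ |m| := by rw [abs_of_pos hm]; omega
      nlinarith [abs_nonneg t]
    have h3 : -M ≤ t := by
      have := neg_abs_le t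
      linarith
    have h4 : n₀ ≤ |n₀| := le_abs_self n₀
    linarith
  choose! A hAmem hA0 using hex
  set a : b.J → ℍ → ℂ := fun j => (c j / A j z₀) • A j with ha
  have hamem : ∀ j ∈ s₀, a j ∈ MF ⊤ (K - b.wt j) := fun j hj =>
    Submodule.smul_mem _ _ (hAmem j hj)
  have haz : ∀ j ∈ s₀, a j z₀ = c j := by
    intro j hj
    simp only [ha, Pi.smul_apply, smul_eq_mul]
    exact div_mul_cancel₀ _ (hA0 j hj)
  have hrel : ∀ q, ∑ j ∈ s₀, a j z₀ * b.ev z₀ j q = 0 := by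
    intro q
    have := congrFun hcls q
    simp only [Finset.sum_apply, Pi.smul_apply, smul_eq_mul, Pi.zero_apply] at this
    rw [← this]
    exact Finset.sum_congr rfl fun j hj => by rw [haz j hj]
  have := core_step b z₀ hBmem hdiv hB0 hzeros s₀ K a hamem hrel j₀ hj₀s₀
  rw [haz j₀ hj₀s₀] at this
  exact this

/-! ### Level one facts at `i` and `ρ` -/

theorem S_smul_I : ModularGroup.S • (I : ℍ) = I := by
  rw [modular_S_smul]; ext; simp [coe_I]

theorem denom_S_I : denom (ModularGroup.S : SL(2, ℤ)) (I : ℍ) = Complex.I := by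
  rw [ModularGroup.denom_apply]; simp [ModularGroup.S]

theorem top_apply_smul {k : ℤ} {F : ℍ → ℂ} (hF : F ∈ MF ⊤ k) (γ : SL(2, ℤ)) (z : ℍ) :
    F (γ • z) = denom γ z ^ k * F z := by
  have h := congrFun (MF.slash_top hF γ) z
  rw [SL_slash_apply] at h
  rw [← h, mul_comm, mul_assoc, ← zpow_add₀ (denom_ne_zero _ z)]
  simp

theorem E₆_I : E₆ I = 0 := by
  have h := top_apply_smul (coe_mem_MF_top E₆) ModularGroup.S I
  rw [S_smul_I, denom_S_I] at h
  have h6 : (Complex.I) ^ (6 : ℤ) = -1 := by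
    have : (6 : ℤ) = ((6 : ℕ) : ℤ) := rfl
    rw [this, zpow_natCast]
    have : (Complex.I) ^ 6 = (Complex.I ^ 2) ^ 3 := by ring
    rw [this, Complex.I_sq]; norm_num
  rw [h6] at h
  have : 2 * E₆ I = 0 := by linear_combination h
  simpa using this

theorem E₄_E₆_not_both_zero (z : ℍ) : E₄ z ≠ 0 ∨ E₆ z ≠ 0 := by
  by_contra h
  rw [not_or, not_not, not_not] at h
  have := discriminant_eq_E₄_cube_sub_E₆_sq z
  rw [h.1, h.2] at this
  exact discriminant_ne_zero z (by simpa using this)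

theorem E₄_I_ne : E₄ I ≠ 0 := (E₄_E₆_not_both_zero I).resolve_right (not_not.2 E₆_I)

theorem zeros_E₆ (hgeo : LevelOneGeometry) (z : ℍ) (hz : E₆ z = 0) :
    ∃ γ : SL(2, ℤ), z = γ • (I : ℍ) := by
  have h4 : E₄ z ≠ 0 := (E₄_E₆_not_both_zero z).resolve_right (not_not.2 hz)
  obtain ⟨lam, hlam⟩ := IsAlgClosed.exists_pow_nat_eq (E₄ z / E₄ I) (n := 4) (by norm_num)
  have hlam0 : lam ≠ 0 := by
    rintro rfl
    rw [zero_pow (by norm_num)] at hlam
    exact div_ne_zero h4 E₄_I_ne hlam.symm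
  refine hgeo.inj I z lam hlam0 ?_ ?_
  · rw [hlam, div_mul_cancel₀ _ E₄_I_ne]
  · rw [hz, E₆_I, mul_zero]

theorem I_zpow_class (k k' : ℤ) (h : (Complex.I) ^ k = (Complex.I) ^ k') : (4 : ℤ) ∣ k - k' := by
  have hI : IsPrimitiveRoot Complex.I 4 := Complex.isPrimitiveRoot_I
  have : (Complex.I) ^ (k - k') = 1 := by
    rw [zpow_sub₀ Complex.I_ne_zero, h, div_self (zpow_ne_zero _ Complex.I_ne_zero)]
  exact_mod_cast (hI.zpow_eq_one_iff_dvd _).1 this


theorem coe_rho : ((rho : ℍ) : ℂ) = ⟨-1 / 2, Real.sqrt 3 / 2⟩ := rfl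

theorem rho_add_one_eq_exp : ((rho : ℍ) : ℂ) + 1 = Complex.exp (2 * Real.pi * Complex.I / (6 : ℕ)) := by
  have h : (2 * Real.pi * Complex.I / (6 : ℕ) : ℂ) = ((Real.pi / 3 : ℝ) : ℂ) * Complex.I := by
    push_cast; ring
  rw [h, Complex.exp_mul_I, ← Complex.ofReal_cos, ← Complex.ofReal_sin, Real.cos_pi_div_three,
    Real.sin_pi_div_three, coe_rho]
  apply Complex.ext <;> simp <;> norm_num

theorem isPrimitiveRoot_rho_add_one : IsPrimitiveRoot (((rho : ℍ) : ℂ) + 1) 6 := by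
  rw [rho_add_one_eq_exp]
  exact Complex.isPrimitiveRoot_exp 6 (by norm_num)

theorem rho_rel : ((rho : ℍ) : ℂ) * (((rho : ℍ) : ℂ) + 1) = -1 := by
  rw [coe_rho]
  have h3 : Real.sqrt 3 * Real.sqrt 3 = 3 := Real.mul_self_sqrt (by norm_num)
  apply Complex.ext
  · simp only [Complex.mul_re, Complex.add_re, Complex.add_im, Complex.one_re, Complex.one_im,
      Complex.neg_re]
    nlinarith [h3]
  · simp only [Complex.mul_im, Complex.add_re, Complex.add_im, Complex.one_re, Complex.one_im,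
      Complex.neg_im]
    ring

theorem ST_smul_rho : (ModularGroup.S * ModularGroup.T) • rho = rho := by
  rw [mul_smul, modular_T_smul, modular_S_smul]
  ext
  simp only [UpperHalfPlane.coe_vadd]
  have h := rho_rel
  have hne : (-((1 : ℝ) + ((rho : ℍ) : ℂ))) ≠ 0 := by
    intro h0
    have : ((rho : ℍ) : ℂ) + 1 = 0 := by
      have := neg_eq_zero.1 h0
      push_cast at this
      linear_combination this
    rw [this, mul_zero] at h
    norm_num at h
  change (-(((1 : ℝ) : ℂ) + ((rho : ℍ) : ℂ)))⁻¹ = ((rho : ℍ) : ℂ)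
  apply inv_eq_of_mul_eq_one_left
  push_cast
  linear_combination -h

theorem ST_entries : ((ModularGroup.S * ModularGroup.T : SL(2, ℤ)) 1 0 = 1) ∧
    ((ModularGroup.S * ModularGroup.T : SL(2, ℤ)) 1 1 = 1) := by
  constructor
  · show ((ModularGroup.S : SL(2, ℤ)).1 * (ModularGroup.T : SL(2, ℤ)).1) 1 0 = 1
    simp [ModularGroup.S, ModularGroup.T, Matrix.mul_apply, Fin.sum_univ_two]
  · show ((ModularGroup.S : SL(2, ℤ)).1 * (ModularGroup.T : SL(2, ℤ)).1) 1 1 = 1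
    simp [ModularGroup.S, ModularGroup.T, Matrix.mul_apply, Fin.sum_univ_two]

theorem denom_ST_rho :
    denom ((ModularGroup.S * ModularGroup.T : SL(2, ℤ))) rho = (rho : ℂ) + 1 := by
  rw [ModularGroup.denom_apply, ST_entries.1, ST_entries.2]; simp


theorem E₄_rho : E₄ rho = 0 := by
  have h := top_apply_smul (coe_mem_MF_top E₄) (ModularGroup.S * ModularGroup.T) rho
  rw [ST_smul_rho, denom_ST_rho] at h
  have h4 : (((rho : ℍ) : ℂ) + 1) ^ (4 : ℤ) ≠ 1 := by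
    intro h1
    have := (isPrimitiveRoot_rho_add_one.zpow_eq_one_iff_dvd 4).1 h1
    norm_num at this
  by_contra hne
  apply h4
  have : ((((rho : ℍ) : ℂ) + 1) ^ (4 : ℤ) - 1) * E₄ rho = 0 := by linear_combination -h
  rcases mul_eq_zero.1 this with h0 | h0
  · exact sub_eq_zero.1 h0
  · exact absurd h0 hne

theorem E₆_rho_ne : E₆ rho ≠ 0 := (E₄_E₆_not_both_zero rho).resolve_left (not_not.2 E₄_rho)

theorem zeros_E₄ (hgeo : LevelOneGeometry) (z : ℍ) (hz : E₄ z = 0) :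
    ∃ γ : SL(2, ℤ), z = γ • (rho : ℍ) := by
  have h6 : E₆ z ≠ 0 := (E₄_E₆_not_both_zero z).resolve_left (not_not.2 hz)
  obtain ⟨lam, hlam⟩ := IsAlgClosed.exists_pow_nat_eq (E₆ z / E₆ rho) (n := 6) (by norm_num)
  have hlam0 : lam ≠ 0 := by
    rintro rfl
    rw [zero_pow (by norm_num)] at hlam
    exact div_ne_zero h6 E₆_rho_ne hlam.symm
  refine hgeo.inj rho z lam hlam0 ?_ ?_
  · rw [hz, E₄_rho, mul_zero]
  · rw [hlam, div_mul_cancel₀ _ E₆_rho_ne]

theorem rho_zpow_class (k k' : ℤ)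
    (h : (((rho : ℍ) : ℂ) + 1) ^ k = (((rho : ℍ) : ℂ) + 1) ^ k') : (6 : ℤ) ∣ k - k' := by
  have hne : (((rho : ℍ) : ℂ) + 1) ≠ 0 := isPrimitiveRoot_rho_add_one.ne_zero (by norm_num)
  have : (((rho : ℍ) : ℂ) + 1) ^ (k - k') = 1 := by
    rw [zpow_sub₀ hne, h, div_self (zpow_ne_zero _ hne)]
  exact_mod_cast (isPrimitiveRoot_rho_add_one.zpow_eq_one_iff_dvd _).1 this

/-- Powers of a level one form, with integer exponent bookkeeping. -/
theorem exists_pow_form {l : ℤ} {A : ℍ → ℂ} (hA : A ∈ MF ⊤ l) (z₀ : ℍ) (hA0 : A z₀ ≠ 0) :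
    ∃ n₀ : ℤ, ∀ n : ℤ, n₀ ≤ n → ∃ A' ∈ MF ⊤ (l * n), A' z₀ ≠ 0 := by
  refine ⟨0, fun n hn => ⟨A ^ n.toNat, ?_, ?_⟩⟩
  · have := MF.pow hA n.toNat
    rwa [Int.toNat_of_nonneg hn, mul_comm] at this
  · rw [Pi.pow_apply]; exact pow_ne_zero _ hA0

/-- **LI2** (stronger form: no hypothesis `-1 ∈ Γ`, no finiteness needed). -/
theorem LI2_I' (hgeo : LevelOneGeometry) (b : RBasis Γ) (hdiv : DivProp Γ 6 ⇑E₆) : b.LIAt I :=
  liAt_of_data b I ModularGroup.S S_smul_I (coe_mem_MF_top E₆) hdiv E₆_I (zeros_E₆ hgeo)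
    (m := 4) (by norm_num)
    (by rw [denom_S_I]; exact I_zpow_class)
    (exists_pow_form (coe_mem_MF_top E₄) I E₄_I_ne)

/-- **LI2**, statement of the skeleton. -/
theorem LI2_I (hgeo : LevelOneGeometry) [Γ.FiniteIndex] (hneg : -1 ∈ Γ) (b : RBasis Γ)
    (hdiv : DivProp Γ 6 ⇑E₆) : b.LIAt I :=
  LI2_I' hgeo b hdiv

/-- **LI3** (stronger form). -/
theorem LI3_rho' (hgeo : LevelOneGeometry) (b : RBasis Γ) (hdiv : DivProp Γ 4 ⇑E₄) :
    b.LIAt rho :=
  liAt_of_data b rho (ModularGroup.S * ModularGroup.T) ST_smul_rho (coe_mem_MF_top E₄) hdiv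
    E₄_rho (zeros_E₄ hgeo) (m := 6) (by norm_num)
    (by rw [denom_ST_rho]; exact rho_zpow_class)
    (exists_pow_form (coe_mem_MF_top E₆) rho E₆_rho_ne)

/-- **LI3**, statement of the skeleton. -/
theorem LI3_rho (hgeo : LevelOneGeometry) [Γ.FiniteIndex] (hneg : -1 ∈ Γ) (b : RBasis Γ)
    (hdiv : DivProp Γ 4 ⇑E₄) : b.LIAt rho :=
  LI3_rho' hgeo b hdiv


end Fermat.Agent.S20.H61
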