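import Fermat.Agent.S20.H74_Defs
import Fermat.Agent.S20.H61_LI

/-!
# S20 core, packages LI4, LI1, LI5 (helper53): local independence of an `RBasis`

* `LI4_smul` : local independence is invariant under `SL(2, ℤ)`;
* `LI1_generic` : local independence at points where `E₄, E₆ ≠ 0`
  (from the general criterion `H61.liAt_of_data` of helper61, with `δ = -1`);
* `LI5_all_of` : local independence everywhere, given the elliptic points.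
-/

set_option autoImplicit false

namespace Fermat.Agent.S20.H53

open UpperHalfPlane ModularForm MatrixGroups Filter EisensteinSeries
open scoped Manifold Topology
open Fermat.Agent.S20.H74

variable {Γ : Subgroup SL(2, ℤ)}

/-! ## LI4 -/

/-- The evaluation vector at `γ • z` in terms of the one at `z`. -/
lemma ev_smul (b : RBasis Γ) (z : ℍ) (γ : SL(2, ℤ)) (j : b.J) :
    b.ev (γ • z) j = (denom γ z ^ (b.wt j)) • fun q => b.ev z j (γ⁻¹ • q) := by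
  funext q
  simp only [RBasis.ev, Pi.smul_apply, smul_eq_mul]
  exact cf_apply_smul (b.mem j).2.1 q γ z

/-- **LI4**: independence is invariant under `SL(2, ℤ)`. -/
theorem LI4_smul (b : RBasis Γ) (z : ℍ) (γ : SL(2, ℤ)) (h : b.LIAt z) : b.LIAt (γ • z) := by
  unfold RBasis.LIAt at h ⊢
  let e : (SL(2, ℤ) ⧸ Γ) ≃ (SL(2, ℤ) ⧸ Γ) := MulAction.toPerm (γ⁻¹ : SL(2, ℤ))
  let L : ((SL(2, ℤ) ⧸ Γ) → ℂ) ≃ₗ[ℂ] ((SL(2, ℤ) ⧸ Γ) → ℂ) := LinearEquiv.funCongrLeft ℂ ℂ e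
  have h1 : LinearIndependent ℂ (fun j => L (b.ev z j)) :=
    h.map' L.toLinearMap (LinearEquiv.ker L)
  let w : b.J → ℂˣ := fun j => Units.mk0 (denom γ z ^ (b.wt j))
    (zpow_ne_zero _ (denom_ne_zero γ z))
  have h2 := h1.units_smul w
  convert h2 using 1
  funext j
  rw [ev_smul]
  rfl

/-! ## Level one helpers -/

lemma E₄_mem : (⇑E₄ : ℍ → ℂ) ∈ MF ⊤ 4 := coe_mem_MF_top E₄

lemma E₆_mem : (⇑E₆ : ℍ → ℂ) ∈ MF ⊤ 6 := coe_mem_MF_top E₆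

lemma E₄_cube_sub_E₆_sq_ne_zero (z : ℍ) : E₄ z ^ 3 - E₆ z ^ 2 ≠ 0 := by
  have h := ModularForm.discriminant_eq_E₄_cube_sub_E₆_sq z
  have h0 := ModularForm.discriminant_ne_zero z
  intro hz
  rw [hz, zero_div] at h
  exact h0 h

lemma E₄_ne_zero_of_E₆ {z : ℍ} (h : E₆ z = 0) : E₄ z ≠ 0 := by
  intro h4
  apply E₄_cube_sub_E₆_sq_ne_zero z
  rw [h, h4]; ring

lemma E₆_ne_zero_of_E₄ {z : ℍ} (h : E₄ z = 0) : E₆ z ≠ 0 := by
  intro h6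
  apply E₄_cube_sub_E₆_sq_ne_zero z
  rw [h, h6]; ring

lemma Bform_mem (z₀ : ℍ) : Bform z₀ ∈ MF ⊤ 12 := by
  have h4 : (⇑E₄ : ℍ → ℂ) ^ 3 ∈ MF ⊤ 12 := by
    have := MF.pow E₄_mem 3
    simpa using this
  have h6 : (⇑E₆ : ℍ → ℂ) ^ 2 ∈ MF ⊤ 12 := by
    have := MF.pow E₆_mem 2
    simpa using this
  have : Bform z₀ = (E₆ z₀ ^ 2) • (⇑E₄ : ℍ → ℂ) ^ 3 - (E₄ z₀ ^ 3) • (⇑E₆ : ℍ → ℂ) ^ 2 := by
    funext τ
    simp [Bform]
  rw [this]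
  exact Submodule.sub_mem _ (Submodule.smul_mem _ _ h4) (Submodule.smul_mem _ _ h6)

lemma Bform_self (z₀ : ℍ) : Bform z₀ z₀ = 0 := by
  simp only [Bform]; ring

/-- A level one form of even weight `n ≥ 4` not vanishing at a point where `E₄, E₆ ≠ 0`. -/
lemma exists_levelOne_ne_zero {z₀ : ℍ} (h4 : E₄ z₀ ≠ 0) (h6 : E₆ z₀ ≠ 0) {n : ℤ}
    (hn : Even n) (hn4 : 4 ≤ n) : ∃ h ∈ MF ⊤ n, h z₀ ≠ 0 := by
  obtain ⟨m, hm⟩ := hn
  -- n = 2 m, m ≥ 2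
  have hm2 : 2 ≤ m := by omega
  rcases Int.even_or_odd m with ⟨r, hr⟩ | ⟨r, hr⟩
  · -- n = 4 r
    have hr0 : 0 ≤ r := by omega
    refine ⟨(⇑E₄ : ℍ → ℂ) ^ r.toNat, ?_, ?_⟩
    · have := MF.pow E₄_mem r.toNat
      have e : ((r.toNat : ℕ) : ℤ) * 4 = n := by
        rw [Int.toNat_of_nonneg hr0]; omega
      rwa [e] at this
    · simp only [Pi.pow_apply]
      exact pow_ne_zero _ h4
  · -- n = 4 r + 2 = 4 (r - 1) + 6
    have hr1 : 0 ≤ r - 1 := by omega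
    refine ⟨(⇑E₄ : ℍ → ℂ) ^ (r - 1).toNat * ⇑E₆, ?_, ?_⟩
    · have h1 := MF.pow E₄_mem (r - 1).toNat
      refine MF.mul' h1 E₆_mem ?_
      rw [Int.toNat_of_nonneg hr1]; omega
    · simp only [Pi.mul_apply, Pi.pow_apply]
      exact mul_ne_zero (pow_ne_zero _ h4) h6

/-- Square roots in `ℂ`. -/
lemma exists_sq_eq (x : ℂ) : ∃ lam : ℂ, lam ^ 2 = x :=
  ⟨x ^ (((2 : ℕ) : ℂ)⁻¹), Complex.cpow_nat_inv_pow x (by norm_num)⟩

/-- Fourth roots in `ℂ`. -/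
lemma exists_pow_four_eq (x : ℂ) : ∃ lam : ℂ, lam ^ 4 = x :=
  ⟨x ^ (((4 : ℕ) : ℂ)⁻¹), Complex.cpow_nat_inv_pow x (by norm_num)⟩

/-- Sixth roots in `ℂ`. -/
lemma exists_pow_six_eq (x : ℂ) : ∃ lam : ℂ, lam ^ 6 = x :=
  ⟨x ^ (((6 : ℕ) : ℂ)⁻¹), Complex.cpow_nat_inv_pow x (by norm_num)⟩

/-- The zeros of `Bform z₀` have `E₄, E₆ ≠ 0`. -/
lemma E₄_E₆_ne_zero_of_Bform_eq_zero {z₀ z : ℍ} (h4 : E₄ z₀ ≠ 0)
    (h6 : E₆ z₀ ≠ 0) (hz : Bform z₀ z = 0) : E₄ z ≠ 0 ∧ E₆ z ≠ 0 := by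
  simp only [Bform] at hz
  have hΔ := E₄_cube_sub_E₆_sq_ne_zero z
  have h4z : E₄ z ≠ 0 := by
    intro h
    rw [h] at hz hΔ
    have : E₆ z ^ 2 = 0 := by
      have h' : E₄ z₀ ^ 3 * E₆ z ^ 2 = 0 := by linear_combination -hz
      rcases mul_eq_zero.mp h' with h'' | h''
      · exact absurd (pow_eq_zero_iff (by norm_num) |>.mp h'') h4
      · exact h''
    apply hΔ
    rw [this]; ring
  refine ⟨h4z, ?_⟩
  intro h
  rw [h] at hz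
  have h' : E₆ z₀ ^ 2 * E₄ z ^ 3 = 0 := by linear_combination hz
  rcases mul_eq_zero.mp h' with h'' | h''
  · exact absurd (pow_eq_zero_iff (by norm_num) |>.mp h'') h6
  · exact absurd (pow_eq_zero_iff (by norm_num) |>.mp h'') h4z

/-- The zeros of `Bform z₀` are the `SL(2, ℤ)`-orbit of `z₀`. -/
lemma exists_smul_of_Bform_eq_zero (hgeo : LevelOneGeometry) {z₀ z : ℍ} (h4 : E₄ z₀ ≠ 0)
    (h6 : E₆ z₀ ≠ 0) (hz : Bform z₀ z = 0) : ∃ γ : SL(2, ℤ), z = γ • z₀ := by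
  obtain ⟨h4z, h6z⟩ := E₄_E₆_ne_zero_of_Bform_eq_zero h4 h6 hz
  simp only [Bform] at hz
  -- u = E₄ z / E₄ z₀, v = E₆ z / E₆ z₀, u³ = v²
  set u : ℂ := E₄ z / E₄ z₀ with hu
  set v : ℂ := E₆ z / E₆ z₀ with hv
  have hu0 : u ≠ 0 := div_ne_zero h4z h4
  have hv0 : v ≠ 0 := div_ne_zero h6z h6
  have huv : u ^ 3 = v ^ 2 := by
    rw [hu, hv, div_pow, div_pow, div_eq_div_iff (pow_ne_zero _ h4) (pow_ne_zero _ h6)]
    linear_combination hz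
  obtain ⟨lam, hlam⟩ := exists_sq_eq (v / u)
  have hlam0 : lam ≠ 0 := by
    intro h
    rw [h] at hlam
    have : v / u = 0 := by rw [← hlam]; norm_num
    exact div_ne_zero hv0 hu0 this
  have hl4 : lam ^ 4 = u := by
    have : lam ^ 4 = (lam ^ 2) ^ 2 := by ring
    rw [this, hlam, div_pow, ← huv]
    field_simp
  have hl6 : lam ^ 6 = v := by
    have : lam ^ 6 = (lam ^ 2) ^ 3 := by ring
    rw [this, hlam, div_pow, huv]
    field_simp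
  refine hgeo.inj z₀ z lam hlam0 ?_ ?_
  · rw [hl4, hu]; field_simp
  · rw [hl6, hv]; field_simp

/-! ## LI1 -/

lemma neg_one_smul_eq (z : ℍ) : (-1 : SL(2, ℤ)) • z = z := by simp

lemma denom_neg_one (z : ℍ) : denom ((-1 : SL(2, ℤ))) z = -1 := by
  simp [denom]

lemma two_dvd_of_neg_one_zpow_eq {k k' : ℤ} (h : (-1 : ℂ) ^ k = (-1 : ℂ) ^ k') :
    (2 : ℤ) ∣ k - k' := by
  have h1 : (-1 : ℂ) ^ (k - k') = 1 := by
    rw [zpow_sub₀ (by norm_num : (-1 : ℂ) ≠ 0), h]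
    exact div_self (zpow_ne_zero _ (by norm_num))
  rcases Int.even_or_odd (k - k') with he | ho
  · exact he.two_dvd
  · exfalso
    rw [ho.neg_one_zpow] at h1
    norm_num at h1

/-- **LI1**: generic points. -/
theorem LI1_generic (hgeo : LevelOneGeometry) [Γ.FiniteIndex] (b : RBasis Γ) (z₀ : ℍ)
    (h4 : E₄ z₀ ≠ 0) (h6 : E₆ z₀ ≠ 0) (hdiv : DivProp Γ 12 (Bform z₀)) : b.LIAt z₀ := by
  refine H61.liAt_of_data b z₀ (-1) (neg_one_smul_eq z₀) (Bform_mem z₀) hdiv (Bform_self z₀)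
    (fun z hz => exists_smul_of_Bform_eq_zero hgeo h4 h6 hz) (m := 2) (by norm_num) ?_ ?_
  · intro k k' h
    rw [denom_neg_one] at h
    exact two_dvd_of_neg_one_zpow_eq h
  · refine ⟨2, fun n hn => ?_⟩
    exact exists_levelOne_ne_zero h4 h6 (even_two_mul n) (by omega)

/-! ## The elliptic orbits -/

/-- The zeros of `E₆` are the orbit of any one of them. -/
lemma exists_smul_of_E₆_eq_zero (hgeo : LevelOneGeometry) {z₀ z : ℍ} (h0 : E₆ z₀ = 0)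
    (hz : E₆ z = 0) : ∃ γ : SL(2, ℤ), z = γ • z₀ := by
  have h4 := E₄_ne_zero_of_E₆ h0
  have h4z := E₄_ne_zero_of_E₆ hz
  obtain ⟨lam, hlam⟩ := exists_pow_four_eq (E₄ z / E₄ z₀)
  have hlam0 : lam ≠ 0 := by
    intro h
    rw [h] at hlam
    have : E₄ z / E₄ z₀ = 0 := by rw [← hlam]; norm_num
    exact div_ne_zero h4z h4 this
  refine hgeo.inj z₀ z lam hlam0 ?_ ?_
  · rw [hlam]; field_simp
  · rw [hz, h0, mul_zero]

/-- The zeros of `E₄` are the orbit of any one of them. -/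
lemma exists_smul_of_E₄_eq_zero (hgeo : LevelOneGeometry) {z₀ z : ℍ} (h0 : E₄ z₀ = 0)
    (hz : E₄ z = 0) : ∃ γ : SL(2, ℤ), z = γ • z₀ := by
  have h6 := E₆_ne_zero_of_E₄ h0
  have h6z := E₆_ne_zero_of_E₄ hz
  obtain ⟨lam, hlam⟩ := exists_pow_six_eq (E₆ z / E₆ z₀)
  have hlam0 : lam ≠ 0 := by
    intro h
    rw [h] at hlam
    have : E₆ z / E₆ z₀ = 0 := by rw [← hlam]; norm_num
    exact div_ne_zero h6z h6 this
  refine hgeo.inj z₀ z lam hlam0 ?_ ?_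
  · rw [hz, h0, mul_zero]
  · rw [hlam]; field_simp

/-! ## LI5 -/

/-- The limit of `Bform z₀` at `i∞`. -/
lemma tendsto_Bform (z₀ : ℍ) (t4 : Tendsto (⇑E₄ : ℍ → ℂ) atImInfty (𝓝 1))
    (t6 : Tendsto (⇑E₆ : ℍ → ℂ) atImInfty (𝓝 1)) :
    Tendsto (Bform z₀) atImInfty (𝓝 (E₆ z₀ ^ 2 - E₄ z₀ ^ 3)) := by
  have h := ((t4.pow 3).const_mul (E₆ z₀ ^ 2)).sub ((t6.pow 2).const_mul (E₄ z₀ ^ 3))
  simp only [one_pow, mul_one] at h
  exact h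

/-- **LI5**, with the elliptic points and the limits of `E₄, E₆` as hypotheses. -/
theorem LI5_all_of (hgeo : LevelOneGeometry) [Γ.FiniteIndex] (b : RBasis Γ)
    (hdivAll : ∀ (w : ℤ) (B : ℍ → ℂ), B ∈ MF ⊤ w →
      (∃ c : ℂ, c ≠ 0 ∧ Tendsto B atImInfty (𝓝 c)) →
      (∀ z : ℍ, B z = 0 → deriv (B ∘ ofComplex) z ≠ 0) → DivProp Γ w B)
    (t4 : Tendsto (⇑E₄ : ℍ → ℂ) atImInfty (𝓝 1))
    (t6 : Tendsto (⇑E₆ : ℍ → ℂ) atImInfty (𝓝 1))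
    {zI zρ : ℍ} (hI0 : E₆ zI = 0) (hρ0 : E₄ zρ = 0) (hI : b.LIAt zI) (hρ : b.LIAt zρ)
    (z : ℍ) : b.LIAt z := by
  by_cases h6 : E₆ z = 0
  · obtain ⟨γ, rfl⟩ := exists_smul_of_E₆_eq_zero hgeo hI0 h6
    exact LI4_smul b zI γ hI
  by_cases h4 : E₄ z = 0
  · obtain ⟨γ, rfl⟩ := exists_smul_of_E₄_eq_zero hgeo hρ0 h4
    exact LI4_smul b zρ γ hρ
  refine LI1_generic hgeo b z h4 h6 (hdivAll 12 (Bform z) (Bform_mem z) ?_ ?_)
  · refine ⟨E₆ z ^ 2 - E₄ z ^ 3, ?_, tendsto_Bform z t4 t6⟩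
    intro h
    apply E₄_cube_sub_E₆_sq_ne_zero z
    linear_combination -h
  · intro w hw
    obtain ⟨h4w, h6w⟩ := E₄_E₆_ne_zero_of_Bform_eq_zero h4 h6 hw
    exact hgeo.simpleB z w h4w h6w hw

end Fermat.Agent.S20.H53
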