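import Fermat.Agent.S20.H74_Defs
import Mathlib.LinearAlgebra.Vandermonde
import Mathlib.Analysis.Analytic.IsolatedZeros

/-!
# S20 packages RK1, RK2 (helper86): the rank of a basis is the index

* `RK1_finite`: local independence at one point makes the index set finite, of cardinality
  at most the index.
* `RK2_card`: a separating form `f` gives `index ≤ card J` (Vandermonde argument at a point
  where the translates of `f` take pairwise distinct values).
-/

set_option autoImplicit false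

namespace Fermat.Agent.S20.H86

open Fermat.Agent.S20.H74
open UpperHalfPlane ModularForm MatrixGroups Filter EisensteinSeries
open scoped Manifold Topology

variable {Γ : Subgroup SL(2, ℤ)}

/-! ## RK1 -/

theorem RK1_finite [Γ.FiniteIndex] (b : RBasis Γ) (z : ℍ) (h : b.LIAt z) :
    Finite b.J ∧ Nat.card b.J ≤ Γ.index := by
  classical
  have hfinC : Finite (SL(2, ℤ) ⧸ Γ) := Subgroup.finite_quotient_of_finiteIndex
  let instC : Fintype (SL(2, ℤ) ⧸ Γ) := Fintype.ofFinite _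
  have h' : LinearIndependent ℂ (b.ev z) := h
  have hfin : Finite b.J := h'.finite_of_isNoetherian
  refine ⟨hfin, ?_⟩
  let instJ : Fintype b.J := Fintype.ofFinite _
  have h1 := h'.fintype_card_le_finrank
  rw [Module.finrank_fintype_fun_eq_card] at h1
  rw [Nat.card_eq_fintype_card, Subgroup.index_eq_card, Nat.card_eq_fintype_card]
  exact h1

/-! ## Holomorphic functions on `ℍ` form a domain -/

lemma mdiff_mul_eq_zero {g h : ℍ → ℂ} (hg : MDiff g) (hh : MDiff h) (h0 : g * h = 0) :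
    g = 0 ∨ h = 0 := by
  have hG : AnalyticOnNhd ℂ (g ∘ ofComplex) {z | 0 < z.im} :=
    (UpperHalfPlane.mdifferentiable_iff.mp hg).analyticOnNhd isOpen_upperHalfPlaneSet
  have hH : AnalyticOnNhd ℂ (h ∘ ofComplex) {z | 0 < z.im} :=
    (UpperHalfPlane.mdifferentiable_iff.mp hh).analyticOnNhd isOpen_upperHalfPlaneSet
  have hU : IsPreconnected {z : ℂ | 0 < z.im} := (convex_halfSpace_im_gt 0).isPreconnected
  rcases hG.eq_zero_or_eq_zero_of_mul_eq_zero hH (fun z _ => by
      have := congrFun h0 (ofComplex z); simpa using this) hU with h1 | h1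
  · left
    funext z
    have := h1 z z.im_pos
    simpa [ofComplex_apply] using this
  · right
    funext z
    have := h1 z z.im_pos
    simpa [ofComplex_apply] using this

lemma mdiff_prod_ne_zero {ι : Type*} (s : Finset ι) (D : ι → ℍ → ℂ)
    (hD : ∀ i ∈ s, MDiff (D i)) (hne : ∀ i ∈ s, D i ≠ 0) :
    MDiff (∏ i ∈ s, D i) ∧ ∏ i ∈ s, D i ≠ 0 := by
  classical
  induction s using Finset.induction_on with
  | empty =>
    simp only [Finset.prod_empty]
    refine ⟨mdifferentiable_const (c := (1 : ℂ)), ?_⟩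
    intro h
    have := congrFun h I
    simp at this
  | insert a s ha ih =>
    rw [Finset.prod_insert ha]
    have ih' := ih (fun i hi => hD i (Finset.mem_insert_of_mem hi))
      (fun i hi => hne i (Finset.mem_insert_of_mem hi))
    have hDa := hD a (Finset.mem_insert_self a s)
    refine ⟨hDa.mul ih'.1, ?_⟩
    intro h
    rcases mdiff_mul_eq_zero hDa ih'.1 h with h1 | h1
    · exact hne a (Finset.mem_insert_self a s) h1
    · exact ih'.2 h1

/-! ## Powers -/

lemma pow_slash_SL2 (f : ℍ → ℂ) (k : ℤ) (n : ℕ) (γ : SL(2, ℤ)) :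
    (f ^ n) ∣[(n : ℤ) * k] γ = (f ∣[k] γ) ^ n := by
  induction n with
  | zero =>
    simp only [pow_zero, Nat.cast_zero, zero_mul]
    exact is_invariant_one γ
  | succ n ih =>
    rw [pow_succ, pow_succ, ← ih]
    have : ((n + 1 : ℕ) : ℤ) * k = (n : ℤ) * k + k := by push_cast; ring
    rw [this, mul_slash_SL2]

lemma isBoundedAtImInfty_pow {g : ℍ → ℂ} (hg : IsBoundedAtImInfty g) (n : ℕ) :
    IsBoundedAtImInfty (g ^ n) := by
  induction n with
  | zero =>
    simp only [pow_zero]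
    exact Filter.const_boundedAtFilter _ (1 : ℂ)
  | succ n ih =>
    rw [pow_succ]
    exact ih.mul hg

lemma MF_pow_mem {k : ℤ} {f : ℍ → ℂ} (hf : f ∈ MF Γ k) (n : ℕ) : f ^ n ∈ MF Γ ((n : ℤ) * k) := by
  refine ⟨hf.1.pow n, fun γ hγ => ?_, fun γ => ?_⟩
  · rw [pow_slash_SL2, hf.2.1 γ hγ]
  · rw [pow_slash_SL2]
    exact isBoundedAtImInfty_pow (hf.2.2 γ) n

lemma cf_pow (k : ℤ) (f : ℍ → ℂ) (n : ℕ) (q : SL(2, ℤ) ⧸ Γ) :
    cf Γ ((n : ℤ) * k) (f ^ n) q = (cf Γ k f q) ^ n := by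
  unfold cf
  rw [pow_slash_SL2]

/-! ## RK2 -/

/-- The coset functions of a separating form are pairwise distinct. -/
lemma cf_ne_of_sep {k : ℤ} {f : ℍ → ℂ} (hf : f ∈ MF Γ k)
    (hsep : ∀ g : SL(2, ℤ), f ∣[k] g = f → g ∈ Γ) (q q' : SL(2, ℤ) ⧸ Γ) (hq : q ≠ q') :
    cf Γ k f q ≠ cf Γ k f q' := by
  induction q using QuotientGroup.induction_on with
  | H g =>
    induction q' using QuotientGroup.induction_on with
    | H g' =>
      intro h
      apply hq
      rw [cf_mk hf.2.1, cf_mk hf.2.1] at h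
      have h2 : f ∣[k] (g⁻¹ * g') = f := by
        rw [SlashAction.slash_mul, h, ← SlashAction.slash_mul]
        simp
      exact QuotientGroup.eq.mpr (hsep _ h2)

/-- A point where the coset functions of a separating form take pairwise distinct values. -/
lemma exists_injective_cf [Γ.FiniteIndex] {k : ℤ} {f : ℍ → ℂ} (hf : f ∈ MF Γ k)
    (hsep : ∀ g : SL(2, ℤ), f ∣[k] g = f → g ∈ Γ) :
    ∃ z₀ : ℍ, Function.Injective (fun q : SL(2, ℤ) ⧸ Γ => cf Γ k f q z₀) := by
  classical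
  have hfinC : Finite (SL(2, ℤ) ⧸ Γ) := Subgroup.finite_quotient_of_finiteIndex
  let instC : Fintype (SL(2, ℤ) ⧸ Γ) := Fintype.ofFinite _
  let s : Finset ((SL(2, ℤ) ⧸ Γ) × (SL(2, ℤ) ⧸ Γ)) := Finset.univ.filter fun p => p.1 ≠ p.2
  let D : (SL(2, ℤ) ⧸ Γ) × (SL(2, ℤ) ⧸ Γ) → ℍ → ℂ := fun p => cf Γ k f p.1 - cf Γ k f p.2
  have hD : ∀ p ∈ s, MDiff (D p) := fun p _ => (cf_mdiff hf.1 p.1).sub (cf_mdiff hf.1 p.2)
  have hne : ∀ p ∈ s, D p ≠ 0 := by
    intro p hp h
    have hp' : p.1 ≠ p.2 := (Finset.mem_filter.mp hp).2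
    exact cf_ne_of_sep hf hsep p.1 p.2 hp' (sub_eq_zero.mp h)
  obtain ⟨-, hP⟩ := mdiff_prod_ne_zero s D hD hne
  obtain ⟨z₀, hz₀⟩ : ∃ z₀ : ℍ, (∏ p ∈ s, D p) z₀ ≠ 0 := by
    by_contra hcon
    push Not at hcon
    exact hP (funext hcon)
  refine ⟨z₀, fun q q' hqq' => ?_⟩
  by_contra hne'
  apply hz₀
  rw [Finset.prod_apply]
  refine Finset.prod_eq_zero (i := (q, q')) (Finset.mem_filter.mpr ⟨Finset.mem_univ _, hne'⟩) ?_
  simp only [D, Pi.sub_apply]
  exact sub_eq_zero.mpr hqq'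

/-- RK2: Vandermonde. `hsep` = Part D. -/
theorem RK2_card [Γ.FiniteIndex] (b : RBasis Γ) [Finite b.J]
    (hsep : ∃ (k : ℤ) (f : ℍ → ℂ), f ∈ MF Γ k ∧ ∀ g : SL(2, ℤ), f ∣[k] g = f → g ∈ Γ) :
    Γ.index ≤ Nat.card b.J := by
  classical
  obtain ⟨k, f, hf, hsep⟩ := hsep
  have hfinC : Finite (SL(2, ℤ) ⧸ Γ) := Subgroup.finite_quotient_of_finiteIndex
  let instC : Fintype (SL(2, ℤ) ⧸ Γ) := Fintype.ofFinite _
  let instJ : Fintype b.J := Fintype.ofFinite _
  obtain ⟨z₀, hz₀⟩ := exists_injective_cf hf hsep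
  set n := Fintype.card (SL(2, ℤ) ⧸ Γ) with hn
  let e : (SL(2, ℤ) ⧸ Γ) ≃ Fin n := Fintype.equivFin _
  let v : Fin n → ℂ := fun i => cf Γ k f (e.symm i) z₀
  have hv : Function.Injective v := fun i j hij => e.symm.injective (hz₀ hij)
  have hdet := Matrix.det_vandermonde_ne_zero_iff.mpr hv
  have hli : LinearIndependent ℂ (Matrix.vandermonde v).col :=
    Matrix.linearIndependent_cols_of_det_ne_zero hdet
  -- transport to vectors indexed by the cosets
  let w : Fin n → (SL(2, ℤ) ⧸ Γ) → ℂ := fun j q => (cf Γ k f q z₀) ^ (j : ℕ)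
  have hw : LinearIndependent ℂ w := by
    have h1 := hli.map' (LinearEquiv.funCongrLeft ℂ ℂ e).toLinearMap (LinearEquiv.ker _)
    have h2 : ((LinearEquiv.funCongrLeft ℂ ℂ e).toLinearMap ∘ (Matrix.vandermonde v).col) = w := by
      funext j q
      change (LinearEquiv.funCongrLeft ℂ ℂ e) ((Matrix.vandermonde v).col j) q = _
      rw [LinearEquiv.funCongrLeft_apply, LinearMap.funLeft_apply]
      simp [w, v, Matrix.col, Matrix.vandermonde_apply]
    rwa [h2] at h1
  -- each `w j` lies in the span of the evaluation vectors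
  have hspan : Set.range w ⊆ Submodule.span ℂ (Set.range (b.ev z₀)) := by
    rintro _ ⟨j, rfl⟩
    obtain ⟨s, a, ha, hfa⟩ := b.gen (((j : ℕ) : ℤ) * k) (f ^ (j : ℕ)) (MF_pow_mem hf j)
    have hwj : w j = ∑ i ∈ s, (a i z₀) • b.ev z₀ i := by
      funext q
      have h1 : cf Γ (((j : ℕ) : ℤ) * k) (f ^ (j : ℕ)) q = (cf Γ k f q) ^ (j : ℕ) := cf_pow k f j q
      have h2 : cf Γ (((j : ℕ) : ℤ) * k) (f ^ (j : ℕ)) q
          = ∑ i ∈ s, a i * cf Γ (b.wt i) (b.F i) q := by
        conv_lhs => rw [hfa]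
        rw [cf_sum]
        exact Finset.sum_congr rfl fun i hi => cf_mul' (ha i hi) (by ring) q
      have h3 := congrFun (h1.symm.trans h2) z₀
      simp only [Pi.pow_apply, Finset.sum_apply, Pi.mul_apply] at h3
      simp only [w, Finset.sum_apply, Pi.smul_apply, smul_eq_mul, RBasis.ev]
      exact h3
    rw [hwj]
    exact Submodule.sum_mem _ fun i _ =>
      Submodule.smul_mem _ _ (Submodule.subset_span ⟨i, rfl⟩)
  -- count
  have hcount := linearIndependent_le_span' w hw (Set.range (b.ev z₀)) hspan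
  rw [Cardinal.mk_fintype, Fintype.card_fin] at hcount
  have hcount' : n ≤ Fintype.card (Set.range (b.ev z₀)) := by exact_mod_cast hcount
  have hle : Fintype.card (Set.range (b.ev z₀)) ≤ Fintype.card b.J :=
    Fintype.card_range_le _
  rw [Subgroup.index_eq_card, Nat.card_eq_fintype_card, Nat.card_eq_fintype_card]
  exact hcount'.trans hle

end Fermat.Agent.S20.H86
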