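import Fermat.Agent.S20.H74_Final
import Fermat.Agent.S20.H53_LI
import Fermat.Agent.S20.H61_LI
import Fermat.Agent.S20.H86_Rank
import Fermat.Agent.S20.H70_Ramanujan

/-!
# S20 core (helper74): assembly, second stage

The core count from the packages `B_div`, `INF1`, `INF2` (hypotheses) and the level one geometry.
-/

set_option autoImplicit false

namespace Fermat.Agent.S20.H74

open UpperHalfPlane ModularForm MatrixGroups Filter EisensteinSeries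
open scoped Manifold Topology

/-- local independence everywhere, from the division property -/
theorem LI_all_of_div (hgeo : LevelOneGeometry) (Γ : Subgroup SL(2, ℤ)) [Γ.FiniteIndex]
    (hdivAll : ∀ (w : ℤ) (B : ℍ → ℂ), B ∈ MF ⊤ w →
      (∃ c : ℂ, c ≠ 0 ∧ Tendsto B atImInfty (𝓝 c)) →
      (∀ z : ℍ, B z = 0 → deriv (B ∘ ofComplex) z ≠ 0) → DivProp Γ w B)
    (b : RBasis Γ) (z : ℍ) : b.LIAt z := by
  have t4 : Tendsto (⇑E₄ : ℍ → ℂ) atImInfty (𝓝 1) := H70.tendsto_E₄_atImInfty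
  have t6 : Tendsto (⇑E₆ : ℍ → ℂ) atImInfty (𝓝 1) := H70.tendsto_E₆_atImInfty
  have hd6 : DivProp Γ 6 ⇑E₆ :=
    hdivAll 6 ⇑E₆ (coe_mem_MF_top E₆) ⟨1, one_ne_zero, t6⟩ hgeo.simpleE6
  have hd4 : DivProp Γ 4 ⇑E₄ :=
    hdivAll 4 ⇑E₄ (coe_mem_MF_top E₄) ⟨1, one_ne_zero, t4⟩ hgeo.simpleE4
  exact H53.LI5_all_of hgeo b hdivAll t4 t6 H61.E₆_I H61.E₄_rho
    (H61.LI2_I' hgeo b hd6) (H61.LI3_rho' hgeo b hd4) z

theorem core_of_div_inf (hgeo : LevelOneGeometry) (Γ : Subgroup SL(2, ℤ)) [Γ.FiniteIndex]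
    (hneg : -1 ∈ Γ)
    (hsep : ∃ (k : ℤ) (f : ℍ → ℂ), f ∈ MF Γ k ∧ ∀ g : SL(2, ℤ), f ∣[k] g = f → g ∈ Γ)
    (hdivAll : ∀ (w : ℤ) (B : ℍ → ℂ), B ∈ MF ⊤ w →
      (∃ c : ℂ, c ≠ 0 ∧ Tendsto B atImInfty (𝓝 c)) →
      (∀ z : ℍ, B z = 0 → deriv (B ∘ ofComplex) z ≠ 0) → DivProp Γ w B)
    (hINF1 : ∀ K : ℤ, Module.Finite ℂ (MF Γ K) →
      Module.finrank ℂ (MF Γ K) = Module.finrank ℂ (MF Γ (K - 12)) + Γ.index →
      Module.finrank ℂ (MF Γ K) = Module.finrank ℂ (CF Γ K) + cuspNum Γ)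
    (hINF2 : ∀ K : ℤ, Module.Finite ℂ (MF Γ K) →
      Module.finrank ℂ (MF Γ K) = Module.finrank ℂ (MF Γ (K - 12)) + Γ.index →
      ∃ (N : ℕ) (_ : 0 < N) (G : (SL(2, ℤ) ⧸ Γ) → ℍ → ℂ) (a : (SL(2, ℤ) ⧸ Γ) → ℕ)
        (E₀ : (SL(2, ℤ) ⧸ Γ) → (SL(2, ℤ) ⧸ Γ) → ℂ),
        (∀ i, G i ∈ MF Γ K) ∧ (∀ i, a i < N) ∧
        LinearIndependent ℂ (fun i => fun q => E₀ q i) ∧
        ∀ q i, Tendsto (fun z : ℍ =>
          Complex.exp (-2 * Real.pi * Complex.I * (a i) * z / N) * cf Γ K (G i) q z)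
          atImInfty (𝓝 (E₀ q i))) :
    12 * (Module.finrank ℂ (CF Γ 2) : ℤ) + 3 * ellTwo Γ + 4 * ellThree Γ + 6 * cuspNum Γ
      = 12 + Γ.index :=
  core_of_packages Γ hneg (fun b z => LI_all_of_div hgeo Γ hdivAll b z)
    (fun b z h => H86.RK1_finite b z h) (fun b _ => H86.RK2_card b hsep) hINF1 hINF2

end Fermat.Agent.S20.H74
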