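import Fermat.Agent.S20.H19_Cosets

/-!
# S20, part G (helper19): fixed points of `S` and `S * T` on `SL(2, ℤ) ⧸ Gamma0 N`
-/

namespace Fermat.Agent.S20.H19

open CongruenceSubgroup MatrixGroups Matrix

variable (N : ℕ)

/-- The lower unipotent matrix `[[1, 0], [x, 1]]`. -/
def lowerU (x : ℤ) : SL(2, ℤ) := ⟨!![1, 0; x, 1], by simp [Matrix.det_fin_two]⟩

@[simp] lemma lowerU_apply_zero_zero (x : ℤ) : (lowerU x) 0 0 = 1 := rfl
@[simp] lemma lowerU_apply_one_zero (x : ℤ) : (lowerU x) 1 0 = x := rfl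

/-- General counting lemma: if a predicate `P` on cosets is given on representatives by
`N ∣ a² + t a c + c²`, then the cosets satisfying `P` are in bijection with the roots of
`x² + t x + 1` in `ZMod N`. -/
theorem card_fixed_quadratic [NeZero N] (t : ℤ) (P : SL(2, ℤ) ⧸ Gamma0 N → Prop)
    (hP : ∀ g : SL(2, ℤ), P (QuotientGroup.mk g) ↔
      (N : ℤ) ∣ g 0 0 ^ 2 + t * (g 0 0 * g 1 0) + g 1 0 ^ 2) :
    Nat.card {q : SL(2, ℤ) ⧸ Gamma0 N // P q} =
      Nat.card {x : ZMod N // x ^ 2 + (t : ZMod N) * x + 1 = 0} := by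
  symm
  -- the map from roots to cosets
  have hroot : ∀ x : {x : ZMod N // x ^ 2 + (t : ZMod N) * x + 1 = 0},
      P (QuotientGroup.mk (lowerU ((x : ZMod N).cast : ℤ))) := by
    intro x
    rw [hP]
    simp only [lowerU_apply_zero_zero, lowerU_apply_one_zero]
    rw [← ZMod.intCast_zmod_eq_zero_iff_dvd]
    push_cast
    have := x.2
    linear_combination this
  let f : {x : ZMod N // x ^ 2 + (t : ZMod N) * x + 1 = 0} → {q : SL(2, ℤ) ⧸ Gamma0 N // P q} :=
    fun x => ⟨QuotientGroup.mk (lowerU ((x : ZMod N).cast : ℤ)), hroot x⟩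
  refine Nat.card_eq_of_bijective f ⟨?_, ?_⟩
  · intro x y hxy
    have h := congrArg Subtype.val hxy
    simp only [f] at h
    rw [coset_eq_iff] at h
    simp only [lowerU_apply_zero_zero, lowerU_apply_one_zero] at h
    rw [← ZMod.intCast_zmod_eq_zero_iff_dvd] at h
    push_cast at h
    apply Subtype.ext
    linear_combination -h
  · rintro ⟨q, hq⟩
    induction q using QuotientGroup.induction_on with
    | H g =>
      rw [hP] at hq
      -- `a` is a unit mod `N`
      have hcop : IsCoprime (g 0 0) (g 1 0) := isCoprime_col g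
      have hcop2 : IsCoprime (g 0 0) (g 0 0 ^ 2 + t * (g 0 0 * g 1 0) + g 1 0 ^ 2) := by
        have h1 : IsCoprime (g 0 0) (g 1 0 ^ 2) := hcop.pow_right
        have h2 : g 0 0 ^ 2 + t * (g 0 0 * g 1 0) + g 1 0 ^ 2
            = g 1 0 ^ 2 + g 0 0 * (g 0 0 + t * g 1 0) := by ring
        rw [h2]
        exact h1.add_mul_left_right _
      have hcopN : IsCoprime (g 0 0) (N : ℤ) := hcop2.of_isCoprime_of_dvd_right hq
      have hunit : IsUnit ((g 0 0 : ℤ) : ZMod N) := by
        rw [ZMod.coe_int_isUnit_iff_isCoprime]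
        exact hcopN.symm
      obtain ⟨u, hu⟩ := hunit
      set x : ZMod N := (g 1 0 : ZMod N) * (u⁻¹ : (ZMod N)ˣ) with hx
      have hxu : x * (g 0 0 : ZMod N) = (g 1 0 : ZMod N) := by
        rw [hx, ← hu, mul_assoc, Units.inv_mul, mul_one]
      have hq' : ((g 0 0 : ℤ) : ZMod N) ^ 2 + (t : ZMod N) * ((g 0 0 : ZMod N) * (g 1 0 : ZMod N))
          + (g 1 0 : ZMod N) ^ 2 = 0 := by
        have := (ZMod.intCast_zmod_eq_zero_iff_dvd _ N).mpr hq
        push_cast at this
        exact this
      have hxroot : x ^ 2 + (t : ZMod N) * x + 1 = 0 := by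
        have h3 : (x ^ 2 + (t : ZMod N) * x + 1) * (u : ZMod N) ^ 2 = 0 := by
          rw [hu]
          rw [← hxu] at hq'
          linear_combination hq'
        have hu2 : IsUnit ((u : ZMod N) ^ 2) := (u ^ 2).isUnit
        exact (hu2.mul_left_eq_zero).mp h3
      refine ⟨⟨x, hxroot⟩, ?_⟩
      apply Subtype.ext
      simp only [f]
      rw [coset_eq_iff]
      simp only [lowerU_apply_zero_zero, lowerU_apply_one_zero]
      rw [← ZMod.intCast_zmod_eq_zero_iff_dvd]
      push_cast
      linear_combination -hxu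

/-- **G2**: the number of cosets fixed by `S` is `nuTwo N`. -/
theorem G2 [NeZero N] :
    Nat.card {q : SL(2, ℤ) ⧸ Gamma0 N // ModularGroup.S • q = q} = ModularCurve.nuTwo N := by
  rw [ModularCurve.nuTwo]
  have h := card_fixed_quadratic N 0 (fun q => ModularGroup.S • q = q) (by
    intro g
    rw [S_smul_eq_iff]
    simp)
  rw [h]
  refine Nat.card_congr (Equiv.subtypeEquivRight ?_)
  intro x
  simp

/-- **G3**: the number of cosets fixed by `S * T` is `nuThree N`. -/
theorem G3 [NeZero N] :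
    Nat.card {q : SL(2, ℤ) ⧸ Gamma0 N // (ModularGroup.S * ModularGroup.T) • q = q}
      = ModularCurve.nuThree N := by
  rw [ModularCurve.nuThree]
  have h := card_fixed_quadratic N 1 (fun q => (ModularGroup.S * ModularGroup.T) • q = q) (by
    intro g
    rw [ST_smul_eq_iff]
    simp)
  rw [h]
  refine Nat.card_congr (Equiv.subtypeEquivRight ?_)
  intro x
  simp

end Fermat.Agent.S20.H19
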