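import Mathlib.Analysis.SpecialFunctions.Elliptic.Weierstrass
import Mathlib.Analysis.Meromorphic.Order

/-!
# A lattice is determined by its Eisenstein sums `G k`, `k ≥ 3`
-/

set_option autoImplicit false

open Filter Topology
open scoped PeriodPair

namespace Fermat.Agent.S20.H29

/-- The common power series of `℘[L - 0]` at `0`. -/
private lemma series_zero_eq (L₁ L₂ : PeriodPair)
    (h : ∀ k : ℕ, 3 ≤ k → L₁.G k = L₂.G k) :
    (FormalMultilinearSeries.ofScalars ℂ fun i : ℕ =>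
        if i = 0 then ℘[L₁ - (0 : ℂ)] 0 else ((i : ℂ) + 1) * L₁.sumInvPow 0 (i + 2)) =
    (FormalMultilinearSeries.ofScalars ℂ fun i : ℕ =>
        if i = 0 then ℘[L₂ - (0 : ℂ)] 0 else ((i : ℂ) + 1) * L₂.sumInvPow 0 (i + 2)) := by
  congr 1
  funext i
  rcases Nat.eq_zero_or_pos i with rfl | hi
  · simp
  · have hi0 : i ≠ 0 := by omega
    simp only [hi0, if_false, PeriodPair.sumInvPow_zero]
    rw [h (i + 2) (by omega)]

/-- If `G k` agree for all `k ≥ 3`, the `℘`-functions with the pole at `0` removed agree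
near `0`. -/
lemma weierstrassPExcept_eventuallyEq (L₁ L₂ : PeriodPair)
    (h : ∀ k : ℕ, 3 ≤ k → L₁.G k = L₂.G k) :
    ℘[L₁ - (0 : ℂ)] =ᶠ[𝓝 0] ℘[L₂ - (0 : ℂ)] := by
  have h1 := (L₁.hasFPowerSeriesAt_weierstrassPExcept 0).eventually_hasSum
  have h2 := (L₂.hasFPowerSeriesAt_weierstrassPExcept 0).eventually_hasSum
  rw [series_zero_eq L₁ L₂ h] at h1
  filter_upwards [h1, h2] with y hy1 hy2
  simpa using hy1.unique hy2

/-- If `G k` agree for all `k ≥ 3`, the `℘`-functions agree near `0`. -/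
lemma weierstrassP_eventuallyEq (L₁ L₂ : PeriodPair)
    (h : ∀ k : ℕ, 3 ≤ k → L₁.G k = L₂.G k) :
    ℘[L₁] =ᶠ[𝓝 0] ℘[L₂] := by
  filter_upwards [weierstrassPExcept_eventuallyEq L₁ L₂ h] with y hy
  have e1 := L₁.weierstrassPExcept_add (0 : L₁.lattice) y
  have e2 := L₂.weierstrassPExcept_add (0 : L₂.lattice) y
  simp only [ZeroMemClass.coe_zero] at e1 e2
  rw [← e1, ← e2, hy]

/-- If `℘[L₁]` and `℘[L₂]` agree near `0`, then they agree near every point (punctured). -/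
lemma weierstrassP_eventuallyEq_nhdsNE (L₁ L₂ : PeriodPair)
    (h : ℘[L₁] =ᶠ[𝓝 0] ℘[L₂]) (x : ℂ) :
    ℘[L₁] =ᶠ[𝓝[≠] x] ℘[L₂] := by
  have hmero : MeromorphicOn (fun z => ℘[L₁] z - ℘[L₂] z) Set.univ :=
    fun z _ => (L₁.meromorphic_weierstrassP z).sub (L₂.meromorphic_weierstrassP z)
  have h0 : meromorphicOrderAt (fun z => ℘[L₁] z - ℘[L₂] z) 0 = ⊤ := by
    rw [meromorphicOrderAt_eq_top_iff]
    have := h.filter_mono (nhdsWithin_le_nhds (s := {(0 : ℂ)}ᶜ))
    filter_upwards [this] with y hy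
    rw [hy, sub_self]
  have hall : meromorphicOrderAt (fun z => ℘[L₁] z - ℘[L₂] z) x = ⊤ := by
    by_contra hne
    have := (hmero.exists_meromorphicOrderAt_ne_top_iff_forall_mem
      ⟨⟨0, Set.mem_univ _⟩, isPreconnected_univ⟩).1 ⟨x, Set.mem_univ _, hne⟩ 0 (Set.mem_univ _)
    exact this h0
  rw [meromorphicOrderAt_eq_top_iff] at hall
  filter_upwards [hall] with y hy
  exact sub_eq_zero.mp hy

/-- A pole of `℘[L]` is a lattice point. -/
lemma mem_lattice_of_order_neg (L : PeriodPair) (x : ℂ)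
    (h : meromorphicOrderAt ℘[L] x < 0) : x ∈ L.lattice := by
  by_contra hx
  have := (L.analyticOnNhd_weierstrassP x hx).meromorphicOrderAt_nonneg
  exact absurd h (not_lt.mpr this)

/-- If `℘[L₁]` and `℘[L₂]` agree near `0`, then `L₁` and `L₂` have the same lattice. -/
lemma lattice_le_of_eventuallyEq (L₁ L₂ : PeriodPair) (h : ℘[L₁] =ᶠ[𝓝 0] ℘[L₂]) :
    L₁.lattice ≤ L₂.lattice := by
  intro x hx
  apply mem_lattice_of_order_neg
  rw [← meromorphicOrderAt_congr (weierstrassP_eventuallyEq_nhdsNE L₁ L₂ h x),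
    L₁.order_weierstrassP x hx]
  decide

/-- **A lattice is determined by its Eisenstein sums.** -/
theorem lattice_eq_of_G_eq (L₁ L₂ : PeriodPair) (h : ∀ k : ℕ, 3 ≤ k → L₁.G k = L₂.G k) :
    L₁.lattice = L₂.lattice :=
  le_antisymm (lattice_le_of_eventuallyEq L₁ L₂ (weierstrassP_eventuallyEq L₁ L₂ h))
    (lattice_le_of_eventuallyEq L₂ L₁ (weierstrassP_eventuallyEq L₂ L₁ fun k hk => (h k hk).symm))

end Fermat.Agent.S20.H29
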