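import Fermat.Agent.S20.H29_Lattice
import Fermat.Agent.S20.H29_PLattice

/-!
# Level-one geometry, part A1: `(E₄, E₆)` separates `SL(2, ℤ)`-orbits (up to weighted scaling)
-/

set_option autoImplicit false

open UpperHalfPlane ModularForm ModularFormClass MatrixGroups EisensteinSeries

namespace Fermat.Agent.S20.H29

/-- If the lattices `ℤ w + ℤ` and `μ (ℤ z + ℤ)` coincide, then `w` is in the `SL(2, ℤ)`-orbit of
`z`. -/
theorem exists_SL2Z_of_lattice_eq {z w : ℍ} {μ : ℂ} (hμ : μ ≠ 0)
    (h : (periodPair 1 one_ne_zero w).lattice = (periodPair μ hμ z).lattice) :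
    ∃ γ : SL(2, ℤ), w = γ • z := by
  -- membership facts
  have hw : (w : ℂ) ∈ (periodPair μ hμ z).lattice := by
    rw [← h]
    simpa using (periodPair 1 one_ne_zero w).ω₁_mem_lattice
  have h1 : (1 : ℂ) ∈ (periodPair μ hμ z).lattice := by
    rw [← h]
    simpa using (periodPair 1 one_ne_zero w).ω₂_mem_lattice
  have hμz : μ * (z : ℂ) ∈ (periodPair 1 one_ne_zero w).lattice := by
    rw [h]
    simpa using (periodPair μ hμ z).ω₁_mem_lattice
  have hμ' : μ ∈ (periodPair 1 one_ne_zero w).lattice := by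
    rw [h]
    simpa using (periodPair μ hμ z).ω₂_mem_lattice
  obtain ⟨m, n, hmn⟩ := PeriodPair.mem_lattice.mp hw
  obtain ⟨m', n', hmn'⟩ := PeriodPair.mem_lattice.mp h1
  obtain ⟨p, q, hpq⟩ := PeriodPair.mem_lattice.mp hμz
  obtain ⟨p', q', hpq'⟩ := PeriodPair.mem_lattice.mp hμ'
  simp only [periodPair_ω₁, periodPair_ω₂, one_mul, mul_one] at hmn hmn' hpq hpq'
  -- rewrite as products with μ
  have e1 : ((m : ℂ) * z + n) * μ = w := by rw [← hmn]; ring
  have e2 : ((m' : ℂ) * z + n') * μ = 1 := by rw [← hmn']; ring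
  have hden : ((m' : ℂ) * z + n') ≠ 0 := by
    intro h0
    rw [h0, zero_mul] at e2
    exact zero_ne_one e2
  -- w * (m' z + n') = m z + n
  have e3 : (w : ℂ) * ((m' : ℂ) * z + n') = (m : ℂ) * z + n := by
    have : (w : ℂ) * (((m' : ℂ) * z + n') * μ) = ((m : ℂ) * z + n) * μ := by
      rw [e2, e1, mul_one]
    have h' : ((w : ℂ) * ((m' : ℂ) * z + n') - ((m : ℂ) * z + n)) * μ = 0 := by
      linear_combination this
    exact sub_eq_zero.mp ((mul_eq_zero.mp h').resolve_right hμ)
  -- the inverse matrix relations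
  have e4 : (z : ℂ) = ((p * m + q * m' : ℤ) : ℂ) * z + ((p * n + q * n' : ℤ) : ℂ) := by
    have : μ * (z : ℂ) = μ * (((p * m + q * m' : ℤ) : ℂ) * z + ((p * n + q * n' : ℤ) : ℂ)) := by
      rw [← hpq]
      push_cast
      rw [← e1]
      linear_combination (-(q : ℂ)) * e2
    exact mul_left_cancel₀ hμ this
  have e5 : (1 : ℂ) = ((p' * m + q' * m' : ℤ) : ℂ) * z + ((p' * n + q' * n' : ℤ) : ℂ) := by
    have : μ * (1 : ℂ) = μ * (((p' * m + q' * m' : ℤ) : ℂ) * z + ((p' * n + q' * n' : ℤ) : ℂ)) := by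
      rw [mul_one]
      nth_rewrite 1 [← hpq']
      push_cast
      rw [← e1]
      linear_combination (-(q' : ℂ)) * e2
    exact mul_left_cancel₀ hμ this
  have hz := z.im_ne_zero
  have a1 : p * m + q * m' = 1 := by
    have := congrArg Complex.im e4
    simp at this
    have h2 : ((p * m + q * m' : ℤ) : ℝ) = 1 := by
      push_cast
      have h3 : ((p : ℝ) * m + q * m' - 1) * z.im = 0 := by linear_combination -this
      have := (mul_eq_zero.mp h3).resolve_right hz
      linarith
    exact_mod_cast h2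
  have a2 : p * n + q * n' = 0 := by
    have := congrArg Complex.re e4
    simp at this
    have h2 : ((p * m + q * m' : ℤ) : ℝ) = 1 := by exact_mod_cast a1
    push_cast at h2
    have h3 : ((p * n + q * n' : ℤ) : ℝ) = 0 := by
      push_cast
      rw [h2] at this
      linarith
    exact_mod_cast h3
  have a3 : p' * m + q' * m' = 0 := by
    have := congrArg Complex.im e5
    simp at this
    have h2 : ((p' * m + q' * m' : ℤ) : ℝ) = 0 := by
      push_cast
      rcases this with h | h
      · exact h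
      · exact absurd h hz
    exact_mod_cast h2
  have a4 : p' * n + q' * n' = 1 := by
    have := congrArg Complex.re e5
    simp at this
    have h2 : ((p' * m + q' * m' : ℤ) : ℝ) = 0 := by exact_mod_cast a3
    push_cast at h2
    have h3 : ((p' * n + q' * n' : ℤ) : ℝ) = 1 := by
      push_cast
      rw [h2] at this
      linarith
    exact_mod_cast h3
  -- determinant is ±1
  have hdet : (m * n' - n * m') * (p * q' - q * p') = 1 := by
    linear_combination (p' * n + q' * n') * a1 + a4 - (p' * m + q' * m') * a2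
  -- determinant is positive
  have hpos : (0 : ℝ) < ((m * n' - n * m' : ℤ) : ℝ) := by
    have him : ((w : ℂ) * ((m' : ℂ) * z + n') * (starRingEnd ℂ) ((m' : ℂ) * z + n')).im =
        ((((m : ℂ) * z + n)) * (starRingEnd ℂ) ((m' : ℂ) * z + n')).im := by rw [e3]
    have hns : 0 < Complex.normSq ((m' : ℂ) * z + n') := Complex.normSq_pos.mpr hden
    have key : ((m * n' - n * m' : ℤ) : ℝ) * z.im =
        w.im * Complex.normSq ((m' : ℂ) * z + n') := by
      have h5 : ((w : ℂ) * ((m' : ℂ) * z + n') * (starRingEnd ℂ) ((m' : ℂ) * z + n')).im =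
          w.im * Complex.normSq ((m' : ℂ) * z + n') := by
        rw [mul_assoc, Complex.mul_conj]
        simp
      have h6 : ((((m : ℂ) * z + n)) * (starRingEnd ℂ) ((m' : ℂ) * z + n')).im =
          ((m * n' - n * m' : ℤ) : ℝ) * z.im := by
        simp
        ring
      rw [h5, h6] at him
      exact him.symm
    have : 0 < ((m * n' - n * m' : ℤ) : ℝ) * z.im := by
      rw [key]
      exact mul_pos w.im_pos hns
    exact (pos_iff_pos_of_mul_pos this).mpr z.im_pos
  have hposZ : 0 < m * n' - n * m' := by exact_mod_cast hpos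
  have hdet1 : m * n' - n * m' = 1 := by
    have := Int.eq_one_or_neg_one_of_mul_eq_one hdet
    omega
  -- build the matrix
  refine ⟨⟨!![m, n; m', n'], by rw [Matrix.det_fin_two_of]; linarith⟩, ?_⟩
  apply UpperHalfPlane.ext
  have hγ := UpperHalfPlane.coe_specialLinearGroup_apply (R := ℤ)
    (⟨!![m, n; m', n'], by rw [Matrix.det_fin_two_of]; linarith⟩ : SL(2, ℤ)) z
  rw [hγ]
  simp only [Matrix.of_apply, Matrix.cons_val_zero,
    Matrix.cons_val_one, Matrix.cons_val', Matrix.cons_val_fin_one]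
  rw [eq_div_iff]
  · simpa using e3
  · simpa using hden



/-- **Part A1 ("`j` is injective", without `j`).** If `(E₄ w, E₆ w)` is a weighted rescaling of
`(E₄ z, E₆ z)`, then `w` lies in the `SL(2, ℤ)`-orbit of `z`. -/
theorem exists_smul_eq_of_E₄_E₆ (z w : ℍ) (lam : ℂ) (hlam : lam ≠ 0)
    (h4 : E₄ w = lam ^ 4 * E₄ z) (h6 : E₆ w = lam ^ 6 * E₆ z) : ∃ γ : SL(2, ℤ), w = γ • z := by
  have hμ : lam⁻¹ ≠ 0 := inv_ne_zero hlam
  refine exists_SL2Z_of_lattice_eq hμ (lattice_eq_of_G_eq _ _ fun k hk => ?_)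
  rw [G_periodPair 1 one_ne_zero w hk, G_periodPair lam⁻¹ hμ z hk,
    levelOne_apply_eq_pow_mul h4 h6 k (E hk)]
  simp only [one_pow, inv_one, one_mul, inv_pow, inv_inv]
  ring

end Fermat.Agent.S20.H29
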