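import Mathlib
import Fermat.Prelude.Def_ModularCurve_GenusNumerics

/-!
# S20, part G (helper19): cosets of `Gamma0 N` in `SL(2, ℤ)` — basic criterion

The left coset `g • Gamma0 N` is determined by the first column `(g 0 0, g 1 0)` of `g` up to
units mod `N`: `g Γ = g' Γ ↔ N ∣ g 0 0 * g' 1 0 - g 1 0 * g' 0 0`.
-/

namespace Fermat.Agent.S20.H19

open CongruenceSubgroup MatrixGroups Matrix

variable (N : ℕ)

/-- Entry `(1,0)` of `g⁻¹ * g'`. -/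
lemma inv_mul_apply_one_zero (g g' : SL(2, ℤ)) :
    (g⁻¹ * g') 1 0 = g 0 0 * g' 1 0 - g 1 0 * g' 0 0 := by
  rw [Matrix.SpecialLinearGroup.coe_mul, Matrix.SpecialLinearGroup.coe_inv,
    Matrix.adjugate_fin_two, Matrix.mul_apply, Fin.sum_univ_two]
  simp
  ring

/-- Membership in `Gamma0 N` as a divisibility. -/
lemma mem_Gamma0_iff_dvd (g : SL(2, ℤ)) : g ∈ Gamma0 N ↔ (N : ℤ) ∣ g 1 0 := by
  rw [Gamma0_mem, ZMod.intCast_zmod_eq_zero_iff_dvd]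

/-- Coset equality criterion. -/
lemma coset_eq_iff (g g' : SL(2, ℤ)) :
    (QuotientGroup.mk g : SL(2, ℤ) ⧸ Gamma0 N) = QuotientGroup.mk g' ↔
      (N : ℤ) ∣ g 0 0 * g' 1 0 - g 1 0 * g' 0 0 := by
  rw [QuotientGroup.eq, mem_Gamma0_iff_dvd, inv_mul_apply_one_zero]

/-- The first column of an element of `SL(2, ℤ)` is coprime. -/
lemma isCoprime_col (g : SL(2, ℤ)) : IsCoprime (g 0 0) (g 1 0) := by
  refine ⟨g 1 1, -(g 0 1), ?_⟩
  have h := g.det_coe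
  rw [Matrix.det_fin_two] at h
  linarith

lemma smul_mk (γ g : SL(2, ℤ)) :
    γ • (QuotientGroup.mk g : SL(2, ℤ) ⧸ Gamma0 N) = QuotientGroup.mk (γ * g) := rfl

@[simp] lemma S_mul_apply_zero_zero (g : SL(2, ℤ)) : (ModularGroup.S * g) 0 0 = - g 1 0 := by
  rw [Matrix.SpecialLinearGroup.coe_mul, ModularGroup.coe_S]
  simp [Matrix.mul_apply, Fin.sum_univ_two]

@[simp] lemma S_mul_apply_one_zero (g : SL(2, ℤ)) : (ModularGroup.S * g) 1 0 = g 0 0 := by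
  rw [Matrix.SpecialLinearGroup.coe_mul, ModularGroup.coe_S]
  simp [Matrix.mul_apply, Fin.sum_univ_two]

@[simp] lemma T_zpow_mul_apply_zero_zero (k : ℤ) (g : SL(2, ℤ)) :
    (ModularGroup.T ^ k * g) 0 0 = g 0 0 + k * g 1 0 := by
  rw [Matrix.SpecialLinearGroup.coe_mul, ModularGroup.coe_T_zpow]
  simp [Matrix.mul_apply, Fin.sum_univ_two]

@[simp] lemma T_zpow_mul_apply_one_zero (k : ℤ) (g : SL(2, ℤ)) :
    (ModularGroup.T ^ k * g) 1 0 = g 1 0 := by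
  rw [Matrix.SpecialLinearGroup.coe_mul, ModularGroup.coe_T_zpow]
  simp [Matrix.mul_apply, Fin.sum_univ_two]

@[simp] lemma ST_mul_apply_zero_zero (g : SL(2, ℤ)) :
    (ModularGroup.S * ModularGroup.T * g) 0 0 = - g 1 0 := by
  rw [Matrix.SpecialLinearGroup.coe_mul, Matrix.SpecialLinearGroup.coe_mul, ModularGroup.coe_S,
    ModularGroup.coe_T]
  simp [Matrix.mul_apply, Fin.sum_univ_two]

@[simp] lemma ST_mul_apply_one_zero (g : SL(2, ℤ)) :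
    (ModularGroup.S * ModularGroup.T * g) 1 0 = g 0 0 + g 1 0 := by
  rw [Matrix.SpecialLinearGroup.coe_mul, Matrix.SpecialLinearGroup.coe_mul, ModularGroup.coe_S,
    ModularGroup.coe_T]
  simp [Matrix.mul_apply, Fin.sum_univ_two]

/-- Fixed points of `S`: `S • gΓ = gΓ ↔ N ∣ a² + c²`. -/
lemma S_smul_eq_iff (g : SL(2, ℤ)) :
    ModularGroup.S • (QuotientGroup.mk g : SL(2, ℤ) ⧸ Gamma0 N) = QuotientGroup.mk g ↔
      (N : ℤ) ∣ g 0 0 ^ 2 + g 1 0 ^ 2 := by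
  rw [smul_mk, coset_eq_iff, S_mul_apply_zero_zero, S_mul_apply_one_zero, ← dvd_neg]
  have : -(-g 1 0 * g 1 0 - g 0 0 * g 0 0) = g 0 0 ^ 2 + g 1 0 ^ 2 := by ring
  rw [this]

/-- Fixed points of `S * T`: `ST • gΓ = gΓ ↔ N ∣ a² + a c + c²`. -/
lemma ST_smul_eq_iff (g : SL(2, ℤ)) :
    (ModularGroup.S * ModularGroup.T) • (QuotientGroup.mk g : SL(2, ℤ) ⧸ Gamma0 N)
        = QuotientGroup.mk g ↔
      (N : ℤ) ∣ g 0 0 ^ 2 + g 0 0 * g 1 0 + g 1 0 ^ 2 := by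
  rw [smul_mk, coset_eq_iff, ST_mul_apply_zero_zero, ST_mul_apply_one_zero, ← dvd_neg]
  have : -(-g 1 0 * g 1 0 - (g 0 0 + g 1 0) * g 0 0) = g 0 0 ^ 2 + g 0 0 * g 1 0 + g 1 0 ^ 2 := by
    ring
  rw [this]

end Fermat.Agent.S20.H19
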