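import Mathlib
import Fermat.Prelude.Def_ModularCurve_GenusNumerics
import Fermat.Agent.S20.H19_Cosets

/-!
# S20, part G4 (helper38): the number of `T`-orbits on `SL(2,ℤ) ⧸ Γ₀(N)` is `cuspCount N`

Route: the double coset `⟨T⟩ g Γ₀(N)` of `g = !![a, b; c, e]` is classified by the invariant
`(d, t)` where `d = gcd(c, N)` and `t = a * (c / d)⁻¹ ∈ (ℤ / gcd(d, N/d))ˣ`.
-/

set_option autoImplicit false

open MatrixGroups CongruenceSubgroup

namespace Fermat.Agent.S20.H38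

/-! ## Pure number theory -/

section NT

variable {N : ℕ}

/-- `gcd(d, N/d)` -/
def gg (N d : ℕ) : ℕ := Nat.gcd d (N / d)

lemma gg_pos {d : ℕ} (hN : N ≠ 0) (hd : d ∣ N) : 0 < gg N d := by
  have hd0 : d ≠ 0 := fun h => hN (by simpa [h] using hd)
  exact Nat.gcd_pos_of_pos_left _ (Nat.pos_of_ne_zero hd0)

lemma gg_dvd_left (N d : ℕ) : gg N d ∣ d := Nat.gcd_dvd_left _ _

lemma gg_dvd_right (N d : ℕ) : gg N d ∣ N / d := Nat.gcd_dvd_right _ _

/-- the "level" of the bottom-left entry -/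
def dd (N : ℕ) (c : ℤ) : ℕ := Int.gcd c N

lemma dd_dvd (N : ℕ) (c : ℤ) : dd N c ∣ N := by
  have : ((dd N c : ℕ) : ℤ) ∣ (N : ℤ) := Int.gcd_dvd_right c N
  exact Int.natCast_dvd_natCast.mp this

lemma dd_dvd_left (N : ℕ) (c : ℤ) : ((dd N c : ℕ) : ℤ) ∣ c := Int.gcd_dvd_left c N

lemma dd_ne_zero (hN : N ≠ 0) (c : ℤ) : dd N c ≠ 0 := by
  intro h
  have := dd_dvd N c
  rw [h] at this
  exact hN (Nat.eq_zero_of_zero_dvd this)

/-- `c / gcd(c, N)` is coprime to `N / gcd(c, N)`. -/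
lemma isCoprime_div (hN : N ≠ 0) (c : ℤ) :
    IsCoprime (c / (dd N c : ℤ)) (((N / dd N c : ℕ) : ℤ)) := by
  have hpos : 0 < Int.gcd c (N : ℤ) := Nat.pos_of_ne_zero (dd_ne_zero hN c)
  have h := Int.gcd_div_gcd_div_gcd (i := c) (j := (N : ℤ)) hpos
  rw [Int.isCoprime_iff_gcd_eq_one]
  have hcast : (((N / dd N c : ℕ) : ℤ)) = (N : ℤ) / (Int.gcd c (N : ℤ) : ℤ) := by
    rw [dd]; push_cast; rfl
  rw [hcast]
  exact h

/-- Packaged data attached to a bottom-left entry `c`. -/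
lemma data (hN : N ≠ 0) (c : ℤ) : ∃ (u : ℤ) (M : ℕ), c = (dd N c : ℤ) * u ∧ N = dd N c * M ∧
    c / (dd N c : ℤ) = u ∧ N / dd N c = M ∧ IsCoprime u (M : ℤ) := by
  have hd0 : ((dd N c : ℕ) : ℤ) ≠ 0 := by exact_mod_cast dd_ne_zero hN c
  obtain ⟨u, hu⟩ := dd_dvd_left N c
  obtain ⟨M, hM⟩ := dd_dvd N c
  have hMd : N / dd N c = M :=
    Nat.div_eq_of_eq_mul_right (Nat.pos_of_ne_zero (dd_ne_zero hN c)) hM
  have hcu : c / (dd N c : ℤ) = u := Int.ediv_eq_of_eq_mul_right hd0 hu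
  refine ⟨u, M, hu, hM, hcu, hMd, ?_⟩
  have := isCoprime_div hN c
  rwa [hcu, hMd] at this

/-- The arithmetic criterion for two columns `(a, c)`, `(a', c')` to be in the same
double coset. -/
lemma key (hN : N ≠ 0) {a c a' c' : ℤ} (h : IsCoprime a c) (h' : IsCoprime a' c') :
    (∃ k : ℤ, (N : ℤ) ∣ a * c' - a' * c - k * (c * c')) ↔
      dd N c = dd N c' ∧
        ((gg N (dd N c) : ℕ) : ℤ) ∣ a * (c' / (dd N c' : ℤ)) - a' * (c / (dd N c : ℤ)) := by
  have aux : ∀ {a c a' c' : ℤ}, IsCoprime a c → ∀ k : ℤ,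
      (N : ℤ) ∣ a * c' - a' * c - k * (c * c') → dd N c ∣ dd N c' := by
    intro a c a' c' h k hk
    have hdN : ((dd N c : ℕ) : ℤ) ∣ (N : ℤ) := Int.gcd_dvd_right c N
    have hdc : ((dd N c : ℕ) : ℤ) ∣ c := dd_dvd_left N c
    have h1 : ((dd N c : ℕ) : ℤ) ∣ a * c' := by
      have h2 : ((dd N c : ℕ) : ℤ) ∣ a * c' - a' * c - k * (c * c') := hdN.trans hk
      have h3 : ((dd N c : ℕ) : ℤ) ∣ a' * c + k * (c * c') :=
        dvd_add (hdc.mul_left _) ((hdc.mul_right _).mul_left _)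
      have := dvd_add h2 h3
      have e : a * c' - a' * c - k * (c * c') + (a' * c + k * (c * c')) = a * c' := by ring
      rwa [e] at this
    have hcop : IsCoprime ((dd N c : ℕ) : ℤ) a := (h.of_isCoprime_of_dvd_right hdc).symm
    have h4 : ((dd N c : ℕ) : ℤ) ∣ c' := hcop.dvd_of_dvd_mul_left h1
    have h5 : ((dd N c : ℕ) : ℤ) ∣ ((Int.gcd c' (N : ℤ) : ℕ) : ℤ) := Int.dvd_coe_gcd h4 hdN
    exact Int.natCast_dvd_natCast.mp h5
  obtain ⟨u, M, hu, hM, hcu, hMd, cop1⟩ := data hN c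
  obtain ⟨u', M', hu', hM', hcu', hMd', cop2⟩ := data hN c'
  constructor
  · rintro ⟨k, hk⟩
    have e1 : dd N c ∣ dd N c' := aux h k hk
    have e2 : dd N c' ∣ dd N c := by
      refine aux (a' := a) h' (-k) ?_
      have : a' * c - a * c' - -k * (c' * c) = -(a * c' - a' * c - k * (c * c')) := by ring
      rw [this]
      exact (dvd_neg).mpr hk
    have hd : dd N c = dd N c' := Nat.dvd_antisymm e1 e2
    refine ⟨hd, ?_⟩
    rw [hcu, hcu']
    rw [← hd] at hu' hM'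
    generalize dd N c = d at *
    have hd0 : (d : ℤ) ≠ 0 := by
      intro h0
      have : d = 0 := by exact_mod_cast h0
      rw [this, zero_mul] at hM
      exact hN hM
    have hNM : (N : ℤ) = d * M := by exact_mod_cast hM
    have h6 : (d : ℤ) * M ∣ d * (a * u' - a' * u - k * (d * u * u')) := by
      have : (d : ℤ) * (a * u' - a' * u - k * (d * u * u')) = a * c' - a' * c - k * (c * c') := by
        rw [hu, hu']; ring
      rw [this, ← hNM]; exact hk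
    have h7 : (M : ℤ) ∣ a * u' - a' * u - k * (d * u * u') :=
      (mul_dvd_mul_iff_left hd0).mp h6
    have hgM : ((gg N d : ℕ) : ℤ) ∣ (M : ℤ) := by
      rw [← hMd]; exact Int.natCast_dvd_natCast.mpr (gg_dvd_right N d)
    have hgd : ((gg N d : ℕ) : ℤ) ∣ (d : ℤ) := Int.natCast_dvd_natCast.mpr (gg_dvd_left N d)
    have h8 := hgM.trans h7
    have h9 : ((gg N d : ℕ) : ℤ) ∣ k * (d * u * u') :=
      (((hgd.mul_right u).mul_right u')).mul_left k
    have := dvd_add h8 h9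
    have e : a * u' - a' * u - k * (d * u * u') + k * (d * u * u') = a * u' - a' * u := by ring
    rwa [e] at this
  · rintro ⟨hd, hdiv⟩
    rw [hcu, hcu'] at hdiv
    rw [← hd] at hu' hM' hMd'
    have hMM : M' = M := by rw [← hMd, ← hMd']
    subst hMM
    generalize dd N c = d at *
    have hd0 : (d : ℤ) ≠ 0 := by
      intro h0
      have : d = 0 := by exact_mod_cast h0
      rw [this, zero_mul] at hM
      exact hN hM
    have hNM : (N : ℤ) = d * M' := by exact_mod_cast hM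
    obtain ⟨w, z, hwz⟩ : IsCoprime (u * u') (M' : ℤ) := cop1.mul_left cop2
    -- Bezout for `gcd(d, M)`
    have hgg : ((gg N d : ℕ) : ℤ) = (d : ℤ) * Int.gcdA d M' + (M' : ℤ) * Int.gcdB d M' := by
      have := Int.gcd_eq_gcd_ab (d : ℤ) (M' : ℤ)
      rw [← this, gg, hMd]
      simp [Int.gcd_natCast_natCast]
    obtain ⟨q, hq⟩ := hdiv
    refine ⟨Int.gcdA d M' * q * w, ?_⟩
    have : a * c' - a' * c - Int.gcdA d M' * q * w * (c * c') =
        (d : ℤ) * M' * ((Int.gcdB d M') * q + d * Int.gcdA d M' * q * z) := by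
      have hr : a * u' - a' * u = ((d : ℤ) * Int.gcdA d M' + (M' : ℤ) * Int.gcdB d M') * q := by
        rw [hq, hgg]
      have e1 : a * c' - a' * c - Int.gcdA d M' * q * w * (c * c') =
          d * ((a * u' - a' * u) - d * Int.gcdA d M' * q * (w * (u * u'))) := by
        rw [hu, hu']; ring
      have e2 : w * (u * u') = 1 - z * M' := by linear_combination hwz
      rw [e1, hr, e2]; ring
    rw [this, hNM]
    exact Dvd.intro _ rfl

end NT

/-! ## The invariant -/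

section Invariant

variable {N : ℕ}

/-- the unit `a * u⁻¹` of `ZMod (gcd(d, N/d))` -/
noncomputable def mkUnit (N d : ℕ) (a u : ℤ) (ha : IsUnit ((a : ℤ) : ZMod (gg N d)))
    (hu : IsUnit ((u : ℤ) : ZMod (gg N d))) : (ZMod (gg N d))ˣ :=
  ha.unit * hu.unit⁻¹

lemma mkUnit_eq_iff (d : ℕ) (a u a' u' : ℤ) (ha : IsUnit ((a : ℤ) : ZMod (gg N d)))
    (hu : IsUnit ((u : ℤ) : ZMod (gg N d))) (ha' : IsUnit ((a' : ℤ) : ZMod (gg N d)))
    (hu' : IsUnit ((u' : ℤ) : ZMod (gg N d))) :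
    mkUnit N d a u ha hu = mkUnit N d a' u' ha' hu' ↔
      ((gg N d : ℕ) : ℤ) ∣ a * u' - a' * u := by
  unfold mkUnit
  rw [mul_inv_eq_iff_eq_mul, mul_assoc, mul_comm _ hu.unit, ← mul_assoc, eq_comm,
    mul_inv_eq_iff_eq_mul, Units.ext_iff]
  simp only [Units.val_mul, IsUnit.unit_spec]
  rw [← Int.cast_mul, ← Int.cast_mul, ZMod.intCast_eq_intCast_iff_dvd_sub]

lemma sigma_mk_eq_iff (d d' : ℕ) (hd : d ∈ N.divisors) (hd' : d' ∈ N.divisors)
    (a u a' u' : ℤ) (ha : IsUnit ((a : ℤ) : ZMod (gg N d)))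
    (hu : IsUnit ((u : ℤ) : ZMod (gg N d))) (ha' : IsUnit ((a' : ℤ) : ZMod (gg N d')))
    (hu' : IsUnit ((u' : ℤ) : ZMod (gg N d'))) :
    ((⟨⟨d, hd⟩, mkUnit N d a u ha hu⟩ : Σ d : N.divisors, (ZMod (gg N d))ˣ) =
        ⟨⟨d', hd'⟩, mkUnit N d' a' u' ha' hu'⟩) ↔
      d = d' ∧ ((gg N d : ℕ) : ℤ) ∣ a * u' - a' * u := by
  constructor
  · intro h
    have h1 : d = d' := congrArg (fun x => (x.1 : ℕ)) h
    subst h1
    have h2 := eq_of_heq (Sigma.mk.inj h).2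
    exact ⟨rfl, (mkUnit_eq_iff d a u a' u' ha hu ha' hu').mp h2⟩
  · rintro ⟨rfl, h⟩
    rw [(mkUnit_eq_iff d a u a' u' ha hu ha' hu').mpr h]

end Invariant

section Main

variable (N : ℕ)

lemma isUnit_a (g : SL(2, ℤ)) :
    IsUnit (((g 0 0 : ℤ)) : ZMod (gg N (dd N (g 1 0)))) := by
  rw [ZMod.coe_int_isUnit_iff_isCoprime]
  have h := H19.isCoprime_col g
  have hG : ((gg N (dd N (g 1 0)) : ℕ) : ℤ) ∣ g 1 0 :=
    (Int.natCast_dvd_natCast.mpr (gg_dvd_left _ _)).trans (dd_dvd_left N _)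
  exact (h.of_isCoprime_of_dvd_right hG).symm

variable [NeZero N]

lemma isUnit_u (g : SL(2, ℤ)) :
    IsUnit (((g 1 0 / (dd N (g 1 0) : ℤ) : ℤ)) : ZMod (gg N (dd N (g 1 0)))) := by
  rw [ZMod.coe_int_isUnit_iff_isCoprime]
  have h := isCoprime_div (NeZero.ne N) (g 1 0)
  have hG : ((gg N (dd N (g 1 0)) : ℕ) : ℤ) ∣ ((N / dd N (g 1 0) : ℕ) : ℤ) :=
    Int.natCast_dvd_natCast.mpr (gg_dvd_right _ _)
  exact (h.of_isCoprime_of_dvd_right hG).symm

/-- The invariant of a matrix. -/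
noncomputable def Phi (g : SL(2, ℤ)) : Σ d : N.divisors, (ZMod (gg N d))ˣ :=
  ⟨⟨dd N (g 1 0), Nat.mem_divisors.mpr ⟨dd_dvd N _, NeZero.ne N⟩⟩,
    mkUnit N (dd N (g 1 0)) (g 0 0) (g 1 0 / (dd N (g 1 0) : ℤ)) (isUnit_a N g) (isUnit_u N g)⟩

lemma Phi_eq_iff (g g' : SL(2, ℤ)) :
    Phi N g = Phi N g' ↔
      ∃ k : ℤ, (QuotientGroup.mk (ModularGroup.T ^ k * g') : SL(2, ℤ) ⧸ Gamma0 N) =
        QuotientGroup.mk g := by
  unfold Phi
  rw [sigma_mk_eq_iff, ← key (NeZero.ne N) (H19.isCoprime_col g) (H19.isCoprime_col g')]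
  refine exists_congr fun k => ?_
  rw [H19.coset_eq_iff, H19.T_zpow_mul_apply_zero_zero, H19.T_zpow_mul_apply_one_zero]
  have : (g' 0 0 + k * g' 1 0) * g 1 0 - g' 1 0 * g 0 0 =
      -(g 0 0 * g' 1 0 - g' 0 0 * g 1 0 - k * (g 1 0 * g' 1 0)) := by ring
  rw [this, dvd_neg]

lemma Phi_surjective : Function.Surjective (Phi N) := by
  rintro ⟨⟨d, hd⟩, t⟩
  have hdN : d ∣ N := (Nat.mem_divisors.mp hd).1
  have hd0 : d ≠ 0 := fun h => (NeZero.ne N) (by simpa [h] using hdN)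
  have : NeZero d := ⟨hd0⟩
  obtain ⟨t', ht'⟩ := ZMod.unitsMap_surjective (gg_dvd_left N d) t
  have hcop : Nat.Coprime (t' : ZMod d).val d := ZMod.val_coe_unit_coprime t'
  have hcopZ : IsCoprime (((t' : ZMod d).val : ℕ) : ℤ) ((d : ℕ) : ℤ) :=
    Nat.isCoprime_iff_coprime.mpr hcop
  obtain ⟨g, hg0, hg1⟩ := hcopZ.exists_SL2_col 0
  refine ⟨g, ?_⟩
  have hdd : dd N (g 1 0) = d := by
    rw [hg1, dd, Int.gcd_natCast_natCast]
    exact Nat.gcd_eq_left hdN
  have ha : IsUnit (((((t' : ZMod d).val : ℕ) : ℤ)) : ZMod (gg N d)) := by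
    have := isUnit_a N g
    rwa [hdd, hg0] at this
  have h1 : IsUnit (((1 : ℤ)) : ZMod (gg N d)) := by simp
  have ht : t = mkUnit N d (((t' : ZMod d).val : ℕ) : ℤ) 1 ha h1 := by
    rw [← ht']
    ext
    simp only [mkUnit, Units.val_mul, IsUnit.unit_spec, ZMod.unitsMap_def, Units.coe_map,
      MonoidHom.coe_coe, ZMod.castHom_apply]
    have h1u : h1.unit = 1 := by ext; simp
    rw [h1u, inv_one, Units.val_one, mul_one, Int.cast_natCast, ZMod.cast_eq_val]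
  rw [ht]
  unfold Phi
  rw [sigma_mk_eq_iff]
  refine ⟨hdd, ?_⟩
  have hdZ : ((d : ℕ) : ℤ) ≠ 0 := by exact_mod_cast hd0
  rw [hdd, hg0, hg1, Int.ediv_self hdZ]
  simp

lemma Phi_eq_of_mk_eq {g g' : SL(2, ℤ)}
    (h : (QuotientGroup.mk g : SL(2, ℤ) ⧸ Gamma0 N) = QuotientGroup.mk g') :
    Phi N g = Phi N g' :=
  (Phi_eq_iff N g g').mpr ⟨0, by simpa using h.symm⟩

/-- The invariant on cosets. -/
noncomputable def PhiCoset (x : SL(2, ℤ) ⧸ Gamma0 N) : Σ d : N.divisors, (ZMod (gg N d))ˣ :=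
  Quotient.liftOn' x (Phi N) (fun _ _ hab => Phi_eq_of_mk_eq N (Quotient.sound' hab))

@[simp] lemma PhiCoset_mk (g : SL(2, ℤ)) :
    PhiCoset N (QuotientGroup.mk g : SL(2, ℤ) ⧸ Gamma0 N) = Phi N g := rfl

omit [NeZero N] in
lemma orbitRel_mk_iff (g g' : SL(2, ℤ)) :
    MulAction.orbitRel (Subgroup.zpowers ModularGroup.T) (SL(2, ℤ) ⧸ Gamma0 N)
        (QuotientGroup.mk g) (QuotientGroup.mk g') ↔
      ∃ k : ℤ, (QuotientGroup.mk (ModularGroup.T ^ k * g') : SL(2, ℤ) ⧸ Gamma0 N) =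
        QuotientGroup.mk g := by
  rw [MulAction.orbitRel_apply, MulAction.mem_orbit_iff]
  constructor
  · rintro ⟨⟨h, hh⟩, hx⟩
    obtain ⟨k, rfl⟩ := Subgroup.mem_zpowers_iff.mp hh
    exact ⟨k, hx⟩
  · rintro ⟨k, hk⟩
    exact ⟨⟨ModularGroup.T ^ k, Subgroup.mem_zpowers_iff.mpr ⟨k, rfl⟩⟩, hk⟩

lemma PhiCoset_eq_iff (x y : SL(2, ℤ) ⧸ Gamma0 N) :
    PhiCoset N x = PhiCoset N y ↔
      MulAction.orbitRel (Subgroup.zpowers ModularGroup.T) (SL(2, ℤ) ⧸ Gamma0 N) x y := by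
  induction x using QuotientGroup.induction_on with
  | H g =>
    induction y using QuotientGroup.induction_on with
    | H g' => rw [PhiCoset_mk, PhiCoset_mk, Phi_eq_iff, orbitRel_mk_iff]

/-- The invariant on orbits. -/
noncomputable def PhiOrbit
    (q : MulAction.orbitRel.Quotient (Subgroup.zpowers ModularGroup.T) (SL(2, ℤ) ⧸ Gamma0 N)) :
    Σ d : N.divisors, (ZMod (gg N d))ˣ :=
  Quotient.liftOn' q (PhiCoset N) (fun x y hxy => (PhiCoset_eq_iff N x y).mpr hxy)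

lemma PhiOrbit_bijective : Function.Bijective (PhiOrbit N) := by
  constructor
  · intro q q' h
    induction q using Quotient.inductionOn' with
    | h x =>
      induction q' using Quotient.inductionOn' with
      | h y => exact Quotient.sound' ((PhiCoset_eq_iff N x y).mp h)
  · intro s
    obtain ⟨g, hg⟩ := Phi_surjective N s
    exact ⟨Quotient.mk'' (QuotientGroup.mk g), hg⟩

lemma card_target :
    Nat.card (Σ d : N.divisors, (ZMod (gg N d))ˣ) = ModularCurve.cuspCount N := by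
  have hpos : ∀ d : N.divisors, NeZero (gg N d) := fun d =>
    ⟨(gg_pos (NeZero.ne N) (Nat.mem_divisors.mp d.2).1).ne'⟩
  have hfin : ∀ d : N.divisors, Finite (ZMod (gg N d))ˣ := fun d => by
    have := hpos d
    infer_instance
  rw [Nat.card_sigma, ModularCurve.cuspCount,
    ← Finset.sum_coe_sort N.divisors (fun d => Nat.totient (Nat.gcd d (N / d)))]
  refine Finset.sum_congr rfl fun d _ => ?_
  have := hpos d
  rw [Nat.card_eq_fintype_card, ZMod.card_units_eq_totient]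
  rfl

/-- **G4**: the number of `T`-orbits on `SL(2,ℤ) ⧸ Γ₀(N)` is the classical number of cusps. -/
theorem G4 :
    Nat.card (MulAction.orbitRel.Quotient (Subgroup.zpowers ModularGroup.T)
      (SL(2, ℤ) ⧸ Gamma0 N)) = ModularCurve.cuspCount N := by
  rw [← card_target N]
  exact Nat.card_congr (Equiv.ofBijective _ (PhiOrbit_bijective N))

end Main

end Fermat.Agent.S20.H38
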