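import Mathlib.NumberTheory.ModularForms.LevelOne.DimensionFormula
import Mathlib.NumberTheory.ModularForms.CongruenceSubgroups

/-!
# S20 part D (helper70): a modular form on `Γ₀(N)` with pairwise distinct conjugates

`f(z) = N³ E₄(N z) = E₄ ∣[4] diag(N, 1)` is a modular form of weight `4` on `Γ₀(N)` and, for
`g : SL(2, ℤ)`, `f ∣[4] g = f` implies `g ∈ Γ₀(N)`.

Main statements:
* `hermite_decomp` : `diag(N,1) * g = γ' * [a, b; 0, d]` with `γ' ∈ SL(2,ℤ)`, `a = gcd(N, g 1 0)`.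
* `tendsto_raise_slash` : `(E₄ ∣[4] diag(N,1)) ∣[4] g → N³ / d⁴` at `i∞`.
* `raiseE₄ N : ModularForm (Gamma0 N) 4`.
* `mem_Gamma0_of_raiseE₄_slash_eq`.
* `partD`.
-/

set_option autoImplicit false

noncomputable section

namespace Fermat.Agent.S20.H70

open UpperHalfPlane hiding I
open ModularForm EisensteinSeries Filter Topology Complex CongruenceSubgroup
open Matrix Matrix.SpecialLinearGroup
open scoped MatrixGroups Manifold Real

/-- The upper triangular matrix `[a, b; 0, d]` in `GL₂(ℝ)`. -/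
def utGL (a b d : ℝ) (had : a * d ≠ 0) : GL (Fin 2) ℝ :=
  Matrix.GeneralLinearGroup.mkOfDetNeZero !![a, b; 0, d]
    (by rwa [Matrix.det_fin_two_of, mul_zero, sub_zero])

@[simp] lemma val_utGL (a b d : ℝ) (had : a * d ≠ 0) :
    ((utGL a b d had : GL (Fin 2) ℝ) : Matrix (Fin 2) (Fin 2) ℝ) = !![a, b; 0, d] := rfl

lemma det_utGL (a b d : ℝ) (had : a * d ≠ 0) : ((utGL a b d had).det : ℝ) = a * d := by
  rw [Matrix.GeneralLinearGroup.val_det_apply, val_utGL, Matrix.det_fin_two_of]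
  ring

lemma σ_utGL (a b d : ℝ) (had : a * d ≠ 0) (hpos : 0 < a * d) :
    UpperHalfPlane.σ (utGL a b d had) = .refl ℝ ℂ := by
  rw [UpperHalfPlane.σ, if_pos (by rw [det_utGL]; exact hpos)]

lemma denom_utGL (a b d : ℝ) (had : a * d ≠ 0) (τ : ℍ) :
    UpperHalfPlane.denom (utGL a b d had) τ = d := by
  simp [UpperHalfPlane.denom]

/-- Slash by an upper triangular matrix of positive determinant. -/
lemma slash_utGL_apply (k : ℤ) (a b d : ℝ) (had : a * d ≠ 0) (hpos : 0 < a * d)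
    (f : ℍ → ℂ) (τ : ℍ) :
    (f ∣[k] utGL a b d had) τ =
      f (utGL a b d had • τ) * ((a * d : ℝ) : ℂ) ^ (k - 1) * (d : ℂ) ^ (-k) := by
  rw [ModularForm.slash_apply, σ_utGL a b d had hpos, det_utGL, denom_utGL, abs_of_pos hpos]
  simp

/-- If `f → c` at `i∞` then `f ∣[k] [a, b; 0, d] → c (ad)^(k-1) d^(-k)` at `i∞`. -/
lemma tendsto_slash_utGL (k : ℤ) (a b d : ℝ) (had : a * d ≠ 0) (hpos : 0 < a * d)
    {f : ℍ → ℂ} {c : ℂ} (hf : Tendsto f atImInfty (𝓝 c)) :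
    Tendsto (f ∣[k] utGL a b d had) atImInfty
      (𝓝 (c * ((a * d : ℝ) : ℂ) ^ (k - 1) * (d : ℂ) ^ (-k))) := by
  have h1 : Tendsto (fun τ : ℍ ↦ utGL a b d had • τ) atImInfty atImInfty :=
    UpperHalfPlane.tendsto_smul_atImInfty (by simp)
  have h2 := ((hf.comp h1).mul_const (((a * d : ℝ) : ℂ) ^ (k - 1))).mul_const ((d : ℂ) ^ (-k))
  refine h2.congr fun τ ↦ ?_
  rw [slash_utGL_apply k a b d had hpos]
  rfl


/-- Integer form of the Hermite decomposition: for `g = [p, q; r, s] ∈ SL₂(ℤ)` and `N ≠ 0`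
there are `a, d > 0`, `a d = N`, `a = gcd(N, r)`, and `γ' = [p', q'; r', s'] ∈ SL₂(ℤ)`, `b ∈ ℤ` with
`[N p, N q; r, s] = γ' * [a, b; 0, d]`. -/
lemma hermite_int (N : ℕ) (hN : N ≠ 0) (p q r s : ℤ) (hdet : p * s - q * r = 1) :
    ∃ (a d : ℕ) (b p' q' r' s' : ℤ), a * d = N ∧ 0 < a ∧ 0 < d ∧ a = Int.gcd N r ∧
      p' * s' - q' * r' = 1 ∧
      (N : ℤ) * p = p' * a ∧ (N : ℤ) * q = p' * b + q' * d ∧ r = r' * a ∧ s = r' * b + s' * d := by
  set a : ℕ := Int.gcd N r with ha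
  have ha_pos : 0 < a := Int.gcd_pos_of_ne_zero_left _ (by exact_mod_cast hN)
  have haN : (a : ℤ) ∣ N := Int.gcd_dvd_left _ _
  have har : (a : ℤ) ∣ r := Int.gcd_dvd_right _ _
  obtain ⟨d', hd'⟩ := haN
  obtain ⟨r', hr'⟩ := har
  have hd'pos : 0 < d' := by
    have h1 : (0 : ℤ) < N := by exact_mod_cast Nat.pos_of_ne_zero hN
    have h2 : (0 : ℤ) < a := by exact_mod_cast ha_pos
    rw [hd'] at h1
    exact (mul_pos_iff_of_pos_left h2).mp h1
  lift d' to ℕ using hd'pos.le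
  have hcop1 : IsCoprime (d' : ℤ) r' := by
    have h := Int.isCoprime_iff_gcd_eq_one.mpr
      (Int.gcd_div_gcd_div_gcd (i := (N : ℤ)) (j := r) (by rw [← ha]; exact ha_pos))
    rw [← ha] at h
    have e1 : (N : ℤ) / a = d' := by
      rw [hd']; exact Int.mul_ediv_cancel_left _ (by exact_mod_cast ha_pos.ne')
    have e2 : r / a = r' := by
      rw [hr']; exact Int.mul_ediv_cancel_left _ (by exact_mod_cast ha_pos.ne')
    rwa [e1, e2] at h
  have hcop2 : IsCoprime p r' := ⟨s, -q * a, by rw [hr'] at hdet; linear_combination hdet⟩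
  obtain ⟨x, y, hxy⟩ : IsCoprime ((d' : ℤ) * p) r' := hcop1.mul_left hcop2
  refine ⟨a, d', x * N * q + y * s, d' * p, -y, r', x, ?_, ha_pos, by exact_mod_cast hd'pos,
    rfl, ?_, ?_, ?_, ?_, ?_⟩
  · exact_mod_cast hd'.symm
  · linear_combination hxy
  · rw [hd']; ring
  · have hN' : (N : ℤ) = a * d' := hd'
    have hps : p * s = 1 + q * r := by linear_combination hdet
    have : (d' : ℤ) * p * (x * N * q + y * s) + -y * d' =
        d' * q * a * (x * (d' * p) + y * r') := by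
      rw [hN']
      have : (d' : ℤ) * p * (y * s) = d' * y * (p * s) := by ring
      rw [mul_add, this, hps, hr']
      ring
    rw [this, hxy, hN']
    ring
  · rw [hr']; ring
  · have hN' : (N : ℤ) = a * d' := hd'
    have hps : p * s = 1 + q * r := by linear_combination hdet
    have : r' * (x * N * q + y * s) + x * d' = s * (x * (d' * p) + y * r') := by
      have e : x * (d' : ℤ) * (p * s) = x * d' * (1 + q * r) := by rw [hps]
      rw [hN']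
      have e2 : r' * (x * (a * d') * q + y * s) + x * d' = x * d' * (1 + q * (a * r')) + y * r' * s := by
        ring
      rw [e2, ← hr', ← e]
      ring
    rw [this, hxy, mul_one]


lemma natCast_mul_one_ne_zero {N : ℕ} (hN : N ≠ 0) : (N : ℝ) * 1 ≠ 0 := by
  rw [mul_one]; exact_mod_cast hN

/-- `diag(N, 1)` as an element of `GL₂(ℝ)`. -/
def diagN (N : ℕ) (hN : N ≠ 0) : GL (Fin 2) ℝ := utGL N 0 1 (natCast_mul_one_ne_zero hN)

lemma natCast_mul_natCast_ne_zero {a d : ℕ} (ha : 0 < a) (hd : 0 < d) : (a : ℝ) * (d : ℝ) ≠ 0 :=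
  mul_ne_zero (by exact_mod_cast ha.ne') (by exact_mod_cast hd.ne')

/-- The matrix `[p, q; r, s]` of determinant one as an element of `SL(2, ℤ)`. -/
def mkSL (p q r s : ℤ) (h : p * s - q * r = 1) : SL(2, ℤ) :=
  ⟨!![p, q; r, s], by rw [Matrix.det_fin_two_of]; exact h⟩

@[simp] lemma mkSL_00 (p q r s : ℤ) (h : p * s - q * r = 1) : (mkSL p q r s h) 0 0 = p := rfl
@[simp] lemma mkSL_01 (p q r s : ℤ) (h : p * s - q * r = 1) : (mkSL p q r s h) 0 1 = q := rfl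
@[simp] lemma mkSL_10 (p q r s : ℤ) (h : p * s - q * r = 1) : (mkSL p q r s h) 1 0 = r := rfl
@[simp] lemma mkSL_11 (p q r s : ℤ) (h : p * s - q * r = 1) : (mkSL p q r s h) 1 1 = s := rfl

lemma mapGL_val_apply (g : SL(2, ℤ)) (i j : Fin 2) :
    ((mapGL ℝ g : GL (Fin 2) ℝ) : Matrix (Fin 2) (Fin 2) ℝ) i j = ((g i j : ℤ) : ℝ) := by
  rw [mapGL_coe_matrix]
  simp

/-- Hermite decomposition `diag(N,1) * g = γ' * [a, b; 0, d]` in `GL₂(ℝ)`. -/
lemma hermite_decomp (N : ℕ) (hN : N ≠ 0) (g : SL(2, ℤ)) :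
    ∃ (a d : ℕ) (b : ℤ) (γ' : SL(2, ℤ)) (ha : 0 < a) (hd : 0 < d),
      a * d = N ∧ a = Int.gcd N (g 1 0) ∧
      diagN N hN * mapGL ℝ g = mapGL ℝ γ' * utGL a b d (natCast_mul_natCast_ne_zero ha hd) := by
  have hdet : g 0 0 * g 1 1 - g 0 1 * g 1 0 = 1 := by
    have := g.det_coe
    rwa [Matrix.det_fin_two] at this
  obtain ⟨a, d, b, p', q', r', s', had, ha, hd, hagcd, hdet', h00, h01, h10, h11⟩ :=
    hermite_int N hN (g 0 0) (g 0 1) (g 1 0) (g 1 1) hdet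
  refine ⟨a, d, b, mkSL p' q' r' s' hdet', ha, hd, had, hagcd, ?_⟩
  apply Matrix.GeneralLinearGroup.ext
  intro i j
  have h00' : (N : ℝ) * (g 0 0 : ℝ) = (p' : ℝ) * a := by exact_mod_cast h00
  have h01' : (N : ℝ) * (g 0 1 : ℝ) = (p' : ℝ) * b + q' * d := by exact_mod_cast h01
  have h10' : ((g 1 0 : ℤ) : ℝ) = (r' : ℝ) * a := by exact_mod_cast h10
  have h11' : ((g 1 1 : ℤ) : ℝ) = (r' : ℝ) * b + s' * d := by exact_mod_cast h11
  fin_cases i <;> fin_cases j <;>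
    simp [diagN, Matrix.mul_apply, Fin.sum_univ_two, h00', h01', h10', h11']


/-- The function `E₄ ∣[4] diag(N, 1)`, i.e. `z ↦ N³ E₄(N z)`. -/
def raiseFun (N : ℕ) (hN : N ≠ 0) : ℍ → ℂ := ⇑E₄ ∣[(4 : ℤ)] diagN N hN

lemma E₄_slash_mapGL (γ : SL(2, ℤ)) : (⇑E₄ ∣[(4 : ℤ)] mapGL ℝ γ) = ⇑E₄ :=
  SlashInvariantFormClass.slash_action_eq E₄ (mapGL ℝ γ) (MonoidHom.mem_range.mpr ⟨γ, rfl⟩)

/-- `(E₄ ∣ diag(N,1)) ∣ g = E₄ ∣ [a, b; 0, d]` where `a = gcd(N, g 1 0)`, `a d = N`. -/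
lemma raiseFun_slash (N : ℕ) (hN : N ≠ 0) (g : SL(2, ℤ)) :
    ∃ (a d : ℕ) (b : ℤ) (ha : 0 < a) (hd : 0 < d),
      a * d = N ∧ a = Int.gcd N (g 1 0) ∧
      raiseFun N hN ∣[(4 : ℤ)] mapGL ℝ g =
        ⇑E₄ ∣[(4 : ℤ)] utGL a b d (natCast_mul_natCast_ne_zero ha hd) := by
  obtain ⟨a, d, b, γ', ha, hd, had, hagcd, hmat⟩ := hermite_decomp N hN g
  refine ⟨a, d, b, ha, hd, had, hagcd, ?_⟩
  rw [raiseFun, ← SlashAction.slash_mul, hmat, SlashAction.slash_mul, E₄_slash_mapGL]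

/-- `(E₄ ∣ diag(N,1)) ∣ g → N³ / d⁴` at `i∞`, where `d = N / gcd(N, g 1 0)`. -/
lemma tendsto_raiseFun_slash (N : ℕ) (hN : N ≠ 0) (g : SL(2, ℤ)) :
    ∃ (a d : ℕ), 0 < a ∧ 0 < d ∧ a * d = N ∧ a = Int.gcd N (g 1 0) ∧
      Tendsto (raiseFun N hN ∣[(4 : ℤ)] mapGL ℝ g) atImInfty
        (𝓝 ((N : ℂ) ^ 3 * ((d : ℂ) ^ 4)⁻¹)) := by
  obtain ⟨a, d, b, ha, hd, had, hagcd, hF⟩ := raiseFun_slash N hN g
  refine ⟨a, d, ha, hd, had, hagcd, ?_⟩
  rw [hF]
  have hE : Tendsto (⇑E₄) atImInfty (𝓝 1) := by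
    have h := ModularFormClass.analyticAt_cuspFunction_zero E₄ one_pos one_mem_strictPeriods_SL
    have h0 : cuspFunction 1 E₄ 0 = 1 := by
      have := E_qExpansion_coeff_zero (k := 4) (by norm_num) ⟨2, rfl⟩
      rw [qExpansion_coeff] at this
      simpa using this
    have := h.continuousAt.tendsto.comp (qParam_tendsto_atImInfty (h := 1) one_pos)
    rw [h0] at this
    refine this.congr fun τ ↦ ?_
    exact SlashInvariantFormClass.eq_cuspFunction (h := 1) E₄ τ one_mem_strictPeriods_SL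
      one_ne_zero
  have hpos : (0 : ℝ) < (a : ℝ) * d := by positivity
  have := tendsto_slash_utGL 4 a b d (natCast_mul_natCast_ne_zero ha hd) hpos hE
  convert this using 2
  have hNad : (N : ℂ) = (a : ℂ) * d := by exact_mod_cast had.symm
  rw [one_mul, hNad]
  norm_num


lemma raiseFun_slash_one_tendsto (N : ℕ) (hN : N ≠ 0) :
    Tendsto (raiseFun N hN) atImInfty (𝓝 ((N : ℂ) ^ 3)) := by
  obtain ⟨a, d, ha, hd, had, hagcd, ht⟩ := tendsto_raiseFun_slash N hN 1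
  have ha' : a = N := by
    rw [hagcd]
    simp
  have hd' : d = 1 := by
    rw [ha'] at had
    exact Nat.eq_of_mul_eq_mul_left (Nat.pos_of_ne_zero hN) (by rw [had, mul_one])
  rw [hd'] at ht
  simpa using ht

/-- **Part D, key step.** If `(E₄ ∣ diag(N,1)) ∣ g = E₄ ∣ diag(N,1)` for `g ∈ SL(2,ℤ)` then
`g ∈ Γ₀(N)`. -/
theorem mem_Gamma0_of_raiseFun_slash_eq (N : ℕ) (hN : N ≠ 0) (g : SL(2, ℤ))
    (h : raiseFun N hN ∣[(4 : ℤ)] g = raiseFun N hN) : g ∈ Gamma0 N := by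
  obtain ⟨a, d, ha, hd, had, hagcd, ht⟩ := tendsto_raiseFun_slash N hN g
  have h' : raiseFun N hN ∣[(4 : ℤ)] mapGL ℝ g = raiseFun N hN := h
  rw [h'] at ht
  have hlim := tendsto_nhds_unique ht (raiseFun_slash_one_tendsto N hN)
  have hNne : ((N : ℂ) ^ 3) ≠ 0 := pow_ne_zero 3 (by exact_mod_cast hN)
  have hd4 : ((d : ℂ) ^ 4)⁻¹ = 1 := by
    have := mul_left_cancel₀ hNne (hlim.trans (mul_one _).symm)
    exact this
  have hd4' : (d : ℂ) ^ 4 = 1 := by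
    rw [inv_eq_one] at hd4
    exact hd4
  have hd1 : d = 1 := by
    have : (d ^ 4 : ℕ) = 1 := by exact_mod_cast hd4'
    exact (Nat.pow_eq_one.mp this).resolve_right (by norm_num)
  rw [hd1, mul_one] at had
  rw [Gamma0_mem]
  have hdvd : (N : ℤ) ∣ g 1 0 := by
    have : ((Int.gcd N (g 1 0) : ℕ) : ℤ) ∣ g 1 0 := Int.gcd_dvd_right _ _
    rwa [← hagcd, had] at this
  exact (ZMod.intCast_zmod_eq_zero_iff_dvd _ _).mpr hdvd


/-- For `g ∈ Γ₀(N)`, `diag(N,1) g = g' diag(N,1)` with `g' ∈ SL₂(ℤ)`. -/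
lemma diagN_mul_mapGL_of_mem_Gamma0 (N : ℕ) (hN : N ≠ 0) (g : SL(2, ℤ)) (hg : g ∈ Gamma0 N) :
    ∃ g' : SL(2, ℤ), diagN N hN * mapGL ℝ g = mapGL ℝ g' * diagN N hN := by
  have hdvd : (N : ℤ) ∣ g 1 0 := by
    rw [Gamma0_mem] at hg
    exact (ZMod.intCast_zmod_eq_zero_iff_dvd _ _).mp hg
  obtain ⟨r', hr'⟩ := hdvd
  have hdet : g 0 0 * g 1 1 - g 0 1 * g 1 0 = 1 := by
    have := g.det_coe
    rwa [Matrix.det_fin_two] at this
  have hdet' : g 0 0 * g 1 1 - (N * g 0 1) * r' = 1 := by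
    rw [hr'] at hdet
    linear_combination hdet
  refine ⟨mkSL (g 0 0) (N * g 0 1) r' (g 1 1) hdet', ?_⟩
  apply Matrix.GeneralLinearGroup.ext
  intro i j
  have h10 : ((g 1 0 : ℤ) : ℝ) = (N : ℝ) * r' := by exact_mod_cast hr'
  fin_cases i <;> fin_cases j <;>
    simp [diagN, Matrix.mul_apply, Fin.sum_univ_two, h10, mul_comm]

lemma raiseFun_slash_of_mem_Gamma0 (N : ℕ) (hN : N ≠ 0) (g : SL(2, ℤ)) (hg : g ∈ Gamma0 N) :
    raiseFun N hN ∣[(4 : ℤ)] mapGL ℝ g = raiseFun N hN := by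
  obtain ⟨g', hg'⟩ := diagN_mul_mapGL_of_mem_Gamma0 N hN g hg
  rw [raiseFun, ← SlashAction.slash_mul, hg', SlashAction.slash_mul, E₄_slash_mapGL]

/-- The level-raised Eisenstein series `z ↦ N³ E₄(N z)` as a modular form on `Γ₀(N)`. -/
def raiseE₄ (N : ℕ) [NeZero N] : ModularForm (Gamma0 N) 4 where
  toFun := raiseFun N (NeZero.ne N)
  slash_action_eq' A hA := by
    obtain ⟨g, hg, rfl⟩ := hA
    exact raiseFun_slash_of_mem_Gamma0 N (NeZero.ne N) g hg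
  holo' := (ModularFormClass.holo E₄).slash 4 (diagN N (NeZero.ne N))
  bdd_at_cusps' hc := by
    rw [Subgroup.IsArithmetic.isCusp_iff_isCusp_SL2Z] at hc
    rw [OnePoint.isBoundedAt_iff_forall_SL2Z hc]
    intro γ _
    obtain ⟨a, d, -, -, -, -, ht⟩ := tendsto_raiseFun_slash N (NeZero.ne N) γ
    exact ht.isBigO_one ℝ

@[simp] lemma coe_raiseE₄ (N : ℕ) [NeZero N] : ⇑(raiseE₄ N) = raiseFun N (NeZero.ne N) := rfl

/-- **S20, Part D.** There is a modular form on `Γ₀(N)` whose stabiliser in `SL(2, ℤ)`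
(for the slash action) is contained in `Γ₀(N)`. -/
theorem partD (N : ℕ) [NeZero N] :
    ∃ (k : ℤ) (f : ModularForm (Gamma0 N) k), ∀ g : SL(2, ℤ), (⇑f ∣[k] g = ⇑f) → g ∈ Gamma0 N :=
  ⟨4, raiseE₄ N, fun g hg ↦ mem_Gamma0_of_raiseFun_slash_eq N (NeZero.ne N) g hg⟩

end Fermat.Agent.S20.H70
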