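import Fermat.Agent.S20.H74_Basic

/-!
# S20 core (helper74): coset functions
-/

set_option autoImplicit false

namespace Fermat.Agent.S20.H74

open UpperHalfPlane ModularForm MatrixGroups Filter
open scoped Manifold Topology

variable {Γ : Subgroup SL(2, ℤ)} {k l : ℤ}

/-- The translate of `f` attached to the coset `q = gΓ`, namely `f ∣[k] g⁻¹`
(for the chosen representative `g = q.out`). -/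
noncomputable def cf (Γ : Subgroup SL(2, ℤ)) (k : ℤ) (f : ℍ → ℂ) (q : SL(2, ℤ) ⧸ Γ) : ℍ → ℂ :=
  f ∣[k] (q.out)⁻¹

lemma cf_mk {f : ℍ → ℂ} (hf : ∀ γ ∈ Γ, f ∣[k] γ = f) (g : SL(2, ℤ)) :
    cf Γ k f (g : SL(2, ℤ) ⧸ Γ) = f ∣[k] g⁻¹ := by
  obtain ⟨γ, hγ⟩ := QuotientGroup.mk_out_eq_mul Γ g
  unfold cf
  rw [hγ, mul_inv_rev, SlashAction.slash_mul, hf _ (inv_mem γ.2)]

lemma cf_slash {f : ℍ → ℂ} (hf : ∀ γ ∈ Γ, f ∣[k] γ = f) (q : SL(2, ℤ) ⧸ Γ) (δ : SL(2, ℤ)) :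
    (cf Γ k f q) ∣[k] δ = cf Γ k f (δ⁻¹ • q) := by
  induction q using QuotientGroup.induction_on with
  | H g =>
    rw [cf_mk hf, MulAction.Quotient.smul_mk, cf_mk hf, ← SlashAction.slash_mul]
    simp [mul_inv_rev]

lemma cf_one {f : ℍ → ℂ} (hf : ∀ γ ∈ Γ, f ∣[k] γ = f) :
    cf Γ k f ((1 : SL(2, ℤ)) : SL(2, ℤ) ⧸ Γ) = f := by
  rw [cf_mk hf]; simp

lemma cf_apply_smul {f : ℍ → ℂ} (hf : ∀ γ ∈ Γ, f ∣[k] γ = f) (q : SL(2, ℤ) ⧸ Γ)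
    (δ : SL(2, ℤ)) (z : ℍ) :
    cf Γ k f q (δ • z) = denom δ z ^ k * cf Γ k f (δ⁻¹ • q) z := by
  rw [← cf_slash hf, SL_slash_apply, mul_comm, mul_assoc, ← zpow_add₀ (denom_ne_zero _ z)]
  simp

lemma cf_add (f g : ℍ → ℂ) (q : SL(2, ℤ) ⧸ Γ) :
    cf Γ k (f + g) q = cf Γ k f q + cf Γ k g q := by
  unfold cf; rw [SlashAction.add_slash]

lemma cf_smul (c : ℂ) (f : ℍ → ℂ) (q : SL(2, ℤ) ⧸ Γ) :
    cf Γ k (c • f) q = c • cf Γ k f q := by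
  unfold cf; rw [SL_smul_slash]

lemma cf_zero (q : SL(2, ℤ) ⧸ Γ) : cf Γ k (0 : ℍ → ℂ) q = 0 := by
  unfold cf; rw [SlashAction.zero_slash]

lemma cf_sum {ι : Type*} (s : Finset ι) (f : ι → ℍ → ℂ) (q : SL(2, ℤ) ⧸ Γ) :
    cf Γ k (∑ i ∈ s, f i) q = ∑ i ∈ s, cf Γ k (f i) q := by
  unfold cf; rw [SlashAction.sum_slash]

lemma cf_mul {a f : ℍ → ℂ} (ha : a ∈ MF ⊤ l) (q : SL(2, ℤ) ⧸ Γ) :
    cf Γ (l + k) (a * f) q = a * cf Γ k f q := by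
  unfold cf; rw [mul_slash_SL2, MF.slash_top ha]

lemma cf_mul' {a f : ℍ → ℂ} {m : ℤ} (ha : a ∈ MF ⊤ l) (hm : m = l + k) (q : SL(2, ℤ) ⧸ Γ) :
    cf Γ m (a * f) q = a * cf Γ k f q := by
  subst hm; exact cf_mul ha q

lemma cf_mdiff {f : ℍ → ℂ} (hf : MDiff f) (q : SL(2, ℤ) ⧸ Γ) : MDiff (cf Γ k f q) :=
  mdiff_slash hf _

lemma cf_bdd {f : ℍ → ℂ} (hf : f ∈ MF Γ k) (q : SL(2, ℤ) ⧸ Γ) :
    IsBoundedAtImInfty (cf Γ k f q) := hf.2.2 _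

lemma cf_zero_at {f : ℍ → ℂ} (hf : f ∈ CF Γ k) (q : SL(2, ℤ) ⧸ Γ) :
    IsZeroAtImInfty (cf Γ k f q) := hf.2.2 _

/-- Every `SL(2, ℤ)`-translate of `f` is one of the coset functions. -/
lemma slash_eq_cf {f : ℍ → ℂ} (hf : ∀ γ ∈ Γ, f ∣[k] γ = f) (g : SL(2, ℤ)) :
    f ∣[k] g = cf Γ k f ((g⁻¹ : SL(2, ℤ)) : SL(2, ℤ) ⧸ Γ) := by
  rw [cf_mk hf, inv_inv]

/-- Membership in `MF` in terms of coset functions. -/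
lemma mem_MF_iff_cf {f : ℍ → ℂ} : f ∈ MF Γ k ↔ MDiff f ∧ (∀ γ ∈ Γ, f ∣[k] γ = f) ∧
    ∀ q : SL(2, ℤ) ⧸ Γ, IsBoundedAtImInfty (cf Γ k f q) :=
  ⟨fun hf => ⟨hf.1, hf.2.1, fun q => cf_bdd hf q⟩,
   fun hf => ⟨hf.1, hf.2.1, fun γ => by rw [slash_eq_cf hf.2.1]; exact hf.2.2 _⟩⟩

lemma mem_CF_iff_cf {f : ℍ → ℂ} : f ∈ CF Γ k ↔ MDiff f ∧ (∀ γ ∈ Γ, f ∣[k] γ = f) ∧
    ∀ q : SL(2, ℤ) ⧸ Γ, IsZeroAtImInfty (cf Γ k f q) :=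
  ⟨fun hf => ⟨hf.1, hf.2.1, fun q => cf_zero_at hf q⟩,
   fun hf => ⟨hf.1, hf.2.1, fun γ => by rw [slash_eq_cf hf.2.1]; exact hf.2.2 _⟩⟩

end Fermat.Agent.S20.H74
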