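import Fermat.Agent.S20.H74_Basic

/-!
# S20 core (helper74): comparison with Mathlib's `ModularForm` / `CuspForm`
-/

set_option autoImplicit false

namespace Fermat.Agent.S20.H74

open UpperHalfPlane ModularForm MatrixGroups Filter Matrix.SpecialLinearGroup
open scoped Manifold Topology

variable {Γ : Subgroup SL(2, ℤ)} {k : ℤ}

section general

variable {𝒢 : Subgroup (GL (Fin 2) ℝ)} [𝒢.IsArithmetic] [𝒢.HasDetOne]

lemma coe_mem_MF (h𝒢 : 𝒢 = Γ.map (mapGL ℝ)) (F : ModularForm 𝒢 k) : (⇑F : ℍ → ℂ) ∈ MF Γ k := by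
  refine ⟨F.holo', fun γ hγ => ?_, fun γ => ?_⟩
  · exact SlashInvariantFormClass.slash_action_eq F (mapGL ℝ γ) (h𝒢 ▸ Subgroup.mem_map_of_mem _ hγ)
  · have hc : IsCusp (mapGL ℝ γ • OnePoint.infty) 𝒢 := by
      rw [Subgroup.IsArithmetic.isCusp_iff_isCusp_SL2Z, isCusp_SL2Z_iff']
      exact ⟨γ, rfl⟩
    exact F.bdd_at_cusps' hc (mapGL ℝ γ) rfl

lemma coe_mem_CF (h𝒢 : 𝒢 = Γ.map (mapGL ℝ)) (F : CuspForm 𝒢 k) : (⇑F : ℍ → ℂ) ∈ CF Γ k := by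
  refine ⟨F.holo', fun γ hγ => ?_, fun γ => ?_⟩
  · exact SlashInvariantFormClass.slash_action_eq F (mapGL ℝ γ) (h𝒢 ▸ Subgroup.mem_map_of_mem _ hγ)
  · have hc : IsCusp (mapGL ℝ γ • OnePoint.infty) 𝒢 := by
      rw [Subgroup.IsArithmetic.isCusp_iff_isCusp_SL2Z, isCusp_SL2Z_iff']
      exact ⟨γ, rfl⟩
    exact F.zero_at_cusps' hc (mapGL ℝ γ) rfl

/-- Build a Mathlib modular form from an element of `MF`. -/
noncomputable def toModularForm (h𝒢 : 𝒢 = Γ.map (mapGL ℝ)) (f : ℍ → ℂ) (hf : f ∈ MF Γ k) :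
    ModularForm 𝒢 k where
  toFun := f
  slash_action_eq' := by
    intro g hg
    rw [h𝒢] at hg
    obtain ⟨γ, hγ, rfl⟩ := hg
    exact hf.2.1 γ hγ
  holo' := hf.1
  bdd_at_cusps' := by
    intro c hc
    rw [Subgroup.IsArithmetic.isCusp_iff_isCusp_SL2Z] at hc
    exact (OnePoint.isBoundedAt_iff_forall_SL2Z hc).mpr fun γ _ => hf.2.2 γ

/-- Build a Mathlib cusp form from an element of `CF`. -/
noncomputable def toCuspForm (h𝒢 : 𝒢 = Γ.map (mapGL ℝ)) (f : ℍ → ℂ) (hf : f ∈ CF Γ k) :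
    CuspForm 𝒢 k where
  toFun := f
  slash_action_eq' := by
    intro g hg
    rw [h𝒢] at hg
    obtain ⟨γ, hγ, rfl⟩ := hg
    exact hf.2.1 γ hγ
  holo' := hf.1
  zero_at_cusps' := by
    intro c hc
    rw [Subgroup.IsArithmetic.isCusp_iff_isCusp_SL2Z] at hc
    exact (OnePoint.isZeroAt_iff_forall_SL2Z hc).mpr fun γ _ => hf.2.2 γ

/-- `MF Γ k` is linearly equivalent to Mathlib's `ModularForm`. -/
noncomputable def MFEquiv (h𝒢 : 𝒢 = Γ.map (mapGL ℝ)) : ModularForm 𝒢 k ≃ₗ[ℂ] MF Γ k where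
  toFun F := ⟨⇑F, coe_mem_MF h𝒢 F⟩
  invFun f := toModularForm h𝒢 f.1 f.2
  map_add' _ _ := rfl
  map_smul' _ _ := rfl
  left_inv _ := rfl
  right_inv _ := rfl

/-- `CF Γ k` is linearly equivalent to Mathlib's `CuspForm`. -/
noncomputable def CFEquiv (h𝒢 : 𝒢 = Γ.map (mapGL ℝ)) : CuspForm 𝒢 k ≃ₗ[ℂ] CF Γ k where
  toFun F := ⟨⇑F, coe_mem_CF h𝒢 F⟩
  invFun f := toCuspForm h𝒢 f.1 f.2
  map_add' _ _ := rfl
  map_smul' _ _ := rfl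
  left_inv _ := rfl
  right_inv _ := rfl

end general

lemma SL_eq_map_top : (𝒮ℒ : Subgroup (GL (Fin 2) ℝ)) = (⊤ : Subgroup SL(2, ℤ)).map (mapGL ℝ) :=
  MonoidHom.range_eq_map _

/-- Level one: `ModularForm 𝒮ℒ k ≃ MF ⊤ k`. -/
noncomputable def MFEquivTop : ModularForm 𝒮ℒ k ≃ₗ[ℂ] MF ⊤ k := MFEquiv SL_eq_map_top

noncomputable def CFEquivTop : CuspForm 𝒮ℒ k ≃ₗ[ℂ] CF ⊤ k := CFEquiv SL_eq_map_top

lemma coe_mem_MF_top (F : ModularForm 𝒮ℒ k) : (⇑F : ℍ → ℂ) ∈ MF ⊤ k := coe_mem_MF SL_eq_map_top F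

lemma coe_mem_CF_top (F : CuspForm 𝒮ℒ k) : (⇑F : ℍ → ℂ) ∈ CF ⊤ k := coe_mem_CF SL_eq_map_top F

lemma exists_modularForm_top {f : ℍ → ℂ} (hf : f ∈ MF ⊤ k) : ∃ F : ModularForm 𝒮ℒ k, ⇑F = f :=
  ⟨toModularForm SL_eq_map_top f hf, rfl⟩

lemma exists_cuspForm_top {f : ℍ → ℂ} (hf : f ∈ CF ⊤ k) : ∃ F : CuspForm 𝒮ℒ k, ⇑F = f :=
  ⟨toCuspForm SL_eq_map_top f hf, rfl⟩

/-- For finite index `Γ`. -/
noncomputable def MFEquivOfFiniteIndex (Γ : Subgroup SL(2, ℤ)) [Γ.FiniteIndex] (k : ℤ) :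
    ModularForm (Γ : Subgroup (GL (Fin 2) ℝ)) k ≃ₗ[ℂ] MF Γ k := MFEquiv rfl

noncomputable def CFEquivOfFiniteIndex (Γ : Subgroup SL(2, ℤ)) [Γ.FiniteIndex] (k : ℤ) :
    CuspForm (Γ : Subgroup (GL (Fin 2) ℝ)) k ≃ₗ[ℂ] CF Γ k := CFEquiv rfl

/-- Negative weight forms vanish. -/
lemma MF_eq_bot_of_neg [Γ.FiniteIndex] (hk : k < 0) : MF Γ k = ⊥ := by
  rw [eq_bot_iff]
  intro f hf
  have := ModularForm.isZero_of_neg_weight hk (toModularForm (𝒢 := (Γ : Subgroup (GL (Fin 2) ℝ))) rfl f hf)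
  have h2 := congrArg (fun F : ModularForm (Γ : Subgroup (GL (Fin 2) ℝ)) k => (⇑F : ℍ → ℂ)) this
  exact h2

/-- Weight zero forms are constant. -/
lemma MF_zero_const [Γ.FiniteIndex] {f : ℍ → ℂ} (hf : f ∈ MF Γ 0) : ∃ c : ℂ, f = Function.const ℍ c := by
  obtain ⟨c, hc⟩ := ModularForm.eq_const_of_weight_zero
    (toModularForm (𝒢 := (Γ : Subgroup (GL (Fin 2) ℝ))) rfl f hf)
  exact ⟨c, hc⟩

lemma const_mem_MF (c : ℂ) : Function.const ℍ c ∈ MF Γ 0 := by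
  refine ⟨mdifferentiable_const, fun γ _ => is_invariant_const γ c, fun γ => ?_⟩
  rw [is_invariant_const]
  exact Filter.const_boundedAtFilter _ c

end Fermat.Agent.S20.H74
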