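import Fermat.Agent.S20.H74_Basic
import Fermat.Agent.S20.H74_Coset
import Fermat.Agent.S20.H74_Equiv

/-!
# S20 core (helper74): definitions used by the work packages (sorry-free)
-/

set_option autoImplicit false

namespace Fermat.Agent.S20.H74

open UpperHalfPlane ModularForm MatrixGroups Filter EisensteinSeries
open scoped Manifold Topology

/-- The level one form of weight 12 vanishing at `z₀`. -/
noncomputable def Bform (z₀ : ℍ) : ℍ → ℂ :=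
  fun τ => E₆ z₀ ^ 2 * E₄ τ ^ 3 - E₄ z₀ ^ 3 * E₆ τ ^ 2

/-- Level one geometry (parts A1, A2). -/
structure LevelOneGeometry : Prop where
  inj : ∀ (z w : ℍ) (lam : ℂ), lam ≠ 0 → E₄ w = lam ^ 4 * E₄ z → E₆ w = lam ^ 6 * E₆ z →
    ∃ γ : SL(2, ℤ), w = γ • z
  simpleE4 : ∀ z : ℍ, E₄ z = 0 → deriv (E₄ ∘ ofComplex) z ≠ 0
  simpleE6 : ∀ z : ℍ, E₆ z = 0 → deriv (E₆ ∘ ofComplex) z ≠ 0
  simpleB : ∀ z₀ z : ℍ, E₄ z ≠ 0 → E₆ z ≠ 0 → Bform z₀ z = 0 →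
    deriv (Bform z₀ ∘ ofComplex) z ≠ 0

/-- A homogeneous basis of `M_*(Γ)` as a module over `M_*(SL(2, ℤ))`. -/
structure RBasis (Γ : Subgroup SL(2, ℤ)) where
  J : Type
  wt : J → ℤ
  F : J → ℍ → ℂ
  mem : ∀ j, F j ∈ MF Γ (wt j)
  gen : ∀ (K : ℤ) (g : ℍ → ℂ), g ∈ MF Γ K → ∃ (s : Finset J) (a : J → ℍ → ℂ),
      (∀ j ∈ s, a j ∈ MF ⊤ (K - wt j)) ∧ g = ∑ j ∈ s, a j * F j
  indep : ∀ (K : ℤ) (s : Finset J) (a : J → ℍ → ℂ), (∀ j ∈ s, a j ∈ MF ⊤ (K - wt j)) →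
      ∑ j ∈ s, a j * F j = 0 → ∀ j ∈ s, a j = 0

variable {Γ : Subgroup SL(2, ℤ)}

/-- The evaluation vector of the `j`-th basis form at `z`. -/
noncomputable def RBasis.ev (b : RBasis Γ) (z : ℍ) (j : b.J) : (SL(2, ℤ) ⧸ Γ) → ℂ :=
  fun q => cf Γ (b.wt j) (b.F j) q z

/-- Local independence of the basis at `z`. -/
def RBasis.LIAt (b : RBasis Γ) (z : ℍ) : Prop := LinearIndependent ℂ (b.ev z)

/-- The division property for a level one form `B` of weight `w`. -/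
def DivProp (Γ : Subgroup SL(2, ℤ)) (w : ℤ) (B : ℍ → ℂ) : Prop :=
  ∀ (K : ℤ) (g : ℍ → ℂ), g ∈ MF Γ K → (∀ z : ℍ, B z = 0 → g z = 0) →
    ∃ g' ∈ MF Γ (K - w), g = B * g'

/-- The number of `⟨T⟩`-orbits on the cosets (= number of cusps). -/
noncomputable def cuspNum (Γ : Subgroup SL(2, ℤ)) : ℕ :=
  Nat.card (MulAction.orbitRel.Quotient (Subgroup.zpowers ModularGroup.T) (SL(2, ℤ) ⧸ Γ))

/-- Number of cosets fixed by `S`. -/
noncomputable def ellTwo (Γ : Subgroup SL(2, ℤ)) : ℕ :=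
  Nat.card {q : SL(2, ℤ) ⧸ Γ // ModularGroup.S • q = q}

/-- Number of cosets fixed by `S * T`. -/
noncomputable def ellThree (Γ : Subgroup SL(2, ℤ)) : ℕ :=
  Nat.card {q : SL(2, ℤ) ⧸ Γ // (ModularGroup.S * ModularGroup.T) • q = q}

/-- The elliptic point `ρ = e^{2πi/3}`, fixed by `S * T`. -/
noncomputable def rho : ℍ := ⟨⟨-1 / 2, Real.sqrt 3 / 2⟩, by positivity⟩

/-- A dual family to an `RBasis`: the entries of the inverse of the evaluation matrix. -/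
structure RBasis.Dual (b : RBasis Γ) where
  H : b.J → (SL(2, ℤ) ⧸ Γ) → ℍ → ℂ
  mdiff : ∀ j q, MDiff (H j q)
  left : ∀ [Fintype (SL(2, ℤ) ⧸ Γ)] [DecidableEq b.J] (z : ℍ) (j j' : b.J),
    ∑ q, b.ev z j q * H j' q z = if j = j' then 1 else 0
  right : ∀ [Fintype b.J] [DecidableEq (SL(2, ℤ) ⧸ Γ)] (z : ℍ) (q q' : SL(2, ℤ) ⧸ Γ),
    ∑ j, b.ev z j q * H j q' z = if q = q' then 1 else 0

end Fermat.Agent.S20.H74
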