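import Fermat.Prelude.Def_ModularCurve_GenusNumerics
import Fermat.Agent.S20.H74_Defs
import Fermat.Agent.S20.H29_JInjective
import Fermat.Agent.S20.H70_Ramanujan
import Fermat.Agent.S20.H70_PartD
import Fermat.Agent.S20.H19_Index
import Fermat.Agent.S20.H19_Fixed
import Fermat.Agent.S20.H38_CuspCount

/-!
# S20 glue (helper75)

* `hgeo : H74.LevelOneGeometry` from A1 (helper29) and A2 (helper70);
* `hsep N` : the separating form for `Γ₀(N)` in `MF` form, from part D (helper70);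
* `neg_one_mem N : -1 ∈ Γ₀(N)`;
* `S20_of_core` : the core count implies the frozen statement of S20, via G1–G4.
-/

set_option autoImplicit false

open UpperHalfPlane ModularForm MatrixGroups Filter EisensteinSeries CongruenceSubgroup
open scoped Manifold Topology

namespace Fermat.Agent.S20.H75

open Fermat.Agent.S20

/-- (a) level one geometry. -/
theorem hgeo : H74.LevelOneGeometry where
  inj := fun z w lam hlam h4 h6 => H29.exists_smul_eq_of_E₄_E₆ z w lam hlam h4 h6
  simpleE4 := fun z hz => H70.deriv_E₄_ne_zero z hz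
  simpleE6 := fun z hz => H70.deriv_E₆_ne_zero z hz
  simpleB := fun z₀ z h4 h6 hz => H70.deriv_B_ne_zero z₀ z h4 h6 hz

/-- (c) `-1 ∈ Γ₀(N)`. -/
theorem neg_one_mem (N : ℕ) : (-1 : SL(2, ℤ)) ∈ Gamma0 N := by
  rw [Gamma0_mem]
  simp

/-- (b) the separating form, in `MF` form. -/
theorem hsep (N : ℕ) [NeZero N] :
    ∃ (k : ℤ) (f : ℍ → ℂ), f ∈ H74.MF (Gamma0 N) k ∧
      ∀ g : SL(2, ℤ), f ∣[k] g = f → g ∈ Gamma0 N := by
  obtain ⟨k, f, hf⟩ := H70.partD N
  exact ⟨k, ⇑f, H74.coe_mem_MF rfl f, hf⟩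

/-- (d) the core count implies the frozen statement of S20. -/
theorem S20_of_core (N : ℕ) [NeZero N]
    (hcore : 12 * (Module.finrank ℂ (H74.CF (Gamma0 N) 2) : ℤ) + 3 * H74.ellTwo (Gamma0 N)
      + 4 * H74.ellThree (Gamma0 N) + 6 * H74.cuspNum (Gamma0 N) = 12 + (Gamma0 N).index) :
    (Module.finrank ℂ (CuspForm (CongruenceSubgroup.Gamma0 N) 2) : ℚ)
      = ModularCurve.genusFormula N := by
  have h1 : Module.finrank ℂ (CuspForm (CongruenceSubgroup.Gamma0 N) 2)
      = Module.finrank ℂ (H74.CF (Gamma0 N) 2) :=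
    LinearEquiv.finrank_eq (H74.CFEquivOfFiniteIndex (Gamma0 N) 2)
  have hG1 : (Gamma0 N).index = ModularCurve.dedekindPsi N := H19.G1 N
  have hG2 : H74.ellTwo (Gamma0 N) = ModularCurve.nuTwo N := H19.G2 N
  have hG3 : H74.ellThree (Gamma0 N) = ModularCurve.nuThree N := H19.G3 N
  have hG4 : H74.cuspNum (Gamma0 N) = ModularCurve.cuspCount N := H38.G4 N
  rw [hG1, hG2, hG3, hG4] at hcore
  rw [h1, ModularCurve.genusFormula]
  have hq : (12 : ℚ) * (Module.finrank ℂ (H74.CF (Gamma0 N) 2) : ℚ) + 3 * ModularCurve.nuTwo N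
      + 4 * ModularCurve.nuThree N + 6 * ModularCurve.cuspCount N
      = 12 + ModularCurve.dedekindPsi N := by
    exact_mod_cast hcore
  linarith

end Fermat.Agent.S20.H75
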