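import Fermat.Agent.S20.H74_Defs

/-!
# S20 packages L1-L4 (helper86): level one facts

* `L1_decomp`: `M_k(SL2Z) = E₄ M_{k-4} + ℂ E₆^{k/6}`.
* `L2_finrank_top`, `L2_finite_top`, `L2_top_odd`: dimensions of level one spaces.
* `L3_*`: the elliptic points `i` and `ρ`, and `E₆ i = 0`, `E₄ ρ = 0`.
* `L4_cusp_div`: level one cusp forms are multiples of the discriminant.

All statements are those of the work packages in `H74_Skeleton` (same names, in the namespace
`Fermat.Agent.S20.H86`).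
-/

set_option autoImplicit false

namespace Fermat.Agent.S20.H86

open Fermat.Agent.S20.H74
open UpperHalfPlane ModularForm MatrixGroups Filter EisensteinSeries
open scoped Manifold Topology

/-! ## L2. Dimensions of level one spaces -/

/-- L2: dimension of level one forms (from Mathlib `dimension_level_one`). -/
theorem L2_finrank_top (k : ℕ) (hk : Even k) :
    Module.finrank ℂ (MF ⊤ (k : ℤ)) = if k % 12 = 2 then k / 12 else k / 12 + 1 := by
  rw [← (MFEquivTop (k := (k : ℤ))).finrank_eq]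
  have h := ModularForm.dimension_level_one k hk
  unfold Module.finrank
  rw [h, Cardinal.toNat_natCast]
  have hiff : k ≡ 2 [MOD 12] ↔ k % 12 = 2 := by
    unfold Nat.ModEq
    norm_num
  by_cases h1 : k % 12 = 2
  · rw [if_pos h1, if_pos (hiff.mpr h1)]
  · rw [if_neg h1, if_neg (fun h' => h1 (hiff.mp h'))]

theorem L2_finite_top (k : ℤ) : Module.Finite ℂ (MF ⊤ k) :=
  Module.Finite.equiv (MFEquivTop (k := k))

theorem L2_top_odd {k : ℤ} (hk : Odd k) : MF ⊤ k = ⊥ := by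
  rw [eq_bot_iff]
  intro f hf
  obtain ⟨F, rfl⟩ := exists_modularForm_top hf
  rw [ModularForm.levelOne_odd_weight_eq_zero hk F]
  exact Submodule.zero_mem _

/-! ## L3. Elliptic points -/

theorem L3_S_smul_I : ModularGroup.S • (I : ℍ) = I := by
  rw [modular_S_smul, UpperHalfPlane.ext_iff]
  norm_num

theorem L3_denom_S_I : denom (ModularGroup.S : SL(2, ℤ)) (I : ℍ) = Complex.I := by
  rw [ModularGroup.denom_S]
  rfl

lemma rho_coe : (rho : ℂ) = ⟨-1 / 2, Real.sqrt 3 / 2⟩ := rfl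

/-- `ρ² + ρ + 1 = 0`. -/
lemma rho_sq_add : (rho : ℂ) ^ 2 + (rho : ℂ) + 1 = 0 := by
  rw [rho_coe]
  apply Complex.ext
  · simp [pow_two]
    have h3 : Real.sqrt 3 * Real.sqrt 3 = 3 := Real.mul_self_sqrt (by norm_num)
    nlinarith
  · simp [pow_two]
    ring

theorem L3_ST_smul_rho : (ModularGroup.S * ModularGroup.T) • rho = rho := by
  rw [mul_smul, modular_T_smul, modular_S_smul, UpperHalfPlane.ext_iff]
  simp only [coe_vadd]
  have h := rho_sq_add
  have hne : (rho : ℂ) ≠ 0 := ne_zero rho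
  rw [inv_eq_iff_eq_inv]
  field_simp
  push_cast
  linear_combination -h

theorem L3_denom_ST_rho :
    denom ((ModularGroup.S * ModularGroup.T : SL(2, ℤ))) rho = (rho : ℂ) + 1 := by
  rw [ModularGroup.denom_apply, Matrix.SpecialLinearGroup.coe_mul]
  simp [ModularGroup.S, ModularGroup.T, Matrix.mul_apply, Fin.sum_univ_two]

/-- Value of a level one form at a fixed point of `γ`. -/
lemma MF_top_apply_fixed {k : ℤ} {f : ℍ → ℂ} (hf : f ∈ MF ⊤ k) (γ : SL(2, ℤ)) (z : ℍ)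
    (hz : γ • z = z) : f z = f z * denom γ z ^ (-k) := by
  have h := congrFun (MF.slash_top hf γ) z
  rw [SL_slash_apply, hz] at h
  exact h.symm

theorem L3_E₆_I : E₆ I = 0 := by
  have h := MF_top_apply_fixed (coe_mem_MF_top E₆) ModularGroup.S I L3_S_smul_I
  rw [L3_denom_S_I] at h
  have hI : (Complex.I : ℂ) ^ (-(6:ℤ)) = -1 := by
    rw [zpow_neg, show (6:ℤ) = ((6:ℕ):ℤ) from rfl, zpow_natCast]
    have : (Complex.I : ℂ) ^ 6 = -1 := by
      calc (Complex.I : ℂ) ^ 6 = (Complex.I ^ 2) ^ 3 := by ring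
        _ = -1 := by rw [Complex.I_sq]; norm_num
    rw [this]; norm_num
  rw [hI] at h
  have h2 : (2:ℂ) * E₆ I = 0 := by linear_combination h
  simpa using h2

theorem L3_E₄_rho : E₄ rho = 0 := by
  have h := MF_top_apply_fixed (coe_mem_MF_top E₄) (ModularGroup.S * ModularGroup.T) rho
    L3_ST_smul_rho
  rw [L3_denom_ST_rho] at h
  have hr := rho_sq_add
  have h4 : ((rho : ℂ) + 1) ^ 4 = -((rho : ℂ) + 1) := by
    have e1 : ((rho : ℂ) + 1) ^ 2 = (rho : ℂ) := by linear_combination hr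
    calc ((rho : ℂ) + 1) ^ 4 = (((rho : ℂ) + 1) ^ 2) ^ 2 := by ring
      _ = (rho : ℂ) ^ 2 := by rw [e1]
      _ = -((rho : ℂ) + 1) := by linear_combination hr
  by_contra hE
  have h1 : ((rho : ℂ) + 1) ^ (-(4:ℤ)) = 1 := by
    have := mul_left_cancel₀ hE (a := E₄ rho) (b := 1) (c := ((rho : ℂ) + 1) ^ (-(4:ℤ)))
      (by rw [mul_one]; exact h)
    exact this.symm
  rw [zpow_neg, show (4:ℤ) = ((4:ℕ):ℤ) from rfl, zpow_natCast, inv_eq_one, h4] at h1
  have : (rho : ℂ) = -2 := by linear_combination -h1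
  rw [this] at hr
  norm_num at hr

/-- `E₆ ρ ≠ 0`, because `Δ ρ ≠ 0`. -/
lemma E6_rho_ne_zero : E₆ rho ≠ 0 := by
  intro h
  have hd := ModularForm.discriminant_eq_E₄_cube_sub_E₆_sq rho
  rw [h, L3_E₄_rho] at hd
  exact discriminant_ne_zero rho (by rw [hd]; norm_num)

/-- `E₄ i ≠ 0`, because `Δ i ≠ 0`. -/
lemma E4_I_ne_zero : E₄ I ≠ 0 := by
  intro h
  have hd := ModularForm.discriminant_eq_E₄_cube_sub_E₆_sq I
  rw [h, L3_E₆_I] at hd
  exact discriminant_ne_zero I (by rw [hd]; norm_num)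

/-! ## L4. Cusp forms of level one -/

/-- L4: level one cusp forms are multiples of `Δ` (Mathlib `CuspForm.discriminantEquiv`). -/
theorem L4_cusp_div {k : ℤ} {f : ℍ → ℂ} (hf : f ∈ CF ⊤ k) :
    ∃ g ∈ MF ⊤ (k - 12), f = discriminant * g := by
  obtain ⟨F, rfl⟩ := exists_cuspForm_top hf
  exact ⟨⇑(CuspForm.discriminantEquiv F), coe_mem_MF_top _,
    (ModularForm.discriminant_mul_discriminantEquiv F).symm⟩

/-! ## L1. The decomposition `M_k = E₄ M_{k-4} + ℂ E₆^{k/6}` -/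

/-- Multiplication by `E₄` as a linear map between level one spaces. -/
noncomputable def mulE4 (k : ℤ) : MF ⊤ (k - 4) →ₗ[ℂ] MF ⊤ k where
  toFun f := ⟨⇑E₄ * f.1, MF.mul' (coe_mem_MF_top E₄) f.2 (by ring)⟩
  map_add' f g := by
    apply Subtype.ext
    simp [mul_add]
  map_smul' c f := by
    apply Subtype.ext
    simp

lemma mulE4_apply (k : ℤ) (f : MF ⊤ (k - 4)) :
    ((mulE4 k f : MF ⊤ k) : ℍ → ℂ) = ⇑E₄ * f.1 := rfl

/-- `E₄` is not a zero divisor on level one forms. -/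
lemma E4_mul_eq_zero {l : ℤ} {f : ℍ → ℂ} (hf : f ∈ MF ⊤ l) (h : ⇑E₄ * f = 0) : f = 0 := by
  obtain ⟨F, rfl⟩ := exists_modularForm_top hf
  by_contra hF
  have hF' : F ≠ 0 := fun h0 => hF (by rw [h0]; rfl)
  have hE : (E₄ : ModularForm 𝒮ℒ 4) ≠ 0 := E_ne_zero _ ⟨2, rfl⟩
  have := ModularForm.mul_ne_zero ⟨1, one_mem_strictPeriods_SL, one_pos⟩ hE hF'
  apply this
  apply DFunLike.coe_injective
  exact h

lemma mulE4_injective (k : ℤ) : Function.Injective (mulE4 k) := by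
  rw [← LinearMap.ker_eq_bot, LinearMap.ker_eq_bot']
  intro f hf
  apply Subtype.ext
  have h := congrArg Subtype.val hf
  rw [mulE4_apply] at h
  exact E4_mul_eq_zero f.2 h

/-- `dim M_{n-4} + [6 ∣ n] = dim M_n` for even `n`. -/
lemma finrank_top_sub_four (n : ℕ) (hn : Even n) :
    Module.finrank ℂ (MF ⊤ ((n : ℤ) - 4)) + (if 6 ∣ n then 1 else 0)
      = Module.finrank ℂ (MF ⊤ (n : ℤ)) := by
  rw [L2_finrank_top n hn]
  obtain ⟨m, hm⟩ := hn
  by_cases h4 : n < 4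
  · have : MF (⊤ : Subgroup SL(2, ℤ)) ((n:ℤ) - 4) = ⊥ := MF_eq_bot_of_neg (by omega)
    rw [this, finrank_bot]
    have h02 : n = 0 ∨ n = 2 := by omega
    rcases h02 with rfl | rfl <;> simp
  · rw [not_lt] at h4
    have e : ((n:ℤ) - 4) = ((n - 4 : ℕ) : ℤ) := by omega
    rw [e, L2_finrank_top (n - 4) ⟨m - 2, by omega⟩]
    split_ifs <;> omega

/-- L1: `M_k(SL2Z) = E₄ M_{k-4} + ℂ E₆^{k/6}`. -/
theorem L1_decomp {k : ℤ} {a : ℍ → ℂ} (ha : a ∈ MF ⊤ k) :
    ∃ a' ∈ MF ⊤ (k - 4), ∃ c : ℂ,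
      a = ⇑E₄ * a' + c • (if 0 ≤ k ∧ (6 : ℤ) ∣ k then (⇑E₆ : ℍ → ℂ) ^ (k / 6).toNat else 0) := by
  -- trivial cases
  have triv : a = 0 → ∃ a' ∈ MF ⊤ (k - 4), ∃ c : ℂ,
      a = ⇑E₄ * a' + c • (if 0 ≤ k ∧ (6 : ℤ) ∣ k then (⇑E₆ : ℍ → ℂ) ^ (k / 6).toNat else 0) := by
    intro h0
    exact ⟨0, Submodule.zero_mem _, 0, by rw [h0]; simp⟩
  by_cases hneg : k < 0
  · apply triv
    have : MF (⊤ : Subgroup SL(2, ℤ)) k = ⊥ := MF_eq_bot_of_neg hneg
    rw [this] at ha
    exact ha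
  rw [not_lt] at hneg
  rcases Int.even_or_odd k with hev | hodd
  swap
  · apply triv
    rw [L2_top_odd hodd] at ha
    exact ha
  lift k to ℕ using hneg
  have hev' : Even k := by exact_mod_cast hev
  have hfin1 : Module.Finite ℂ (MF ⊤ (k : ℤ)) := L2_finite_top _
  have hfin2 : Module.Finite ℂ (MF ⊤ ((k : ℤ) - 4)) := L2_finite_top _
  have hfr := finrank_top_sub_four k hev'
  by_cases h6 : 6 ∣ k
  · -- codimension one
    rw [if_pos h6] at hfr
    have h6' : (0:ℤ) ≤ (k:ℤ) ∧ (6:ℤ) ∣ (k:ℤ) := ⟨by positivity, by exact_mod_cast h6⟩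
    rw [if_pos h6']
    set e : ℍ → ℂ := (⇑E₆ : ℍ → ℂ) ^ ((k:ℤ) / 6).toNat with he
    have hemem : e ∈ MF ⊤ (k : ℤ) := by
      have := MF.pow (coe_mem_MF_top E₆) ((k:ℤ) / 6).toNat
      have hk6 : ((((k:ℤ) / 6).toNat : ℕ) : ℤ) * 6 = (k:ℤ) := by
        obtain ⟨m, rfl⟩ := h6
        push_cast
        rw [Int.mul_ediv_cancel_left _ (by norm_num : (6:ℤ) ≠ 0)]
        simp
        ring
      rwa [hk6] at this
    set W : Submodule ℂ (MF ⊤ (k : ℤ)) := LinearMap.range (mulE4 (k : ℤ)) with hW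
    have hWfr : Module.finrank ℂ W = Module.finrank ℂ (MF ⊤ ((k : ℤ) - 4)) :=
      LinearMap.finrank_range_of_inj (mulE4_injective _)
    have hq : Module.finrank ℂ (MF ⊤ (k : ℤ) ⧸ W) = 1 := by
      have := Submodule.finrank_quotient_add_finrank W
      omega
    have hene : (Submodule.Quotient.mk (p := W) ⟨e, hemem⟩) ≠ 0 := by
      rw [Ne, Submodule.Quotient.mk_eq_zero]
      rintro ⟨f, hf⟩
      have h1 := congrFun (congrArg Subtype.val hf) rho
      rw [mulE4_apply] at h1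
      simp only [Pi.mul_apply, L3_E₄_rho, zero_mul] at h1
      have : e rho ≠ 0 := by
        rw [he]
        simp only [Pi.pow_apply]
        exact pow_ne_zero _ E6_rho_ne_zero
      exact this h1.symm
    obtain ⟨c, hc⟩ := (finrank_eq_one_iff_of_nonzero' _ hene).mp hq
      (Submodule.Quotient.mk ⟨a, ha⟩)
    rw [← Submodule.Quotient.mk_smul, eq_comm, Submodule.Quotient.eq] at hc
    obtain ⟨f, hf⟩ := hc
    refine ⟨f.1, f.2, c, ?_⟩
    have h1 := congrArg Subtype.val hf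
    rw [mulE4_apply] at h1
    simp only [Submodule.coe_sub, Submodule.coe_smul] at h1
    rw [h1]
    abel
  · -- surjective
    rw [if_neg h6, add_zero] at hfr
    have h6' : ¬ ((0:ℤ) ≤ (k:ℤ) ∧ (6:ℤ) ∣ (k:ℤ)) := by
      rintro ⟨-, h⟩
      exact h6 (by exact_mod_cast h)
    rw [if_neg h6']
    have hsurj : Function.Surjective (mulE4 (k:ℤ)) :=
      (LinearMap.injective_iff_surjective_of_finrank_eq_finrank hfr).mp (mulE4_injective _)
    obtain ⟨f, hf⟩ := hsurj ⟨a, ha⟩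
    refine ⟨f.1, f.2, 0, ?_⟩
    have h1 := congrArg Subtype.val hf
    rw [mulE4_apply] at h1
    simp only at h1
    rw [← h1]
    simp

end Fermat.Agent.S20.H86
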