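import Fermat.Agent.S20.H25_RBasis
import Fermat.Agent.S20.H86_LevelOne

/-!
# S20 core, package E2 (helper25): final form

`E2_exists_RBasis`: exactly the statement of the skeleton, with package L1 (helper86) plugged in.
-/

set_option autoImplicit false

namespace Fermat.Agent.S20.H25

open UpperHalfPlane ModularForm MatrixGroups Filter EisensteinSeries
open scoped Manifold Topology
open Fermat.Agent.S20.H74

theorem L1Stmt_holds : L1Stmt := fun ha => Fermat.Agent.S20.H86.L1_decomp ha

/-- **E2**: a homogeneous free basis of `M_*(Γ)` over `M_*(SL(2, ℤ))` exists. -/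
theorem E2_exists_RBasis (Γ : Subgroup SL(2, ℤ)) [Γ.FiniteIndex] : Nonempty (RBasis Γ) :=
  E2_exists_RBasis_of_L1 Γ L1Stmt_holds

end Fermat.Agent.S20.H25
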