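import Fermat.Agent.S20.H74_Defs

/-!
# S20 core (helper58): packages DU1-DU4

Dimension formulas from a homogeneous basis and its dual family.
-/

set_option autoImplicit false

namespace Fermat.Agent.S20.H58

open Fermat.Agent.S20.H74
open UpperHalfPlane ModularForm MatrixGroups Filter EisensteinSeries
open scoped Manifold Topology

variable {Γ : Subgroup SL(2, ℤ)}

/-! ## Level one finiteness -/

lemma finite_MF_top (k : ℤ) : Module.Finite ℂ (MF ⊤ k) :=
  Module.Finite.equiv (MFEquivTop (k := k))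

/-! ## DU1 -/

/-- The combination map `(a_j) ↦ ∑ a_j F_j`. -/
noncomputable def comb (b : RBasis Γ) [Fintype b.J] (k : ℤ) :
    (∀ j, MF ⊤ (k - b.wt j)) →ₗ[ℂ] MF Γ k where
  toFun a := ⟨∑ j, (a j : ℍ → ℂ) * b.F j,
    Submodule.sum_mem _ fun j _ => MF.mul' (a j).2 (b.mem j) (by ring)⟩
  map_add' a a' := by
    apply Subtype.ext
    simp [add_mul, Finset.sum_add_distrib]
  map_smul' c a := by
    apply Subtype.ext
    simp [Finset.smul_sum]

lemma comb_apply (b : RBasis Γ) [Fintype b.J] (k : ℤ) (a : ∀ j, MF ⊤ (k - b.wt j)) :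
    ((comb b k a : MF Γ k) : ℍ → ℂ) = ∑ j, (a j : ℍ → ℂ) * b.F j := rfl

lemma comb_injective (b : RBasis Γ) [Fintype b.J] (k : ℤ) : Function.Injective (comb b k) := by
  rw [← LinearMap.ker_eq_bot, LinearMap.ker_eq_bot']
  intro a ha
  have h0 : ∑ j, (a j : ℍ → ℂ) * b.F j = 0 := by
    rw [← comb_apply, ha]; rfl
  have := b.indep k Finset.univ (fun j => (a j : ℍ → ℂ)) (fun j _ => (a j).2) h0
  funext j
  exact Subtype.ext (this j (Finset.mem_univ j))

lemma comb_surjective (b : RBasis Γ) [Fintype b.J] (k : ℤ) : Function.Surjective (comb b k) := by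
  classical
  rintro ⟨g, hg⟩
  obtain ⟨s, a', ha', hga⟩ := b.gen k g hg
  refine ⟨fun j => if h : j ∈ s then ⟨a' j, ha' j h⟩ else 0, Subtype.ext ?_⟩
  rw [comb_apply]
  change _ = g
  rw [hga, ← Finset.sum_subset (Finset.subset_univ s)]
  · refine Finset.sum_congr rfl fun j hj => ?_
    simp [hj]
  · intro j _ hj
    simp [hj]

/-- The combination map as a linear equivalence. -/
noncomputable def combEquiv (b : RBasis Γ) [Fintype b.J] (k : ℤ) :
    (∀ j, MF ⊤ (k - b.wt j)) ≃ₗ[ℂ] MF Γ k :=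
  LinearEquiv.ofBijective (comb b k) ⟨comb_injective b k, comb_surjective b k⟩

theorem DU1_finrank_MF [Γ.FiniteIndex] (b : RBasis Γ) [Fintype b.J] (k : ℤ) :
    Module.Finite ℂ (MF Γ k) ∧
    Module.finrank ℂ (MF Γ k) = ∑ j, Module.finrank ℂ (MF ⊤ (k - b.wt j)) := by
  have : ∀ j, Module.Finite ℂ (MF ⊤ (k - b.wt j)) := fun j => finite_MF_top _
  refine ⟨Module.Finite.equiv (combEquiv b k), ?_⟩
  rw [← (combEquiv b k).finrank_eq, Module.finrank_pi_fintype]

/-! ## DU3 -/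

lemma left_inv_unique {J C : Type*} [Fintype J] [Fintype C] [DecidableEq J] [DecidableEq C]
    (E H G : J → C → ℂ)
    (hright : ∀ q q', ∑ j, E j q * H j q' = if q = q' then 1 else 0)
    (hG : ∀ j j', ∑ q, E j q * G j' q = if j = j' then 1 else 0) (j' : J) (q' : C) :
    G j' q' = H j' q' := by
  calc G j' q' = ∑ q, G j' q * (if q = q' then 1 else 0) := by simp
    _ = ∑ q, G j' q * ∑ j, E j q * H j q' := by simp_rw [hright]
    _ = ∑ q, ∑ j, (E j q * G j' q) * H j q' := by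
        refine Finset.sum_congr rfl fun q _ => ?_
        rw [Finset.mul_sum]; refine Finset.sum_congr rfl fun j _ => ?_; ring
    _ = ∑ j, (∑ q, E j q * G j' q) * H j q' := by
        rw [Finset.sum_comm]; refine Finset.sum_congr rfl fun j _ => ?_; rw [Finset.sum_mul]
    _ = ∑ j, (if j = j' then 1 else 0) * H j q' := by simp_rw [hG]
    _ = H j' q' := by simp

lemma ev_smul (b : RBasis Γ) (z : ℍ) (j : b.J) (q : SL(2, ℤ) ⧸ Γ) (δ : SL(2, ℤ)) :
    b.ev (δ • z) j q = denom δ z ^ (b.wt j) * b.ev z j (δ⁻¹ • q) :=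
  cf_apply_smul (b.mem j).2.1 q δ z

/-- pointwise form of DU3 -/
lemma dual_smul [Γ.FiniteIndex] (b : RBasis Γ) [Finite b.J] (d : b.Dual) (j : b.J)
    (q : SL(2, ℤ) ⧸ Γ) (δ : SL(2, ℤ)) (z : ℍ) :
    denom δ z ^ (b.wt j) * d.H j q (δ • z) = d.H j (δ⁻¹ • q) z := by
  classical
  have : Fintype b.J := Fintype.ofFinite _
  have : Fintype (SL(2, ℤ) ⧸ Γ) := Fintype.ofFinite _
  have hd : denom δ z ≠ 0 := denom_ne_zero _ z
  have key := left_inv_unique (fun j q => b.ev z j q) (fun j q => d.H j q z)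
    (fun j q => denom δ z ^ (b.wt j) * d.H j (δ • q) (δ • z))
    (fun q q' => d.right z q q') ?_ j (δ⁻¹ • q)
  · simpa using key
  · intro j j'
    have h1 := d.left (δ • z) j j'
    simp only [ev_smul] at h1
    rw [← Equiv.sum_comp (MulAction.toPerm δ : Equiv.Perm (SL(2, ℤ) ⧸ Γ))] at h1
    simp only [MulAction.toPerm_apply, inv_smul_smul] at h1
    by_cases hj : j = j'
    · subst hj
      simp only [if_true] at h1 ⊢
      rw [← h1]
      refine Finset.sum_congr rfl fun q _ => ?_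
      ring
    · simp only [hj, if_false] at h1 ⊢
      have h2 : ∑ q, b.ev z j q * d.H j' (δ • q) (δ • z) = 0 := by
        have h3 : denom δ z ^ b.wt j * ∑ q, b.ev z j q * d.H j' (δ • q) (δ • z) = 0 := by
          rw [← h1, Finset.mul_sum]
          refine Finset.sum_congr rfl fun q _ => ?_
          ring
        exact (mul_eq_zero.mp h3).resolve_left (zpow_ne_zero _ hd)
      calc ∑ q, b.ev z j q * (denom δ z ^ b.wt j' * d.H j' (δ • q) (δ • z))
          = denom δ z ^ b.wt j' * ∑ q, b.ev z j q * d.H j' (δ • q) (δ • z) := by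
            rw [Finset.mul_sum]
            refine Finset.sum_congr rfl fun q _ => ?_
            ring
        _ = 0 := by rw [h2, mul_zero]

theorem DU3_dual_slash [Γ.FiniteIndex] (b : RBasis Γ) [Finite b.J] (d : b.Dual) (j : b.J)
    (q : SL(2, ℤ) ⧸ Γ) (δ : SL(2, ℤ)) :
    (d.H j q) ∣[-(b.wt j)] δ = d.H j (δ⁻¹ • q) := by
  funext z
  rw [SL_slash_apply, neg_neg, mul_comm]
  exact dual_smul b d j q δ z

/-! ## DU2 -/

lemma differentiableOn_det {n : Type*} [Fintype n] [DecidableEq n] {U : Set ℂ}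
    (A : ℂ → Matrix n n ℂ) (hA : ∀ i j, DifferentiableOn ℂ (fun w => A w i j) U) :
    DifferentiableOn ℂ (fun w => (A w).det) U := by
  simp only [Matrix.det_apply']
  refine DifferentiableOn.fun_sum fun σ _ => ?_
  refine (differentiableOn_const _).mul ?_
  exact DifferentiableOn.fun_finsetProd fun i _ => hA _ _

lemma differentiableOn_adjugate {n : Type*} [Fintype n] [DecidableEq n] {U : Set ℂ}
    (A : ℂ → Matrix n n ℂ) (hA : ∀ i j, DifferentiableOn ℂ (fun w => A w i j) U) (i j : n) :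
    DifferentiableOn ℂ (fun w => (A w).adjugate i j) U := by
  simp only [Matrix.adjugate_apply]
  refine differentiableOn_det (fun w => (A w).updateRow j (Pi.single i 1)) fun i' j' => ?_
  by_cases h : i' = j
  · subst h
    simp only [Matrix.updateRow_self]
    exact differentiableOn_const _
  · simp only [Matrix.updateRow_ne h]
    exact hA _ _

lemma differentiableOn_inv_entry {n : Type*} [Fintype n] [DecidableEq n] {U : Set ℂ}
    (A : ℂ → Matrix n n ℂ) (hA : ∀ i j, DifferentiableOn ℂ (fun w => A w i j) U)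
    (hdet : ∀ w ∈ U, (A w).det ≠ 0) (i j : n) :
    DifferentiableOn ℂ (fun w => (A w)⁻¹ i j) U := by
  have h1 : ∀ w, (A w)⁻¹ i j = ((A w).det)⁻¹ * (A w).adjugate i j := by
    intro w
    rw [Matrix.inv_def, Matrix.smul_apply, Ring.inverse_eq_inv', smul_eq_mul]
  simp only [h1]
  exact ((differentiableOn_det A hA).inv hdet).mul (differentiableOn_adjugate A hA i j)

/-- The evaluation matrix, reindexed to a square matrix. -/
noncomputable def evMat (b : RBasis Γ) (e : b.J ≃ (SL(2, ℤ) ⧸ Γ)) (z : ℍ) :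
    Matrix (SL(2, ℤ) ⧸ Γ) (SL(2, ℤ) ⧸ Γ) ℂ :=
  Matrix.of fun q c => b.ev z (e.symm c) q

lemma evMat_apply (b : RBasis Γ) (e : b.J ≃ (SL(2, ℤ) ⧸ Γ)) (z : ℍ) (q c : SL(2, ℤ) ⧸ Γ) :
    evMat b e z q c = b.ev z (e.symm c) q := rfl

lemma evMat_det_ne_zero [Fintype (SL(2, ℤ) ⧸ Γ)] [DecidableEq (SL(2, ℤ) ⧸ Γ)]
    (b : RBasis Γ) (e : b.J ≃ (SL(2, ℤ) ⧸ Γ)) (z : ℍ) (h : b.LIAt z) :
    (evMat b e z).det ≠ 0 := by
  have h1 : LinearIndependent ℂ (evMat b e z).col := by
    have h2 : (evMat b e z).col = (b.ev z) ∘ e.symm := by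
      funext c q
      rfl
    rw [h2]
    exact h.comp _ e.symm.injective
  have h3 := Matrix.linearIndependent_cols_iff_isUnit.mp h1
  exact ((Matrix.isUnit_iff_isUnit_det _).mp h3).ne_zero

lemma evMat_entry_differentiableOn (b : RBasis Γ) (e : b.J ≃ (SL(2, ℤ) ⧸ Γ))
    (q c : SL(2, ℤ) ⧸ Γ) :
    DifferentiableOn ℂ (fun w : ℂ => evMat b e (ofComplex w) q c) {z | 0 < z.im} := by
  have := UpperHalfPlane.mdifferentiable_iff.mp
    (cf_mdiff (Γ := Γ) (k := b.wt (e.symm c)) (b.mem (e.symm c)).1 q)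
  exact this

theorem DU2_dual [Γ.FiniteIndex] (b : RBasis Γ) [Finite b.J] (hLI : ∀ z, b.LIAt z)
    (hcard : Nat.card b.J = Γ.index) : Nonempty b.Dual := by
  classical
  have instJ : Fintype b.J := Fintype.ofFinite _
  have instC : Fintype (SL(2, ℤ) ⧸ Γ) := Fintype.ofFinite _
  have hc : Fintype.card b.J = Fintype.card (SL(2, ℤ) ⧸ Γ) := by
    rw [← Nat.card_eq_fintype_card, ← Nat.card_eq_fintype_card]
    exact hcard
  have e : b.J ≃ (SL(2, ℤ) ⧸ Γ) := Fintype.equivOfCardEq hc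
  have hdet : ∀ z, (evMat b e z).det ≠ 0 := fun z => evMat_det_ne_zero b e z (hLI z)
  have hleft : ∀ (z : ℍ) (j j' : b.J),
      ∑ q, b.ev z j q * (evMat b e z)⁻¹ (e j') q = if j = j' then 1 else 0 := by
    intro z j j'
    have h := Matrix.nonsing_inv_mul (evMat b e z) (isUnit_iff_ne_zero.mpr (hdet z))
    have h2 := congrFun (congrFun h (e j')) (e j)
    rw [Matrix.mul_apply] at h2
    simp only [Matrix.one_apply, EmbeddingLike.apply_eq_iff_eq] at h2
    simp only [evMat_apply, Equiv.symm_apply_apply] at h2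
    rw [show (if j = j' then (1 : ℂ) else 0) = if j' = j then 1 else 0 by
      simp only [eq_comm], ← h2]
    exact Finset.sum_congr rfl fun q _ => mul_comm _ _
  have hright : ∀ (z : ℍ) (q q' : SL(2, ℤ) ⧸ Γ),
      ∑ j, b.ev z j q * (evMat b e z)⁻¹ (e j) q' = if q = q' then 1 else 0 := by
    intro z q q'
    have h := Matrix.mul_nonsing_inv (evMat b e z) (isUnit_iff_ne_zero.mpr (hdet z))
    have h2 := congrFun (congrFun h q) q'
    rw [Matrix.mul_apply] at h2
    simp only [Matrix.one_apply] at h2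
    rw [← Equiv.sum_comp e] at h2
    simp only [evMat_apply, Equiv.symm_apply_apply] at h2
    exact h2
  refine ⟨{
    H := fun j q z => (evMat b e z)⁻¹ (e j) q
    mdiff := ?_
    left := ?_
    right := ?_ }⟩
  · intro j q
    rw [UpperHalfPlane.mdifferentiable_iff]
    exact differentiableOn_inv_entry (fun w => evMat b e (ofComplex w))
      (fun i j => evMat_entry_differentiableOn b e i j)
      (fun w _ => hdet _) (e j) q
  · intro i1 i2 z j j'
    obtain rfl : i1 = instC := Subsingleton.elim _ _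
    obtain rfl : i2 = (fun a b => Classical.propDecidable (a = b)) := Subsingleton.elim _ _
    exact hleft z j j'
  · intro i1 i2 z q q'
    obtain rfl : i1 = instJ := Subsingleton.elim _ _
    have h := hright z q q'
    convert h using 2
    

/-! ## DU4 -/

lemma discriminant_mem_CF : (discriminant : ℍ → ℂ) ∈ CF ⊤ 12 :=
  coe_mem_CF_top CuspForm.discriminant

lemma cusp_div_top {k : ℤ} {f : ℍ → ℂ} (hf : f ∈ CF ⊤ k) :
    ∃ g ∈ MF ⊤ (k - 12), f = discriminant * g := by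
  obtain ⟨F, rfl⟩ := exists_cuspForm_top hf
  exact ⟨_, coe_mem_MF_top (CuspForm.discriminantEquiv F),
    (discriminant_mul_discriminantEquiv F).symm⟩

lemma CF_mul' {a f : ℍ → ℂ} {l k m : ℤ} (ha : a ∈ MF ⊤ l) (hf : f ∈ CF Γ k) (hm : m = l + k) :
    a * f ∈ CF Γ m := hm ▸ CF.mul ha hf

lemma mul_slash_of_eq {a g : ℍ → ℂ} {l m k : ℤ} (hk : k = l + m) (δ : SL(2, ℤ)) :
    (a * g) ∣[k] δ = (a ∣[l] δ) * (g ∣[m] δ) := by
  subst hk
  exact mul_slash_SL2 _ _ _ _ _

/-- the base coset -/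
def q₀ (Γ : Subgroup SL(2, ℤ)) : SL(2, ℤ) ⧸ Γ := ((1 : SL(2, ℤ)) : SL(2, ℤ) ⧸ Γ)

lemma smul_q₀ (δ : SL(2, ℤ)) : δ • q₀ Γ = (δ : SL(2, ℤ) ⧸ Γ) := by
  unfold q₀
  rw [MulAction.Quotient.smul_mk]
  simp

lemma smul_q₀_of_mem {γ : SL(2, ℤ)} (hγ : γ ∈ Γ) : γ • q₀ Γ = q₀ Γ := by
  rw [smul_q₀]
  unfold q₀
  rw [QuotientGroup.eq]
  simpa using inv_mem hγ

lemma out_smul_q₀ (q : SL(2, ℤ) ⧸ Γ) : q.out • q₀ Γ = q := by
  rw [smul_q₀]
  exact QuotientGroup.out_eq' q

lemma discr_dual_slash [Γ.FiniteIndex] (b : RBasis Γ) [Finite b.J] (d : b.Dual) (j : b.J)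
    (q : SL(2, ℤ) ⧸ Γ) (δ : SL(2, ℤ)) :
    (discriminant * d.H j q) ∣[12 - b.wt j] δ = discriminant * d.H j (δ⁻¹ • q) := by
  rw [show (12 - b.wt j) = 12 + -(b.wt j) by ring, mul_slash_SL2, DU3_dual_slash,
    discriminant_mem_CF.2.1 δ (Subgroup.mem_top δ)]

lemma discr_dual_mem [Γ.FiniteIndex] (b : RBasis Γ) [Finite b.J] (d : b.Dual)
    (hzero : ∀ j q, IsZeroAtImInfty (discriminant * d.H j q)) (j : b.J) :
    discriminant * d.H j (q₀ Γ) ∈ CF Γ (12 - b.wt j) := by
  refine ⟨discriminant_mem_CF.1.mul (d.mdiff j _), fun γ hγ => ?_, fun γ => ?_⟩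
  · rw [discr_dual_slash, smul_q₀_of_mem (inv_mem hγ)]
  · rw [discr_dual_slash]
    exact hzero _ _

/-- The combination map `(c_j) ↦ ∑ c_j Δ H_j`. -/
noncomputable def combC [Γ.FiniteIndex] (b : RBasis Γ) [Fintype b.J] (d : b.Dual)
    (hzero : ∀ j q, IsZeroAtImInfty (discriminant * d.H j q)) (k : ℤ) :
    (∀ j, MF ⊤ (k + b.wt j - 12)) →ₗ[ℂ] CF Γ k where
  toFun c := ⟨∑ j, (c j : ℍ → ℂ) * (discriminant * d.H j (q₀ Γ)),
    Submodule.sum_mem _ fun j _ => CF_mul' (c j).2 (discr_dual_mem b d hzero j) (by ring)⟩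
  map_add' c c' := by
    apply Subtype.ext
    simp [add_mul, Finset.sum_add_distrib]
  map_smul' r c := by
    apply Subtype.ext
    simp [Finset.smul_sum]

lemma combC_apply [Γ.FiniteIndex] (b : RBasis Γ) [Fintype b.J] (d : b.Dual)
    (hzero : ∀ j q, IsZeroAtImInfty (discriminant * d.H j q)) (k : ℤ)
    (c : ∀ j, MF ⊤ (k + b.wt j - 12)) :
    ((combC b d hzero k c : CF Γ k) : ℍ → ℂ) =
      ∑ j, (c j : ℍ → ℂ) * (discriminant * d.H j (q₀ Γ)) := rfl

lemma combC_injective [Γ.FiniteIndex] (b : RBasis Γ) [Fintype b.J] (d : b.Dual)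
    (hzero : ∀ j q, IsZeroAtImInfty (discriminant * d.H j q)) (k : ℤ) :
    Function.Injective (combC b d hzero k) := by
  classical
  have instC : Fintype (SL(2, ℤ) ⧸ Γ) := Fintype.ofFinite _
  rw [← LinearMap.ker_eq_bot, LinearMap.ker_eq_bot']
  intro c hc
  have h0 : ∑ j, (c j : ℍ → ℂ) * (discriminant * d.H j (q₀ Γ)) = 0 := by
    rw [← combC_apply b d hzero k c, hc]; rfl
  -- translate by every `δ`
  have h1 : ∀ q : SL(2, ℤ) ⧸ Γ, ∑ j, (c j : ℍ → ℂ) * (discriminant * d.H j q) = 0 := by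
    intro q
    have h2 := congrArg (fun g : ℍ → ℂ => g ∣[k] (q.out)⁻¹) h0
    simp only [SlashAction.sum_slash, SlashAction.zero_slash] at h2
    rw [← h2]
    refine Finset.sum_congr rfl fun j _ => ?_
    rw [mul_slash_of_eq (l := k + b.wt j - 12) (m := 12 - b.wt j) (by ring),
      MF.slash_top (c j).2, discr_dual_slash, inv_inv, out_smul_q₀]
  funext j'
  apply Subtype.ext
  funext z
  change (c j' : ℍ → ℂ) z = 0
  have h3 : ∑ q, b.ev z j' q * ∑ j, (c j : ℍ → ℂ) z * (discriminant z * d.H j q z) = 0 := by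
    refine Finset.sum_eq_zero fun q _ => ?_
    have := congrFun (h1 q) z
    simp only [Finset.sum_apply, Pi.mul_apply, Pi.zero_apply] at this
    rw [this, mul_zero]
  have h4 : ∑ q, b.ev z j' q * ∑ j, (c j : ℍ → ℂ) z * (discriminant z * d.H j q z)
      = (c j' : ℍ → ℂ) z * discriminant z := by
    calc ∑ q, b.ev z j' q * ∑ j, (c j : ℍ → ℂ) z * (discriminant z * d.H j q z)
        = ∑ q, ∑ j, ((c j : ℍ → ℂ) z * discriminant z) * (b.ev z j' q * d.H j q z) := by
          refine Finset.sum_congr rfl fun q _ => ?_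
          rw [Finset.mul_sum]
          refine Finset.sum_congr rfl fun j _ => ?_
          ring
      _ = ∑ j, ((c j : ℍ → ℂ) z * discriminant z) * ∑ q, b.ev z j' q * d.H j q z := by
          rw [Finset.sum_comm]
          refine Finset.sum_congr rfl fun j _ => ?_
          rw [Finset.mul_sum]
      _ = ∑ j, ((c j : ℍ → ℂ) z * discriminant z) * (if j' = j then 1 else 0) := by
          simp_rw [d.left z]
      _ = (c j' : ℍ → ℂ) z * discriminant z := by simp
  rw [h4] at h3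
  exact (mul_eq_zero.mp h3).resolve_right (discriminant_ne_zero z)

/-- the trace form `∑_q f_q F_{j,q}` -/
noncomputable def trForm (b : RBasis Γ) [Fintype (SL(2, ℤ) ⧸ Γ)] (k : ℤ) (f : ℍ → ℂ) (j : b.J) :
    ℍ → ℂ :=
  ∑ q, cf Γ k f q * cf Γ (b.wt j) (b.F j) q

lemma trForm_mem (b : RBasis Γ) [Fintype (SL(2, ℤ) ⧸ Γ)] {k : ℤ} {f : ℍ → ℂ} (hf : f ∈ CF Γ k)
    (j : b.J) : trForm b k f j ∈ CF ⊤ (k + b.wt j) := by
  have hinv : ∀ δ : SL(2, ℤ), (trForm b k f j) ∣[k + b.wt j] δ = trForm b k f j := by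
    intro δ
    unfold trForm
    rw [SlashAction.sum_slash]
    rw [← Equiv.sum_comp (MulAction.toPerm δ : Equiv.Perm (SL(2, ℤ) ⧸ Γ))]
    refine Finset.sum_congr rfl fun q _ => ?_
    rw [mul_slash_SL2, cf_slash hf.2.1, cf_slash (b.mem j).2.1]
    simp
  refine ⟨?_, fun γ _ => hinv γ, fun γ => ?_⟩
  · unfold trForm
    exact MDifferentiable.sum fun q _ => (cf_mdiff hf.1 q).mul (cf_mdiff (b.mem j).1 q)
  · rw [hinv]
    unfold trForm
    have : ∀ q ∈ (Finset.univ : Finset (SL(2, ℤ) ⧸ Γ)),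
        cf Γ k f q * cf Γ (b.wt j) (b.F j) q ∈ zeroAtFilterSubmodule ℂ atImInfty := fun q _ =>
      Filter.ZeroAtFilter.mul_boundedAtFilter (cf_zero_at hf q) (cf_bdd (b.mem j) q)
    exact Submodule.sum_mem _ this

lemma combC_surjective [Γ.FiniteIndex] (b : RBasis Γ) [Fintype b.J] (d : b.Dual)
    (hzero : ∀ j q, IsZeroAtImInfty (discriminant * d.H j q)) (k : ℤ) :
    Function.Surjective (combC b d hzero k) := by
  classical
  have instC : Fintype (SL(2, ℤ) ⧸ Γ) := Fintype.ofFinite _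
  rintro ⟨f, hf⟩
  have hex : ∀ j, ∃ g ∈ MF ⊤ (k + b.wt j - 12), trForm b k f j = discriminant * g :=
    fun j => cusp_div_top (trForm_mem b hf j)
  choose c hc hc' using hex
  refine ⟨fun j => ⟨c j, hc j⟩, Subtype.ext ?_⟩
  rw [combC_apply]
  change _ = f
  funext z
  simp only [Finset.sum_apply, Pi.mul_apply]
  have h1 : ∀ j, c j z * discriminant z = ∑ q, cf Γ k f q z * b.ev z j q := by
    intro j
    have := congrFun (hc' j) z
    unfold trForm at this
    simp only [Finset.sum_apply, Pi.mul_apply] at this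
    rw [mul_comm, ← this]
    rfl
  calc ∑ j, c j z * (discriminant z * d.H j (q₀ Γ) z)
      = ∑ j, (∑ q, cf Γ k f q z * b.ev z j q) * d.H j (q₀ Γ) z := by
        refine Finset.sum_congr rfl fun j _ => ?_
        rw [← h1]; ring
    _ = ∑ j, ∑ q, cf Γ k f q z * (b.ev z j q * d.H j (q₀ Γ) z) := by
        refine Finset.sum_congr rfl fun j _ => ?_
        rw [Finset.sum_mul]
        refine Finset.sum_congr rfl fun q _ => ?_
        ring
    _ = ∑ q, cf Γ k f q z * ∑ j, b.ev z j q * d.H j (q₀ Γ) z := by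
        rw [Finset.sum_comm]
        refine Finset.sum_congr rfl fun q _ => ?_
        rw [Finset.mul_sum]
    _ = ∑ q, cf Γ k f q z * (if q = q₀ Γ then 1 else 0) := by
        simp_rw [d.right z]
    _ = cf Γ k f (q₀ Γ) z := by simp
    _ = f z := by
        unfold q₀
        rw [cf_one hf.2.1]

/-- The combination map as a linear equivalence. -/
noncomputable def combCEquiv [Γ.FiniteIndex] (b : RBasis Γ) [Fintype b.J] (d : b.Dual)
    (hzero : ∀ j q, IsZeroAtImInfty (discriminant * d.H j q)) (k : ℤ) :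
    (∀ j, MF ⊤ (k + b.wt j - 12)) ≃ₗ[ℂ] CF Γ k :=
  LinearEquiv.ofBijective (combC b d hzero k)
    ⟨combC_injective b d hzero k, combC_surjective b d hzero k⟩

theorem DU4_finrank_CF [Γ.FiniteIndex] (b : RBasis Γ) [Fintype b.J] (d : b.Dual)
    (hzero : ∀ j q, IsZeroAtImInfty (discriminant * d.H j q)) (k : ℤ) :
    Module.finrank ℂ (CF Γ k) = ∑ j, Module.finrank ℂ (MF ⊤ (k + b.wt j - 12)) := by
  have : ∀ j, Module.Finite ℂ (MF ⊤ (k + b.wt j - 12)) := fun j => finite_MF_top _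
  rw [← (combCEquiv b d hzero k).finrank_eq, Module.finrank_pi_fintype]

end Fermat.Agent.S20.H58
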