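import Fermat.Agent.S20.H74_Defs

/-!
# S20 core (helper74): final count, from the outputs of the work packages
-/

set_option autoImplicit false

namespace Fermat.Agent.S20.H74

open UpperHalfPlane ModularForm MatrixGroups Filter EisensteinSeries
open scoped Manifold Topology

variable {Γ : Subgroup SL(2, ℤ)}

/-- level one dimension function -/
noncomputable def r (m : ℤ) : ℕ := Module.finrank ℂ (MF ⊤ m)

lemma r_neg {m : ℤ} (hm : m < 0) : r m = 0 := by
  unfold r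
  rw [MF_eq_bot_of_neg hm]
  exact finrank_bot ℂ (ℍ → ℂ)

section

variable (hr : ∀ k : ℕ, Even k → r (k : ℤ) = if k % 12 = 2 then k / 12 else k / 12 + 1)
include hr

lemma r_values : r 0 = 1 ∧ r 2 = 0 ∧ r 4 = 1 ∧ r 6 = 1 ∧ r 8 = 1 ∧ r 10 = 1 ∧ r 12 = 2 ∧ r 14 = 1 ∧
    r 16 = 2 ∧ r 18 = 2 ∧ r 20 = 2 ∧ r 22 = 2 ∧ r 24 = 3 := by
  refine ⟨?_, ?_, ?_, ?_, ?_, ?_, ?_, ?_, ?_, ?_, ?_, ?_, ?_⟩
  · simpa using hr 0 (by decide)
  · simpa using hr 2 (by decide)
  · simpa using hr 4 (by decide)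
  · simpa using hr 6 (by decide)
  · simpa using hr 8 (by decide)
  · simpa using hr 10 (by decide)
  · simpa using hr 12 (by decide)
  · simpa using hr 14 (by decide)
  · simpa using hr 16 (by decide)
  · simpa using hr 18 (by decide)
  · simpa using hr 20 (by decide)
  · simpa using hr 22 (by decide)
  · simpa using hr 24 (by decide)

lemma r_pos_of_even {m : ℤ} (hm : 0 ≤ m) (he : Even m) (h2 : m ≠ 2) : 0 < r m := by
  obtain ⟨k, rfl⟩ := Int.eq_ofNat_of_zero_le hm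
  have hk : Even k := by exact_mod_cast he
  rw [hr k hk]
  split_ifs with h
  · have : k ≠ 2 := by intro h'; apply h2; simp [h']
    omega
  · omega

end

/-- cusp forms of weight 0 vanish -/
lemma CF_zero_eq_bot [Γ.FiniteIndex] : CF Γ 0 = ⊥ := by
  rw [eq_bot_iff]
  intro f hf
  obtain ⟨c, hc⟩ := MF_zero_const (CF_le_MF hf)
  have h0 : IsZeroAtImInfty f := CF.zero_at hf
  rw [hc] at h0
  have : Tendsto (Function.const ℍ c) atImInfty (𝓝 0) := h0
  have hc0 : c = 0 := tendsto_nhds_unique tendsto_const_nhds this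
  rw [hc, hc0]
  rfl

lemma CF_neg_eq_bot [Γ.FiniteIndex] {k : ℤ} (hk : k < 0) : CF Γ k = ⊥ := by
  rw [eq_bot_iff]
  exact (CF_le_MF).trans (MF_eq_bot_of_neg hk).le

/-! ### Explicit roots of unity -/

lemma rho_add_one_cube : ((rho : ℂ) + 1) ^ 3 = -1 := by
  have h3 : (Real.sqrt 3) ^ 2 = 3 := Real.sq_sqrt (by norm_num)
  have hrho : (rho : ℂ) = ⟨-1 / 2, Real.sqrt 3 / 2⟩ := rfl
  rw [hrho]
  apply Complex.ext
  · simp [pow_succ, Complex.mul_re, Complex.mul_im]
    ring_nf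
    nlinarith [h3]
  · simp [pow_succ, Complex.mul_re, Complex.mul_im]
    ring_nf
    have : Real.sqrt 3 ^ 3 = 3 * Real.sqrt 3 := by
      calc Real.sqrt 3 ^ 3 = Real.sqrt 3 ^ 2 * Real.sqrt 3 := by ring
        _ = 3 * Real.sqrt 3 := by rw [h3]
    linarith [this]


lemma rho_coe : (rho : ℂ) = ⟨-1 / 2, Real.sqrt 3 / 2⟩ := rfl

lemma rho_add_one_re : ((rho : ℂ) + 1).re = 1 / 2 := by
  rw [rho_coe]; simp; norm_num

lemma rho_add_one_sq : ((rho : ℂ) + 1) ^ 2 = (rho : ℂ) := by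
  have h3 : (Real.sqrt 3) ^ 2 = 3 := Real.sq_sqrt (by norm_num)
  rw [rho_coe]
  apply Complex.ext
  · simp [pow_succ, Complex.mul_re, Complex.mul_im]
    ring_nf
    nlinarith [h3]
  · simp [pow_succ, Complex.mul_re, Complex.mul_im]
    ring_nf

lemma rho_re : (rho : ℂ).re = -1 / 2 := by rw [rho_coe]

/-- the real parts of `(ρ+1)^(-w)` for the relevant weights -/
lemma re_zeta_zpow (w : ℤ) (hw : w = 0 ∨ w = 2 ∨ w = 4 ∨ w = 6 ∨ w = 8 ∨ w = 10) :
    ((((rho : ℂ) + 1) ^ (-w)).re : ℝ) = if w = 0 ∨ w = 6 then 1 else -1 / 2 := by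
  set ζ : ℂ := (rho : ℂ) + 1 with hζ
  have h3 : ζ ^ 3 = -1 := rho_add_one_cube
  have h2 : ζ ^ 2 = (rho : ℂ) := rho_add_one_sq
  have h6 : ζ ^ 6 = 1 := by
    calc ζ ^ 6 = (ζ ^ 3) ^ 2 := by ring
      _ = 1 := by rw [h3]; norm_num
  have hre : ζ.re = 1 / 2 := rho_add_one_re
  have hinv : ∀ (a b : ℕ), a + b = 6 → ζ ^ (-(a : ℤ)) = ζ ^ b := by
    intro a b hab
    rw [zpow_neg, zpow_natCast]
    apply inv_eq_of_mul_eq_one_right
    rw [← pow_add, hab, h6]
  have hinv12 : ∀ (a b : ℕ), a + b = 12 → ζ ^ (-(a : ℤ)) = ζ ^ b := by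
    intro a b hab
    rw [zpow_neg, zpow_natCast]
    apply inv_eq_of_mul_eq_one_right
    rw [← pow_add, hab]
    calc ζ ^ 12 = (ζ ^ 6) ^ 2 := by ring
      _ = 1 := by rw [h6]; norm_num
  have h4 : ζ ^ 4 = -ζ := by
    calc ζ ^ 4 = ζ ^ 3 * ζ := by ring
      _ = -ζ := by rw [h3]; ring
  rcases hw with rfl | rfl | rfl | rfl | rfl | rfl
  · simp
  · have := hinv 2 4 rfl
    simp only [Nat.cast_ofNat] at this
    rw [this, h4]
    simp [hre]; norm_num
  · have := hinv 4 2 rfl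
    simp only [Nat.cast_ofNat] at this
    rw [this, h2, rho_re]
    simp
  · have := hinv 6 0 rfl
    simp only [Nat.cast_ofNat] at this
    rw [this]
    simp
  · have := hinv12 8 4 rfl
    simp only [Nat.cast_ofNat] at this
    rw [this, h4]
    simp [hre]; norm_num
  · have := hinv12 10 2 rfl
    simp only [Nat.cast_ofNat] at this
    rw [this, h2, rho_re]
    simp

/-- the real parts of `I^(-w)` for the relevant weights -/
lemma re_I_zpow (w : ℤ) (hw : w = 0 ∨ w = 2 ∨ w = 4 ∨ w = 6 ∨ w = 8 ∨ w = 10) :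
    (((Complex.I) ^ (-w)).re : ℝ) = if w = 0 ∨ w = 4 ∨ w = 8 then 1 else -1 := by
  have h4 : Complex.I ^ 4 = 1 := Complex.I_pow_four
  have h2 : Complex.I ^ 2 = -1 := Complex.I_sq
  have hinv : ∀ (a b : ℕ), a + b = 12 → Complex.I ^ (-(a : ℤ)) = Complex.I ^ b := by
    intro a b hab
    rw [zpow_neg, zpow_natCast]
    apply inv_eq_of_mul_eq_one_right
    rw [← pow_add, hab]
    calc Complex.I ^ 12 = (Complex.I ^ 4) ^ 3 := by ring
      _ = 1 := by rw [h4]; norm_num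
  rcases hw with rfl | rfl | rfl | rfl | rfl | rfl
  · simp
  · have := hinv 2 10 rfl
    simp only [Nat.cast_ofNat] at this
    rw [this, show Complex.I ^ 10 = (Complex.I ^ 4) ^ 2 * Complex.I ^ 2 by ring, h4, h2]
    simp
  · have := hinv 4 8 rfl
    simp only [Nat.cast_ofNat] at this
    rw [this, show Complex.I ^ 8 = (Complex.I ^ 4) ^ 2 by ring, h4]
    simp
  · have := hinv 6 6 rfl
    simp only [Nat.cast_ofNat] at this
    rw [this, show Complex.I ^ 6 = (Complex.I ^ 4) * Complex.I ^ 2 by ring, h4, h2]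
    simp
  · have := hinv 8 4 rfl
    simp only [Nat.cast_ofNat] at this
    rw [this, h4]
    simp
  · have := hinv 10 2 rfl
    simp only [Nat.cast_ofNat] at this
    rw [this, h2]
    simp


/-- **Final count.** All hypotheses are outputs of the work packages. -/
theorem core_of [Γ.FiniteIndex] (b : RBasis Γ) [Fintype b.J]
    (hr : ∀ k : ℕ, Even k → r (k : ℤ) = if k % 12 = 2 then k / 12 else k / 12 + 1)
    (hcard : Fintype.card b.J = Γ.index)
    (heven : ∀ j, Even (b.wt j)) (hnn : ∀ j, 0 ≤ b.wt j)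
    (hzero : Fintype.card {j : b.J // b.wt j = 0} = 1)
    (hTR1 : ∑ j, (Complex.I) ^ (-(b.wt j)) = (ellTwo Γ : ℂ))
    (hTR2 : ∑ j, ((rho : ℂ) + 1) ^ (-(b.wt j)) = (ellThree Γ : ℂ))
    (hMF : ∀ k : ℤ, Module.Finite ℂ (MF Γ k) ∧ Module.finrank ℂ (MF Γ k) = ∑ j, r (k - b.wt j))
    (hCF : ∀ k : ℤ, Module.finrank ℂ (CF Γ k) = ∑ j, r (k + b.wt j - 12))
    (hINF1 : ∀ K : ℤ, Module.Finite ℂ (MF Γ K) →
      Module.finrank ℂ (MF Γ K) = Module.finrank ℂ (MF Γ (K - 12)) + Γ.index →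
      Module.finrank ℂ (MF Γ K) = Module.finrank ℂ (CF Γ K) + cuspNum Γ) :
    12 * (Module.finrank ℂ (CF Γ 2) : ℤ) + 3 * ellTwo Γ + 4 * ellThree Γ + 6 * cuspNum Γ
      = 12 + Γ.index := by
  obtain ⟨r0, r2, r4, r6, r8, r10, r12, r14, r16, r18, r20, r22, r24⟩ := r_values hr
  -- Step 1: the weights lie in {0,2,4,6,8,10}
  have hrange : ∀ j, b.wt j = 0 ∨ b.wt j = 2 ∨ b.wt j = 4 ∨ b.wt j = 6 ∨ b.wt j = 8 ∨
      b.wt j = 10 := by
    intro j
    have h0 : ∑ j, r (0 + b.wt j - 12) = 0 := by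
      rw [← hCF 0, CF_zero_eq_bot]; exact finrank_bot ℂ (ℍ → ℂ)
    have hm2 : ∑ j, r (-2 + b.wt j - 12) = 0 := by
      rw [← hCF (-2), CF_neg_eq_bot (by norm_num)]; exact finrank_bot ℂ (ℍ → ℂ)
    have h0j : r (0 + b.wt j - 12) = 0 :=
      (Finset.sum_eq_zero_iff.mp h0) j (Finset.mem_univ j)
    have hm2j : r (-2 + b.wt j - 12) = 0 :=
      (Finset.sum_eq_zero_iff.mp hm2) j (Finset.mem_univ j)
    obtain ⟨m, hm⟩ := heven j
    have hnnj := hnn j
    have hle : b.wt j ≤ 10 := by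
      by_contra hgt
      push Not at hgt
      by_cases h14 : b.wt j = 14
      · rw [h14] at hm2j
        norm_num at hm2j
        omega
      · have hpos : 0 < r (0 + b.wt j - 12) := by
          apply r_pos_of_even hr
          · omega
          · exact ⟨m - 6, by omega⟩
          · omega
        omega
    omega
  -- Step 2: the termwise identity
  have hterm : ∀ j, 12 * (r (2 + b.wt j - 12) : ℝ) + 3 * ((Complex.I) ^ (-(b.wt j))).re
      + 4 * (((rho : ℂ) + 1) ^ (-(b.wt j))).re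
      + 6 * ((r (24 - b.wt j) : ℝ) - (r (24 + b.wt j - 12) : ℝ))
      = 12 * (if b.wt j = 0 then 1 else 0) + 1 := by
    intro j
    rw [re_zeta_zpow _ (hrange j), re_I_zpow _ (hrange j)]
    rcases hrange j with h | h | h | h | h | h <;> rw [h] <;> norm_num [r0, r2, r4, r6, r8, r10, r12,
      r14, r16, r18, r20, r22, r24, r_neg]
  have hterm2 : ∀ j, r (24 - b.wt j) = r (24 - 12 - b.wt j) + 1 := by
    intro j
    rcases hrange j with h | h | h | h | h | h <;> rw [h] <;> norm_num [r0, r2, r4, r6, r8, r10, r12,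
      r14, r16, r18, r20, r22, r24, r_neg]
  -- Step 3: sum up
  have hsum := Finset.sum_congr (s₁ := (Finset.univ : Finset b.J)) rfl (fun j _ => hterm j)
  simp only [Finset.sum_add_distrib, ← Finset.mul_sum, ← Finset.sum_sub_distrib] at hsum
  have hs2 : (∑ j, (r (2 + b.wt j - 12) : ℝ)) = (Module.finrank ℂ (CF Γ 2) : ℝ) := by
    rw [hCF 2]; push_cast; rfl
  have hI : (∑ j, ((Complex.I) ^ (-(b.wt j))).re) = (ellTwo Γ : ℝ) := by
    have := congrArg Complex.re hTR1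
    simpa using this
  have hZ : (∑ j, (((rho : ℂ) + 1) ^ (-(b.wt j))).re) = (ellThree Γ : ℝ) := by
    have := congrArg Complex.re hTR2
    simpa using this
  have h24 : Module.finrank ℂ (MF Γ 24) = Module.finrank ℂ (CF Γ 24) + cuspNum Γ := by
    apply hINF1 24 (hMF 24).1
    rw [(hMF 24).2, (hMF (24 - 12)).2, ← hcard, Finset.card_univ.symm, Finset.card_eq_sum_ones,
      ← Finset.sum_add_distrib]
    exact Finset.sum_congr rfl (fun j _ => hterm2 j)
  have hc : (∑ j, ((r (24 - b.wt j) : ℝ) - (r (24 + b.wt j - 12) : ℝ))) = (cuspNum Γ : ℝ) := by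
    rw [Finset.sum_sub_distrib]
    have h1 : (∑ j, (r (24 - b.wt j) : ℝ)) = (Module.finrank ℂ (MF Γ 24) : ℝ) := by
      rw [(hMF 24).2]; push_cast; rfl
    have h2 : (∑ j, (r (24 + b.wt j - 12) : ℝ)) = (Module.finrank ℂ (CF Γ 24) : ℝ) := by
      rw [hCF 24]; push_cast; rfl
    rw [h1, h2, h24]; push_cast; ring
  have hz : (∑ j : b.J, (if b.wt j = 0 then (1 : ℝ) else 0)) = 1 := by
    rw [Finset.sum_boole]
    have : (Finset.univ.filter (fun j : b.J => b.wt j = 0)).card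
        = Fintype.card {j : b.J // b.wt j = 0} := (Fintype.card_subtype _).symm
    rw [this, hzero]; norm_num
  have hone : (∑ _j : b.J, (1 : ℝ)) = (Γ.index : ℝ) := by
    rw [Finset.sum_const, Finset.card_univ, hcard]; simp
  rw [hs2, hI, hZ, hc, hz, hone] at hsum
  have : (12 * (Module.finrank ℂ (CF Γ 2) : ℝ) + 3 * ellTwo Γ + 4 * ellThree Γ + 6 * cuspNum Γ)
      = 12 + Γ.index := by linarith
  exact_mod_cast this

end Fermat.Agent.S20.H74
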