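import Fermat.Agent.S20.H74_Defs
import Fermat.Agent.S20.H89_Perm

/-!
# S20 core, work packages W1-W3 (weights of a free basis) and TR1-TR2 (trace relations at the
elliptic points), helper89.  Statements are those of `H74_Skeleton.lean`.
-/

set_option autoImplicit false

namespace Fermat.Agent.S20.H89

open UpperHalfPlane ModularForm MatrixGroups Filter EisensteinSeries
open scoped Manifold Topology
open Fermat.Agent.S20.H74

variable {Γ : Subgroup SL(2, ℤ)}

/-! ## Elliptic points (the part of package L3 needed here) -/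

lemma S_smul_I : ModularGroup.S • (I : ℍ) = I := by
  rw [UpperHalfPlane.ext_iff, modular_S_smul]
  simp [UpperHalfPlane.I]

lemma denom_S_I : denom (ModularGroup.S : SL(2, ℤ)) (I : ℍ) = Complex.I := by
  rw [ModularGroup.denom_S]
  rfl

lemma rho_mul : ((rho : ℍ) : ℂ) * (-(rho : ℂ) + -1) = 1 := by
  have h3 : (Real.sqrt 3) * (Real.sqrt 3) = 3 := Real.mul_self_sqrt (by norm_num)
  apply Complex.ext
  · simp [rho]
    nlinarith [h3]
  · simp [rho]
    ring

lemma ST_smul_rho : (ModularGroup.S * ModularGroup.T) • rho = rho := by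
  rw [mul_smul, modular_T_smul, UpperHalfPlane.ext_iff, modular_S_smul]
  simp only [coe_vadd, Complex.ofReal_one]
  apply inv_eq_of_mul_eq_one_left
  linear_combination rho_mul

lemma denom_ST_rho :
    denom ((ModularGroup.S * ModularGroup.T : SL(2, ℤ))) rho = (rho : ℂ) + 1 := by
  have h10 : ((ModularGroup.S * ModularGroup.T : SL(2, ℤ)) : Matrix (Fin 2) (Fin 2) ℤ) 1 0 = 1 := by
    rw [Matrix.SpecialLinearGroup.coe_mul, ModularGroup.coe_S, ModularGroup.coe_T]
    simp [Matrix.mul_apply, Fin.sum_univ_two]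
  have h11 : ((ModularGroup.S * ModularGroup.T : SL(2, ℤ)) : Matrix (Fin 2) (Fin 2) ℤ) 1 1 = 1 := by
    rw [Matrix.SpecialLinearGroup.coe_mul, ModularGroup.coe_S, ModularGroup.coe_T]
    simp [Matrix.mul_apply, Fin.sum_univ_two]
  simp only [denom, Matrix.SpecialLinearGroup.coe_GL_coe_matrix,
    Matrix.SpecialLinearGroup.map_apply_coe, RingHom.mapMatrix_apply, Int.coe_castRingHom,
    Matrix.map_apply, h10, h11]
  simp

lemma rho_add_one_ne_zero : ((rho : ℍ) : ℂ) + 1 ≠ 0 := by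
  intro h
  have := rho_mul
  have h' : -((rho : ℍ) : ℂ) + -1 = 0 := by linear_combination -h
  rw [h', mul_zero] at this
  exact zero_ne_one this

/-! ## The basis forms are nonzero -/

lemma one_mem_MF_zero : (1 : ℍ → ℂ) ∈ MF Γ 0 := const_mem_MF (Γ := Γ) (1 : ℂ)

lemma F_ne_zero (b : RBasis Γ) (j : b.J) : b.F j ≠ 0 := by
  classical
  intro h
  have hmem : ∀ i ∈ ({j} : Finset b.J), (fun _ : b.J => (1 : ℍ → ℂ)) i ∈ MF ⊤ (b.wt j - b.wt i) := by
    intro i hi
    rw [Finset.mem_singleton] at hi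
    subst hi
    rw [sub_self]
    exact one_mem_MF_zero
  have hsum : ∑ i ∈ ({j} : Finset b.J), (fun _ : b.J => (1 : ℍ → ℂ)) i * b.F i = 0 := by
    rw [Finset.sum_singleton, h, mul_zero]
  have := b.indep (b.wt j) {j} (fun _ => 1) hmem hsum j (Finset.mem_singleton_self j)
  have h1 := congrFun this I
  simp at h1

/-! ## W. Weights -/

lemma slash_neg_one_apply (f : ℍ → ℂ) (k : ℤ) (z : ℍ) :
    (f ∣[k] (-1 : SL(2, ℤ))) z = f z * (-1 : ℂ) ^ (-k) := by
  rw [SL_slash_apply]
  have h1 : ((-1 : SL(2, ℤ)) • z) = z := by simp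
  have h2 : denom (Matrix.SpecialLinearGroup.toGL
      ((Matrix.SpecialLinearGroup.map (Int.castRingHom ℝ)) (-1 : SL(2, ℤ)))) ↑z = -1 := by
    simp [denom]
  rw [h1, h2]

theorem W1_even (hneg : -1 ∈ Γ) (b : RBasis Γ) (j : b.J) : Even (b.wt j) := by
  by_contra hodd
  rw [Int.not_even_iff_odd] at hodd
  apply F_ne_zero b j
  funext z
  have h := congrFun ((b.mem j).2.1 (-1) hneg) z
  rw [slash_neg_one_apply, (Odd.neg hodd).neg_one_zpow] at h
  have h2 : (2 : ℂ) * b.F j z = 0 := by linear_combination -h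
  simpa using h2

theorem W2_nonneg [Γ.FiniteIndex] (b : RBasis Γ) (j : b.J) : 0 ≤ b.wt j := by
  by_contra hneg
  rw [not_le] at hneg
  apply F_ne_zero b j
  have h := b.mem j
  rw [MF_eq_bot_of_neg hneg] at h
  exact (Submodule.mem_bot ℂ).mp h

lemma exists_wt_zero [Γ.FiniteIndex] (b : RBasis Γ) : ∃ j : b.J, b.wt j = 0 := by
  classical
  by_contra hno
  rw [not_exists] at hno
  obtain ⟨s, a, ha, hsum⟩ := b.gen 0 1 (one_mem_MF_zero (Γ := Γ))
  have hzero : ∀ j ∈ s, a j = 0 := by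
    intro j hj
    have hpos : 0 < b.wt j := lt_of_le_of_ne (W2_nonneg b j) (Ne.symm (hno j))
    have h := ha j hj
    rw [MF_eq_bot_of_neg (by omega)] at h
    exact (Submodule.mem_bot ℂ).mp h
  have h0 : (1 : ℍ → ℂ) = 0 := by
    rw [hsum]
    exact Finset.sum_eq_zero fun j hj => by rw [hzero j hj, zero_mul]
  have h1 := congrFun h0 I
  simp at h1

lemma wt_zero_unique [Γ.FiniteIndex] (b : RBasis Γ) {j j' : b.J} (hj : b.wt j = 0)
    (hj' : b.wt j' = 0) : j = j' := by
  classical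
  by_contra hne
  have hFj : b.F j ∈ MF Γ 0 := hj ▸ b.mem j
  have hFj' : b.F j' ∈ MF Γ 0 := hj' ▸ b.mem j'
  obtain ⟨c, hc⟩ := MF_zero_const hFj
  obtain ⟨c', hc'⟩ := MF_zero_const hFj'
  let a : b.J → ℍ → ℂ := fun i => if i = j then Function.const ℍ c' else Function.const ℍ (-c)
  have hmem : ∀ i ∈ ({j, j'} : Finset b.J), a i ∈ MF ⊤ (0 - b.wt i) := by
    intro i hi
    rw [Finset.mem_insert, Finset.mem_singleton] at hi
    rcases hi with rfl | rfl
    · rw [hj, sub_zero]
      simp only [a, if_true]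
      exact const_mem_MF c'
    · rw [hj', sub_zero]
      simp only [a, if_neg (Ne.symm hne)]
      exact const_mem_MF (-c)
  have hsum : ∑ i ∈ ({j, j'} : Finset b.J), a i * b.F i = 0 := by
    rw [Finset.sum_pair hne]
    simp only [a, if_true, if_neg (Ne.symm hne)]
    rw [hc, hc']
    funext z
    simp only [Pi.add_apply, Pi.mul_apply, Function.const_apply, Pi.zero_apply]
    ring
  have h0 := b.indep 0 {j, j'} a hmem hsum j (Finset.mem_insert_self j _)
  simp only [a, if_true] at h0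
  have hc0 : c' = 0 := by simpa using congrFun h0 I
  apply F_ne_zero b j'
  rw [hc', hc0]
  rfl

theorem W3_zero [Γ.FiniteIndex] (b : RBasis Γ) [Fintype b.J] :
    Fintype.card {j : b.J // b.wt j = 0} = 1 := by
  rw [Fintype.card_eq_one_iff]
  obtain ⟨j, hj⟩ := exists_wt_zero b
  exact ⟨⟨j, hj⟩, fun y => Subtype.ext (wt_zero_unique b y.2 hj)⟩

/-! ## TR. Trace relations at the elliptic points -/

/-- General form: if `δ` fixes `z`, then `∑ j, (denom δ z) ^ (-wt j)` is the number of cosets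
fixed by `δ`. -/
theorem trace_relation [Γ.FiniteIndex] (b : RBasis Γ) [Fintype b.J] (z : ℍ) (hz : b.LIAt z)
    (hcard : Nat.card b.J = Γ.index) (δ : SL(2, ℤ)) (hδ : δ • z = z) :
    ∑ j, (denom δ z) ^ (-(b.wt j)) = (Nat.card {q : SL(2, ℤ) ⧸ Γ // δ • q = q} : ℂ) := by
  classical
  let _ : Fintype (SL(2, ℤ) ⧸ Γ) := Subgroup.fintypeQuotientOfFiniteIndex
  have hden : denom δ z ≠ 0 := denom_ne_zero _ z
  have h := P3_sum_eq_card_fixed (C := SL(2, ℤ) ⧸ Γ) (J := b.J)
    (MulAction.toPerm (δ⁻¹ : SL(2, ℤ))) (fun q j => b.ev z j q)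
    (fun j => (denom δ z) ^ (-(b.wt j))) hz
    (by rw [← Nat.card_eq_fintype_card, hcard, Subgroup.index, Nat.card_eq_fintype_card])
    (by
      intro q j
      have h1 := cf_apply_smul (b.mem j).2.1 q δ z
      rw [hδ] at h1
      show cf Γ (b.wt j) (b.F j) (δ⁻¹ • q) z = _ * cf Γ (b.wt j) (b.F j) q z
      rw [h1, ← mul_assoc, ← zpow_add₀ hden, neg_add_cancel, zpow_zero, one_mul])
  rw [h, Nat.card_eq_fintype_card]
  congr 1
  refine Fintype.card_congr (Equiv.subtypeEquivRight fun q => ?_)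
  show δ⁻¹ • q = q ↔ δ • q = q
  rw [inv_smul_eq_iff, eq_comm]

theorem TR1_I [Γ.FiniteIndex] (b : RBasis Γ) [Fintype b.J] (hI : b.LIAt I)
    (hcard : Nat.card b.J = Γ.index) :
    ∑ j, (Complex.I) ^ (-(b.wt j)) = (ellTwo Γ : ℂ) := by
  have h := trace_relation b I hI hcard ModularGroup.S S_smul_I
  rw [denom_S_I] at h
  exact h

theorem TR2_rho [Γ.FiniteIndex] (b : RBasis Γ) [Fintype b.J] (hrho : b.LIAt rho)
    (hcard : Nat.card b.J = Γ.index) :
    ∑ j, ((rho : ℂ) + 1) ^ (-(b.wt j)) = (ellThree Γ : ℂ) := by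
  have h := trace_relation b rho hrho hcard (ModularGroup.S * ModularGroup.T) ST_smul_rho
  rw [denom_ST_rho] at h
  exact h

end Fermat.Agent.S20.H89
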