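import Fermat.Agent.S20.H74_Defs
import Mathlib.NumberTheory.ModularForms.Discriminant

/-!
# S20 core, packages INF1/INF2 (helper19): analytic side of the cusp filtration

`tw N a φ z = exp(-2πi a z / N) * φ z`.  For a holomorphic, `N`-periodic `φ : ℍ → ℂ`:
* `tw N a φ` is holomorphic and `N`-periodic;
* if `tw N a φ` is bounded at `i∞` it has a limit there (`tendsto_tw`);
* that limit is `0` iff `tw N (a+1) φ` is bounded at `i∞`.
-/

set_option autoImplicit false

namespace Fermat.Agent.S20.H19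

open UpperHalfPlane ModularForm MatrixGroups Filter
open scoped Manifold Topology
open Fermat.Agent.S20.H74

/-- The twist of `φ` by `q_N^{-a}`, `q_N = exp(2πi z / N)`. -/
noncomputable def tw (N a : ℕ) (φ : ℍ → ℂ) : ℍ → ℂ :=
  fun z => Complex.exp (-2 * Real.pi * Complex.I * a * z / N) * φ z

lemma tw_apply (N a : ℕ) (φ : ℍ → ℂ) (z : ℍ) :
    tw N a φ z = Complex.exp (-2 * Real.pi * Complex.I * a * z / N) * φ z := rfl

lemma tw_zero (N : ℕ) (φ : ℍ → ℂ) : tw N 0 φ = φ := by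
  funext z
  simp [tw]

lemma tw_add (N a : ℕ) (φ ψ : ℍ → ℂ) : tw N a (φ + ψ) = tw N a φ + tw N a ψ := by
  funext z
  simp [tw, mul_add]

lemma tw_smul (N a : ℕ) (c : ℂ) (φ : ℍ → ℂ) : tw N a (c • φ) = c • tw N a φ := by
  funext z
  simp [tw, mul_left_comm]

lemma tw_succ (N a : ℕ) (φ : ℍ → ℂ) (z : ℍ) :
    tw N (a + 1) φ z = Complex.exp (-2 * Real.pi * Complex.I * z / N) * tw N a φ z := by
  rw [tw_apply, tw_apply, ← mul_assoc, ← Complex.exp_add]
  congr 2
  push_cast
  ring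

lemma tw_eq_mul_succ (N a : ℕ) (φ : ℍ → ℂ) (z : ℍ) :
    tw N a φ z = Complex.exp (2 * Real.pi * Complex.I * z / N) * tw N (a + 1) φ z := by
  rw [tw_succ, ← mul_assoc, ← Complex.exp_add]
  have : 2 * Real.pi * Complex.I * (z : ℂ) / N + -2 * Real.pi * Complex.I * z / N = 0 := by ring
  rw [this, Complex.exp_zero, one_mul]

lemma norm_exp_pos_twist (N : ℕ) (z : ℍ) :
    ‖Complex.exp (2 * Real.pi * Complex.I * z / N)‖ = Real.exp (-2 * Real.pi * z.im / N) := by
  rw [Complex.norm_exp]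
  congr 1
  have : (2 * Real.pi * Complex.I * (z : ℂ) / N) = ((2 * Real.pi / N : ℝ) : ℂ) * (Complex.I * z) := by
    push_cast; ring
  rw [this, Complex.re_ofReal_mul]
  simp
  ring

lemma norm_exp_neg_twist (N : ℕ) (z : ℍ) :
    ‖Complex.exp (-2 * Real.pi * Complex.I * z / N)‖ = Real.exp (2 * Real.pi * z.im / N) := by
  rw [Complex.norm_exp]
  congr 1
  have : (-2 * Real.pi * Complex.I * (z : ℂ) / N) = ((-2 * Real.pi / N : ℝ) : ℂ) * (Complex.I * z) := by
    push_cast; ring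
  rw [this, Complex.re_ofReal_mul]
  simp
  ring


/-! ### Periodicity and holomorphy -/

/-- A function on `ℍ` invariant under `z ↦ h + z` is periodic after composing with
`ofComplex`. -/
lemma periodic_comp_ofComplex_of_vadd {ψ : ℍ → ℂ} {h : ℝ} (hψ : ∀ z : ℍ, ψ (h +ᵥ z) = ψ z) :
    Function.Periodic (ψ ∘ ofComplex) (h : ℂ) := by
  intro w
  by_cases hw : 0 < w.im
  · have hw' : 0 < (w + h).im := by simp [hw]
    simp only [Function.comp_apply, ofComplex_apply_of_im_pos hw', ofComplex_apply_of_im_pos hw]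
    rw [← hψ ⟨w, hw⟩]
    congr 1
    ext
    simp [add_comm]
  · rw [not_lt] at hw
    have hw' : (w + h).im ≤ 0 := by simpa using hw
    simp [ofComplex_apply_of_im_nonpos hw', ofComplex_apply_of_im_nonpos hw]

lemma tw_vadd {N : ℕ} (hN : 0 < N) (a : ℕ) {φ : ℍ → ℂ}
    (hφ : ∀ z : ℍ, φ ((N : ℝ) +ᵥ z) = φ z) (z : ℍ) :
    tw N a φ ((N : ℝ) +ᵥ z) = tw N a φ z := by
  rw [tw_apply, tw_apply, hφ]
  congr 1
  have hN' : (N : ℂ) ≠ 0 := Nat.cast_ne_zero.mpr hN.ne'
  have h1 : -2 * Real.pi * Complex.I * a * (((N : ℝ) +ᵥ z : ℍ) : ℂ) / N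
      = -2 * Real.pi * Complex.I * a * z / N + ((-(a : ℤ) : ℤ) : ℂ) * (2 * Real.pi * Complex.I) := by
    rw [UpperHalfPlane.coe_vadd]
    push_cast
    field_simp
    ring
  rw [h1, Complex.exp_add, Complex.exp_int_mul_two_pi_mul_I, mul_one]

lemma mdiff_exp_mul (c : ℂ) : MDiff (fun z : ℍ => Complex.exp (c * z)) := by
  rw [UpperHalfPlane.mdifferentiable_iff]
  have h : DifferentiableOn ℂ (fun w : ℂ => Complex.exp (c * w)) {z | 0 < z.im} := by fun_prop
  refine h.congr fun z hz => ?_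
  simp [Function.comp, ofComplex_apply_of_im_pos hz]

lemma mdiff_tw (N a : ℕ) {φ : ℍ → ℂ} (hφ : MDiff φ) : MDiff (tw N a φ) := by
  have h := (mdiff_exp_mul (-2 * Real.pi * Complex.I * a / N)).mul hφ
  have e : tw N a φ = (fun z : ℍ => Complex.exp (-2 * Real.pi * Complex.I * a / N * z)) * φ := by
    funext z
    rw [tw_apply, Pi.mul_apply]
    congr 2
    ring
  rw [e]
  exact h

/-! ### Limits at `i∞` -/

/-- A holomorphic, periodic function bounded at `i∞` converges there. -/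
lemma tendsto_valueAtInfty {ψ : ℍ → ℂ} {h : ℝ} (hh : 0 < h)
    (hper : Function.Periodic (ψ ∘ ofComplex) h) (hhol : MDiff ψ) (hbdd : IsBoundedAtImInfty ψ) :
    Tendsto ψ atImInfty (𝓝 (valueAtInfty ψ)) := by
  have han := analyticAt_cuspFunction_zero hh hper hhol hbdd
  have h0 := cuspFunction_apply_zero hh han hper
  have hcomp : (cuspFunction h ψ ∘ fun τ : ℍ ↦ Function.Periodic.qParam h τ : ℍ → ℂ) = ψ := by
    funext τ
    simpa using eq_cuspFunction τ hh.ne' hper
  have := han.continuousAt.tendsto.comp (qParam_tendsto_atImInfty hh)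
  rw [hcomp, h0] at this
  exact this

/-- If `exp(-2πi z/N) ψ` is bounded at `i∞` then `ψ` tends to zero there. -/
lemma isZeroAtImInfty_of_bdd_twist {N : ℕ} (hN : 0 < N) {ψ : ℍ → ℂ}
    (hb : IsBoundedAtImInfty (fun z : ℍ => Complex.exp (-2 * Real.pi * Complex.I * z / N) * ψ z)) :
    IsZeroAtImInfty ψ := by
  have hq : Tendsto (fun τ : ℍ ↦ Function.Periodic.qParam (N : ℝ) τ) atImInfty (𝓝 0) :=
    qParam_tendsto_atImInfty (by exact_mod_cast hN)
  have hz : ZeroAtFilter atImInfty (fun τ : ℍ ↦ Function.Periodic.qParam (N : ℝ) τ) := hq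
  have := Filter.BoundedAtFilter.mul_zeroAtFilter hb hz
  refine this.congr ?_
  intro z
  simp only [Pi.mul_apply, Function.Periodic.qParam]
  rw [mul_comm, ← mul_assoc, ← Complex.exp_add]
  have : 2 * Real.pi * Complex.I * (z : ℂ) / ((N : ℝ) : ℂ) + -2 * Real.pi * Complex.I * z / N = 0 := by
    push_cast; ring
  rw [this, Complex.exp_zero, one_mul]

/-- If a holomorphic periodic `ψ` tends to zero at `i∞`, then `exp(-2πi z/N) ψ` is bounded. -/
lemma bdd_twist_of_isZeroAtImInfty {N : ℕ} (hN : 0 < N) {ψ : ℍ → ℂ}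
    (hper : Function.Periodic (ψ ∘ ofComplex) (N : ℝ)) (hhol : MDiff ψ)
    (hz : IsZeroAtImInfty ψ) :
    IsBoundedAtImInfty (fun z : ℍ => Complex.exp (-2 * Real.pi * Complex.I * z / N) * ψ z) := by
  have hN' : (0 : ℝ) < N := by exact_mod_cast hN
  have hdecay := hz.exp_decay_atImInfty hN' hper hhol hz.isBoundedAtImInfty
  have h1 : (fun z : ℍ => Complex.exp (-2 * Real.pi * Complex.I * z / N))
      =O[atImInfty] fun z : ℍ => Real.exp (2 * Real.pi * z.im / N) := by
    refine Asymptotics.IsBigO.of_bound 1 ?_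
    filter_upwards with z
    rw [norm_exp_neg_twist, one_mul, Real.norm_of_nonneg (Real.exp_pos _).le]
  have h2 := h1.mul hdecay
  rw [IsBoundedAtImInfty, BoundedAtFilter]
  refine h2.trans ?_
  refine Asymptotics.IsBigO.of_bound 1 ?_
  filter_upwards with z
  rw [← Real.exp_add]
  have : 2 * Real.pi * z.im / N + -2 * Real.pi * z.im / N = 0 := by ring
  rw [this]
  simp

end Fermat.Agent.S20.H19
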