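import Mathlib.NumberTheory.ModularForms.EisensteinSeries.QExpansion
import Mathlib.NumberTheory.ModularForms.EisensteinSeries.Basic
import Mathlib.NumberTheory.ModularForms.CongruenceSubgroups
import Mathlib.NumberTheory.ModularForms.BoundedAtCusp
import Mathlib.NumberTheory.ModularForms.Basic

/-!
# S20, part D (helper29): a modular form on `Γ₀(N)` whose `SL(2, ℤ)`-stabiliser is `Γ₀(N)`

`f = E₄ ∣[4] diag(N, 1)` (i.e. `N³ · E₄(N τ)`) is a modular form of weight `4` on `Γ₀(N)`, and for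
`g : SL(2, ℤ)`, `f ∣[4] g = f` forces `g ∈ Γ₀(N)`.

Main result: `Fermat.Agent.S20.H29.exists_modularForm_stabilizer_le_Gamma0`.
-/

set_option autoImplicit false

noncomputable section

namespace Fermat.Agent.S20.H29

open UpperHalfPlane hiding I
open ModularForm EisensteinSeries Filter Topology Complex CongruenceSubgroup
open Matrix Matrix.SpecialLinearGroup
open scoped MatrixGroups Manifold Real

/-- Restrict a modular form to a smaller subgroup. -/
def restrictLevel {Γ Γ' : Subgroup (GL (Fin 2) ℝ)} {k : ℤ} (h : Γ' ≤ Γ) (f : ModularForm Γ k) :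
    ModularForm Γ' k where
  toFun := f
  slash_action_eq' γ hγ := f.slash_action_eq' γ (h hγ)
  holo' := f.holo'
  bdd_at_cusps' hc := f.bdd_at_cusps' (hc.mono h)

@[simp] lemma coe_restrictLevel {Γ Γ' : Subgroup (GL (Fin 2) ℝ)} {k : ℤ} (h : Γ' ≤ Γ)
    (f : ModularForm Γ k) : ⇑(restrictLevel h f) = ⇑f := rfl

/-- Upper triangular matrices in `GL(2, ℝ)`. -/
def upperTri (a b d : ℝ) (had : a * d ≠ 0) : GL (Fin 2) ℝ :=
  Matrix.GeneralLinearGroup.mkOfDetNeZero !![a, b; 0, d]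
    (by rwa [Matrix.det_fin_two_of, mul_zero, sub_zero])

@[simp] lemma val_upperTri (a b d : ℝ) (had : a * d ≠ 0) :
    ((upperTri a b d had : GL (Fin 2) ℝ) : Matrix (Fin 2) (Fin 2) ℝ) = !![a, b; 0, d] := rfl

lemma det_upperTri (a b d : ℝ) (had : a * d ≠ 0) :
    ((upperTri a b d had).det : ℝ) = a * d := by
  rw [Matrix.GeneralLinearGroup.val_det_apply, val_upperTri, Matrix.det_fin_two_of]
  ring

/-- A function with a limit at `i∞`, slashed by an upper triangular matrix of positive determinant,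
has the expected limit at `i∞`. -/
lemma tendsto_slash_upperTri {f : ℍ → ℂ} {L : ℂ} (k : ℤ) (a b d : ℝ) (ha : 0 < a) (hd : 0 < d)
    (hf : Tendsto f atImInfty (𝓝 L)) :
    Tendsto (f ∣[k] upperTri a b d (mul_pos ha hd).ne') atImInfty
      (𝓝 (L * ((a * d : ℝ) : ℂ) ^ (k - 1) * ((d : ℝ) : ℂ) ^ (-k))) := by
  set g := upperTri a b d (mul_pos ha hd).ne' with hg
  have hg10 : g 1 0 = 0 := by simp [hg]
  have hdet : (g.det : ℝ) = a * d := det_upperTri a b d _
  have hdetpos : 0 < (g.det : ℝ) := by rw [hdet]; exact mul_pos ha hd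
  have hσ : UpperHalfPlane.σ g = .refl ℝ ℂ := by rw [UpperHalfPlane.σ, if_pos hdetpos]
  have hden : ∀ τ : ℍ, UpperHalfPlane.denom g τ = d := by
    intro τ
    simp [UpperHalfPlane.denom, hg]
  have h1 : Tendsto (fun τ : ℍ ↦ f (g • τ)) atImInfty (𝓝 L) :=
    hf.comp (tendsto_smul_atImInfty hg10)
  have h2 := (h1.mul_const (((a * d : ℝ) : ℂ) ^ (k - 1))).mul_const (((d : ℝ) : ℂ) ^ (-k))
  refine h2.congr fun τ ↦ ?_
  rw [ModularForm.slash_apply, hσ, hdet, hden]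
  simp only [ContinuousAlgEquiv.refl_apply, abs_of_pos (mul_pos ha hd)]

/-- `E₄ → 1` at `i∞`. -/
lemma tendsto_E₄_atImInfty' : Tendsto E₄ atImInfty (𝓝 1) := by
  have han : AnalyticAt ℂ (cuspFunction 1 E₄) 0 :=
    ModularFormClass.analyticAt_cuspFunction_zero E₄ one_pos one_mem_strictPeriods_SL
  have h0 : cuspFunction 1 E₄ 0 = 1 := by
    have := E_qExpansion_coeff_zero (k := 4) (by norm_num) ⟨2, rfl⟩
    simpa [qExpansion_coeff] using this
  have := han.continuousAt.tendsto.comp (qParam_tendsto_atImInfty one_pos)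
  rw [h0] at this
  refine this.congr fun τ ↦ ?_
  exact SlashInvariantFormClass.eq_cuspFunction (h := 1) E₄ τ one_mem_strictPeriods_SL one_ne_zero

/-- `diag(N, 1)` as an element of `GL(2, ℝ)`. -/
def diagN (N : ℕ) [NeZero N] : GL (Fin 2) ℝ :=
  upperTri N 0 1 (by simpa using NeZero.ne N)

/-- Integer matrix identities transfer to `GL(2, ℝ)`:
`upperTri a b d * γ = γ' * upperTri a' b' d'`. -/
lemma upperTri_mul_mapGL_eq (a b d a' b' d' : ℤ) (had : ((a : ℝ) * d) ≠ 0)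
    (had' : ((a' : ℝ) * d') ≠ 0) (γ γ' : SL(2, ℤ))
    (h00 : a * γ 0 0 + b * γ 1 0 = γ' 0 0 * a')
    (h01 : a * γ 0 1 + b * γ 1 1 = γ' 0 0 * b' + γ' 0 1 * d')
    (h10 : d * γ 1 0 = γ' 1 0 * a')
    (h11 : d * γ 1 1 = γ' 1 0 * b' + γ' 1 1 * d') :
    upperTri a b d had * mapGL ℝ γ = mapGL ℝ γ' * upperTri a' b' d' had' := by
  apply Matrix.GeneralLinearGroup.ext
  intro i j
  have e00 := congrArg (Int.cast : ℤ → ℝ) h00
  have e01 := congrArg (Int.cast : ℤ → ℝ) h01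
  have e10 := congrArg (Int.cast : ℤ → ℝ) h10
  have e11 := congrArg (Int.cast : ℤ → ℝ) h11
  push_cast at e00 e01 e10 e11
  fin_cases i <;> fin_cases j <;>
    simp [Matrix.mul_apply, Fin.sum_univ_two, mapGL_coe_matrix, upperTri] <;>
    linarith

open ConjAct Pointwise in
/-- `Γ₀(N) ⊆ diag(N,1)⁻¹ SL(2, ℤ) diag(N,1)`. -/
lemma Gamma0_le_conj (N : ℕ) [NeZero N] :
    ((Gamma0 N : Subgroup SL(2, ℤ)) : Subgroup (GL (Fin 2) ℝ)) ≤
      toConjAct (diagN N)⁻¹ • 𝒮ℒ := by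
  rintro x ⟨γ, hγ, rfl⟩
  rw [map_inv, Subgroup.mem_inv_pointwise_smul_iff, toConjAct_smul]
  obtain ⟨c', hc'⟩ : (N : ℤ) ∣ γ 1 0 :=
    (ZMod.intCast_zmod_eq_zero_iff_dvd _ _).mp (Gamma0_mem.mp hγ)
  have hdet : γ 0 0 * γ 1 1 - γ 0 1 * γ 1 0 = 1 := by
    have := γ.det_coe
    rwa [Matrix.det_fin_two] at this
  let γ' : SL(2, ℤ) := ⟨!![γ 0 0, N * γ 0 1; c', γ 1 1], by
    rw [Matrix.det_fin_two_of]
    rw [hc'] at hdet
    linear_combination hdet⟩
  refine ⟨γ', ?_⟩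
  rw [eq_mul_inv_iff_mul_eq]
  symm
  have := upperTri_mul_mapGL_eq N 0 1 N 0 1 (by simpa using NeZero.ne N)
    (by simpa using NeZero.ne N) γ γ' (by simp [γ']; ring) (by simp [γ']) (by simp [γ', hc']; ring)
    (by simp [γ'])
  simpa [diagN] using this

/-- The form `N³ E₄(N τ)` of weight `4` on `Γ₀(N)`. -/
def E4N (N : ℕ) [NeZero N] : ModularForm (Gamma0 N : Subgroup SL(2, ℤ)) 4 :=
  restrictLevel (Gamma0_le_conj N) (ModularForm.translate E₄ (diagN N))

lemma coe_E4N (N : ℕ) [NeZero N] : ⇑(E4N N) = ⇑E₄ ∣[(4 : ℤ)] diagN N := rfl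

/-- Hermite normal form of `diag(N,1) * g` for `g ∈ SL(2, ℤ)`. -/
lemma hermite_diag_mul (N : ℤ) (hN : 0 < N) (a b c d : ℤ) (hdet : a * d - b * c = 1) :
    ∃ u v x y A B D : ℤ, u * x + v * y = 1 ∧ 0 < A ∧ 0 < D ∧ A * D = N ∧ (D = 1 → N ∣ c) ∧
      u * A = N * a ∧ v * A = c ∧ u * B - y * D = N * b ∧ v * B + x * D = d := by
  have hA0 : Int.gcd (N * a) c ≠ 0 := by
    intro h
    rw [Int.gcd_eq_zero_iff] at h
    obtain ⟨h1, h2⟩ := h
    have ha : a = 0 := by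
      rcases mul_eq_zero.mp h1 with h | h
      · exact absurd h hN.ne'
      · exact h
    rw [ha, h2] at hdet
    simp at hdet
  set A : ℤ := ((Int.gcd (N * a) c : ℕ) : ℤ) with hA
  have hApos : 0 < A := by
    have : (0 : ℤ) ≤ A := by simp [hA]
    have : A ≠ 0 := by simpa [hA] using hA0
    omega
  obtain ⟨u, hu⟩ : A ∣ N * a := Int.gcd_dvd_left _ _
  obtain ⟨v, hv⟩ : A ∣ c := Int.gcd_dvd_right _ _
  have hbez : A = N * a * Int.gcdA (N * a) c + c * Int.gcdB (N * a) c := Int.gcd_eq_gcd_ab _ _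
  set x := Int.gcdA (N * a) c
  set y := Int.gcdB (N * a) c
  have hux : u * x + v * y = 1 := by
    have h1 : A * (u * x + v * y) = A * 1 := by
      calc A * (u * x + v * y) = (A * u) * x + (A * v) * y := by ring
        _ = N * a * x + c * y := by rw [← hu, ← hv]
        _ = A * 1 := by rw [mul_one]; exact hbez.symm
    exact mul_left_cancel₀ hApos.ne' h1
  have hAD : A * (-v * (N * b) + u * d) = N := by
    calc A * (-v * (N * b) + u * d) = -(A * v) * (N * b) + (A * u) * d := by ring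
      _ = -c * (N * b) + (N * a) * d := by rw [← hu, ← hv]
      _ = N * (a * d - b * c) := by ring
      _ = N := by rw [hdet, mul_one]
  have hDpos : 0 < -v * (N * b) + u * d := by
    by_contra hneg
    rw [not_lt] at hneg
    have : A * (-v * (N * b) + u * d) ≤ 0 := mul_nonpos_of_nonneg_of_nonpos hApos.le hneg
    omega
  refine ⟨u, v, x, y, A, x * (N * b) + y * d, -v * (N * b) + u * d, hux, hApos, hDpos, hAD, ?_,
    ?_, ?_, ?_, ?_⟩
  · intro hD
    rw [hD, mul_one] at hAD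
    rw [← hAD]
    exact ⟨v, hv⟩
  · rw [hu]; ring
  · rw [hv]; ring
  · linear_combination (N * b) * hux
  · linear_combination d * hux

/-- The `SL(2, ℤ)`-stabiliser of `E4N N` under the weight `4` slash action is contained in
`Γ₀(N)`. -/
theorem mem_Gamma0_of_slash_E4N_eq (N : ℕ) [NeZero N] (g : SL(2, ℤ))
    (hg : ⇑(E4N N) ∣[(4 : ℤ)] g = ⇑(E4N N)) : g ∈ Gamma0 N := by
  have hNpos : (0 : ℤ) < N := by exact_mod_cast Nat.pos_of_ne_zero (NeZero.ne N)
  have hNposR : (0 : ℝ) < N := by exact_mod_cast Nat.pos_of_ne_zero (NeZero.ne N)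
  have hdet : g 0 0 * g 1 1 - g 0 1 * g 1 0 = 1 := by
    have := g.det_coe
    rwa [Matrix.det_fin_two] at this
  obtain ⟨u, v, x, y, A, B, D, hux, hA, hD, hAD, hD1, h00, h10, h01, h11⟩ :=
    hermite_diag_mul N hNpos (g 0 0) (g 0 1) (g 1 0) (g 1 1) hdet
  have hAR : (0 : ℝ) < A := by exact_mod_cast hA
  have hDR : (0 : ℝ) < D := by exact_mod_cast hD
  let δ : SL(2, ℤ) := ⟨!![u, -y; v, x], by
    rw [Matrix.det_fin_two_of]
    linear_combination hux⟩
  have hmat : diagN N * mapGL ℝ g = mapGL ℝ δ * upperTri A B D (mul_pos hAR hDR).ne' := by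
    have := upperTri_mul_mapGL_eq N 0 1 A B D (by simpa using NeZero.ne N)
      (mul_pos hAR hDR).ne' g δ (by simp [δ]; linarith) (by simp [δ]; linarith)
      (by simp [δ]; linarith) (by simp [δ]; linarith)
    simpa [diagN] using this
  -- rewrite the stabiliser hypothesis
  have hslash : ⇑E₄ ∣[(4 : ℤ)] upperTri A B D (mul_pos hAR hDR).ne' = ⇑E₄ ∣[(4 : ℤ)] diagN N := by
    have h1 : ⇑(E4N N) ∣[(4 : ℤ)] g = ⇑E₄ ∣[(4 : ℤ)] (diagN N * mapGL ℝ g) := by
      rw [coe_E4N, ModularForm.SL_slash, SlashAction.slash_mul]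
      rfl
    rw [h1, hmat, SlashAction.slash_mul, coe_E4N] at hg
    have h2 : ⇑E₄ ∣[(4 : ℤ)] mapGL ℝ δ = ⇑E₄ :=
      SlashInvariantFormClass.slash_action_eq E₄ (mapGL ℝ δ) ⟨δ, rfl⟩
    rwa [h2] at hg
  -- compare limits at `i∞`
  have hlim1 := tendsto_slash_upperTri 4 A B D hAR hDR tendsto_E₄_atImInfty'
  have hlim2 := tendsto_slash_upperTri 4 N 0 1 hNposR one_pos tendsto_E₄_atImInfty'
  rw [hslash] at hlim1
  have hlim2' : Tendsto (⇑E₄ ∣[(4 : ℤ)] diagN N) atImInfty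
      (𝓝 (1 * (((N : ℝ) * (1 : ℝ) : ℝ) : ℂ) ^ ((4 : ℤ) - 1) * (((1 : ℝ) : ℝ) : ℂ) ^ (-(4 : ℤ)))) :=
    hlim2
  have heq := tendsto_nhds_unique hlim1 hlim2'
  have hADR : (A : ℝ) * D = N := by exact_mod_cast hAD
  rw [hADR] at heq
  have hNC : ((N : ℝ) : ℂ) ≠ 0 := by exact_mod_cast hNposR.ne'
  have hDC : ((D : ℝ) : ℂ) ≠ 0 := by exact_mod_cast hDR.ne'
  have hD4 : ((D : ℝ) : ℂ) ^ (4 : ℕ) = 1 := by
    have h3 : ((N : ℝ) : ℂ) ^ ((4 : ℤ) - 1) ≠ 0 := zpow_ne_zero _ hNC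
    simp only [one_mul, mul_one, Complex.ofReal_one, _root_.one_zpow] at heq
    have h4 : ((D : ℝ) : ℂ) ^ (-(4 : ℤ)) = 1 := by
      have := mul_left_cancel₀ h3 (heq.trans (mul_one _).symm)
      exact this
    rw [_root_.zpow_neg, inv_eq_one] at h4
    exact_mod_cast h4
  have hD4R : (D : ℝ) ^ (4 : ℕ) = 1 := by exact_mod_cast hD4
  have hDone : (D : ℝ) = 1 := by
    rcases (pow_eq_one_iff_of_nonneg hDR.le (by norm_num : (4 : ℕ) ≠ 0)).mp hD4R with h
    exact h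
  have hDint : D = 1 := by exact_mod_cast hDone
  exact Gamma0_mem.mpr ((ZMod.intCast_zmod_eq_zero_iff_dvd _ _).mpr (hD1 hDint))

/-- **S20, part D.** There is a modular form on `Γ₀(N)` whose stabiliser in `SL(2, ℤ)` (for the
slash action) is contained in `Γ₀(N)`. -/
theorem exists_modularForm_stabilizer_le_Gamma0 (N : ℕ) [NeZero N] :
    ∃ (k : ℤ) (f : ModularForm (Gamma0 N : Subgroup SL(2, ℤ)) k),
      ∀ g : SL(2, ℤ), (⇑f ∣[k] g = ⇑f) → g ∈ Gamma0 N :=
  ⟨4, E4N N, mem_Gamma0_of_slash_E4N_eq N⟩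

end Fermat.Agent.S20.H29
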