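import Mathlib.NumberTheory.ModularForms.LevelOne.GradedRing

/-!
# Level-one forms are isobaric polynomials in `E₄`, `E₆` (evaluation form)

If `E₄ w = lam^4 * E₄ z` and `E₆ w = lam^6 * E₆ z`, then `F w = lam^k * F z` for every level-one
modular form `F` of weight `k`.
-/

set_option autoImplicit false

open UpperHalfPlane ModularForm ModularFormClass MatrixGroups EisensteinSeries

namespace Fermat.Agent.S20.H29

/-- The monomial `E₄ ^ a * E₆ ^ b` as a level one modular form of weight `k = 4 a + 6 b`. -/
noncomputable def monomialE (a b : ℕ) (k : ℤ) (hk : (a : ℤ) * 4 + (b : ℤ) * 6 = k) :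
    ModularForm 𝒮ℒ k :=
  ModularForm.mcast hk ((E₄.pow a).mul (E₆.pow b))

lemma monomialE_apply (a b : ℕ) (k : ℤ) (hk : (a : ℤ) * 4 + (b : ℤ) * 6 = k) (z : ℍ) :
    monomialE a b k hk z = E₄ z ^ a * E₆ z ^ b := by
  show ((E₄.pow a : ℍ → ℂ) z) * ((E₆.pow b : ℍ → ℂ) z) = _
  rw [ModularForm.coe_pow, ModularForm.coe_pow]
  rfl

lemma monomialE_coeff_zero (a b : ℕ) (k : ℤ) (hk : (a : ℤ) * 4 + (b : ℤ) * 6 = k) :
    (qExpansion 1 (monomialE a b k hk)).coeff 0 = 1 := by
  have h1 : (monomialE a b k hk : ℍ → ℂ) = ((E₄.pow a).mul (E₆.pow b) : ℍ → ℂ) := rfl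
  rw [h1, ModularForm.qExpansion_mul one_pos one_mem_strictPeriods_SL,
    ModularForm.qExpansion_pow one_pos one_mem_strictPeriods_SL,
    ModularForm.qExpansion_pow one_pos one_mem_strictPeriods_SL]
  simp only [PowerSeries.coeff_zero_eq_constantCoeff, map_mul, map_pow]
  have h4 := E_qExpansion_coeff_zero (k := 4) (by norm_num) ⟨2, rfl⟩
  have h6 := E_qExpansion_coeff_zero (k := 6) (by norm_num) ⟨3, rfl⟩
  rw [PowerSeries.coeff_zero_eq_constantCoeff] at h4 h6
  rw [h4, h6, one_pow, one_pow, one_mul]

/-- Existence of exponents: every even `k ≥ 4` is `4 a + 6 b`. -/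
lemma exists_exponents (k : ℕ) (hk : 4 ≤ k) (hev : Even k) : ∃ a b : ℕ, a * 4 + b * 6 = k := by
  obtain ⟨m, rfl⟩ := hev
  rcases Nat.even_or_odd' m with ⟨n, rfl | rfl⟩
  · exact ⟨n, 0, by omega⟩
  · exact ⟨n - 1, 1, by omega⟩

/-- **Isobaric transfer.** If `(E₄, E₆)` at `w` is the `lam`-weighted rescaling of `(E₄, E₆)` at
`z`, then the same holds for every level one modular form. -/
theorem levelOne_apply_eq_pow_mul {z w : ℍ} {lam : ℂ}
    (h4 : E₄ w = lam ^ 4 * E₄ z) (h6 : E₆ w = lam ^ 6 * E₆ z) :
    ∀ (k : ℕ) (F : ModularForm 𝒮ℒ (k : ℤ)), F w = lam ^ k * F z := by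
  have hΔ : discriminant w = lam ^ 12 * discriminant z := by
    rw [discriminant_eq_E₄_cube_sub_E₆_sq, discriminant_eq_E₄_cube_sub_E₆_sq, h4, h6]
    ring
  intro k
  induction k using Nat.strong_induction_on with
  | _ k ih =>
    intro F
    rcases Nat.even_or_odd k with hev | hodd
    · rcases Nat.lt_or_ge k 4 with hlt | hge
      · -- k = 0 or k = 2
        have hk : k = 0 ∨ k = 2 := by
          obtain ⟨m, rfl⟩ := hev
          omega
        rcases hk with rfl | rfl
        · obtain ⟨c, hc⟩ := levelOne_weight_zero_const (F := ModularForm 𝒮ℒ ((0 : ℕ) : ℤ)) F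
          simp [hc]
        · have h0 : F = 0 := by
            have := levelOne_weight_two_rank_zero
            rw [rank_zero_iff_forall_zero] at this
            exact this F
          simp [h0]
      · obtain ⟨a, b, hab⟩ := exists_exponents k hge hev
        have hab' : (a : ℤ) * 4 + (b : ℤ) * 6 = (k : ℤ) := by exact_mod_cast hab
        set G := monomialE a b k hab' with hG
        have hcusp := sub_smul_isCuspForm F G (monomialE_coeff_zero a b k hab')
        rw [isCuspForm_iff_coeffZero_eq_zero] at hcusp
        set c := (qExpansion 1 F).coeff 0 with hc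
        set H := CuspForm.discriminantEquiv (toCuspForm (F - c • G) hcusp) with hH
        have hFz : ∀ τ : ℍ, F τ = c * G τ + discriminant τ * H τ := by
          intro τ
          rw [discriminant_mul_discriminantEquiv_apply, toCuspForm_apply]
          simp
        have hGw : G w = lam ^ k * G z := by
          rw [hG, monomialE_apply, monomialE_apply, h4, h6, ← hab]
          ring
        have hHw : (12 ≤ k ∧ H w = lam ^ (k - 12) * H z) ∨ (∀ τ, H τ = 0) := by
          rcases Nat.lt_or_ge k 12 with h12 | h12
          · right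
            intro τ
            have hneg : ((k : ℤ) - 12) < 0 := by omega
            have := levelOne_neg_weight_eq_zero hneg H
            rw [this]; rfl
          · left
            refine ⟨h12, ?_⟩
            have hk12 : ((k : ℤ) - 12) = ((k - 12 : ℕ) : ℤ) := by omega
            have := ih (k - 12) (by omega) (ModularForm.mcast hk12 H)
            simpa [ModularForm.mcast_apply] using this
        rw [hFz w, hFz z, hGw, hΔ]
        rcases hHw with ⟨h12, hHw⟩ | hHw
        · rw [hHw]
          have hpow : lam ^ k = lam ^ (k - 12) * lam ^ 12 := by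
            rw [← pow_add, Nat.sub_add_cancel h12]
          rw [hpow]
          ring
        · rw [hHw w, hHw z]; ring
    · have hodd' : Odd (k : ℤ) := by exact_mod_cast hodd
      have := levelOne_odd_weight_eq_zero hodd' F
      simp [this]

end Fermat.Agent.S20.H29
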