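import Mathlib.NumberTheory.ModularForms.LevelOne.GradedRing
import Mathlib.NumberTheory.ModularForms.EisensteinSeries.QExpansion
import Mathlib.Analysis.SpecialFunctions.Elliptic.Weierstrass
import Fermat.Agent.S20.H29_Isobaric

/-!
# Lattices attached to points of the upper half plane, and their Eisenstein sums
-/

set_option autoImplicit false

open UpperHalfPlane ModularForm ModularFormClass MatrixGroups EisensteinSeries

namespace Fermat.Agent.S20.H29

/-- The period pair `(c τ, c)` for `c ≠ 0` and `τ ∈ ℍ`. -/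
noncomputable def periodPair (c : ℂ) (hc : c ≠ 0) (τ : ℍ) : PeriodPair where
  ω₁ := c * τ
  ω₂ := c
  indep := by
    rw [LinearIndependent.pair_iff]
    intro s t h
    have h1 : c * ((s : ℂ) * τ + t) = 0 := by
      have : (s : ℂ) * (c * τ) + (t : ℂ) * c = 0 := by simpa using h
      linear_combination this
    have h2 : (s : ℂ) * τ + t = 0 := (mul_eq_zero.mp h1).resolve_left hc
    have him := congrArg Complex.im h2
    simp at him
    have hs : s = 0 := him.resolve_right τ.im_ne_zero
    subst hs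
    have hre := congrArg Complex.re h2
    simp at hre
    exact ⟨rfl, hre⟩

@[simp] lemma periodPair_ω₁ (c : ℂ) (hc : c ≠ 0) (τ : ℍ) : (periodPair c hc τ).ω₁ = c * τ := rfl
@[simp] lemma periodPair_ω₂ (c : ℂ) (hc : c ≠ 0) (τ : ℍ) : (periodPair c hc τ).ω₂ = c := rfl







/-- The lattice sum `G_k` of the lattice `c (ℤ τ + ℤ)` in terms of the Eisenstein series `E_k`. -/
lemma G_periodPair (c : ℂ) (hc : c ≠ 0) (τ : ℍ) {k : ℕ} (hk : 3 ≤ k) :
    (periodPair c hc τ).G k = (c ^ k)⁻¹ * (2 * riemannZeta k * E hk τ) := by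
  have hE : E hk τ = (1 / 2 : ℂ) * eisensteinSeries (N := 1) 0 k τ := rfl
  rw [hE, PeriodPair.G]
  have h1 := tsum_eisSummand_eq_riemannZeta_mul_eisensteinSeries hk τ
  rw [← (periodPair c hc τ).latticeEquivProd.symm.toEquiv.tsum_eq]
  simp only [LinearEquiv.coe_toEquiv, PeriodPair.latticeEquiv_symm_apply, periodPair_ω₁,
    periodPair_ω₂]
  rw [← (finTwoArrowEquiv ℤ).symm.tsum_eq] at h1
  simp only [finTwoArrowEquiv_symm_apply] at h1
  have h2 : ∀ x : ℤ × ℤ, (((x.1 : ℂ) * (c * τ) + x.2 * c) ^ k)⁻¹ =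
      (c ^ k)⁻¹ * eisSummand k ![x.1, x.2] τ := by
    intro x
    simp only [eisSummand, Matrix.cons_val_zero, Matrix.cons_val_one, zpow_neg, zpow_natCast]
    rw [← mul_inv, ← mul_pow]
    congr 2
    ring
  simp_rw [h2]
  rw [tsum_mul_left, h1]
  ring

end Fermat.Agent.S20.H29
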