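import Fermat.Agent.S20.H19_Cosets

/-!
# S20, part G (helper19): normal form for cosets of `Gamma0 N`

Every left coset `g Γ₀(N)` contains a matrix with first column `(a, d)` where `d ∣ N`,
`gcd(a, d) = 1`, and the pair `(d, a mod N/d)` is a complete invariant of the coset.  The possible
residues `x = a mod N/d` are exactly those coprime to `gcd(d, N/d)`.

Main result: `card_cosets_eq_sum` (G1a).
-/

namespace Fermat.Agent.S20.H19

open CongruenceSubgroup MatrixGroups Matrix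

/-- Lifting lemma (variant of the one inside `ZMod.unitsMap_surjective`). -/
lemma exists_add_mul_coprime (x n m : ℕ) (hm : m ≠ 0) (hx : x.Coprime (n.gcd m)) :
    ∃ k : ℕ, (x + k * n).Coprime m := by
  let ps : Finset ℕ := {p ∈ m.primeFactors | ¬p ∣ x}
  use ps.prod id
  apply Nat.coprime_of_dvd
  intro p pp hp hpm
  by_cases hpx : p ∣ x
  · have h := Nat.dvd_sub hp hpx
    rw [add_comm, Nat.add_sub_cancel] at h
    rcases pp.dvd_mul.mp h with h | h
    · have ⟨q, hq, hq'⟩ := (pp.prime.dvd_finsetProd_iff id).mp h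
      rw [Finset.mem_filter, Nat.mem_primeFactors,
        ← (Nat.prime_dvd_prime_iff_eq pp hq.1.1).mp hq'] at hq
      exact hq.2 hpx
    · exact Nat.Prime.not_coprime_iff_dvd.mpr ⟨p, pp, hpx, Nat.dvd_gcd h hpm⟩ hx
  · have pps : p ∈ ps := Finset.mem_filter.mpr ⟨Nat.mem_primeFactors.mpr ⟨pp, hpm, hm⟩, hpx⟩
    have h := Nat.dvd_sub hp ((Finset.dvd_prod_of_mem id pps).mul_right n)
    rw [Nat.add_sub_cancel] at h
    contradiction

/-- The finite set of normal forms `(d, x)`. -/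
def NF (N : ℕ) : Finset (Σ _ : ℕ, ℕ) :=
  N.divisors.sigma
    (fun d => (Finset.range (N / d)).filter (fun x => Nat.Coprime x (Nat.gcd d (N / d))))

lemma mem_NF {N : ℕ} {p : Σ _ : ℕ, ℕ} :
    p ∈ NF N ↔ (p.1 ∣ N ∧ N ≠ 0) ∧ p.2 < N / p.1 ∧ Nat.Coprime p.2 (Nat.gcd p.1 (N / p.1)) := by
  simp [NF, Nat.mem_divisors]

lemma card_NF (N : ℕ) :
    (NF N).card = ∑ d ∈ N.divisors,
      ((Finset.range (N / d)).filter (fun x => Nat.Coprime x (Nat.gcd d (N / d)))).card := by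
  rw [NF, Finset.card_sigma]

/-- Existence of a representative matrix for each normal form. -/
lemma exists_rep {N : ℕ} (p : Σ _ : ℕ, ℕ) (hp : p ∈ NF N) :
    ∃ g : SL(2, ℤ), g 1 0 = (p.1 : ℤ) ∧ ((N / p.1 : ℕ) : ℤ) ∣ g 0 0 - (p.2 : ℤ) := by
  obtain ⟨⟨hd, hN⟩, -, hcop⟩ := mem_NF.mp hp
  have hd0 : p.1 ≠ 0 := fun h => hN (by simpa [h] using hd)
  obtain ⟨k, hk⟩ := exists_add_mul_coprime p.2 (N / p.1) p.1 hd0 (by rwa [Nat.gcd_comm])
  have hk' : IsCoprime (((p.2 + k * (N / p.1) : ℕ)) : ℤ) ((p.1 : ℕ) : ℤ) :=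
    Nat.isCoprime_iff_coprime.mpr hk
  obtain ⟨g, hg0, hg1⟩ := hk'.exists_SL2_col 0
  refine ⟨g, hg1, ?_⟩
  rw [hg0]
  push_cast
  exact ⟨k, by ring⟩

/-- Injectivity of the normal form. -/
lemma nf_inj {N d d' : ℕ} {a a' : ℤ} (hN : N ≠ 0) (hd : d ∣ N) (hd' : d' ∣ N)
    (ha : IsCoprime a (d : ℤ)) (ha' : IsCoprime a' (d' : ℤ))
    (h : (N : ℤ) ∣ a * d' - d * a') : d = d' ∧ ((N / d : ℕ) : ℤ) ∣ a - a' := by
  have hdZ : (d : ℤ) ∣ (N : ℤ) := Int.natCast_dvd_natCast.mpr hd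
  have hd'Z : (d' : ℤ) ∣ (N : ℤ) := Int.natCast_dvd_natCast.mpr hd'
  have h1 : (d : ℤ) ∣ a * d' := by
    have := (hdZ.trans h)
    have h2 : (d : ℤ) ∣ (d : ℤ) * a' := dvd_mul_right _ _
    have := dvd_add this h2
    simpa using this
  have h1' : (d : ℤ) ∣ (d' : ℤ) := ha.symm.dvd_of_dvd_mul_left h1
  have h3 : (d' : ℤ) ∣ (d : ℤ) * a' := by
    have := (hd'Z.trans h)
    have h2 : (d' : ℤ) ∣ a * (d' : ℤ) := dvd_mul_left _ _
    have := dvd_sub h2 this
    simpa using this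
  have h3' : (d' : ℤ) ∣ (d : ℤ) := ha'.symm.dvd_of_dvd_mul_right h3
  have hdd : d = d' :=
    Nat.dvd_antisymm (Int.natCast_dvd_natCast.mp h1') (Int.natCast_dvd_natCast.mp h3')
  refine ⟨hdd, ?_⟩
  subst hdd
  have hd0 : (d : ℤ) ≠ 0 := by
    intro h0
    apply hN
    have : d = 0 := by exact_mod_cast h0
    simpa [this] using hd
  have hNd : (N : ℤ) = (d : ℤ) * ((N / d : ℕ) : ℤ) := by
    exact_mod_cast (Nat.mul_div_cancel' hd).symm
  have h4 : (d : ℤ) * ((N / d : ℕ) : ℤ) ∣ (d : ℤ) * (a - a') := by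
    rw [← hNd]
    have : a * (d : ℤ) - d * a' = (d : ℤ) * (a - a') := by ring
    rwa [this] at h
  exact Int.dvd_of_mul_dvd_mul_left hd0 h4

/-- Surjectivity of the normal form. -/
lemma nf_surj {N : ℕ} (hN : N ≠ 0) {a c : ℤ} (hac : IsCoprime a c) :
    ∃ d x : ℕ, d ∣ N ∧ x < N / d ∧ x.Coprime (d.gcd (N / d)) ∧
      ∀ a' : ℤ, ((N / d : ℕ) : ℤ) ∣ a' - x → (N : ℤ) ∣ a' * c - d * a := by
  set d : ℕ := Int.gcd c N with hd
  have hdN : d ∣ N := by
    have := Int.gcd_dvd_right c (N : ℤ)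
    exact Int.natCast_dvd_natCast.mp this
  have hdc : (d : ℤ) ∣ c := Int.gcd_dvd_left c (N : ℤ)
  have hdpos : 0 < d := Int.gcd_pos_of_ne_zero_right _ (by exact_mod_cast hN)
  have hd0 : (d : ℤ) ≠ 0 := by exact_mod_cast hdpos.ne'
  obtain ⟨c', hc'⟩ := hdc
  set e : ℕ := N / d with he
  have hNe : N = d * e := (Nat.mul_div_cancel' hdN).symm
  have hepos : 0 < e := Nat.div_pos (Nat.le_of_dvd (Nat.pos_of_ne_zero hN) hdN) hdpos
  -- `c'` and `e` are coprime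
  have hcop : IsCoprime c' (e : ℤ) := by
    have h1 : Int.gcd (c / (Int.gcd c N : ℤ)) ((N : ℤ) / (Int.gcd c N : ℤ)) = 1 :=
      Int.gcd_div_gcd_div_gcd (by rw [← hd]; exact hdpos)
    rw [← hd] at h1
    have h2 : c / (d : ℤ) = c' := by rw [hc']; exact Int.mul_ediv_cancel_left _ hd0
    have h3 : (N : ℤ) / (d : ℤ) = (e : ℤ) := by
      rw [hNe]; push_cast; exact Int.mul_ediv_cancel_left _ hd0
    rw [h2, h3] at h1
    exact Int.isCoprime_iff_gcd_eq_one.mpr h1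
  obtain ⟨u, v, huv⟩ := hcop
  -- the residue
  have hemod_nonneg : 0 ≤ (a * u) % (e : ℤ) := Int.emod_nonneg _ (by exact_mod_cast hepos.ne')
  have hemod_lt : (a * u) % (e : ℤ) < e := Int.emod_lt_of_pos _ (by exact_mod_cast hepos)
  set x : ℕ := ((a * u) % (e : ℤ)).toNat with hx
  have hxZ : (x : ℤ) = (a * u) % (e : ℤ) := Int.toNat_of_nonneg hemod_nonneg
  have hxe : x < e := by
    have : (x : ℤ) < e := by rw [hxZ]; exact hemod_lt
    exact_mod_cast this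
  -- `x * c' ≡ a mod e`
  have hxc : (e : ℤ) ∣ x * c' - a := by
    have h1 : (e : ℤ) ∣ a * u - x := by
      rw [hxZ]
      exact ⟨a * u / (e : ℤ), by have := Int.emod_add_mul_ediv (a * u) (e : ℤ); linarith⟩
    have h2 : (x : ℤ) * c' - a = -((a * u - x) * c') + (-(a * v)) * e := by
      linear_combination a * huv
    rw [h2]
    exact dvd_add (Dvd.dvd.neg_right (Dvd.dvd.mul_right h1 _)) (dvd_mul_left _ _)
  refine ⟨d, x, hdN, hxe, ?_, ?_⟩
  · -- coprimality of `x` with `gcd d e`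
    rw [← Nat.isCoprime_iff_coprime]
    obtain ⟨s, t, hst⟩ := hac
    obtain ⟨w, hw⟩ := hxc
    have hg1 : ((d.gcd e : ℕ) : ℤ) ∣ (d : ℤ) := Int.natCast_dvd_natCast.mpr (Nat.gcd_dvd_left d e)
    have hg2 : ((d.gcd e : ℕ) : ℤ) ∣ (e : ℤ) := Int.natCast_dvd_natCast.mpr (Nat.gcd_dvd_right d e)
    obtain ⟨y1, hy1⟩ := hg1
    obtain ⟨y2, hy2⟩ := hg2
    refine ⟨s * c', -(s * w * y2) + t * c' * y1, ?_⟩
    have ha : a = x * c' - e * w := by linarith
    calc s * c' * (x : ℤ) + (-(s * w * y2) + t * c' * y1) * ((d.gcd e : ℕ) : ℤ)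
        = s * (x * c' - ((d.gcd e : ℕ) : ℤ) * y2 * w) + t * (((d.gcd e : ℕ) : ℤ) * y1 * c') := by
          ring
      _ = s * (x * c' - e * w) + t * (d * c') := by rw [← hy1, ← hy2]
      _ = s * a + t * c := by rw [← ha, ← hc']
      _ = 1 := hst
  · intro a' ha'
    obtain ⟨w1, hw1⟩ := ha'
    obtain ⟨w2, hw2⟩ := hxc
    refine ⟨w1 * c' + w2, ?_⟩
    have hNZ : (N : ℤ) = (d : ℤ) * (e : ℤ) := by exact_mod_cast hNe
    rw [hNZ, hc']
    have e1 : a' = x + e * w1 := by linarith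
    have e2 : a = x * c' - e * w2 := by linarith
    rw [e1, e2]
    ring

variable (N : ℕ) [NeZero N]

/-- A chosen representative for each normal form. -/
noncomputable def rep (p : {p // p ∈ NF N}) : SL(2, ℤ) := Classical.choose (exists_rep p.1 p.2)

omit [NeZero N] in
lemma rep_spec (p : {p // p ∈ NF N}) :
    (rep N p) 1 0 = (p.1.1 : ℤ) ∧ ((N / p.1.1 : ℕ) : ℤ) ∣ (rep N p) 0 0 - (p.1.2 : ℤ) :=
  Classical.choose_spec (exists_rep p.1 p.2)

/-- The map from normal forms to cosets is bijective. -/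
theorem bijective_rep :
    Function.Bijective (fun p : {p // p ∈ NF N} =>
      (QuotientGroup.mk (rep N p) : SL(2, ℤ) ⧸ Gamma0 N)) := by
  have hN : N ≠ 0 := NeZero.ne N
  constructor
  · intro p p' h
    simp only at h
    rw [coset_eq_iff] at h
    obtain ⟨h10, h00⟩ := rep_spec N p
    obtain ⟨h10', h00'⟩ := rep_spec N p'
    obtain ⟨⟨hd, -⟩, hx, -⟩ := mem_NF.mp p.2
    obtain ⟨⟨hd', -⟩, hx', -⟩ := mem_NF.mp p'.2
    have hc := isCoprime_col (rep N p)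
    have hc' := isCoprime_col (rep N p')
    rw [h10] at hc
    rw [h10'] at hc'
    rw [h10, h10'] at h
    obtain ⟨hdd, hdiv⟩ := nf_inj hN hd hd' hc hc' h
    -- now the residues agree
    have hxx : p.1.2 = p'.1.2 := by
      rw [← hdd] at h00' hx'
      have h5 : ((N / p.1.1 : ℕ) : ℤ) ∣ (p.1.2 : ℤ) - (p'.1.2 : ℤ) := by
        have := dvd_sub (dvd_sub hdiv h00) (Dvd.dvd.neg_right h00')
        have e : (rep N p) 0 0 - (rep N p') 0 0 - ((rep N p) 0 0 - (p.1.2 : ℤ))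
            - -((rep N p') 0 0 - (p'.1.2 : ℤ)) = (p.1.2 : ℤ) - (p'.1.2 : ℤ) := by ring
        rwa [e] at this
      have h6 : (p.1.2 : ℤ) % ((N / p.1.1 : ℕ) : ℤ) = (p'.1.2 : ℤ) % ((N / p.1.1 : ℕ) : ℤ) :=
        Int.emod_eq_emod_iff_emod_sub_eq_zero.mpr (Int.emod_eq_zero_of_dvd h5)
      have h7 : p.1.2 % (N / p.1.1) = p'.1.2 % (N / p.1.1) := by exact_mod_cast h6
      rwa [Nat.mod_eq_of_lt hx, Nat.mod_eq_of_lt hx'] at h7
    apply Subtype.ext
    exact Sigma.ext hdd (heq_of_eq hxx)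
  · intro q
    induction q using QuotientGroup.induction_on with
    | H g =>
      obtain ⟨d, x, hdN, hxe, hcop, hall⟩ := nf_surj hN (isCoprime_col g)
      have hp : (⟨d, x⟩ : Σ _ : ℕ, ℕ) ∈ NF N := mem_NF.mpr ⟨⟨hdN, hN⟩, hxe, hcop⟩
      refine ⟨⟨⟨d, x⟩, hp⟩, ?_⟩
      simp only
      rw [coset_eq_iff]
      obtain ⟨h10, h00⟩ := rep_spec N ⟨⟨d, x⟩, hp⟩
      simp only at h10 h00
      rw [h10]
      exact hall _ h00

/-- **G1a**: the number of cosets of `Gamma0 N` as a sum over divisors. -/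
theorem card_cosets_eq_sum :
    Nat.card (SL(2, ℤ) ⧸ Gamma0 N) = ∑ d ∈ N.divisors,
      ((Finset.range (N / d)).filter (fun x => Nat.Coprime x (Nat.gcd d (N / d)))).card := by
  rw [← card_NF, ← Nat.card_eq_of_bijective _ (bijective_rep N)]
  simp

/-- **G1a**, index form. -/
theorem index_Gamma0_eq_sum :
    (Gamma0 N).index = ∑ d ∈ N.divisors,
      ((Finset.range (N / d)).filter (fun x => Nat.Coprime x (Nat.gcd d (N / d)))).card := by
  rw [Subgroup.index_eq_card, card_cosets_eq_sum]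

end Fermat.Agent.S20.H19
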