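import Fermat.Agent.S20.H74_Defs

/-!
# S20 core, package E1 (helper25): Koszul exactness

`E₆ f = E₄ h` with `f ∈ M_k(Γ)`, `h ∈ M_{k+2}(Γ)` implies `f = E₄ f'` with `f' ∈ M_{k-4}(Γ)`.
The quotient is obtained by patching `f / E₄` and `h / E₆` (`E₄`, `E₆` have no common zero).
-/

set_option autoImplicit false

namespace Fermat.Agent.S20.H25

open UpperHalfPlane ModularForm MatrixGroups Filter EisensteinSeries
open scoped Manifold Topology
open Fermat.Agent.S20.H74

variable {Γ : Subgroup SL(2, ℤ)}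

lemma E4_mem : (⇑E₄ : ℍ → ℂ) ∈ MF ⊤ 4 := coe_mem_MF_top E₄

lemma E6_mem : (⇑E₆ : ℍ → ℂ) ∈ MF ⊤ 6 := coe_mem_MF_top E₆

lemma E4_E6_not_both_zero (z : ℍ) : E₄ z ≠ 0 ∨ E₆ z ≠ 0 := by
  by_contra h
  push Not at h
  have h1 := discriminant_eq_E₄_cube_sub_E₆_sq z
  rw [h.1, h.2] at h1
  exact discriminant_ne_zero z (by simpa using h1)

/-- A level one modular form tends to its constant `q`-coefficient at `i∞`. -/
lemma tendsto_coeff_zero {k : ℤ} (f : ModularForm 𝒮ℒ k) :
    Tendsto f atImInfty (𝓝 ((qExpansion 1 f).coeff 0)) := by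
  have han : AnalyticAt ℂ (cuspFunction 1 f) 0 :=
    ModularFormClass.analyticAt_cuspFunction_zero f one_pos one_mem_strictPeriods_SL
  have h0 : (qExpansion 1 f).coeff 0 = cuspFunction 1 f 0 := by
    simp [qExpansion_coeff]
  rw [h0]
  have := han.continuousAt.tendsto.comp (qParam_tendsto_atImInfty one_pos)
  refine this.congr fun τ ↦ ?_
  exact SlashInvariantFormClass.eq_cuspFunction (h := 1) f τ one_mem_strictPeriods_SL one_ne_zero

lemma tendsto_E4 : Tendsto (⇑E₄ : ℍ → ℂ) atImInfty (𝓝 1) := by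
  simpa [E_qExpansion_coeff_zero _ ⟨2, rfl⟩] using tendsto_coeff_zero E₄

lemma tendsto_E6 : Tendsto (⇑E₆ : ℍ → ℂ) atImInfty (𝓝 1) := by
  simpa [E_qExpansion_coeff_zero _ ⟨3, rfl⟩] using tendsto_coeff_zero E₆

/-- Quotient of holomorphic functions is holomorphic where the denominator does not vanish. -/
lemma mdiffAt_div {f e : ℍ → ℂ} (hf : MDiff f) (he : MDiff e) {z : ℍ} (hz : e z ≠ 0) :
    MDiffAt (fun w => f w / e w) z := by
  rw [UpperHalfPlane.mdifferentiableAt_iff]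
  have h1 := UpperHalfPlane.mdifferentiableAt_iff.mp (hf z)
  have h2 := UpperHalfPlane.mdifferentiableAt_iff.mp (he z)
  have h3 : (e ∘ ofComplex) (z : ℂ) ≠ 0 := by
    simpa [Function.comp_apply, ofComplex_apply] using hz
  exact h1.div h2 h3

/-- A function which is locally a quotient of holomorphic functions is holomorphic. -/
lemma mdiffAt_of_mul_eq {f e g : ℍ → ℂ} (hf : MDiff f) (he : MDiff e)
    (hmul : ∀ w, e w * g w = f w) {z : ℍ} (hz : e z ≠ 0) : MDiffAt g z := by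
  have hcont : ContinuousAt e z := (he z).continuousAt
  have hev : ∀ᶠ w in 𝓝 z, e w ≠ 0 := hcont.eventually_ne hz
  have heq : g =ᶠ[𝓝 z] fun w => f w / e w := by
    filter_upwards [hev] with w hw
    rw [← hmul w]; field_simp
  exact (mdiffAt_div hf he hz).congr_of_eventuallyEq heq

/-- Division by a level one form tending to `1` at `i∞` preserves boundedness. -/
lemma bdd_of_mul_eq {e g f : ℍ → ℂ} (he : Tendsto e atImInfty (𝓝 1))
    (hmul : e * g = f) (hf : IsBoundedAtImInfty f) : IsBoundedAtImInfty g := by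
  have hev : ∀ᶠ z in atImInfty, (1 / 2 : ℝ) < ‖e z‖ := by
    have h1 : Tendsto (fun z => ‖e z‖) atImInfty (𝓝 ‖(1 : ℂ)‖) := he.norm
    rw [norm_one] at h1
    exact h1.eventually (lt_mem_nhds (by norm_num))
  have hO : g =O[atImInfty] f := by
    refine Asymptotics.IsBigO.of_bound 2 ?_
    filter_upwards [hev] with z hz
    have h2 : e z * g z = f z := congrFun hmul z
    rw [← h2, norm_mul]
    have hg : 0 ≤ ‖g z‖ := norm_nonneg _
    nlinarith
  exact hO.trans hf

/-- **E1 (Koszul)**: `E₆ f = E₄ h  ⟹  E₄ ∣ f` in `M_*(Γ)`. -/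
theorem E1_koszul {k : ℤ} {f h : ℍ → ℂ} (hf : f ∈ MF Γ k) (hh : h ∈ MF Γ (k + 2))
    (heq : ⇑E₆ * f = ⇑E₄ * h) : ∃ f' ∈ MF Γ (k - 4), f = ⇑E₄ * f' := by
  classical
  have heqz : ∀ z, E₆ z * f z = E₄ z * h z := fun z => congrFun heq z
  set F : ℍ → ℂ := fun z => if E₄ z = 0 then h z / E₆ z else f z / E₄ z with hF
  have h4 : ∀ z, E₄ z * F z = f z := by
    intro z
    by_cases hz : E₄ z = 0
    · have h6 : E₆ z ≠ 0 := (E4_E6_not_both_zero z).resolve_left (by simpa using hz)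
      have : f z = 0 := by
        have := heqz z
        rw [hz, zero_mul] at this
        exact (mul_eq_zero.mp this).resolve_left h6
      simp [hF, hz, this]
    · simp only [hF, hz, if_false]
      field_simp
  have h6 : ∀ z, E₆ z * F z = h z := by
    intro z
    by_cases hz : E₄ z = 0
    · have h6 : E₆ z ≠ 0 := (E4_E6_not_both_zero z).resolve_left (by simpa using hz)
      simp only [hF, hz, if_true]
      field_simp
    · simp only [hF, hz, if_false]
      have := heqz z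
      field_simp
      linear_combination this
  have h4' : ⇑E₄ * F = f := funext h4
  have h6' : ⇑E₆ * F = h := funext h6
  have hFmd : MDiff F := by
    intro z
    rcases E4_E6_not_both_zero z with hz | hz
    · exact mdiffAt_of_mul_eq hf.1 E4_mem.1 h4 hz
    · exact mdiffAt_of_mul_eq hh.1 E6_mem.1 h6 hz
  have hslash4 : ∀ γ : SL(2, ℤ), ⇑E₄ * (F ∣[k - 4] γ) = f ∣[k] γ := by
    intro γ
    have h1 : (⇑E₄ * F) ∣[4 + (k - 4)] γ = ((⇑E₄ : ℍ → ℂ) ∣[(4 : ℤ)] γ) * (F ∣[k - 4] γ) :=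
      mul_slash_SL2 4 (k - 4) γ _ _
    rw [MF.slash_top E4_mem, h4'] at h1
    rw [← h1]
    congr 1
    ring
  have hslash6 : ∀ γ : SL(2, ℤ), ⇑E₆ * (F ∣[k - 4] γ) = h ∣[k + 2] γ := by
    intro γ
    have h1 : (⇑E₆ * F) ∣[6 + (k - 4)] γ = ((⇑E₆ : ℍ → ℂ) ∣[(6 : ℤ)] γ) * (F ∣[k - 4] γ) :=
      mul_slash_SL2 6 (k - 4) γ _ _
    rw [MF.slash_top E6_mem, h6'] at h1
    rw [← h1]
    congr 1
    ring
  refine ⟨F, ⟨hFmd, fun γ hγ => ?_, fun γ => ?_⟩, h4'.symm⟩
  · funext z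
    have e4 := congrFun (hslash4 γ) z
    have e6 := congrFun (hslash6 γ) z
    rw [hf.2.1 γ hγ] at e4
    rw [hh.2.1 γ hγ] at e6
    simp only [Pi.mul_apply] at e4 e6
    rcases E4_E6_not_both_zero z with hz | hz
    · exact mul_left_cancel₀ hz (e4.trans (h4 z).symm)
    · exact mul_left_cancel₀ hz (e6.trans (h6 z).symm)
  · exact bdd_of_mul_eq tendsto_E4 (hslash4 γ) (hf.2.2 γ)

end Fermat.Agent.S20.H25
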