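import Mathlib.LinearAlgebra.Dimension.Constructions
import Mathlib.LinearAlgebra.Dimension.Free
import Mathlib.LinearAlgebra.FiniteDimensional.Lemmas
import Mathlib.LinearAlgebra.Basis.VectorSpace
import Mathlib.LinearAlgebra.LinearIndependent.Lemmas
import Mathlib.Analysis.Complex.Basic

/-!
# S20 core, INF2 last step (helper25): picking a basis from a spanning family of subspaces

If finitely many subspaces `W a` of `C → K` (`C` finite) span everything, there is a basis
`e : C → (C → K)` such that every `e i` lies in some `W (a i)`.
-/

set_option autoImplicit false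

namespace Fermat.Agent.S20.H25

/-- General version: any index type for the family of subspaces, any field. -/
theorem exists_pick_basis {K : Type*} [Field K] {C : Type*} [Finite C] {ι : Type*}
    (W : ι → Submodule K (C → K)) (h : ⨆ a, W a = ⊤) :
    ∃ (a : C → ι) (e : C → C → K), (∀ i, e i ∈ W (a i)) ∧ LinearIndependent K e := by
  classical
  have : Fintype C := Fintype.ofFinite C
  set t : Set (C → K) := ⋃ a, (W a : Set (C → K)) with ht
  have hspan_t : Submodule.span K t = ⊤ := by
    rw [ht, Submodule.span_iUnion]
    simpa [Submodule.span_eq] using h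
  obtain ⟨b, hbt, hspan, hli⟩ := exists_linearIndependent K t
  have hb_span : Submodule.span K (Set.range ((↑) : b → C → K)) = ⊤ := by
    rw [Subtype.range_coe, hspan, hspan_t]
  let B : Module.Basis b K (C → K) := Module.Basis.mk hli (by rw [hb_span])
  have : Finite b := Module.Finite.finite_basis B
  have : Fintype b := Fintype.ofFinite b
  have hcard : Fintype.card C = Fintype.card b := by
    rw [← Module.finrank_eq_card_basis B, Module.finrank_fintype_fun_eq_card]
  obtain ⟨φ⟩ : Nonempty (C ≃ b) := Fintype.card_eq.mp hcard
  have hmem : ∀ i : C, ∃ a, ((φ i : b) : C → K) ∈ W a := by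
    intro i
    have := hbt (φ i).2
    rw [ht, Set.mem_iUnion] at this
    exact this
  choose a ha using hmem
  exact ⟨a, fun i => ((φ i : b) : C → K), ha, hli.comp φ φ.injective⟩

/-- **INF2, last step**, in the form requested by helper74. -/
theorem pick {C : Type*} [Finite C] {N : ℕ} (W : Fin N → Submodule ℂ (C → ℂ))
    (h : ⨆ a, W a = ⊤) :
    ∃ (a : C → Fin N) (e : C → C → ℂ), (∀ i, e i ∈ W (a i)) ∧ LinearIndependent ℂ e :=
  exists_pick_basis W h

end Fermat.Agent.S20.H25
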