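import Fermat.Agent.S20.H25_Koszul

/-!
# S20 core, package E2 (helper25): existence of a homogeneous free basis of `M_*(Γ)` over
`M_*(SL(2, ℤ))`

For every weight `w` we choose a complement `Ccomp Γ w` of `E₄ M_{w-4} + E₆ M_{w-6}` in `M_w(Γ)`
and a basis `Bset Γ w` of it.  The union over all `w` is a free basis: generation by induction
on the weight, independence by `L1` (level one structure, taken as a hypothesis `L1Stmt`),
Koszul exactness `E1_koszul` and the fact that `E₄` is not a zero divisor.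
-/

set_option autoImplicit false

namespace Fermat.Agent.S20.H25

open UpperHalfPlane ModularForm MatrixGroups Filter EisensteinSeries
open scoped Manifold Topology
open Fermat.Agent.S20.H74

/-- The statement of package L1 (level one decomposition), used as a hypothesis. -/
def L1Stmt : Prop :=
  ∀ {k : ℤ} {a : ℍ → ℂ}, a ∈ MF ⊤ k → ∃ a' ∈ MF ⊤ (k - 4), ∃ c : ℂ,
    a = ⇑E₄ * a' + c • (if 0 ≤ k ∧ (6 : ℤ) ∣ k then (⇑E₆ : ℍ → ℂ) ^ (k / 6).toNat else 0)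

/-! ### `E₄` is not a zero divisor -/

lemma exists_E4_ne_zero : ∃ z : ℍ, E₄ z ≠ 0 := by
  by_contra h
  push Not at h
  have h0 : Tendsto (⇑E₄ : ℍ → ℂ) atImInfty (𝓝 0) := by
    have : (⇑E₄ : ℍ → ℂ) = fun _ => 0 := funext h
    rw [this]; exact tendsto_const_nhds
  exact one_ne_zero (tendsto_nhds_unique tendsto_E4 h0)

lemma eq_zero_of_E4_mul {g : ℍ → ℂ} (hg : MDiff g) (h : (⇑E₄ : ℍ → ℂ) * g = 0) : g = 0 := by
  have hE : AnalyticOnNhd ℂ ((⇑E₄ : ℍ → ℂ) ∘ ofComplex) {z | 0 < z.im} :=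
    (UpperHalfPlane.mdifferentiable_iff.mp E4_mem.1).analyticOnNhd isOpen_upperHalfPlaneSet
  have hG : AnalyticOnNhd ℂ (g ∘ ofComplex) {z | 0 < z.im} :=
    (UpperHalfPlane.mdifferentiable_iff.mp hg).analyticOnNhd isOpen_upperHalfPlaneSet
  have hU : IsPreconnected {z : ℂ | 0 < z.im} := (convex_halfSpace_im_gt 0).isPreconnected
  rcases hE.eq_zero_or_eq_zero_of_mul_eq_zero hG (fun z _ => by
      have := congrFun h (ofComplex z); simpa using this) hU with h1 | h1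
  · exfalso
    obtain ⟨z, hz⟩ := exists_E4_ne_zero
    apply hz
    have := h1 z z.im_pos
    simpa [ofComplex_apply] using this
  · funext z
    have := h1 z z.im_pos
    simpa [ofComplex_apply] using this

variable (Γ : Subgroup SL(2, ℤ))

/-! ### Decomposable part, complement, basis -/

/-- The decomposable part `E₄ M_{w-4}(Γ) + E₆ M_{w-6}(Γ)` of `M_w(Γ)`. -/
noncomputable def Ndec (w : ℤ) : Submodule ℂ (ℍ → ℂ) :=
  (MF Γ (w - 4)).map (LinearMap.mulLeft ℂ (⇑E₄ : ℍ → ℂ)) ⊔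
    (MF Γ (w - 6)).map (LinearMap.mulLeft ℂ (⇑E₆ : ℍ → ℂ))

lemma mem_Ndec {w : ℤ} {g : ℍ → ℂ} :
    g ∈ Ndec Γ w ↔ ∃ x ∈ MF Γ (w - 4), ∃ y ∈ MF Γ (w - 6), g = ⇑E₄ * x + ⇑E₆ * y := by
  constructor
  · intro hg
    obtain ⟨u, hu, v, hv, rfl⟩ := Submodule.mem_sup.mp hg
    obtain ⟨x, hx, rfl⟩ := Submodule.mem_map.mp hu
    obtain ⟨y, hy, rfl⟩ := Submodule.mem_map.mp hv
    exact ⟨x, hx, y, hy, rfl⟩
  · rintro ⟨x, hx, y, hy, rfl⟩
    exact Submodule.add_mem_sup (Submodule.mem_map.mpr ⟨x, hx, rfl⟩)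
      (Submodule.mem_map.mpr ⟨y, hy, rfl⟩)

lemma Ndec_le (w : ℤ) : Ndec Γ w ≤ MF Γ w := by
  intro g hg
  obtain ⟨x, hx, y, hy, rfl⟩ := (mem_Ndec Γ).mp hg
  exact (MF Γ w).add_mem (MF.mul' E4_mem hx (by ring)) (MF.mul' E6_mem hy (by ring))

/-- A complement of the decomposable part in `M_w(Γ)`. -/
noncomputable def Ccomp (w : ℤ) : Submodule ℂ (ℍ → ℂ) :=
  Classical.choose (Submodule.exists_isCompl (Ndec Γ w)) ⊓ MF Γ w

lemma Ccomp_le (w : ℤ) : Ccomp Γ w ≤ MF Γ w := inf_le_right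

lemma Ccomp_disjoint {w : ℤ} {g : ℍ → ℂ} (h1 : g ∈ Ccomp Γ w) (h2 : g ∈ Ndec Γ w) : g = 0 := by
  have hc := Classical.choose_spec (Submodule.exists_isCompl (Ndec Γ w))
  exact (Submodule.disjoint_def.mp hc.disjoint) g h2 h1.1

lemma Ccomp_sup {w : ℤ} {g : ℍ → ℂ} (hg : g ∈ MF Γ w) :
    ∃ c ∈ Ccomp Γ w, ∃ n ∈ Ndec Γ w, g = c + n := by
  have hc := Classical.choose_spec (Submodule.exists_isCompl (Ndec Γ w))
  have htop : g ∈ Ndec Γ w ⊔ Classical.choose (Submodule.exists_isCompl (Ndec Γ w)) := by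
    rw [hc.sup_eq_top]; exact Submodule.mem_top
  obtain ⟨n, hn, c, hc', rfl⟩ := Submodule.mem_sup.mp htop
  refine ⟨c, ⟨hc', ?_⟩, n, hn, add_comm _ _⟩
  have : c = (n + c) - n := by abel
  rw [SetLike.mem_coe, this]
  exact sub_mem hg (Ndec_le Γ w hn)

/-- A basis (as a set of functions) of the complement `Ccomp Γ w`. -/
noncomputable def Bset (w : ℤ) : Set (ℍ → ℂ) :=
  Classical.choose (exists_linearIndependent ℂ (Ccomp Γ w : Set (ℍ → ℂ)))

lemma Bset_sub (w : ℤ) : Bset Γ w ⊆ Ccomp Γ w :=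
  (Classical.choose_spec (exists_linearIndependent ℂ (Ccomp Γ w : Set (ℍ → ℂ)))).1

lemma Bset_span (w : ℤ) : Submodule.span ℂ (Bset Γ w) = Ccomp Γ w :=
  (Classical.choose_spec (exists_linearIndependent ℂ (Ccomp Γ w : Set (ℍ → ℂ)))).2.1.trans
    (Submodule.span_eq _)

lemma Bset_li (w : ℤ) : LinearIndependent ℂ ((↑) : Bset Γ w → (ℍ → ℂ)) :=
  (Classical.choose_spec (exists_linearIndependent ℂ (Ccomp Γ w : Set (ℍ → ℂ)))).2.2

/-- The index type of the basis. -/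
def JJ : Type := {p : ℤ × (ℍ → ℂ) // p.2 ∈ Bset Γ p.1}

/-- The weight of a basis element. -/
def wtJ (j : JJ Γ) : ℤ := j.1.1

/-- The basis element. -/
def FJ (j : JJ Γ) : ℍ → ℂ := j.1.2

lemma FJ_mem (j : JJ Γ) : FJ Γ j ∈ Ccomp Γ (wtJ Γ j) := Bset_sub Γ _ j.2

lemma FJ_mem_MF (j : JJ Γ) : FJ Γ j ∈ MF Γ (wtJ Γ j) := Ccomp_le Γ _ (FJ_mem Γ j)

lemma FJ_ne_zero (j : JJ Γ) : FJ Γ j ≠ 0 :=
  (Bset_li Γ (wtJ Γ j)).ne_zero (⟨FJ Γ j, j.2⟩ : Bset Γ (wtJ Γ j))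

lemma wtJ_nonneg [Γ.FiniteIndex] (j : JJ Γ) : 0 ≤ wtJ Γ j := by
  by_contra h
  push Not at h
  have := FJ_mem_MF Γ j
  rw [MF_eq_bot_of_neg h] at this
  exact FJ_ne_zero Γ j ((Submodule.mem_bot ℂ).mp this)

/-- Linear independence over `ℂ` of the basis elements of a fixed weight. -/
lemma indep_wt (K : ℤ) (s : Finset (JJ Γ)) (c : JJ Γ → ℂ) (hs : ∀ j ∈ s, wtJ Γ j = K)
    (h0 : ∑ j ∈ s, c j • FJ Γ j = 0) : ∀ j ∈ s, c j = 0 := by
  classical
  let φ : {j : JJ Γ // wtJ Γ j = K} → Bset Γ K := fun j =>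
    ⟨FJ Γ j.1, by
      have h := j.1.2
      have e : j.1.1.1 = K := j.2
      rw [e] at h
      exact h⟩
  have hφ : Function.Injective φ := by
    rintro ⟨⟨⟨w, f⟩, hf⟩, hw⟩ ⟨⟨⟨w', f'⟩, hf'⟩, hw'⟩ h
    simp only [wtJ] at hw hw'
    have h1 : f = f' := congrArg Subtype.val h
    subst hw
    subst hw'
    subst h1
    rfl
  have hli : LinearIndependent ℂ (fun j : {j : JJ Γ // wtJ Γ j = K} => FJ Γ j.1) :=
    (Bset_li Γ K).comp φ hφ
  rw [linearIndependent_iff'] at hli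
  have hsum : ∑ j ∈ s.subtype (fun j => wtJ Γ j = K), c j.1 • FJ Γ j.1 = 0 := by
    rw [Finset.sum_subtype_of_mem (fun j => c j • FJ Γ j) hs]
    exact h0
  intro j hj
  exact hli (s.subtype _) (fun j => c j.1) hsum ⟨j, hs j hj⟩ (Finset.mem_subtype.mpr hj)

/-! ### Generation -/

/-- `g` is a combination of basis elements with level one coefficients of the right weights. -/
def Gen (K : ℤ) (g : ℍ → ℂ) : Prop :=
  ∃ (s : Finset (JJ Γ)) (a : JJ Γ → ℍ → ℂ),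
    (∀ j ∈ s, a j ∈ MF ⊤ (K - wtJ Γ j)) ∧ g = ∑ j ∈ s, a j * FJ Γ j

lemma gen_zero (K : ℤ) : Gen Γ K 0 := ⟨∅, fun _ => 0, by simp, by simp⟩

lemma gen_add {K : ℤ} {g₁ g₂ : ℍ → ℂ} (h₁ : Gen Γ K g₁) (h₂ : Gen Γ K g₂) :
    Gen Γ K (g₁ + g₂) := by
  classical
  obtain ⟨s₁, a₁, ha₁, rfl⟩ := h₁
  obtain ⟨s₂, a₂, ha₂, rfl⟩ := h₂
  refine ⟨s₁ ∪ s₂, fun j => (if j ∈ s₁ then a₁ j else 0) + (if j ∈ s₂ then a₂ j else 0), ?_, ?_⟩
  · intro j _
    refine Submodule.add_mem _ ?_ ?_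
    · split_ifs with h
      · exact ha₁ j h
      · exact Submodule.zero_mem _
    · split_ifs with h
      · exact ha₂ j h
      · exact Submodule.zero_mem _
  · simp only [add_mul, Finset.sum_add_distrib]
    congr 1
    · rw [← Finset.sum_subset (Finset.subset_union_left (s₂ := s₂))]
      · exact Finset.sum_congr rfl fun j hj => by simp [hj]
      · intro j _ hj; simp [hj]
    · rw [← Finset.sum_subset (Finset.subset_union_right (s₁ := s₁))]
      · exact Finset.sum_congr rfl fun j hj => by simp [hj]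
      · intro j _ hj; simp [hj]

lemma gen_smul {K : ℤ} {g : ℍ → ℂ} (c : ℂ) (h : Gen Γ K g) : Gen Γ K (c • g) := by
  obtain ⟨s, a, ha, rfl⟩ := h
  refine ⟨s, fun j => c • a j, fun j hj => Submodule.smul_mem _ _ (ha j hj), ?_⟩
  rw [Finset.smul_sum]
  exact Finset.sum_congr rfl fun j _ => (smul_mul_assoc _ _ _).symm

lemma gen_mul {l K K' : ℤ} {b g : ℍ → ℂ} (hb : b ∈ MF ⊤ l) (h : Gen Γ K g) (hK : K' = l + K) :
    Gen Γ K' (b * g) := by
  obtain ⟨s, a, ha, rfl⟩ := h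
  refine ⟨s, fun j => b * a j, fun j hj => MF.mul' hb (ha j hj) (by rw [hK]; ring), ?_⟩
  rw [Finset.mul_sum]
  exact Finset.sum_congr rfl fun j _ => (mul_assoc _ _ _).symm

lemma gen_basis {K : ℤ} {f : ℍ → ℂ} (hf : f ∈ Bset Γ K) : Gen Γ K f := by
  set j₀ : JJ Γ := ⟨(K, f), hf⟩ with hj₀
  have h1 : (1 : ℍ → ℂ) ∈ MF ⊤ 0 := const_mem_MF 1
  refine ⟨{j₀}, fun _ => 1, fun j hj => ?_, ?_⟩
  · have hj' : j = j₀ := Finset.mem_singleton.mp hj
    rw [hj']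
    have : K - wtJ Γ j₀ = 0 := sub_self K
    rw [this]
    exact h1
  · rw [Finset.sum_singleton, one_mul]
    rfl

lemma gen_Ccomp {K : ℤ} {g : ℍ → ℂ} (hg : g ∈ Ccomp Γ K) : Gen Γ K g := by
  rw [← Bset_span] at hg
  induction hg using Submodule.span_induction with
  | mem x hx => exact gen_basis Γ hx
  | zero => exact gen_zero Γ K
  | add x y _ _ hx hy => exact gen_add Γ hx hy
  | smul c x _ hx => exact gen_smul Γ c hx

lemma gen_all_aux [Γ.FiniteIndex] : ∀ (n : ℕ) (K : ℤ), K < n → ∀ g ∈ MF Γ K, Gen Γ K g := by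
  intro n
  induction n with
  | zero =>
    intro K hK g hg
    have hK' : K < 0 := by simpa using hK
    rw [MF_eq_bot_of_neg hK'] at hg
    rw [(Submodule.mem_bot ℂ).mp hg]
    exact gen_zero Γ K
  | succ n ih =>
    intro K hK g hg
    obtain ⟨c, hc, d, hd, rfl⟩ := Ccomp_sup Γ hg
    obtain ⟨x, hx, y, hy, rfl⟩ := (mem_Ndec Γ).mp hd
    have hK' : K < (n : ℤ) + 1 := by exact_mod_cast hK
    refine gen_add Γ (gen_Ccomp Γ hc) (gen_add Γ ?_ ?_)
    · exact gen_mul Γ E4_mem (ih (K - 4) (by omega) x hx) (by ring)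
    · exact gen_mul Γ E6_mem (ih (K - 6) (by omega) y hy) (by ring)

lemma gen_all [Γ.FiniteIndex] (K : ℤ) (g : ℍ → ℂ) (hg : g ∈ MF Γ K) : Gen Γ K g :=
  gen_all_aux Γ (K.toNat + 1) K (by have := Int.self_le_toNat K; push_cast; omega) g hg

/-! ### Independence -/

lemma pow_E6_mem (m : ℕ) : ((⇑E₆ : ℍ → ℂ) ^ m) ∈ MF ⊤ (6 * (m : ℤ)) := by
  have := MF.pow E6_mem m
  rwa [mul_comm] at this

/-- Key lemma: a relation `∑ c_j E₆^{m_j} F_j ∈ E₄ M_{K-4}` forces all `c_j = 0`. -/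
lemma lemmaA [Γ.FiniteIndex] : ∀ (n : ℕ) (K : ℤ), K < n →
    ∀ (s : Finset (JJ Γ)) (c : JJ Γ → ℂ) (m : JJ Γ → ℕ),
    (∀ j ∈ s, wtJ Γ j + 6 * (m j : ℤ) = K) →
    (∃ x ∈ MF Γ (K - 4), ∑ j ∈ s, c j • ((⇑E₆ : ℍ → ℂ) ^ (m j) * FJ Γ j) = ⇑E₄ * x) →
    ∀ j ∈ s, c j = 0 := by
  intro n
  induction n with
  | zero =>
    intro K hK s c m hs _ j hj
    exfalso
    have h1 := hs j hj
    have h2 := wtJ_nonneg Γ j
    have hK' : K < 0 := by simpa using hK
    omega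
  | succ n ih =>
    intro K hK s c m hs hx
    obtain ⟨x, hx, hsum⟩ := hx
    classical
    have hK' : K < (n : ℤ) + 1 := by exact_mod_cast hK
    -- split the sum
    have hsplit : ∑ j ∈ s.filter (fun j => m j = 0), c j • FJ Γ j +
        ⇑E₆ * ∑ j ∈ s.filter (fun j => ¬ m j = 0),
          c j • ((⇑E₆ : ℍ → ℂ) ^ (m j - 1) * FJ Γ j) = ⇑E₄ * x := by
      rw [← hsum, ← Finset.sum_filter_add_sum_filter_not s (fun j => m j = 0)]
      congr 1
      · refine Finset.sum_congr rfl fun j hj => ?_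
        have : m j = 0 := (Finset.mem_filter.mp hj).2
        rw [this, pow_zero, one_mul]
      · rw [Finset.mul_sum]
        refine Finset.sum_congr rfl fun j hj => ?_
        have : m j ≠ 0 := (Finset.mem_filter.mp hj).2
        obtain ⟨t, ht⟩ := Nat.exists_eq_succ_of_ne_zero this
        rw [ht, Nat.succ_sub_one, pow_succ', mul_smul_comm, mul_assoc]
    set G₀ : ℍ → ℂ := ∑ j ∈ s.filter (fun j => m j = 0), c j • FJ Γ j with hG₀
    set H : ℍ → ℂ := ∑ j ∈ s.filter (fun j => ¬ m j = 0),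
          c j • ((⇑E₆ : ℍ → ℂ) ^ (m j - 1) * FJ Γ j) with hH
    have hHmem : H ∈ MF Γ (K - 6) := by
      refine Submodule.sum_mem _ fun j hj => Submodule.smul_mem _ _ ?_
      have hj' := Finset.mem_filter.mp hj
      have h1 := hs j hj'.1
      have h2 : 1 ≤ m j := Nat.one_le_iff_ne_zero.mpr hj'.2
      refine MF.mul' (pow_E6_mem (m j - 1)) (FJ_mem_MF Γ j) ?_
      push_cast [Nat.cast_sub h2]
      omega
    have hG₀C : G₀ ∈ Ccomp Γ K := by
      refine Submodule.sum_mem _ fun j hj => Submodule.smul_mem _ _ ?_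
      have hj' := Finset.mem_filter.mp hj
      have h1 := hs j hj'.1
      have h2 : wtJ Γ j = K := by rw [hj'.2] at h1; simpa using h1
      rw [← h2]
      exact FJ_mem Γ j
    have hG₀N : G₀ ∈ Ndec Γ K := by
      rw [mem_Ndec]
      refine ⟨x, hx, -H, Submodule.neg_mem _ hHmem, ?_⟩
      rw [mul_neg, ← hsplit]
      abel
    have hG₀0 : G₀ = 0 := Ccomp_disjoint Γ hG₀C hG₀N
    have hc0 : ∀ j ∈ s.filter (fun j => m j = 0), c j = 0 := by
      refine indep_wt Γ K _ c (fun j hj => ?_) hG₀0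
      have hj' := Finset.mem_filter.mp hj
      have h1 := hs j hj'.1
      rw [hj'.2] at h1; simpa using h1
    have hEH : ⇑E₆ * H = ⇑E₄ * x := by
      rw [← hsplit, hG₀0, zero_add]
    have hx' : x ∈ MF Γ ((K - 6) + 2) := by
      have : K - 6 + 2 = K - 4 := by ring
      rw [this]; exact hx
    obtain ⟨x', hx'mem, hHx'⟩ := E1_koszul hHmem hx' hEH
    have hc1 : ∀ j ∈ s.filter (fun j => ¬ m j = 0), c j = 0 := by
      refine ih (K - 6) (by omega) _ c (fun j => m j - 1) (fun j hj => ?_) ⟨x', hx'mem, hHx'⟩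
      have hj' := Finset.mem_filter.mp hj
      have h1 := hs j hj'.1
      have h2 : 1 ≤ m j := Nat.one_le_iff_ne_zero.mpr hj'.2
      push_cast [Nat.cast_sub h2]
      omega
    intro j hj
    by_cases hm : m j = 0
    · exact hc0 j (Finset.mem_filter.mpr ⟨hj, hm⟩)
    · exact hc1 j (Finset.mem_filter.mpr ⟨hj, hm⟩)

lemma indep_all_aux [Γ.FiniteIndex] (hL1 : L1Stmt) : ∀ (n : ℕ) (K : ℤ), K < n →
    ∀ (s : Finset (JJ Γ)) (a : JJ Γ → ℍ → ℂ), (∀ j ∈ s, a j ∈ MF ⊤ (K - wtJ Γ j)) →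
    ∑ j ∈ s, a j * FJ Γ j = 0 → ∀ j ∈ s, a j = 0 := by
  intro n
  induction n with
  | zero =>
    intro K hK s a ha _ j hj
    have hK' : K < 0 := by simpa using hK
    have h2 := wtJ_nonneg Γ j
    have h3 := ha j hj
    rw [MF_eq_bot_of_neg (by omega)] at h3
    exact (Submodule.mem_bot ℂ).mp h3
  | succ n ih =>
    intro K hK s a ha hsum
    classical
    have hK' : K < (n : ℤ) + 1 := by exact_mod_cast hK
    have hdec : ∀ j : JJ Γ, ∃ a' : ℍ → ℂ, ∃ c : ℂ, j ∈ s →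
        (a' ∈ MF ⊤ (K - wtJ Γ j - 4) ∧
        a j = ⇑E₄ * a' + c • (if 0 ≤ K - wtJ Γ j ∧ (6 : ℤ) ∣ K - wtJ Γ j then
          (⇑E₆ : ℍ → ℂ) ^ ((K - wtJ Γ j) / 6).toNat else 0)) := by
      intro j
      by_cases hj : j ∈ s
      · obtain ⟨a', ha', c, hc⟩ := hL1 (ha j hj)
        exact ⟨a', c, fun _ => ⟨ha', hc⟩⟩
      · exact ⟨0, 0, fun h => absurd h hj⟩
    choose a' c hac using hdec
    set cond : JJ Γ → Prop := fun j => 0 ≤ K - wtJ Γ j ∧ (6 : ℤ) ∣ K - wtJ Γ j with hcond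
    set m : JJ Γ → ℕ := fun j => ((K - wtJ Γ j) / 6).toNat with hm
    have ha'mem : ∀ j ∈ s, a' j * FJ Γ j ∈ MF Γ (K - 4) := fun j hj =>
      MF.mul' (hac j hj).1 (FJ_mem_MF Γ j) (by ring)
    have hXmem : ∑ j ∈ s, a' j * FJ Γ j ∈ MF Γ (K - 4) := Submodule.sum_mem _ ha'mem
    have hrel : ∑ j ∈ s.filter cond, c j • ((⇑E₆ : ℍ → ℂ) ^ (m j) * FJ Γ j) =
        ⇑E₄ * (-∑ j ∈ s, a' j * FJ Γ j) := by
      have h1 : ∑ j ∈ s, a j * FJ Γ j = ⇑E₄ * ∑ j ∈ s, a' j * FJ Γ j +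
          ∑ j ∈ s, (c j • (if cond j then (⇑E₆ : ℍ → ℂ) ^ (m j) else 0)) * FJ Γ j := by
        rw [Finset.mul_sum, ← Finset.sum_add_distrib]
        refine Finset.sum_congr rfl fun j hj => ?_
        rw [(hac j hj).2, add_mul, mul_assoc]
      have h2 : ∑ j ∈ s, (c j • (if cond j then (⇑E₆ : ℍ → ℂ) ^ (m j) else 0)) * FJ Γ j =
          ∑ j ∈ s.filter cond, c j • ((⇑E₆ : ℍ → ℂ) ^ (m j) * FJ Γ j) := by
        rw [Finset.sum_filter]
        refine Finset.sum_congr rfl fun j _ => ?_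
        by_cases hcj : cond j
        · have hcj' : 0 ≤ K - wtJ Γ j ∧ (6 : ℤ) ∣ K - wtJ Γ j := hcj
          simp only [hcj, if_true, smul_mul_assoc]
          rw [if_pos hcj']
        · have hcj' : ¬ (0 ≤ K - wtJ Γ j ∧ (6 : ℤ) ∣ K - wtJ Γ j) := hcj
          simp only [hcj, if_false, smul_zero, zero_mul]
          rw [if_neg hcj']
      rw [hsum, h2] at h1
      rw [mul_neg]
      exact eq_neg_of_add_eq_zero_right h1.symm
    have hc0 : ∀ j ∈ s.filter cond, c j = 0 := by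
      refine lemmaA Γ (n + 1) K hK _ c m (fun j hj => ?_)
        ⟨_, Submodule.neg_mem _ hXmem, hrel⟩
      have hj' := (Finset.mem_filter.mp hj).2
      obtain ⟨h0, h6⟩ := hj'
      simp only [hm]
      rw [Int.toNat_of_nonneg (Int.ediv_nonneg h0 (by norm_num)), Int.mul_ediv_cancel' h6]
      ring
    have haj : ∀ j ∈ s, a j = ⇑E₄ * a' j := by
      intro j hj
      rw [(hac j hj).2]
      by_cases hcj : cond j
      · rw [hc0 j (Finset.mem_filter.mpr ⟨hj, hcj⟩), zero_smul, add_zero]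
      · have : ¬ (0 ≤ K - wtJ Γ j ∧ (6 : ℤ) ∣ K - wtJ Γ j) := hcj
        rw [if_neg this, smul_zero, add_zero]
    have hX0 : ∑ j ∈ s, a' j * FJ Γ j = 0 := by
      apply eq_zero_of_E4_mul hXmem.1
      rw [← hsum, Finset.mul_sum]
      refine Finset.sum_congr rfl fun j hj => ?_
      rw [haj j hj, mul_assoc]
    have ha'0 : ∀ j ∈ s, a' j = 0 := by
      refine ih (K - 4) (by omega) s a' (fun j hj => ?_) hX0
      have := (hac j hj).1
      have e : K - 4 - wtJ Γ j = K - wtJ Γ j - 4 := by ring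
      rw [e]; exact this
    intro j hj
    rw [haj j hj, ha'0 j hj, mul_zero]

lemma indep_all [Γ.FiniteIndex] (hL1 : L1Stmt) (K : ℤ) (s : Finset (JJ Γ)) (a : JJ Γ → ℍ → ℂ)
    (ha : ∀ j ∈ s, a j ∈ MF ⊤ (K - wtJ Γ j)) (hsum : ∑ j ∈ s, a j * FJ Γ j = 0) :
    ∀ j ∈ s, a j = 0 :=
  indep_all_aux Γ hL1 (K.toNat + 1) K (by have := Int.self_le_toNat K; push_cast; omega) s a ha hsum

/-- **E2** (relative to package L1): a homogeneous free basis of `M_*(Γ)` over `M_*(SL(2, ℤ))`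
exists. -/
theorem E2_exists_RBasis_of_L1 (Γ : Subgroup SL(2, ℤ)) [Γ.FiniteIndex] (hL1 : L1Stmt) :
    Nonempty (RBasis Γ) :=
  ⟨{ J := JJ Γ
     wt := wtJ Γ
     F := FJ Γ
     mem := FJ_mem_MF Γ
     gen := gen_all Γ
     indep := indep_all Γ hL1 }⟩

end Fermat.Agent.S20.H25
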