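import Mathlib
import Fermat.Prelude.Def_ModularCurve_GenusNumerics

set_option autoImplicit false

open scoped MatrixGroups
open CongruenceSubgroup ModularGroup

namespace Fermat.Agent.S20.H2

/-- Counting a quotient through a complete invariant. -/
theorem card_eq_card_range {G Q S : Type*} (π : G → Q) (hπ : Function.Surjective π) (Φ : G → S)
    (h : ∀ g₁ g₂, π g₁ = π g₂ ↔ Φ g₁ = Φ g₂) : Nat.card Q = Nat.card (Set.range Φ) := by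
  let f : Q → Set.range Φ := fun q => ⟨Φ (Function.surjInv hπ q), _, rfl⟩
  apply Nat.card_congr (Equiv.ofBijective f ⟨?_, ?_⟩)
  · intro q₁ q₂ hq
    have := (h _ _).2 (congrArg Subtype.val hq)
    rw [Function.surjInv_eq hπ q₁, Function.surjInv_eq hπ q₂] at this
    exact this
  · rintro ⟨_, g, rfl⟩
    refine ⟨π g, Subtype.ext ?_⟩
    exact (h _ _).1 (Function.surjInv_eq hπ (π g))

/-- The lower-left entry of `(T^k g₂)⁻¹ g₁`. -/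
theorem entry_formula (g₁ g₂ : SL(2, ℤ)) (k : ℤ) :
    ((T ^ k * g₂)⁻¹ * g₁ : SL(2, ℤ)) 1 0 =
      g₂ 0 0 * g₁ 1 0 - g₁ 0 0 * g₂ 1 0 + k * (g₁ 1 0 * g₂ 1 0) := by
  rw [Matrix.SpecialLinearGroup.coe_mul, Matrix.SpecialLinearGroup.coe_inv,
    Matrix.SpecialLinearGroup.coe_mul, coe_T_zpow, Matrix.adjugate_fin_two]
  simp [Matrix.mul_apply, Fin.sum_univ_two]
  ring

/-- `T`-orbit equivalence of cosets of `Γ₀(N)` in terms of the first columns. -/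
theorem orbit_mk_eq_iff (N : ℕ) (g₁ g₂ : SL(2, ℤ)) :
    (Quotient.mk'' (g₁ : SL(2, ℤ) ⧸ Gamma0 N) :
        MulAction.orbitRel.Quotient (Subgroup.zpowers T) (SL(2, ℤ) ⧸ Gamma0 N))
      = Quotient.mk'' (g₂ : SL(2, ℤ) ⧸ Gamma0 N) ↔
    ∃ k : ℤ, (N : ℤ) ∣ g₂ 0 0 * g₁ 1 0 - g₁ 0 0 * g₂ 1 0 + k * (g₁ 1 0 * g₂ 1 0) := by
  rw [Quotient.eq'', MulAction.orbitRel_apply, MulAction.mem_orbit_iff]
  constructor
  · rintro ⟨⟨t, ht⟩, h⟩
    obtain ⟨k, rfl⟩ := Subgroup.mem_zpowers_iff.1 ht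
    have h' : ((T ^ k * g₂ : SL(2, ℤ)) : SL(2, ℤ) ⧸ Gamma0 N) = g₁ := h
    rw [QuotientGroup.eq, Gamma0_mem, entry_formula,
      ZMod.intCast_zmod_eq_zero_iff_dvd] at h'
    exact ⟨k, h'⟩
  · rintro ⟨k, hk⟩
    refine ⟨⟨T ^ k, Subgroup.mem_zpowers_iff.2 ⟨k, rfl⟩⟩, ?_⟩
    change ((T ^ k * g₂ : SL(2, ℤ)) : SL(2, ℤ) ⧸ Gamma0 N) = g₁
    rw [QuotientGroup.eq, Gamma0_mem, entry_formula, ZMod.intCast_zmod_eq_zero_iff_dvd]
    exact hk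

/-- Solvability of a linear congruence. -/
theorem exists_dvd_add_mul_iff (N : ℕ) (x m : ℤ) :
    (∃ k : ℤ, (N : ℤ) ∣ x + k * m) ↔ (Int.gcd m N : ℤ) ∣ x := by
  constructor
  · rintro ⟨k, hk⟩
    have h1 : (Int.gcd m N : ℤ) ∣ (N : ℤ) := Int.gcd_dvd_right m N
    have h2 : (Int.gcd m N : ℤ) ∣ m := Int.gcd_dvd_left m N
    have h3 : (Int.gcd m N : ℤ) ∣ x + k * m := h1.trans hk
    have h4 : (Int.gcd m N : ℤ) ∣ k * m := Dvd.dvd.mul_left h2 k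
    have := dvd_sub h3 h4
    simpa using this
  · rintro ⟨q, hq⟩
    refine ⟨-(Int.gcdA m N * q), ⟨Int.gcdB m N * q, ?_⟩⟩
    have hb := Int.gcd_eq_gcd_ab m N
    rw [hq, hb]
    ring


/-! ### The cusp invariant -/

/-- `e(d) = gcd(d, N/d)`. -/
def eOf (N d : ℕ) : ℕ := Nat.gcd d (N / d)

/-- The residue invariant `a * (c/d)⁻¹ mod e(d)`. -/
noncomputable def rOf (N d : ℕ) (a c : ℤ) : ℕ :=
  ((a : ZMod (eOf N d)) * ((c / (d : ℤ) : ℤ) : ZMod (eOf N d))⁻¹).val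

/-- The complete invariant of the `T`-orbit of the coset with first column `(a, c)`. -/
noncomputable def cuspInv (N : ℕ) (a c : ℤ) : Σ _ : ℕ, ℕ :=
  ⟨Int.gcd c N, rOf N (Int.gcd c N) a c⟩

theorem eOf_pos {N d : ℕ} (hN : N ≠ 0) (hd : d ∣ N) : 0 < eOf N d := by
  have hdpos : 0 < d := Nat.pos_of_dvd_of_pos hd (Nat.pos_of_ne_zero hN)
  exact Nat.gcd_pos_of_pos_left _ hdpos

theorem eOf_dvd_left (N d : ℕ) : eOf N d ∣ d := Nat.gcd_dvd_left _ _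

theorem eOf_dvd_right (N d : ℕ) : eOf N d ∣ N / d := Nat.gcd_dvd_right _ _

theorem gcd_dvd_N (N : ℕ) (c : ℤ) : Int.gcd c N ∣ N := by
  have := Int.gcd_dvd_right c (N : ℤ)
  exact_mod_cast this

/-- `c / d` is a unit modulo `e(d)` when `d = gcd(c, N)`. -/
theorem isUnit_quot {N d : ℕ} (hN : N ≠ 0) {c : ℤ} (hc : Int.gcd c N = d) :
    IsUnit (((c / (d : ℤ) : ℤ)) : ZMod (eOf N d)) := by
  rw [ZMod.coe_int_isUnit_iff_isCoprime]
  have hdpos : 0 < Int.gcd c N := Int.gcd_pos_of_ne_zero_right _ (by exact_mod_cast hN)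
  have h1 : Int.gcd (c / (d : ℤ)) ((N : ℤ) / (d : ℤ)) = 1 := by
    have := Int.gcd_div_gcd_div_gcd hdpos
    rwa [hc] at this
  have h2 : IsCoprime (c / (d : ℤ)) ((N : ℤ) / (d : ℤ)) := Int.isCoprime_iff_gcd_eq_one.2 h1
  have h3 : ((eOf N d : ℕ) : ℤ) ∣ (N : ℤ) / (d : ℤ) := by
    rw [← Int.natCast_div]; exact_mod_cast eOf_dvd_right N d
  exact (h2.of_isCoprime_of_dvd_right h3).symm

theorem rOf_eq_iff {N d : ℕ} (hN : N ≠ 0) {a₁ c₁ a₂ c₂ : ℤ}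
    (h₁ : Int.gcd c₁ N = d) (h₂ : Int.gcd c₂ N = d) :
    rOf N d a₁ c₁ = rOf N d a₂ c₂ ↔
      ((eOf N d : ℕ) : ℤ) ∣ a₂ * (c₁ / (d : ℤ)) - a₁ * (c₂ / (d : ℤ)) := by
  have hd : d ∣ N := by rw [← h₁]; exact gcd_dvd_N N c₁
  have : NeZero (eOf N d) := ⟨(eOf_pos hN hd).ne'⟩
  obtain ⟨u₁, hu₁⟩ := isUnit_quot hN h₁
  obtain ⟨u₂, hu₂⟩ := isUnit_quot hN h₂
  unfold rOf
  rw [(ZMod.val_injective _).eq_iff, ← ZMod.intCast_eq_intCast_iff_dvd_sub]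
  push_cast
  rw [← hu₁, ← hu₂, ZMod.inv_coe_unit, ZMod.inv_coe_unit]
  constructor
  · intro h
    have h' := congrArg (fun z => z * ((u₁ : ZMod (eOf N d)) * (u₂ : ZMod (eOf N d)))) h
    beta_reduce at h'
    have e1 : (a₁ : ZMod (eOf N d)) * ((u₁⁻¹ : (ZMod (eOf N d))ˣ) : ZMod (eOf N d)) *
        ((u₁ : ZMod (eOf N d)) * (u₂ : ZMod (eOf N d))) = a₁ * u₂ := by
      rw [mul_assoc, ← mul_assoc (((u₁⁻¹ : (ZMod (eOf N d))ˣ) : ZMod (eOf N d))),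
        Units.inv_mul, one_mul]
    have e2 : (a₂ : ZMod (eOf N d)) * ((u₂⁻¹ : (ZMod (eOf N d))ˣ) : ZMod (eOf N d)) *
        ((u₁ : ZMod (eOf N d)) * (u₂ : ZMod (eOf N d))) = a₂ * u₁ := by
      rw [mul_comm (u₁ : ZMod (eOf N d)) (u₂ : ZMod (eOf N d)), mul_assoc,
        ← mul_assoc (((u₂⁻¹ : (ZMod (eOf N d))ˣ) : ZMod (eOf N d))), Units.inv_mul, one_mul]
    rw [e1, e2] at h'
    exact h'
  · intro h
    have h' := congrArg (fun z => z * (((u₁⁻¹ : (ZMod (eOf N d))ˣ) : ZMod (eOf N d)) *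
      ((u₂⁻¹ : (ZMod (eOf N d))ˣ) : ZMod (eOf N d)))) h
    beta_reduce at h'
    have e1 : (a₁ : ZMod (eOf N d)) * (u₂ : ZMod (eOf N d)) *
        (((u₁⁻¹ : (ZMod (eOf N d))ˣ) : ZMod (eOf N d)) *
          ((u₂⁻¹ : (ZMod (eOf N d))ˣ) : ZMod (eOf N d))) = a₁ * ((u₁⁻¹ : (ZMod (eOf N d))ˣ) :
            ZMod (eOf N d)) := by
      rw [mul_comm ((u₁⁻¹ : (ZMod (eOf N d))ˣ) : ZMod (eOf N d)), mul_assoc,
        ← mul_assoc (u₂ : ZMod (eOf N d)), Units.mul_inv, one_mul]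
    have e2 : (a₂ : ZMod (eOf N d)) * (u₁ : ZMod (eOf N d)) *
        (((u₁⁻¹ : (ZMod (eOf N d))ˣ) : ZMod (eOf N d)) *
          ((u₂⁻¹ : (ZMod (eOf N d))ˣ) : ZMod (eOf N d))) = a₂ * ((u₂⁻¹ : (ZMod (eOf N d))ˣ) :
            ZMod (eOf N d)) := by
      rw [mul_assoc, ← mul_assoc (u₁ : ZMod (eOf N d)), Units.mul_inv, one_mul]
    rw [e1, e2] at h'
    exact h'


theorem gcd_mul_eq {N d : ℕ} (hN : N ≠ 0) {c₁ c₂ : ℤ}
    (h₁ : Int.gcd c₁ N = d) (h₂ : Int.gcd c₂ N = d) :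
    Int.gcd (c₁ * c₂) N = d * eOf N d := by
  have hd : d ∣ N := by rw [← h₁]; exact gcd_dvd_N N c₁
  have hdpos : 0 < d := Nat.pos_of_dvd_of_pos hd (Nat.pos_of_ne_zero hN)
  rw [Int.gcd_eq_natAbs, Int.natAbs_natCast] at h₁ h₂ ⊢
  rw [Int.natAbs_mul]
  set C₁ := c₁.natAbs
  set C₂ := c₂.natAbs
  have hC₁ : d ∣ C₁ := by rw [← h₁]; exact Nat.gcd_dvd_left _ _
  have hC₂ : d ∣ C₂ := by rw [← h₂]; exact Nat.gcd_dvd_left _ _
  obtain ⟨C₁', hC₁'⟩ := hC₁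
  obtain ⟨C₂', hC₂'⟩ := hC₂
  obtain ⟨n, hn⟩ := hd
  have hcop₁ : Nat.Coprime C₁' n := by
    have := Nat.coprime_div_gcd_div_gcd (m := C₁) (n := N) (by rw [h₁]; exact hdpos)
    rw [h₁, hC₁', hn, Nat.mul_div_cancel_left _ hdpos, Nat.mul_div_cancel_left _ hdpos] at this
    exact this
  have hcop₂ : Nat.Coprime C₂' n := by
    have := Nat.coprime_div_gcd_div_gcd (m := C₂) (n := N) (by rw [h₂]; exact hdpos)
    rw [h₂, hC₂', hn, Nat.mul_div_cancel_left _ hdpos, Nat.mul_div_cancel_left _ hdpos] at this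
    exact this
  have hcop : Nat.Coprime (C₁' * C₂') n := Nat.Coprime.mul_left hcop₁ hcop₂
  have he : eOf N d = Nat.gcd d n := by
    unfold eOf; rw [hn, Nat.mul_div_cancel_left _ hdpos]
  rw [he, hC₁', hC₂', hn]
  have : d * C₁' * (d * C₂') = d * (d * (C₁' * C₂')) := by ring
  rw [this, Nat.gcd_mul_left, Nat.Coprime.gcd_mul_right_cancel d hcop]

/-- If the criterion holds then `gcd(c₁, N) ∣ gcd(c₂, N)`. -/
theorem gcd_dvd_gcd_of_criterion {N : ℕ} {a₁ c₁ a₂ c₂ : ℤ} (hc₁ : IsCoprime a₁ c₁)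
    (h : (Int.gcd (c₁ * c₂) N : ℤ) ∣ a₂ * c₁ - a₁ * c₂) :
    Int.gcd c₁ N ∣ Int.gcd c₂ N := by
  have hd1 : (Int.gcd c₁ N : ℤ) ∣ c₁ := Int.gcd_dvd_left _ _
  have hdN : (Int.gcd c₁ N : ℤ) ∣ (N : ℤ) := Int.gcd_dvd_right _ _
  have hG : (Int.gcd c₁ N : ℤ) ∣ (Int.gcd (c₁ * c₂) N : ℤ) :=
    Int.dvd_coe_gcd (hd1.mul_right c₂) hdN
  have hx : (Int.gcd c₁ N : ℤ) ∣ a₂ * c₁ - a₁ * c₂ := hG.trans h
  have h2 : (Int.gcd c₁ N : ℤ) ∣ a₂ * c₁ := hd1.mul_left a₂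
  have h3 : (Int.gcd c₁ N : ℤ) ∣ a₁ * c₂ := by
    have := dvd_sub h2 hx
    simpa using this
  have hcop : IsCoprime (Int.gcd c₁ N : ℤ) a₁ :=
    (hc₁.symm.of_isCoprime_of_dvd_left hd1)
  have h4 : (Int.gcd c₁ N : ℤ) ∣ c₂ := hcop.dvd_of_dvd_mul_left h3
  have h5 : (Int.gcd c₁ N : ℤ) ∣ (Int.gcd c₂ N : ℤ) := Int.dvd_coe_gcd h4 hdN
  exact_mod_cast h5

theorem cuspInv_eq_iff {N : ℕ} (hN : N ≠ 0) {a₁ c₁ a₂ c₂ : ℤ}
    (hc₁ : IsCoprime a₁ c₁) (hc₂ : IsCoprime a₂ c₂) :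
    cuspInv N a₁ c₁ = cuspInv N a₂ c₂ ↔
      (Int.gcd (c₁ * c₂) N : ℤ) ∣ a₂ * c₁ - a₁ * c₂ := by
  have key : ∀ d : ℕ, Int.gcd c₁ N = d → Int.gcd c₂ N = d →
      (rOf N d a₁ c₁ = rOf N d a₂ c₂ ↔
        (Int.gcd (c₁ * c₂) N : ℤ) ∣ a₂ * c₁ - a₁ * c₂) := by
    intro d h₁ h₂
    have hd : d ∣ N := by rw [← h₁]; exact gcd_dvd_N N c₁
    have hdpos : 0 < d := Nat.pos_of_dvd_of_pos hd (Nat.pos_of_ne_zero hN)
    have hd0 : (d : ℤ) ≠ 0 := by exact_mod_cast hdpos.ne'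
    rw [rOf_eq_iff hN h₁ h₂, gcd_mul_eq hN h₁ h₂]
    have hdc₁ : (d : ℤ) ∣ c₁ := by rw [← h₁]; exact Int.gcd_dvd_left _ _
    have hdc₂ : (d : ℤ) ∣ c₂ := by rw [← h₂]; exact Int.gcd_dvd_left _ _
    have hx : a₂ * c₁ - a₁ * c₂ = (d : ℤ) * (a₂ * (c₁ / (d : ℤ)) - a₁ * (c₂ / (d : ℤ))) := by
      conv_lhs => rw [← Int.mul_ediv_cancel' hdc₁, ← Int.mul_ediv_cancel' hdc₂]
      ring
    rw [hx]
    push_cast
    rw [mul_dvd_mul_iff_left hd0]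
  constructor
  · intro h
    have hfst : Int.gcd c₁ N = Int.gcd c₂ N := congrArg Sigma.fst h
    have hsnd : rOf N (Int.gcd c₁ N) a₁ c₁ = rOf N (Int.gcd c₂ N) a₂ c₂ := by
      have := (Sigma.ext_iff.1 h).2
      exact eq_of_heq this
    rw [hfst] at hsnd
    exact (key _ hfst rfl).1 hsnd
  · intro h
    have h' : (Int.gcd (c₂ * c₁) N : ℤ) ∣ a₁ * c₂ - a₂ * c₁ := by
      rw [mul_comm c₂ c₁]
      have := (dvd_neg).2 h
      simpa using this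
    have hfst : Int.gcd c₁ N = Int.gcd c₂ N :=
      Nat.dvd_antisymm (gcd_dvd_gcd_of_criterion hc₁ h) (gcd_dvd_gcd_of_criterion hc₂ h')
    have hsnd := (key _ hfst rfl).2 h
    unfold cuspInv
    rw [hfst]
    rw [hsnd]


/-! ### The range of the invariant -/

/-- The set of all values of the cusp invariant. -/
def cuspTarget (N : ℕ) : Finset (Σ _ : ℕ, ℕ) :=
  N.divisors.sigma (fun d => (Finset.range (eOf N d)).filter (fun r => (eOf N d).Coprime r))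

theorem card_cuspTarget (N : ℕ) : (cuspTarget N).card = ModularCurve.cuspCount N := by
  unfold cuspTarget ModularCurve.cuspCount
  rw [Finset.card_sigma]
  apply Finset.sum_congr rfl
  intro d _
  rw [Nat.totient_eq_card_coprime]
  rfl

theorem isCoprime_col (g : SL(2, ℤ)) : IsCoprime (g 0 0) (g 1 0) := by
  refine ⟨g 1 1, -(g 0 1), ?_⟩
  have h := g.det_coe
  rw [Matrix.det_fin_two] at h
  linarith

theorem cuspInv_mem {N : ℕ} (hN : N ≠ 0) {a c : ℤ} (hac : IsCoprime a c) :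
    cuspInv N a c ∈ cuspTarget N := by
  unfold cuspInv cuspTarget
  rw [Finset.mem_sigma]
  have hd : Int.gcd c N ∣ N := gcd_dvd_N N c
  have : NeZero (eOf N (Int.gcd c N)) := ⟨(eOf_pos hN hd).ne'⟩
  refine ⟨Nat.mem_divisors.2 ⟨hd, hN⟩, ?_⟩
  rw [Finset.mem_filter, Finset.mem_range]
  refine ⟨ZMod.val_lt _, ?_⟩
  -- the residue is a unit
  have hu₁ : IsUnit ((a : ℤ) : ZMod (eOf N (Int.gcd c N))) := by
    rw [ZMod.coe_int_isUnit_iff_isCoprime]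
    have h1 : ((eOf N (Int.gcd c N) : ℕ) : ℤ) ∣ c :=
      (Int.natCast_dvd_natCast.2 (eOf_dvd_left N _)).trans (Int.gcd_dvd_left _ _)
    exact (hac.of_isCoprime_of_dvd_right h1).symm
  have hu₂ : IsUnit ((((c / ((Int.gcd c N : ℕ) : ℤ) : ℤ)) : ZMod (eOf N (Int.gcd c N)))) :=
    isUnit_quot hN rfl
  obtain ⟨u₁, hu₁⟩ := hu₁
  obtain ⟨u₂, hu₂⟩ := hu₂
  unfold rOf
  rw [← hu₁, ← hu₂, ZMod.inv_coe_unit, ← Units.val_mul]
  exact (ZMod.val_coe_unit_coprime _).symm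

theorem exists_cuspInv_eq {N : ℕ} (hN : N ≠ 0) {x : Σ _ : ℕ, ℕ} (hx : x ∈ cuspTarget N) :
    ∃ g : SL(2, ℤ), cuspInv N (g 0 0) (g 1 0) = x := by
  obtain ⟨d, r⟩ := x
  unfold cuspTarget at hx
  rw [Finset.mem_sigma, Finset.mem_filter, Finset.mem_range] at hx
  obtain ⟨hd, hr, hcop⟩ := hx
  simp only at hd hr hcop
  have hdN : d ∣ N := (Nat.mem_divisors.1 hd).1
  have hdpos : 0 < d := Nat.pos_of_dvd_of_pos hdN (Nat.pos_of_ne_zero hN)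
  have : NeZero d := ⟨hdpos.ne'⟩
  have : NeZero (eOf N d) := ⟨(eOf_pos hN hdN).ne'⟩
  -- lift the unit `r mod e` to a unit mod `d`
  obtain ⟨v, hv⟩ := ZMod.unitsMap_surjective (eOf_dvd_left N d) (ZMod.unitOfCoprime r hcop.symm)
  have hv' : ((v : ZMod d).cast : ZMod (eOf N d)) = (r : ZMod (eOf N d)) := by
    have := congrArg (fun u : (ZMod (eOf N d))ˣ => (u : ZMod (eOf N d))) hv
    simpa [ZMod.unitsMap_def] using this
  set a : ℕ := (v : ZMod d).val with ha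
  have hacop : Nat.Coprime a d := ZMod.val_coe_unit_coprime v
  have hac : IsCoprime (a : ℤ) (d : ℤ) := Nat.isCoprime_iff_coprime.2 hacop
  obtain ⟨g, hg0, hg1⟩ := hac.exists_SL2_col 0
  refine ⟨g, ?_⟩
  rw [hg0, hg1]
  have hgcd : Int.gcd (d : ℤ) (N : ℤ) = d := by
    rw [Int.gcd_natCast_natCast]; exact Nat.gcd_eq_left hdN
  unfold cuspInv
  rw [hgcd]
  congr 1
  unfold rOf
  have hdd : ((d : ℤ) / (d : ℤ)) = 1 := Int.ediv_self (by exact_mod_cast hdpos.ne')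
  rw [hdd]
  have hacast : (((a : ℕ) : ℤ) : ZMod (eOf N d)) = (r : ZMod (eOf N d)) := by
    rw [← hv', ha]
    push_cast
    rw [ZMod.natCast_val]
  rw [hacast]
  rw [Int.cast_one, ZMod.inv_one, mul_one]
  exact ZMod.val_natCast_of_lt hr

theorem range_cuspInv {N : ℕ} (hN : N ≠ 0) :
    Set.range (fun g : SL(2, ℤ) => cuspInv N (g 0 0) (g 1 0)) = ↑(cuspTarget N) := by
  ext x
  constructor
  · rintro ⟨g, rfl⟩
    exact cuspInv_mem hN (isCoprime_col g)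
  · intro hx
    exact exists_cuspInv_eq hN hx

/-- **G4 / WP-Count C2**: the number of `T`-orbits on `SL(2,ℤ)/Γ₀(N)` (the number of cusps of
`Γ₀(N)`) is `∑_{d ∣ N} φ(gcd(d, N/d))`. -/
theorem wp_card_orbits_T (N : ℕ) [NeZero N] :
    Nat.card (MulAction.orbitRel.Quotient (Subgroup.zpowers T) (SL(2, ℤ) ⧸ Gamma0 N))
      = ModularCurve.cuspCount N := by
  have hN : N ≠ 0 := NeZero.ne N
  let π : SL(2, ℤ) → MulAction.orbitRel.Quotient (Subgroup.zpowers T) (SL(2, ℤ) ⧸ Gamma0 N) :=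
    fun g => Quotient.mk'' (g : SL(2, ℤ) ⧸ Gamma0 N)
  have hπ : Function.Surjective π := by
    intro q
    induction q using Quotient.inductionOn' with
    | h x =>
      obtain ⟨g, rfl⟩ := QuotientGroup.mk_surjective x
      exact ⟨g, rfl⟩
  rw [card_eq_card_range π hπ (fun g => cuspInv N (g 0 0) (g 1 0)) ?_]
  · rw [range_cuspInv hN, Nat.card_coe_set_eq, Set.ncard_coe_finset, card_cuspTarget]
  · intro g₁ g₂
    rw [orbit_mk_eq_iff, exists_dvd_add_mul_iff,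
      cuspInv_eq_iff hN (isCoprime_col g₁) (isCoprime_col g₂)]

end Fermat.Agent.S20.H2
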