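import Mathlib
import Fermat.Agent.S20.H74_Defs

/-!
# S20 (helper2): a weight `K` with `dim M_K(Γ) = dim M_{K-12}(Γ) + index`

This is the hypothesis `h` of INF1/INF2, derived from DU1 (dimension formula from the basis),
L2 (level one dimensions) and W1 (weights are even), all taken as hypotheses.
-/

set_option autoImplicit false

namespace Fermat.Agent.S20.H2

open UpperHalfPlane ModularForm MatrixGroups Filter Fermat.Agent.S20.H74

variable {Γ : Subgroup SL(2, ℤ)}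

/-- Level one: `dim M_{m+12} = dim M_m + 1` for even `m ≥ 0` (from L2). -/
theorem finrank_top_add_twelve
    (hL2 : ∀ k : ℕ, Even k →
      Module.finrank ℂ (MF ⊤ (k : ℤ)) = if k % 12 = 2 then k / 12 else k / 12 + 1)
    (m : ℕ) (hm : Even m) :
    Module.finrank ℂ (MF ⊤ ((m : ℤ) + 12)) = Module.finrank ℂ (MF ⊤ (m : ℤ)) + 1 := by
  have h1 := hL2 (m + 12) (by
    obtain ⟨r, hr⟩ := hm
    exact ⟨r + 6, by omega⟩)
  have h2 := hL2 m hm
  have e : ((m + 12 : ℕ) : ℤ) = (m : ℤ) + 12 := by push_cast; ring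
  rw [e] at h1
  rw [h1, h2]
  have h3 : (m + 12) % 12 = m % 12 := by omega
  have h4 : (m + 12) / 12 = m / 12 + 1 := by omega
  rw [h3, h4]
  split_ifs <;> rfl

/-- There is a weight `K` with `dim M_K(Γ) = dim M_{K-12}(Γ) + index` (hypothesis `h` of
INF1/INF2), from DU1 + L2 + W1. -/
theorem exists_K_finrank [Γ.FiniteIndex] (b : RBasis Γ) [Fintype b.J]
    (hcard : Nat.card b.J = Γ.index)
    (hDU1 : ∀ k : ℤ, Module.Finite ℂ (MF Γ k) ∧
      Module.finrank ℂ (MF Γ k) = ∑ j, Module.finrank ℂ (MF ⊤ (k - b.wt j)))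
    (hL2 : ∀ k : ℕ, Even k →
      Module.finrank ℂ (MF ⊤ (k : ℤ)) = if k % 12 = 2 then k / 12 else k / 12 + 1)
    (hW1 : ∀ j, Even (b.wt j)) :
    ∃ K : ℤ, Module.Finite ℂ (MF Γ K) ∧
      Module.finrank ℂ (MF Γ K) = Module.finrank ℂ (MF Γ (K - 12)) + Γ.index := by
  classical
  -- a bound for the weights
  obtain ⟨M, hM⟩ : ∃ M : ℕ, ∀ j, b.wt j ≤ 2 * (M : ℤ) := by
    refine ⟨∑ j, (b.wt j).natAbs, fun j => ?_⟩
    have h1 : (b.wt j).natAbs ≤ ∑ j, (b.wt j).natAbs :=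
      Finset.single_le_sum (f := fun j => (b.wt j).natAbs) (fun _ _ => Nat.zero_le _)
        (Finset.mem_univ j)
    have h2 : b.wt j ≤ ((b.wt j).natAbs : ℤ) := Int.le_natAbs
    have h3 : ((b.wt j).natAbs : ℤ) ≤ ((∑ j, (b.wt j).natAbs : ℕ) : ℤ) := by exact_mod_cast h1
    have h4 : (0 : ℤ) ≤ ((∑ j, (b.wt j).natAbs : ℕ) : ℤ) := Int.natCast_nonneg _
    linarith
  refine ⟨2 * (M : ℤ) + 12, (hDU1 _).1, ?_⟩
  rw [(hDU1 _).2, (hDU1 _).2, ← hcard, Nat.card_eq_fintype_card, Fintype.card, Finset.card_eq_sum_ones,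
    ← Finset.sum_add_distrib]
  apply Finset.sum_congr rfl
  intro j _
  -- `m = 2M - wt j` is an even natural number
  obtain ⟨r, hr⟩ := hW1 j
  have hm0 : 0 ≤ 2 * (M : ℤ) - b.wt j := by linarith [hM j]
  obtain ⟨m, hm⟩ := Int.eq_ofNat_of_zero_le hm0
  have hmeven : Even m := by
    have : Even ((m : ℕ) : ℤ) := by
      rw [← hm, hr]
      exact ⟨(M : ℤ) - r, by ring⟩
    exact_mod_cast this
  have e1 : 2 * (M : ℤ) + 12 - b.wt j = (m : ℤ) + 12 := by rw [← hm]; ring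
  have e2 : 2 * (M : ℤ) + 12 - 12 - b.wt j = (m : ℤ) := by rw [← hm]; ring
  rw [e1, e2]
  exact finrank_top_add_twelve hL2 m hmeven

end Fermat.Agent.S20.H2
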