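import Mathlib
import Fermat.Agent.S20.H74_Defs

/-!
# S20 package INF3 (helper2): growth of the dual family at `i∞`

`INF3_dual_zero` is proved from the conclusion of INF2 (an adapted family), taken as a
hypothesis `hadapt` (verbatim the conclusion of `INF2_adapted`, for some weight `K`).
-/

set_option autoImplicit false

namespace Fermat.Agent.S20.H2

open UpperHalfPlane ModularForm MatrixGroups Filter EisensteinSeries Fermat.Agent.S20.H74
open scoped Manifold Topology

/-- Cramer + continuity: if `A z → A₀` with `det A₀ ≠ 0` and `A z • x z → 0` then `x z → 0`. -/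
theorem tendsto_zero_of_matrix {ι : Type*} [Fintype ι] [DecidableEq ι] {α : Type*}
    {l : Filter α} (A : α → Matrix ι ι ℂ) (A₀ : Matrix ι ι ℂ)
    (hA : ∀ i q, Tendsto (fun z => A z i q) l (𝓝 (A₀ i q)))
    (hdet : A₀.det ≠ 0) (x : α → ι → ℂ)
    (hy : ∀ i, Tendsto (fun z => ∑ q, A z i q * x z q) l (𝓝 0)) (q : ι) :
    Tendsto (fun z => x z q) l (𝓝 0) := by
  have hA' : Tendsto A l (𝓝 A₀) :=
    tendsto_pi_nhds.2 (fun i => tendsto_pi_nhds.2 (fun q => hA i q))
  have hdetT : Tendsto (fun z => (A z).det) l (𝓝 A₀.det) :=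
    ((continuous_id.matrix_det).tendsto A₀).comp hA'
  have hadj : Tendsto (fun z => (A z).adjugate) l (𝓝 A₀.adjugate) :=
    ((continuous_id.matrix_adjugate).tendsto A₀).comp hA'
  have hadj' : ∀ i, Tendsto (fun z => (A z).adjugate q i) l (𝓝 (A₀.adjugate q i)) := by
    intro i
    have h1 := (tendsto_pi_nhds.1 hadj) q
    exact (tendsto_pi_nhds.1 h1) i
  have hkey : ∀ z, (A z).det * x z q = ∑ i, (A z).adjugate q i * ∑ q', A z i q' * x z q' := by
    intro z
    have h1 : ((A z).adjugate * A z).mulVec (x z) = ((A z).det • (1 : Matrix ι ι ℂ)).mulVec (x z) := by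
      rw [Matrix.adjugate_mul]
    rw [← Matrix.mulVec_mulVec, Matrix.smul_mulVec, Matrix.one_mulVec] at h1
    have h2 := congrFun h1 q
    simp only [Matrix.mulVec, dotProduct, Pi.smul_apply, smul_eq_mul] at h2
    exact h2.symm
  have hprod : Tendsto (fun z => (A z).det * x z q) l (𝓝 0) := by
    have h0 : Tendsto (fun z => ∑ i, (A z).adjugate q i * ∑ q', A z i q' * x z q') l
        (𝓝 (∑ i, A₀.adjugate q i * 0)) :=
      tendsto_finsetSum _ (fun i _ => (hadj' i).mul (hy i))
    simp only [mul_zero, Finset.sum_const_zero] at h0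
    exact h0.congr (fun z => (hkey z).symm)
  have hdiv : Tendsto (fun z => (A z).det * x z q / (A z).det) l (𝓝 (0 / A₀.det)) :=
    hprod.div hdetT hdet
  rw [zero_div] at hdiv
  have hev : ∀ᶠ z in l, (A z).det ≠ 0 := hdetT.eventually_ne hdet
  refine hdiv.congr' ?_
  filter_upwards [hev] with z hz
  rw [mul_div_assoc, mul_comm, div_mul_cancel₀ _ hz]


/-- The twisted discriminant times a bounded function tends to `0` at `i∞`. -/
theorem tendsto_twist_discriminant_mul {N a : ℕ} (hN : 0 < N) (ha : a < N) {c : ℍ → ℂ}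
    (hc : IsBoundedAtImInfty c) :
    Tendsto (fun z : ℍ =>
      Complex.exp (-2 * Real.pi * Complex.I * (a : ℂ) * z / N) * (discriminant z * c z))
      atImInfty (𝓝 0) := by
  have hN' : (0 : ℝ) < N := by exact_mod_cast hN
  have h1 : (fun z : ℍ => Complex.exp (-2 * Real.pi * Complex.I * (a : ℂ) * z / N))
      =O[atImInfty] (fun z : ℍ => Real.exp (2 * Real.pi * a / N * z.im)) := by
    apply Asymptotics.isBigO_of_le
    intro z
    rw [Complex.norm_exp, Real.norm_of_nonneg (Real.exp_pos _).le]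
    apply le_of_eq
    congr 1
    have : (-2 * (Real.pi : ℂ) * Complex.I * (a : ℂ) * (z : ℂ) / (N : ℂ))
        = ((2 * Real.pi * a / N : ℝ) : ℂ) * (-Complex.I * (z : ℂ)) := by
      push_cast
      ring
    rw [this, Complex.re_ofReal_mul]
    congr 1
    simp
  have h2 : (discriminant : ℍ → ℂ) =O[atImInfty] (fun z : ℍ => Real.exp (-2 * Real.pi * z.im)) := by
    have := CuspFormClass.exp_decay_atImInfty (h := 1) CuspForm.discriminant one_pos
      one_mem_strictPeriods_SL
    simpa using this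
  have h3 : c =O[atImInfty] (1 : ℍ → ℝ) := hc
  have h4 := h1.mul (h2.mul h3)
  refine h4.trans_tendsto ?_
  have hκ : 0 < 2 * Real.pi * (1 - a / N) := by
    have h5 : (a : ℝ) / N < 1 := by
      rw [div_lt_one hN']
      exact_mod_cast ha
    have := Real.pi_pos
    nlinarith
  have heq : (fun z : ℍ => Real.exp (2 * Real.pi * a / N * z.im) *
      (Real.exp (-2 * Real.pi * z.im) * (1 : ℍ → ℝ) z))
      = fun z : ℍ => Real.exp (-(2 * Real.pi * (1 - a / N)) * z.im) := by
    funext z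
    rw [Pi.one_apply, mul_one, ← Real.exp_add]
    congr 1
    ring
  rw [heq]
  apply Real.tendsto_exp_atBot.comp
  have him : Tendsto (fun z : ℍ => z.im) atImInfty atTop := tendsto_comap
  have := him.const_mul_atTop hκ
  have h6 := tendsto_neg_atTop_atBot.comp this
  refine h6.congr ?_
  intro z
  simp only [Function.comp_apply]
  ring


variable {Γ : Subgroup SL(2, ℤ)}

/-- **INF3**: growth of the dual family at `i∞`, from an adapted family (the conclusion of INF2,
for some weight `K`). -/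
theorem INF3_dual_zero [Γ.FiniteIndex] (b : RBasis Γ) [Finite b.J] (d : b.Dual)
    (hadapt : ∃ K : ℤ, ∃ (N : ℕ) (_ : 0 < N) (G : (SL(2, ℤ) ⧸ Γ) → ℍ → ℂ)
      (a : (SL(2, ℤ) ⧸ Γ) → ℕ) (E₀ : (SL(2, ℤ) ⧸ Γ) → (SL(2, ℤ) ⧸ Γ) → ℂ),
      (∀ i, G i ∈ MF Γ K) ∧ (∀ i, a i < N) ∧
      LinearIndependent ℂ (fun i => fun q => E₀ q i) ∧
      ∀ q i, Tendsto (fun z : ℍ =>
        Complex.exp (-2 * Real.pi * Complex.I * (a i) * z / N) * cf Γ K (G i) q z)
        atImInfty (𝓝 (E₀ q i)))
    (j : b.J) (q : SL(2, ℤ) ⧸ Γ) :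
    IsZeroAtImInfty (discriminant * d.H j q) := by
  classical
  obtain ⟨K, N, hN, G, a, E₀, hG, ha, hE₀, hT⟩ := hadapt
  have : Finite (SL(2, ℤ) ⧸ Γ) := Subgroup.finite_quotient_of_finiteIndex
  let _ : Fintype (SL(2, ℤ) ⧸ Γ) := Fintype.ofFinite _
  let _ : Fintype b.J := Fintype.ofFinite _
  -- expansion of the adapted family in the basis
  have hexp : ∀ i, ∃ c : b.J → ℍ → ℂ, (∀ j, c j ∈ MF ⊤ (K - b.wt j)) ∧
      G i = ∑ j, c j * b.F j := by
    intro i
    obtain ⟨s, c, hc, hGi⟩ := b.gen K (G i) (hG i)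
    refine ⟨fun j => if j ∈ s then c j else 0, ?_, ?_⟩
    · intro j
      beta_reduce
      by_cases hj : j ∈ s
      · rw [if_pos hj]; exact hc j hj
      · rw [if_neg hj]; exact Submodule.zero_mem _
    · rw [hGi, ← Finset.sum_subset (Finset.subset_univ s)]
      · apply Finset.sum_congr rfl
        intro j hj
        beta_reduce
        rw [if_pos hj]
      · intro j _ hj
        beta_reduce
        rw [if_neg hj, zero_mul]
  choose c hc hGc using hexp
  have hcf : ∀ i q' z, cf Γ K (G i) q' z = ∑ j, c i j z * b.ev z j q' := by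
    intro i q' z
    conv_lhs => rw [hGc i]
    rw [cf_sum, Finset.sum_apply]
    apply Finset.sum_congr rfl
    intro j _
    rw [cf_mul' (hc i j) (by ring : K = (K - b.wt j) + b.wt j)]
    rfl
  have hsum : ∀ i z, ∑ q', cf Γ K (G i) q' z * d.H j q' z = c i j z := by
    intro i z
    have h1 : ∀ q', cf Γ K (G i) q' z * d.H j q' z
        = ∑ j', c i j' z * (b.ev z j' q' * d.H j q' z) := by
      intro q'
      rw [hcf, Finset.sum_mul]
      apply Finset.sum_congr rfl
      intro j' _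
      ring
    rw [Finset.sum_congr rfl (fun q' _ => h1 q'), Finset.sum_comm]
    have h2 : ∀ j', ∑ q', c i j' z * (b.ev z j' q' * d.H j q' z)
        = c i j' z * (if j' = j then 1 else 0) := by
      intro j'
      rw [← d.left z j' j, Finset.mul_sum]
    rw [Finset.sum_congr rfl (fun j' _ => h2 j')]
    simp
  -- the matrices
  let A : ℍ → Matrix (SL(2, ℤ) ⧸ Γ) (SL(2, ℤ) ⧸ Γ) ℂ := fun z i q' =>
    Complex.exp (-2 * Real.pi * Complex.I * (a i) * z / N) * cf Γ K (G i) q' z
  let A₀ : Matrix (SL(2, ℤ) ⧸ Γ) (SL(2, ℤ) ⧸ Γ) ℂ := fun i q' => E₀ q' i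
  have hdet : A₀.det ≠ 0 := by
    have h1 : LinearIndependent ℂ A₀.row := hE₀
    have h2 : IsUnit A₀ := Matrix.linearIndependent_rows_iff_isUnit.1 h1
    exact ((Matrix.isUnit_iff_isUnit_det A₀).1 h2).ne_zero
  have hmain := tendsto_zero_of_matrix (l := atImInfty) A A₀ (fun i q' => hT q' i) hdet
    (fun z q' => discriminant z * d.H j q' z) ?_ q
  · exact hmain
  · intro i
    have h := tendsto_twist_discriminant_mul hN (ha i) (MF.bdd (hc i j))
    refine h.congr ?_
    intro z
    rw [← hsum i z, Finset.mul_sum, Finset.mul_sum]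
    apply Finset.sum_congr rfl
    intro q' _
    simp only [A]
    ring


/-- `INF3_dual_zero` with the signature of the skeleton (`hcard` is not needed). -/
theorem INF3_dual_zero' [Γ.FiniteIndex] (b : RBasis Γ) [Finite b.J] (d : b.Dual)
    (_hcard : Nat.card b.J = Γ.index)
    (hadapt : ∃ K : ℤ, ∃ (N : ℕ) (_ : 0 < N) (G : (SL(2, ℤ) ⧸ Γ) → ℍ → ℂ)
      (a : (SL(2, ℤ) ⧸ Γ) → ℕ) (E₀ : (SL(2, ℤ) ⧸ Γ) → (SL(2, ℤ) ⧸ Γ) → ℂ),
      (∀ i, G i ∈ MF Γ K) ∧ (∀ i, a i < N) ∧
      LinearIndependent ℂ (fun i => fun q => E₀ q i) ∧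
      ∀ q i, Tendsto (fun z : ℍ =>
        Complex.exp (-2 * Real.pi * Complex.I * (a i) * z / N) * cf Γ K (G i) q z)
        atImInfty (𝓝 (E₀ q i)))
    (j : b.J) (q : SL(2, ℤ) ⧸ Γ) :
    IsZeroAtImInfty (discriminant * d.H j q) :=
  INF3_dual_zero b d hadapt j q

end Fermat.Agent.S20.H2
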