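import Mathlib
import Fermat.Prelude.Def_ModularCurve_GenusNumerics

set_option autoImplicit false

open Finset

namespace Fermat.Agent.S20.H2

/-- Closed form: for `g ∣ m`, the number of `x < m` coprime to `g` is `(m / g) * φ g`. -/
theorem card_filter_coprime_range {m g : ℕ} (hg : 0 < g) (hgm : g ∣ m) :
    ((range m).filter (fun x => Nat.Coprime x g)).card = (m / g) * Nat.totient g := by
  obtain ⟨q, rfl⟩ := hgm
  rw [Nat.mul_div_cancel_left _ hg]
  induction q with
  | zero => simp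
  | succ q ih =>
    have hU : range (g * (q + 1)) = range (g * q) ∪ Ico (g * q) (g * q + g) := by
      ext x
      simp only [mem_range, mem_union, mem_Ico, mul_add, mul_one]
      omega
    have hD : Disjoint ((range (g * q)).filter (fun x => Nat.Coprime x g))
        ((Ico (g * q) (g * q + g)).filter (fun x => Nat.Coprime x g)) := by
      rw [Finset.disjoint_left]
      intro x hx hx'
      simp only [mem_filter, mem_range, mem_Ico] at hx hx'
      omega
    rw [hU, filter_union, card_union_of_disjoint hD, ih]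
    have h1 : ((Ico (g * q) (g * q + g)).filter (fun x => Nat.Coprime x g)).card
        = Nat.totient g := by
      rw [← Nat.filter_coprime_Ico_eq_totient g (g * q)]
      congr 1
      apply Finset.filter_congr
      intro x _
      exact Nat.coprime_comm
    rw [h1]
    ring

/-- The summand of the normal-form count. -/
def hterm (d m : ℕ) : ℕ := (m / Nat.gcd d m) * Nat.totient (Nat.gcd d m)

/-- The normal-form count of `P¹(ℤ/N)`. -/
def Fsum (N : ℕ) : ℕ := ∑ d ∈ N.divisors, hterm d (N / d)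

theorem lhs_eq_Fsum (N : ℕ) :
    ∑ d ∈ N.divisors, ((range (N / d)).filter
        (fun x => Nat.Coprime x (Nat.gcd d (N / d)))).card = Fsum N := by
  unfold Fsum
  apply Finset.sum_congr rfl
  intro d hd
  have hdN : d ∣ N := (Nat.mem_divisors.1 hd).1
  have hN : N ≠ 0 := (Nat.mem_divisors.1 hd).2
  have hdpos : 0 < d := Nat.pos_of_dvd_of_pos hdN (Nat.pos_of_ne_zero hN)
  exact card_filter_coprime_range (Nat.gcd_pos_of_pos_left _ hdpos) (Nat.gcd_dvd_right _ _)

theorem coprime_of_dvd_dvd {a b x y : ℕ} (h : Nat.Coprime a b) (hx : x ∣ a) (hy : y ∣ b) :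
    Nat.Coprime x y :=
  (h.coprime_dvd_left hx).coprime_dvd_right hy

theorem hterm_mul {d₁ m₁ d₂ m₂ : ℕ} (h : Nat.Coprime (d₁ * m₁) (d₂ * m₂)) :
    hterm (d₁ * d₂) (m₁ * m₂) = hterm d₁ m₁ * hterm d₂ m₂ := by
  have hdd : Nat.Coprime d₁ d₂ := coprime_of_dvd_dvd h (dvd_mul_right _ _) (dvd_mul_right _ _)
  have hmm : Nat.Coprime m₁ m₂ := coprime_of_dvd_dvd h (dvd_mul_left _ _) (dvd_mul_left _ _)
  have hdm : Nat.Coprime d₁ m₂ := coprime_of_dvd_dvd h (dvd_mul_right _ _) (dvd_mul_left _ _)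
  have hmd : Nat.Coprime m₁ d₂ := coprime_of_dvd_dvd h (dvd_mul_left _ _) (dvd_mul_right _ _)
  have hg : Nat.gcd (d₁ * d₂) (m₁ * m₂) = Nat.gcd d₁ m₁ * Nat.gcd d₂ m₂ := by
    rw [Nat.Coprime.gcd_mul _ hmm, Nat.gcd_comm (d₁ * d₂) m₁, Nat.gcd_comm (d₁ * d₂) m₂,
      Nat.Coprime.gcd_mul_right_cancel_right d₁ hmd.symm,
      Nat.Coprime.gcd_mul_left_cancel_right d₂ hdm, Nat.gcd_comm m₁ d₁, Nat.gcd_comm m₂ d₂]
  have hgg : Nat.Coprime (Nat.gcd d₁ m₁) (Nat.gcd d₂ m₂) :=
    coprime_of_dvd_dvd hdd (Nat.gcd_dvd_left _ _) (Nat.gcd_dvd_left _ _)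
  unfold hterm
  rw [hg, Nat.totient_mul hgg,
    ← Nat.div_mul_div_comm (Nat.gcd_dvd_right d₁ m₁) (Nat.gcd_dvd_right d₂ m₂)]
  ring

theorem sum_divisors_mul_coprime {M : Type*} [AddCommMonoid M] {a b : ℕ}
    (hab : Nat.Coprime a b) (f : ℕ → M) :
    ∑ d ∈ (a * b).divisors, f d = ∑ d₁ ∈ a.divisors, ∑ d₂ ∈ b.divisors, f (d₁ * d₂) := by
  rw [← Finset.sum_product (a.divisors) (b.divisors) (fun q : ℕ × ℕ => f (q.1 * q.2))]
  symm
  apply Finset.sum_nbij (fun q : ℕ × ℕ => q.1 * q.2)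
  · intro q hq
    rw [Finset.mem_product] at hq
    rw [Nat.mem_divisors] at hq ⊢
    rw [Nat.mem_divisors] at hq
    exact ⟨Nat.mul_dvd_mul hq.1.1 hq.2.1, mul_ne_zero hq.1.2 hq.2.2⟩
  · exact hab.mul_injOn_divisors
  · intro d hd
    rw [Finset.mem_coe, Nat.mem_divisors] at hd
    have ha0 : a ≠ 0 := fun h => hd.2 (by simp [h])
    have hb0 : b ≠ 0 := fun h => hd.2 (by simp [h])
    refine ⟨(Nat.gcd d a, Nat.gcd d b), ?_, ?_⟩
    · rw [Finset.mem_coe, Finset.mem_product, Nat.mem_divisors, Nat.mem_divisors]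
      exact ⟨⟨Nat.gcd_dvd_right _ _, ha0⟩, ⟨Nat.gcd_dvd_right _ _, hb0⟩⟩
    · show Nat.gcd d a * Nat.gcd d b = d
      rw [← Nat.Coprime.gcd_mul d hab]
      exact Nat.gcd_eq_left hd.1
  · intro q _
    rfl

theorem Fsum_mul {a b : ℕ} (hab : Nat.Coprime a b) : Fsum (a * b) = Fsum a * Fsum b := by
  unfold Fsum
  rw [sum_divisors_mul_coprime hab, Finset.sum_mul_sum]
  apply Finset.sum_congr rfl
  intro d₁ hd₁
  apply Finset.sum_congr rfl
  intro d₂ hd₂
  have h1 : d₁ ∣ a := (Nat.mem_divisors.1 hd₁).1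
  have h2 : d₂ ∣ b := (Nat.mem_divisors.1 hd₂).1
  rw [← Nat.div_mul_div_comm h1 h2]
  apply hterm_mul
  rw [Nat.mul_div_cancel' h1, Nat.mul_div_cancel' h2]
  exact hab

theorem psi_mul {a b : ℕ} (hab : Nat.Coprime a b) :
    ModularCurve.dedekindPsi (a * b) = ModularCurve.dedekindPsi a * ModularCurve.dedekindPsi b := by
  unfold ModularCurve.dedekindPsi
  rw [Finset.sum_filter, Finset.sum_filter, Finset.sum_filter, sum_divisors_mul_coprime hab,
    Finset.sum_mul_sum]
  apply Finset.sum_congr rfl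
  intro d₁ hd₁
  apply Finset.sum_congr rfl
  intro d₂ hd₂
  have h1 : d₁ ∣ a := (Nat.mem_divisors.1 hd₁).1
  have h2 : d₂ ∣ b := (Nat.mem_divisors.1 hd₂).1
  have hdd : Nat.Coprime d₁ d₂ := coprime_of_dvd_dvd hab h1 h2
  rw [← Nat.div_mul_div_comm h1 h2]
  by_cases hs1 : Squarefree d₁
  · by_cases hs2 : Squarefree d₂
    · rw [if_pos ((Nat.squarefree_mul hdd).2 ⟨hs1, hs2⟩), if_pos hs1, if_pos hs2]
    · rw [if_neg (fun h => hs2 ((Nat.squarefree_mul hdd).1 h).2), if_neg hs2, mul_zero]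
  · rw [if_neg (fun h => hs1 ((Nat.squarefree_mul hdd).1 h).1), if_neg hs1, zero_mul]


/-! ### Prime powers -/

theorem psi_prime_pow {p k : ℕ} (hp : p.Prime) (hk : 0 < k) :
    ModularCurve.dedekindPsi (p ^ k) = p ^ k + p ^ (k - 1) := by
  obtain ⟨j, rfl⟩ : ∃ j, k = j + 1 := ⟨k - 1, by omega⟩
  unfold ModularCurve.dedekindPsi
  rw [Finset.sum_filter, Nat.divisors_prime_pow hp, Finset.sum_map]
  simp only [Function.Embedding.coeFn_mk]
  rw [Finset.sum_range_succ', Finset.sum_range_succ']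
  have hzero : ∑ i ∈ range j, (if Squarefree (p ^ (i + 1 + 1)) then p ^ (j + 1) / p ^ (i + 1 + 1)
      else 0) = 0 := by
    apply Finset.sum_eq_zero
    intro i _
    rw [if_neg]
    intro h
    have := (Nat.squarefree_pow_iff hp.ne_one (by omega)).1 h
    omega
  rw [hzero]
  have h0 : Squarefree (p ^ 0) := by simp
  have h1 : Squarefree (p ^ (0 + 1)) := by simpa using hp.squarefree
  rw [if_pos h0, if_pos h1]
  simp only [pow_zero, Nat.div_one, zero_add, pow_one, Nat.add_sub_cancel]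
  rw [pow_succ, Nat.mul_div_cancel _ hp.pos]
  ring

theorem geom_aux (p : ℕ) (hp : 0 < p) (n : ℕ) :
    ∑ i ∈ range n, p ^ i * (p - 1) + 1 = p ^ n := by
  induction n with
  | zero => simp
  | succ n ih =>
    rw [Finset.sum_range_succ, add_assoc, add_comm (p ^ n * (p - 1)) 1, ← add_assoc, ih]
    obtain ⟨q, rfl⟩ : ∃ q, p = q + 1 := ⟨p - 1, by omega⟩
    rw [Nat.add_sub_cancel, pow_succ]
    ring

theorem hterm_prime_pow_mid {p k i : ℕ} (hp : p.Prime) (hi : 0 < i) (hik : i < k) :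
    hterm (p ^ i) (p ^ (k - i)) = p ^ (k - 1 - i) * (p - 1) := by
  unfold hterm
  by_cases h : i ≤ k - i
  · have hg : Nat.gcd (p ^ i) (p ^ (k - i)) = p ^ i := Nat.gcd_eq_left (pow_dvd_pow p h)
    rw [hg, Nat.pow_div h hp.pos, Nat.totient_prime_pow hp hi, ← mul_assoc, ← pow_add]
    congr 2
    omega
  · have h' : k - i ≤ i := by omega
    have hg : Nat.gcd (p ^ i) (p ^ (k - i)) = p ^ (k - i) := Nat.gcd_eq_right (pow_dvd_pow p h')
    rw [hg, Nat.div_self (pow_pos hp.pos _), Nat.totient_prime_pow hp (by omega), one_mul]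
    congr 2
    omega

theorem Fsum_prime_pow {p k : ℕ} (hp : p.Prime) (hk : 0 < k) :
    Fsum (p ^ k) = p ^ k + p ^ (k - 1) := by
  obtain ⟨j, rfl⟩ : ∃ j, k = j + 1 := ⟨k - 1, by omega⟩
  unfold Fsum
  rw [Nat.divisors_prime_pow hp, Finset.sum_map]
  simp only [Function.Embedding.coeFn_mk]
  have hterm_i : ∀ i ∈ range (j + 1 + 1),
      hterm (p ^ i) (p ^ (j + 1) / p ^ i) = hterm (p ^ i) (p ^ (j + 1 - i)) := by
    intro i hi
    rw [Finset.mem_range] at hi
    rw [Nat.pow_div (by omega) hp.pos]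
  rw [Finset.sum_congr rfl hterm_i, Finset.sum_range_succ, Finset.sum_range_succ']
  have hfirst : hterm (p ^ 0) (p ^ (j + 1 - 0)) = p ^ (j + 1) := by
    unfold hterm
    simp
  have hlast : hterm (p ^ (j + 1)) (p ^ (j + 1 - (j + 1))) = 1 := by
    unfold hterm
    simp
  have hmid : ∑ i ∈ range j, hterm (p ^ (i + 1)) (p ^ (j + 1 - (i + 1)))
      = ∑ i ∈ range j, p ^ i * (p - 1) := by
    rw [← Finset.sum_range_reflect (fun i => p ^ i * (p - 1)) j]
    apply Finset.sum_congr rfl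
    intro i hi
    rw [Finset.mem_range] at hi
    rw [hterm_prime_pow_mid hp (by omega) (by omega)]
    congr 2
    omega
  rw [hfirst, hlast, hmid, Nat.add_sub_cancel]
  have := geom_aux p hp.pos j
  omega

/-! ### The identity -/

theorem Fsum_eq_psi (N : ℕ) (hN : N ≠ 0) : Fsum N = ModularCurve.dedekindPsi N := by
  induction N using Nat.recOnPosPrimePosCoprime with
  | prime_pow p n hp hn => rw [Fsum_prime_pow hp hn, psi_prime_pow hp hn]
  | zero => exact absurd rfl hN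
  | one => simp [Fsum, hterm]
  | coprime a b ha hb hab iha ihb =>
    rw [Fsum_mul hab, psi_mul hab, iha (by omega), ihb (by omega)]

/-- **G1b**: the normal-form count of `P¹(ℤ/N)` equals the Dedekind psi function. -/
theorem G1b (N : ℕ) (hN : N ≠ 0) :
    ∑ d ∈ N.divisors, ((Finset.range (N / d)).filter
        (fun x => Nat.Coprime x (Nat.gcd d (N / d)))).card
      = ModularCurve.dedekindPsi N := by
  rw [lhs_eq_Fsum, Fsum_eq_psi N hN]

end Fermat.Agent.S20.H2
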