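import Fermat.Agent.S20.H74_Defs
import Fermat.Agent.S20.H89_Perm

/-!
# S20 core, work packages TR1, TR2 (helper44): trace relations at the elliptic points
-/

set_option autoImplicit false

namespace Fermat.Agent.S20.H44

open Fermat.Agent.S20.H74
open UpperHalfPlane ModularForm MatrixGroups Filter EisensteinSeries
open scoped Manifold Topology

variable {Γ : Subgroup SL(2, ℤ)}

/-! ### The elliptic points -/

theorem S_smul_I' : ModularGroup.S • (I : ℍ) = I := by
  rw [UpperHalfPlane.ext_iff, coe_specialLinearGroup_apply]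
  simp [ModularGroup.S, UpperHalfPlane.I]

theorem denom_S_I' : denom (ModularGroup.S : SL(2, ℤ)) (I : ℍ) = Complex.I := by
  rw [ModularGroup.denom_S]
  rfl

theorem coe_rho : ((rho : ℍ) : ℂ) = ⟨-1 / 2, Real.sqrt 3 / 2⟩ := rfl

theorem rho_sq_add : ((rho : ℍ) : ℂ) ^ 2 + (rho : ℂ) + 1 = 0 := by
  rw [coe_rho]
  apply Complex.ext
  · simp only [pow_two, Complex.add_re, Complex.mul_re, Complex.one_re, Complex.zero_re]
    have h3 : Real.sqrt 3 * Real.sqrt 3 = 3 := Real.mul_self_sqrt (by norm_num)
    nlinarith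
  · simp only [pow_two, Complex.add_im, Complex.mul_im, Complex.one_im, Complex.zero_im]
    ring

theorem rho_add_one_ne_zero : ((rho : ℍ) : ℂ) + 1 ≠ 0 := by
  intro h
  have := rho_sq_add
  have h2 : ((rho : ℍ) : ℂ) = -1 := by linear_combination h
  rw [h2] at this
  norm_num at this

theorem ST_val : ((ModularGroup.S * ModularGroup.T : SL(2, ℤ)) : Matrix (Fin 2) (Fin 2) ℤ)
    = !![0, -1; 1, 1] := by
  simp [ModularGroup.S, ModularGroup.T, Matrix.mul_fin_two]

theorem ST_smul_rho' : (ModularGroup.S * ModularGroup.T) • rho = rho := by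
  rw [UpperHalfPlane.ext_iff, coe_specialLinearGroup_apply]
  have h00 : (ModularGroup.S * ModularGroup.T : SL(2, ℤ)) 0 0 = 0 := by
    have := congrFun (congrFun ST_val 0) 0
    simpa using this
  have h01 : (ModularGroup.S * ModularGroup.T : SL(2, ℤ)) 0 1 = -1 := by
    have := congrFun (congrFun ST_val 0) 1
    simpa using this
  have h10 : (ModularGroup.S * ModularGroup.T : SL(2, ℤ)) 1 0 = 1 := by
    have := congrFun (congrFun ST_val 1) 0
    simpa using this
  have h11 : (ModularGroup.S * ModularGroup.T : SL(2, ℤ)) 1 1 = 1 := by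
    have := congrFun (congrFun ST_val 1) 1
    simpa using this
  rw [h00, h01, h10, h11]
  have hne := rho_add_one_ne_zero
  have hsq := rho_sq_add
  simp only [algebraMap_int_eq, eq_intCast, Int.cast_zero, Complex.ofReal_zero, zero_mul,
    Int.cast_neg, Int.cast_one, Complex.ofReal_neg, Complex.ofReal_one, zero_add, one_mul]
  rw [div_eq_iff hne]
  linear_combination -hsq

theorem denom_ST_rho' :
    denom ((ModularGroup.S * ModularGroup.T : SL(2, ℤ))) rho = (rho : ℂ) + 1 := by
  rw [ModularGroup.denom_apply]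
  have h10 : (ModularGroup.S * ModularGroup.T : SL(2, ℤ)) 1 0 = 1 := by
    have := congrFun (congrFun ST_val 1) 0
    simpa using this
  have h11 : (ModularGroup.S * ModularGroup.T : SL(2, ℤ)) 1 1 = 1 := by
    have := congrFun (congrFun ST_val 1) 1
    simpa using this
  rw [h10, h11]
  simp

/-! ### The general trace relation at a fixed point -/

/-- If `δ` fixes `z` then the sum of `(denom δ z)^(-wt j)` over a locally independent basis of
the right cardinality is the number of cosets fixed by `δ`. -/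
theorem trace_at_fixed_point [Γ.FiniteIndex] (b : RBasis Γ) [Fintype b.J] (δ : SL(2, ℤ)) (z : ℍ)
    (hfix : δ • z = z) (hLI : b.LIAt z) (hcard : Nat.card b.J = Γ.index) :
    ∑ j, (denom δ z) ^ (-(b.wt j)) =
      (Nat.card {q : SL(2, ℤ) ⧸ Γ // δ • q = q} : ℂ) := by
  classical
  haveI : Fintype (SL(2, ℤ) ⧸ Γ) := Fintype.ofFinite _
  have hcard' : Fintype.card b.J = Fintype.card (SL(2, ℤ) ⧸ Γ) := by
    rw [← Nat.card_eq_fintype_card, ← Nat.card_eq_fintype_card, hcard]
    rfl
  have hden : denom δ z ≠ 0 := denom_ne_zero _ z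
  have key := H89.P3_sum_eq_card_fixed (C := SL(2, ℤ) ⧸ Γ) (J := b.J)
    (MulAction.toPerm (δ⁻¹)) (fun q j => b.ev z j q) (fun j => (denom δ z) ^ (-(b.wt j)))
    hLI hcard' (by
      intro q j
      have h := cf_apply_smul (k := b.wt j) (b.mem j).2.1 q δ z
      rw [hfix] at h
      simp only [RBasis.ev, MulAction.toPerm_apply]
      rw [h, ← mul_assoc, ← zpow_add₀ hden]
      simp)
  rw [key, Nat.card_eq_fintype_card]
  congr 1
  apply Fintype.card_congr
  refine Equiv.subtypeEquivRight ?_
  intro q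
  simp only [MulAction.toPerm_apply]
  rw [inv_smul_eq_iff]
  exact eq_comm

theorem TR1_I [Γ.FiniteIndex] (b : RBasis Γ) [Fintype b.J] (hI : b.LIAt I)
    (hcard : Nat.card b.J = Γ.index) :
    ∑ j, (Complex.I) ^ (-(b.wt j)) = (ellTwo Γ : ℂ) := by
  have := trace_at_fixed_point b ModularGroup.S I S_smul_I' hI hcard
  rw [denom_S_I'] at this
  exact this

theorem TR2_rho [Γ.FiniteIndex] (b : RBasis Γ) [Fintype b.J] (hrho : b.LIAt rho)
    (hcard : Nat.card b.J = Γ.index) :
    ∑ j, ((rho : ℂ) + 1) ^ (-(b.wt j)) = (ellThree Γ : ℂ) := by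
  have := trace_at_fixed_point b (ModularGroup.S * ModularGroup.T) rho ST_smul_rho' hrho hcard
  rw [denom_ST_rho'] at this
  exact this

end Fermat.Agent.S20.H44
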