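import Fermat.Agent.S20.H74_Defs

/-!
# S20 core, work packages W1, W2, W3 (helper44): weights of a homogeneous basis
-/

set_option autoImplicit false

namespace Fermat.Agent.S20.H44

open Fermat.Agent.S20.H74
open UpperHalfPlane ModularForm MatrixGroups Filter EisensteinSeries
open scoped Manifold Topology

variable {Γ : Subgroup SL(2, ℤ)}

/-- The constant function `1` is a level one form of weight `0`. -/
theorem one_mem_MF_top : (1 : ℍ → ℂ) ∈ MF (⊤ : Subgroup SL(2, ℤ)) 0 :=
  const_mem_MF (1 : ℂ)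

/-- The members of a homogeneous basis are nonzero. -/
theorem RBasis_F_ne_zero (b : RBasis Γ) (j : b.J) : b.F j ≠ 0 := by
  classical
  intro h0
  have hmem : ∀ i ∈ ({j} : Finset b.J), (fun _ : b.J => (1 : ℍ → ℂ)) i
      ∈ MF (⊤ : Subgroup SL(2, ℤ)) (b.wt j - b.wt i) := by
    intro i hi
    rw [Finset.mem_singleton] at hi
    subst hi
    rw [sub_self]
    exact one_mem_MF_top
  have hsum : ∑ i ∈ ({j} : Finset b.J), (fun _ : b.J => (1 : ℍ → ℂ)) i * b.F i = 0 := by
    rw [Finset.sum_singleton, h0, mul_zero]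
  have := b.indep (b.wt j) {j} (fun _ => 1) hmem hsum j (Finset.mem_singleton_self j)
  have h1 : (1 : ℍ → ℂ) UpperHalfPlane.I = 0 := by
    have := congrFun this UpperHalfPlane.I
    exact this
  simp at h1

theorem slash_neg_one (k : ℤ) (f : ℍ → ℂ) :
    f ∣[k] (-1 : SL(2, ℤ)) = (-1 : ℂ) ^ (-k) • f := by
  funext z
  rw [SL_slash_apply]
  have h1 : ((-1 : SL(2, ℤ)) • z) = z := by
    simp
  have h2 : denom ((-1 : SL(2, ℤ))) z = -1 := by
    simp [denom]
  rw [h1, h2, Pi.smul_apply, smul_eq_mul, mul_comm]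

theorem W1_even (hneg : -1 ∈ Γ) (b : RBasis Γ) (j : b.J) : Even (b.wt j) := by
  by_contra hodd
  rw [Int.not_even_iff_odd] at hodd
  apply RBasis_F_ne_zero b j
  have hinv := (b.mem j).2.1 (-1) hneg
  rw [slash_neg_one] at hinv
  have hodd' : Odd (-(b.wt j)) := hodd.neg
  rw [hodd'.neg_one_zpow] at hinv
  funext z
  have := congrFun hinv z
  simp only [Pi.smul_apply, smul_eq_mul, neg_mul, one_mul] at this
  have h2 : (2 : ℂ) * b.F j z = 0 := by linear_combination -this
  simpa using h2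

theorem W2_nonneg [Γ.FiniteIndex] (b : RBasis Γ) (j : b.J) : 0 ≤ b.wt j := by
  by_contra hneg
  rw [not_le] at hneg
  apply RBasis_F_ne_zero b j
  have := b.mem j
  rw [MF_eq_bot_of_neg hneg] at this
  exact (Submodule.mem_bot ℂ).mp this

theorem MF_top_eq_bot_of_neg {k : ℤ} (hk : k < 0) : MF (⊤ : Subgroup SL(2, ℤ)) k = ⊥ := by
  haveI : (⊤ : Subgroup SL(2, ℤ)).FiniteIndex := inferInstance
  exact MF_eq_bot_of_neg hk

/-- At most one basis element has weight `0`. -/
theorem wt_zero_unique [Γ.FiniteIndex] (b : RBasis Γ) {j j' : b.J} (hj : b.wt j = 0)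
    (hj' : b.wt j' = 0) : j = j' := by
  classical
  by_contra hne
  have hFj : b.F j ∈ MF Γ 0 := hj ▸ b.mem j
  have hFj' : b.F j' ∈ MF Γ 0 := hj' ▸ b.mem j'
  obtain ⟨c, hc⟩ := MF_zero_const hFj
  obtain ⟨c', hc'⟩ := MF_zero_const hFj'
  have hc0 : c ≠ 0 := by
    intro h0
    apply RBasis_F_ne_zero b j
    rw [hc, h0]
    rfl
  -- the relation c' F_j - c F_j' = 0
  let a : b.J → ℍ → ℂ := fun i => if i = j then Function.const ℍ c' else Function.const ℍ (-c)
  have hmem : ∀ i ∈ ({j, j'} : Finset b.J), a i ∈ MF (⊤ : Subgroup SL(2, ℤ)) (0 - b.wt i) := by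
    intro i hi
    rw [Finset.mem_insert, Finset.mem_singleton] at hi
    have hwt : b.wt i = 0 := by
      rcases hi with rfl | rfl
      · exact hj
      · exact hj'
    rw [hwt, sub_zero]
    simp only [a]
    split_ifs
    · exact const_mem_MF c'
    · exact const_mem_MF (-c)
  have hsum : ∑ i ∈ ({j, j'} : Finset b.J), a i * b.F i = 0 := by
    rw [Finset.sum_pair hne]
    simp only [a, if_true, if_neg (Ne.symm hne)]
    rw [hc, hc']
    funext z
    simp only [Pi.add_apply, Pi.mul_apply, Function.const_apply, Pi.zero_apply]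
    ring
  have := b.indep 0 {j, j'} a hmem hsum j' (by simp)
  simp only [a, if_neg (Ne.symm hne)] at this
  have h1 := congrFun this UpperHalfPlane.I
  simp only [Function.const_apply, Pi.zero_apply, neg_eq_zero] at h1
  exact hc0 h1

/-- Some basis element has weight `0`. -/
theorem exists_wt_zero [Γ.FiniteIndex] (b : RBasis Γ) : ∃ j : b.J, b.wt j = 0 := by
  classical
  by_contra hcon
  simp only [not_exists] at hcon
  have h1 : (1 : ℍ → ℂ) ∈ MF Γ 0 := const_mem_MF (1 : ℂ)
  obtain ⟨s, a, ha, hsum⟩ := b.gen 0 1 h1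
  have hzero : ∀ j ∈ s, a j = 0 := by
    intro j hj
    have hpos : 0 < b.wt j := lt_of_le_of_ne (W2_nonneg b j) (Ne.symm (hcon j))
    have := ha j hj
    rw [MF_top_eq_bot_of_neg (by omega)] at this
    exact (Submodule.mem_bot ℂ).mp this
  have : (1 : ℍ → ℂ) = 0 := by
    rw [hsum]
    apply Finset.sum_eq_zero
    intro j hj
    rw [hzero j hj, zero_mul]
  have h2 := congrFun this UpperHalfPlane.I
  simp at h2

theorem W3_zero [Γ.FiniteIndex] (b : RBasis Γ) [Fintype b.J] :
    Fintype.card {j : b.J // b.wt j = 0} = 1 := by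
  rw [Fintype.card_eq_one_iff]
  obtain ⟨j, hj⟩ := exists_wt_zero b
  exact ⟨⟨j, hj⟩, fun ⟨j', hj'⟩ => Subtype.ext (wt_zero_unique b hj' hj)⟩

end Fermat.Agent.S20.H44
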