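import Fermat.Agent.S20.H53_LI
import Fermat.Agent.S20.H61_LI
import Fermat.Agent.S20.H25_Koszul

/-!
# S20 core, package LI5 (helper53): local independence of an `RBasis` at every point

Assembly of LI1, LI4 (helper53) and LI2, LI3 (helper61); exact statement of the skeleton.
-/

set_option autoImplicit false

namespace Fermat.Agent.S20.H53

open UpperHalfPlane ModularForm MatrixGroups Filter EisensteinSeries
open scoped Manifold Topology
open Fermat.Agent.S20.H74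

variable {Γ : Subgroup SL(2, ℤ)}

/-- **LI5** without the hypotheses `-1 ∈ Γ` and finite index. -/
theorem LI5_all' (hgeo : LevelOneGeometry) (b : RBasis Γ)
    (hdivAll : ∀ (w : ℤ) (B : ℍ → ℂ), B ∈ MF ⊤ w →
      (∃ c : ℂ, c ≠ 0 ∧ Tendsto B atImInfty (𝓝 c)) →
      (∀ z : ℍ, B z = 0 → deriv (B ∘ ofComplex) z ≠ 0) → DivProp Γ w B)
    (z : ℍ) : b.LIAt z := by
  have hd6 : DivProp Γ 6 ⇑E₆ :=
    hdivAll 6 ⇑E₆ E₆_mem ⟨1, one_ne_zero, H25.tendsto_E6⟩ hgeo.simpleE6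
  have hd4 : DivProp Γ 4 ⇑E₄ :=
    hdivAll 4 ⇑E₄ E₄_mem ⟨1, one_ne_zero, H25.tendsto_E4⟩ hgeo.simpleE4
  by_cases h6 : E₆ z = 0
  · obtain ⟨γ, rfl⟩ := exists_smul_of_E₆_eq_zero hgeo H61.E₆_I h6
    exact LI4_smul b I γ (H61.LI2_I' hgeo b hd6)
  by_cases h4 : E₄ z = 0
  · obtain ⟨γ, rfl⟩ := exists_smul_of_E₄_eq_zero hgeo H61.E₄_rho h4
    exact LI4_smul b rho γ (H61.LI3_rho' hgeo b hd4)
  refine H61.liAt_of_data b z (-1) (neg_one_smul_eq z) (Bform_mem z)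
    (hdivAll 12 (Bform z) (Bform_mem z) ?_ ?_) (Bform_self z)
    (fun w hw => exists_smul_of_Bform_eq_zero hgeo h4 h6 hw) (m := 2) (by norm_num) ?_ ?_
  · refine ⟨E₆ z ^ 2 - E₄ z ^ 3, ?_, tendsto_Bform z H25.tendsto_E4 H25.tendsto_E6⟩
    intro h
    apply E₄_cube_sub_E₆_sq_ne_zero z
    linear_combination -h
  · intro w hw
    obtain ⟨h4w, h6w⟩ := E₄_E₆_ne_zero_of_Bform_eq_zero h4 h6 hw
    exact hgeo.simpleB z w h4w h6w hw
  · intro k k' h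
    rw [denom_neg_one] at h
    exact two_dvd_of_neg_one_zpow_eq h
  · refine ⟨2, fun n hn => ?_⟩
    exact exists_levelOne_ne_zero h4 h6 (even_two_mul n) (by omega)

/-- **LI5**: all points (exact statement of the skeleton). -/
theorem LI5_all (hgeo : LevelOneGeometry) [Γ.FiniteIndex] (_hneg : -1 ∈ Γ) (b : RBasis Γ)
    (hdivAll : ∀ (w : ℤ) (B : ℍ → ℂ), B ∈ MF ⊤ w →
      (∃ c : ℂ, c ≠ 0 ∧ Tendsto B atImInfty (𝓝 c)) →
      (∀ z : ℍ, B z = 0 → deriv (B ∘ ofComplex) z ≠ 0) → DivProp Γ w B)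
    (z : ℍ) : b.LIAt z :=
  LI5_all' hgeo b hdivAll z

end Fermat.Agent.S20.H53
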