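import Fermat.Agent.S20.H74_Defs
import Fermat.Agent.S20.H89_Perm
import Fermat.Agent.S20.H2_Eig

/-!
# S20 core (helper58): period of `T` on the cosets, eigenspaces of the translation operator
(packages `exists_period`, F7, F8 in the `Pop` / `Wsp` form asked for by helper19).
-/

set_option autoImplicit false

namespace Fermat.Agent.S20.H58

open UpperHalfPlane ModularForm MatrixGroups Fermat.Agent.S20.H74

/-- (period) `T` has finite order on the cosets. -/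
theorem exists_period (Γ : Subgroup SL(2, ℤ)) [Γ.FiniteIndex] :
    ∃ N : ℕ, 0 < N ∧ ∀ q : SL(2, ℤ) ⧸ Γ, (ModularGroup.T ^ N) • q = q := by
  classical
  have : Finite (SL(2, ℤ) ⧸ Γ) := Subgroup.finite_quotient_of_finiteIndex
  have : Fintype (SL(2, ℤ) ⧸ Γ) := Fintype.ofFinite _
  set σ : Equiv.Perm (SL(2, ℤ) ⧸ Γ) := MulAction.toPermHom SL(2, ℤ) _ ModularGroup.T with hσ
  refine ⟨orderOf σ, orderOf_pos σ, fun q => ?_⟩
  have h1 : σ ^ orderOf σ = 1 := pow_orderOf_eq_one σ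
  have h2 : MulAction.toPermHom SL(2, ℤ) (SL(2, ℤ) ⧸ Γ) (ModularGroup.T ^ orderOf σ) = 1 := by
    rw [map_pow, ← hσ, h1]
  have h3 := congrArg (fun τ : Equiv.Perm (SL(2, ℤ) ⧸ Γ) => τ q) h2
  simpa using h3

/-- the translation operator `(P v) q = v (T⁻¹ • q)` -/
noncomputable def Pop (Γ : Subgroup SL(2, ℤ)) : Module.End ℂ ((SL(2, ℤ) ⧸ Γ) → ℂ) :=
  LinearMap.funLeft ℂ ℂ (fun q : SL(2, ℤ) ⧸ Γ => (ModularGroup.T)⁻¹ • q)

/-- `V_a` = eigenspace of `P` for `ζ^a`, `ζ = exp(2πi/N)` -/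
noncomputable def Wsp (Γ : Subgroup SL(2, ℤ)) (N a : ℕ) :
    Submodule ℂ ((SL(2, ℤ) ⧸ Γ) → ℂ) :=
  Module.End.eigenspace (Pop Γ) (Complex.exp (2 * Real.pi * Complex.I / N) ^ a)

theorem mem_Wsp_iff {Γ : Subgroup SL(2, ℤ)} {N a : ℕ} (v : (SL(2, ℤ) ⧸ Γ) → ℂ) :
    v ∈ Wsp Γ N a ↔
      ∀ q, v ((ModularGroup.T)⁻¹ • q) = Complex.exp (2 * Real.pi * Complex.I / N) ^ a * v q := by
  unfold Wsp
  rw [Module.End.mem_eigenspace_iff]
  constructor
  · intro h q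
    have := congrFun h q
    simpa [Pop, LinearMap.funLeft_apply] using this
  · intro h
    funext q
    simpa [Pop, LinearMap.funLeft_apply] using h q

theorem Wsp_eq_eigT (Γ : Subgroup SL(2, ℤ)) (N a : ℕ) :
    Wsp Γ N a = H2.eigT Γ (Complex.exp (2 * Real.pi * Complex.I / N)) a := by
  ext v
  rw [mem_Wsp_iff, H2.mem_eigT]

/-- (F7) -/
theorem F7_indep (Γ : Subgroup SL(2, ℤ)) {N : ℕ} (hN : 0 < N) :
    iSupIndep (fun a : Fin N => Wsp Γ N (a : ℕ)) := by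
  have h := H2.eigT_iSupIndep (Γ := Γ) N (Complex.exp (2 * Real.pi * Complex.I / N))
    (H2.exp_pow_inj N hN)
  have h2 : (fun a : Fin N => Wsp Γ N (a : ℕ))
      = fun a : Fin N => H2.eigT Γ (Complex.exp (2 * Real.pi * Complex.I / N)) a := by
    funext a
    exact Wsp_eq_eigT Γ N a
  rw [h2]
  exact h

/-- (F8) -/
theorem F8_finrank (Γ : Subgroup SL(2, ℤ)) [Γ.FiniteIndex] (N : ℕ) :
    Module.finrank ℂ (Wsp Γ N 0) = cuspNum Γ := by
  rw [Wsp_eq_eigT]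
  exact H2.finrank_eigT_zero _

end Fermat.Agent.S20.H58
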