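import Fermat.Agent.S20.H53_LI
import Mathlib.NumberTheory.ModularForms.EisensteinSeries.QExpansion
import Mathlib.NumberTheory.ModularForms.QExpansion

/-!
# S20 core, package LI5 (helper61): local independence at every point

`LI5_all` (exact statement of the skeleton `H74_Skeleton.lean`) assembled from
LI1 + LI4 (helper53, `H53_LI.lean`), LI2 + LI3 (`H61_LI.lean`) and the limits of `E₄, E₆` at `i∞`.
-/

set_option autoImplicit false

namespace Fermat.Agent.S20.H61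

open Fermat.Agent.S20.H74
open UpperHalfPlane ModularForm MatrixGroups Filter EisensteinSeries
open scoped Manifold Topology

variable {Γ : Subgroup SL(2, ℤ)}

/-- A level one Eisenstein series of even weight `k ≥ 3` tends to `1` at `i∞`. -/
theorem tendsto_E_one {k : ℕ} (hk : 3 ≤ k) (hk2 : Even k) :
    Tendsto (E hk : ℍ → ℂ) atImInfty (𝓝 1) := by
  obtain ⟨c, hc, hO⟩ := ModularFormClass.exp_decay_sub_atImInfty' (E hk)
  have hv : valueAtInfty (E hk : ℍ → ℂ) = 1 := by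
    rw [← UpperHalfPlane.qExpansion_coeff_zero one_pos
      (ModularFormClass.analyticAt_cuspFunction_zero (E hk) one_pos one_mem_strictPeriods_SL)
      (SlashInvariantFormClass.periodic_comp_ofComplex (E hk) one_mem_strictPeriods_SL)]
    exact E_qExpansion_coeff_zero _ hk2
  have h0 : Tendsto (fun τ : ℍ => Real.exp (-c * τ.im)) atImInfty (𝓝 0) := by
    have h1 : Tendsto (fun τ : ℍ => τ.im) atImInfty atTop := tendsto_comap
    have h2 : Tendsto (fun y : ℝ => Real.exp (-c * y)) atTop (𝓝 0) := by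
      have : Tendsto (fun y : ℝ => -c * y) atTop atBot := by
        simpa using (tendsto_id.const_mul_atTop_of_neg (neg_neg_of_pos hc))
      exact Real.tendsto_exp_atBot.comp this
    exact h2.comp h1
  have h3 := hO.trans_tendsto h0
  rw [hv] at h3
  have h4 : Tendsto (fun τ : ℍ => (E hk τ - 1) + 1) atImInfty (𝓝 (0 + 1)) := h3.add_const 1
  simpa using h4

theorem tendsto_E₄_one : Tendsto (E₄ : ℍ → ℂ) atImInfty (𝓝 1) :=
  tendsto_E_one (by norm_num) ⟨2, rfl⟩

theorem tendsto_E₆_one : Tendsto (E₆ : ℍ → ℂ) atImInfty (𝓝 1) :=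
  tendsto_E_one (by norm_num) ⟨3, rfl⟩

/-- **LI5** (stronger form: no hypothesis `-1 ∈ Γ`). -/
theorem LI5_all' (hgeo : LevelOneGeometry) [Γ.FiniteIndex] (b : RBasis Γ)
    (hdivAll : ∀ (w : ℤ) (B : ℍ → ℂ), B ∈ MF ⊤ w →
      (∃ c : ℂ, c ≠ 0 ∧ Tendsto B atImInfty (𝓝 c)) →
      (∀ z : ℍ, B z = 0 → deriv (B ∘ ofComplex) z ≠ 0) → DivProp Γ w B)
    (z : ℍ) : b.LIAt z :=
  H53.LI5_all_of hgeo b hdivAll tendsto_E₄_one tendsto_E₆_one E₆_I E₄_rho
    (LI2_I' hgeo b
      (hdivAll 6 _ (coe_mem_MF_top E₆) ⟨1, one_ne_zero, tendsto_E₆_one⟩ hgeo.simpleE6))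
    (LI3_rho' hgeo b
      (hdivAll 4 _ (coe_mem_MF_top E₄) ⟨1, one_ne_zero, tendsto_E₄_one⟩ hgeo.simpleE4))
    z

/-- **LI5**, statement of the skeleton: local independence at all points. -/
theorem LI5_all (hgeo : LevelOneGeometry) [Γ.FiniteIndex] (hneg : -1 ∈ Γ) (b : RBasis Γ)
    (hdivAll : ∀ (w : ℤ) (B : ℍ → ℂ), B ∈ MF ⊤ w →
      (∃ c : ℂ, c ≠ 0 ∧ Tendsto B atImInfty (𝓝 c)) →
      (∀ z : ℍ, B z = 0 → deriv (B ∘ ofComplex) z ≠ 0) → DivProp Γ w B)
    (z : ℍ) : b.LIAt z :=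
  LI5_all' hgeo b hdivAll z

end Fermat.Agent.S20.H61
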