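import Mathlib

open UpperHalfPlane ModularForm EisensteinSeries MatrixGroups CongruenceSubgroup Filter Topology

namespace Fermat.Agent.S20.H61

/-- Upper triangular real matrix with positive diagonal, as element of `GL₂(ℝ)`. -/
noncomputable def upper (A B D : ℝ) (hA : 0 < A) (hD : 0 < D) : GL (Fin 2) ℝ :=
  Matrix.GeneralLinearGroup.mkOfDetNeZero !![A, B; 0, D]
    (by simp [Matrix.det_fin_two]; exact ⟨hA.ne', hD.ne'⟩)

/-- `E₄` tends to `1` at `i∞`. -/
theorem tendsto_E₄ : Tendsto (E₄ : ℍ → ℂ) atImInfty (𝓝 1) := by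
  obtain ⟨c, hc, hO⟩ := ModularFormClass.exp_decay_sub_atImInfty' (E₄)
  have hv : valueAtInfty (E₄ : ℍ → ℂ) = 1 := by
    rw [← UpperHalfPlane.qExpansion_coeff_zero one_pos
      (ModularFormClass.analyticAt_cuspFunction_zero E₄ one_pos one_mem_strictPeriods_SL)
      (SlashInvariantFormClass.periodic_comp_ofComplex E₄ one_mem_strictPeriods_SL)]
    exact E_qExpansion_coeff_zero _ ⟨2, rfl⟩
  have h0 : Tendsto (fun τ : ℍ => Real.exp (-c * τ.im)) atImInfty (𝓝 0) := by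
    have h1 : Tendsto (fun τ : ℍ => τ.im) atImInfty atTop := tendsto_comap
    have h2 : Tendsto (fun y : ℝ => Real.exp (-c * y)) atTop (𝓝 0) := by
      have : Tendsto (fun y : ℝ => -c * y) atTop atBot := by
        simpa using (tendsto_id.const_mul_atTop_of_neg (neg_neg_of_pos hc))
      exact Real.tendsto_exp_atBot.comp this
    exact h2.comp h1
  have h3 := hO.trans_tendsto h0
  rw [hv] at h3
  have h4 : Tendsto (fun τ : ℍ => (E₄ τ - 1) + 1) atImInfty (𝓝 (0 + 1)) := h3.add_const 1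
  simpa using h4

theorem tendsto_slash_upper {f : ℍ → ℂ} {L : ℂ} (hf : Tendsto f atImInfty (𝓝 L))
    (k : ℤ) (A B D : ℝ) (hA : 0 < A) (hD : 0 < D) :
    Tendsto (f ∣[k] upper A B D hA hD) atImInfty
      (𝓝 (L * ((A * D : ℝ) : ℂ) ^ (k - 1) * (D : ℂ) ^ (-k))) := by
  have hdet : (upper A B D hA hD).det.val = A * D := by
    simp [upper, Matrix.det_fin_two]
  have hdetpos : 0 < (upper A B D hA hD).det.val := by rw [hdet]; positivity
  have hden : ∀ τ : ℍ, denom (upper A B D hA hD) τ = D := by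
    intro τ; simp [denom, upper]
  have hσ : ∀ z : ℂ, σ (upper A B D hA hD) z = z := by
    intro z
    have : 0 < (upper A B D hA hD : Matrix (Fin 2) (Fin 2) ℝ).det := by
      simpa using hdetpos
    simp [σ, this]
  have him : ∀ τ : ℍ, (upper A B D hA hD • τ).im = A / D * τ.im := by
    intro τ
    rw [UpperHalfPlane.im_smul_eq_div_normSq, hden, hdet, abs_of_pos (by positivity)]
    simp [Complex.normSq_apply]
    field_simp
  have hsm : Tendsto (fun τ : ℍ => upper A B D hA hD • τ) atImInfty atImInfty := by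
    rw [atImInfty, tendsto_comap_iff]
    have : (im ∘ fun τ : ℍ => upper A B D hA hD • τ) = fun τ : ℍ => A / D * τ.im := by
      funext τ; exact him τ
    rw [this]
    exact (tendsto_comap (f := im)).const_mul_atTop (by positivity)
  have h1 : Tendsto (fun τ : ℍ => f (upper A B D hA hD • τ)) atImInfty (𝓝 L) := hf.comp hsm
  have : (f ∣[k] upper A B D hA hD) = fun τ : ℍ =>
      f (upper A B D hA hD • τ) * ((A * D : ℝ) : ℂ) ^ (k - 1) * (D : ℂ) ^ (-k) := by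
    funext τ
    rw [slash_apply, hσ, hden, hdet, abs_of_pos (by positivity)]
  rw [this]
  exact (h1.mul_const _).mul_const _

/-- Integer arithmetic behind the Hermite normal form of `diag(N,1) * g`. -/
theorem hermite_aux (N : ℕ) (hN : N ≠ 0) (a b c d : ℤ) (hdet : a * d - b * c = 1) :
    ∃ (A D : ℕ) (B x y c₁ : ℤ), 0 < A ∧ 0 < D ∧ A * D = N ∧ (A : ℤ) * c₁ = c ∧
      (D : ℤ) * a * y - x * c₁ = 1 ∧
      (D : ℤ) * a * B + x * D = N * b ∧ c₁ * B + y * D = d ∧ (D = 1 → (N : ℤ) ∣ c) := by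
  set A : ℕ := Int.gcd N c with hA
  have hApos : 0 < A := Int.gcd_pos_of_ne_zero_left _ (by exact_mod_cast hN)
  obtain ⟨D, hD⟩ : A ∣ N := by
    have := Int.gcd_dvd_left (N : ℤ) c
    exact_mod_cast this
  obtain ⟨c₁, hc₁⟩ : (A : ℤ) ∣ c := Int.gcd_dvd_right _ _
  have hDpos : 0 < D := by
    rcases Nat.eq_zero_or_pos D with h | h
    · subst h; simp at hD; exact absurd hD hN
    · exact h
  -- coprimality of c₁ and D
  have hcop : IsCoprime c₁ (D : ℤ) := by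
    have h1 : Int.gcd ((N : ℤ) / A) (c / A) = 1 := by
      have := Int.gcd_div_gcd_div_gcd (i := (N : ℤ)) (j := c) (by exact_mod_cast hApos)
      simpa [hA] using this
    have h2 : (N : ℤ) / A = D := by
      rw [hD]; push_cast
      exact Int.mul_ediv_cancel_left _ (by exact_mod_cast hApos.ne')
    have h3 : c / A = c₁ := by
      rw [hc₁]; exact Int.mul_ediv_cancel_left _ (by exact_mod_cast hApos.ne')
    rw [h2, h3] at h1
    exact (Int.isCoprime_iff_gcd_eq_one.mpr h1).symm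
  obtain ⟨u, v, huv⟩ := hcop
  refine ⟨A, D, u * d, A * b - a * (u * d), d * v, c₁, hApos, hDpos, hD.symm, hc₁.symm, ?_, ?_, ?_, ?_⟩
  · have hc : c = A * c₁ := hc₁
    have : (D : ℤ) * a * (d * v) - (A * b - a * (u * d)) * c₁
        = a * d * (u * c₁ + v * D) - b * (A * c₁) := by ring
    rw [this, huv, ← hc]; linarith
  · have : (N : ℤ) = A * D := by exact_mod_cast hD
    rw [this]; ring
  · have : c₁ * (u * d) + d * v * D = d * (u * c₁ + v * D) := by ring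
    rw [this, huv, mul_one]
  · intro hD1
    subst hD1
    have : (N : ℤ) = A := by rw [hD]; simp
    rw [this]; exact ⟨c₁, hc₁⟩

/-- Restricting the level of a modular form to a smaller subgroup. -/
noncomputable def restrictLevel {Γ Γ' : Subgroup (GL (Fin 2) ℝ)} {k : ℤ} (f : ModularForm Γ k)
    (h : Γ' ≤ Γ) : ModularForm Γ' k where
  toFun := f
  slash_action_eq' γ hγ := f.slash_action_eq' γ (h hγ)
  holo' := f.holo'
  bdd_at_cusps' hc := f.bdd_at_cusps' (hc.mono h)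

theorem exists_decomp (N : ℕ) (hN : N ≠ 0) (g : SL(2, ℤ)) :
    ∃ (g' : SL(2, ℤ)) (A D : ℕ) (B : ℤ) (hA : 0 < (A : ℝ)) (hD : 0 < (D : ℝ)),
      A * D = N ∧ (D = 1 → (N : ℤ) ∣ g 1 0) ∧
      upper N 0 1 (by exact_mod_cast Nat.pos_of_ne_zero hN) one_pos * (g : GL (Fin 2) ℝ)
        = (g' : GL (Fin 2) ℝ) * upper A B D hA hD := by
  have hdet : g 0 0 * g 1 1 - g 0 1 * g 1 0 = 1 := by
    have := g.det_coe
    rw [Matrix.det_fin_two] at this
    exact this
  obtain ⟨A, D, B, x, y, c₁, hA, hD, hAD, hc, h1, h2, h3, h4⟩ :=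
    hermite_aux N hN (g 0 0) (g 0 1) (g 1 0) (g 1 1) hdet
  obtain ⟨g', e00, e01, e10, e11⟩ : ∃ g' : SL(2, ℤ), g' 0 0 = D * g 0 0 ∧ g' 0 1 = x ∧
      g' 1 0 = c₁ ∧ g' 1 1 = y :=
    ⟨⟨!![D * g 0 0, x; c₁, y], by rw [Matrix.det_fin_two_of]; exact h1⟩, rfl, rfl, rfl, rfl⟩
  refine ⟨g', A, D, B, by exact_mod_cast hA, by exact_mod_cast hD, hAD, h4, ?_⟩
  apply Matrix.GeneralLinearGroup.ext
  intro i j
  have hN' : (N : ℝ) = A * D := by exact_mod_cast hAD.symm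
  have hc' : (g 1 0 : ℝ) = A * c₁ := by exact_mod_cast hc.symm
  have h2' : (D : ℝ) * g 0 0 * B + x * D = N * g 0 1 := by exact_mod_cast h2
  have h3' : (c₁ : ℝ) * B + y * D = g 1 1 := by exact_mod_cast h3
  fin_cases i <;> fin_cases j <;>
    simp [upper, Matrix.mul_apply, Fin.sum_univ_two, e00, e01, e10, e11]
  · rw [hN']; ring
  · linarith
  · rw [hc']; ring
  · linarith


/-- The real matrix `diag(N, 1)`. -/
noncomputable def alpha (N : ℕ) [NeZero N] : GL (Fin 2) ℝ :=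
  upper N 0 1 (by exact_mod_cast Nat.pos_of_ne_zero (NeZero.ne N)) one_pos

open ConjAct Pointwise in
theorem Gamma0_le_conj (N : ℕ) [NeZero N] :
    ((Gamma0 N : Subgroup SL(2, ℤ)) : Subgroup (GL (Fin 2) ℝ))
      ≤ toConjAct (alpha N)⁻¹ • 𝒮ℒ := by
  intro x hx
  obtain ⟨γ, hγ, rfl⟩ := Subgroup.mem_map.1 hx
  rw [map_inv, Subgroup.mem_inv_pointwise_smul_iff, toConjAct_smul]
  rw [Gamma0_mem] at hγ
  obtain ⟨c₁, hc₁⟩ : (N : ℤ) ∣ γ 1 0 := (ZMod.intCast_zmod_eq_zero_iff_dvd _ N).1 hγ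
  have hdet : γ 0 0 * γ 1 1 - γ 0 1 * γ 1 0 = 1 := by
    have := γ.det_coe
    rw [Matrix.det_fin_two] at this
    exact this
  obtain ⟨g', e00, e01, e10, e11⟩ : ∃ g' : SL(2, ℤ), g' 0 0 = γ 0 0 ∧ g' 0 1 = N * γ 0 1 ∧
      g' 1 0 = c₁ ∧ g' 1 1 = γ 1 1 :=
    ⟨⟨!![γ 0 0, N * γ 0 1; c₁, γ 1 1], by
      rw [Matrix.det_fin_two_of]; rw [hc₁] at hdet; linarith⟩, rfl, rfl, rfl, rfl⟩
  refine ⟨g', ?_⟩
  rw [eq_mul_inv_iff_mul_eq]
  apply Matrix.GeneralLinearGroup.ext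
  intro i j
  have hc' : (γ 1 0 : ℝ) = N * c₁ := by exact_mod_cast hc₁
  fin_cases i <;> fin_cases j <;>
    simp [alpha, upper, Matrix.mul_apply, Fin.sum_univ_two, e00, e01, e10, e11]
  · ring
  · rw [hc']; ring

/-- The form `N³ E₄(N z)` on `Γ₀(N)`. -/
noncomputable def E4N (N : ℕ) [NeZero N] : ModularForm (Gamma0 N) 4 :=
  restrictLevel (ModularForm.translate E₄ (alpha N)) (Gamma0_le_conj N)

theorem coe_E4N (N : ℕ) [NeZero N] : ⇑(E4N N) = (E₄ : ℍ → ℂ) ∣[(4 : ℤ)] alpha N := rfl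

/-- **S20 Part D.** The stabiliser of `E4N N` under the weight-4 slash action of `SL(2, ℤ)` is
contained in (hence equal to) `Γ₀(N)`. -/
theorem mem_Gamma0_of_slash_E4N_eq (N : ℕ) [NeZero N] (g : SL(2, ℤ))
    (h : ⇑(E4N N) ∣[(4 : ℤ)] g = ⇑(E4N N)) : g ∈ Gamma0 N := by
  have hN : N ≠ 0 := NeZero.ne N
  obtain ⟨g', A, D, B, hA, hD, hAD, hD1, hdec⟩ := exists_decomp N hN g
  -- rewrite the slash by `g` as a slash by the upper triangular matrix
  have h1 : ⇑(E4N N) ∣[(4 : ℤ)] g = (E₄ : ℍ → ℂ) ∣[(4 : ℤ)] upper A B D hA hD := by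
    rw [coe_E4N, SL_slash, ← SlashAction.slash_mul]
    have : alpha N * (g : GL (Fin 2) ℝ) = (g' : GL (Fin 2) ℝ) * upper A B D hA hD := hdec
    rw [this, SlashAction.slash_mul]
    congr 1
    exact SlashInvariantForm.slash_action_eqn E₄ _ ⟨g', rfl⟩
  have hlim1 := tendsto_slash_upper tendsto_E₄ 4 A B D hA hD
  have hlim2 := tendsto_slash_upper tendsto_E₄ 4 N 0 1
    (by exact_mod_cast Nat.pos_of_ne_zero hN) one_pos
  rw [← h1, h] at hlim1
  have heq := tendsto_nhds_unique hlim1 hlim2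
  -- `N³ / D⁴ = N³`, so `D = 1`
  have hN' : (N : ℝ) = A * D := by exact_mod_cast hAD.symm
  have hD0 : (D : ℂ) ≠ 0 := by exact_mod_cast hD.ne'
  have hN0 : (N : ℂ) ≠ 0 := by exact_mod_cast hN
  have hD4 : (D : ℂ) ^ 4 = 1 := by
    have e : ((A * D : ℝ) : ℂ) = (N : ℂ) := by rw [← hN']; simp
    rw [e] at heq
    simp only [one_mul, mul_one, Complex.ofReal_one, Complex.ofReal_natCast] at heq
    have h3 : ((N : ℂ) ^ ((4 : ℤ) - 1)) ≠ 0 := zpow_ne_zero _ hN0
    have : (D : ℂ) ^ (-(4 : ℤ)) = 1 := by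
      have := mul_left_cancel₀ h3 (by simpa using heq : (N : ℂ) ^ ((4 : ℤ) - 1) * (D : ℂ) ^ (-(4 : ℤ))
        = (N : ℂ) ^ ((4 : ℤ) - 1) * 1)
      simpa using this
    rw [zpow_neg, inv_eq_one] at this
    exact_mod_cast this
  have hD1' : D = 1 := by
    have : (D : ℝ) ^ 4 = 1 := by exact_mod_cast hD4
    have hDle : (D : ℝ) = 1 := by
      have h0 : (0 : ℝ) ≤ D := hD.le
      exact (pow_eq_one_iff_of_nonneg h0 (by norm_num)).1 this
    exact_mod_cast hDle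
  rw [Gamma0_mem]
  exact (ZMod.intCast_zmod_eq_zero_iff_dvd _ N).2 (hD1 hD1')

theorem partD (N : ℕ) [NeZero N] :
    ∃ (k : ℤ) (f : ModularForm (Gamma0 N) k), ∀ g : SL(2, ℤ), ⇑f ∣[k] g = ⇑f → g ∈ Gamma0 N :=
  ⟨4, E4N N, mem_Gamma0_of_slash_E4N_eq N⟩

end Fermat.Agent.S20.H61
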