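import Mathlib.NumberTheory.ModularForms.LevelOne.GradedRing
import Mathlib.NumberTheory.ModularForms.NormTrace
import Mathlib.NumberTheory.ModularForms.Derivative
import Mathlib.NumberTheory.ModularForms.QExpansion
import Mathlib.NumberTheory.ModularForms.CongruenceSubgroups

/-!
# S20 core (helper74): basic framework

Modular forms for a subgroup `Γ ≤ SL(2, ℤ)` as submodules of `ℍ → ℂ`.
-/

set_option autoImplicit false

namespace Fermat.Agent.S20.H74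

open UpperHalfPlane ModularForm MatrixGroups Filter
open scoped Manifold Topology

/-- Weight `k` modular forms of level `Γ ≤ SL(2, ℤ)`, as a submodule of functions:
holomorphic, `Γ`-invariant, and every `SL(2, ℤ)`-translate is bounded at `i∞`. -/
def MF (Γ : Subgroup SL(2, ℤ)) (k : ℤ) : Submodule ℂ (ℍ → ℂ) where
  carrier := {f | MDiff f ∧ (∀ γ ∈ Γ, f ∣[k] γ = f) ∧
    ∀ γ : SL(2, ℤ), IsBoundedAtImInfty (f ∣[k] γ)}
  add_mem' := by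
    rintro f g ⟨hf1, hf2, hf3⟩ ⟨hg1, hg2, hg3⟩
    refine ⟨hf1.add hg1, fun γ hγ => ?_, fun γ => ?_⟩
    · rw [SlashAction.add_slash, hf2 γ hγ, hg2 γ hγ]
    · rw [SlashAction.add_slash]; exact (hf3 γ).add (hg3 γ)
  zero_mem' := by
    refine ⟨mdifferentiable_const (c := (0 : ℂ)), fun γ _ => SlashAction.zero_slash _ _, fun γ => ?_⟩
    rw [SlashAction.zero_slash]
    exact zero_form_isBoundedAtImInfty
  smul_mem' := by
    rintro c f ⟨hf1, hf2, hf3⟩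
    refine ⟨hf1.const_smul c, fun γ hγ => ?_, fun γ => ?_⟩
    · rw [SL_smul_slash, hf2 γ hγ]
    · rw [SL_smul_slash]
      exact (hf3 γ).const_smul_left c

/-- Weight `k` cusp forms of level `Γ ≤ SL(2, ℤ)`, as a submodule of functions. -/
def CF (Γ : Subgroup SL(2, ℤ)) (k : ℤ) : Submodule ℂ (ℍ → ℂ) where
  carrier := {f | MDiff f ∧ (∀ γ ∈ Γ, f ∣[k] γ = f) ∧
    ∀ γ : SL(2, ℤ), IsZeroAtImInfty (f ∣[k] γ)}
  add_mem' := by
    rintro f g ⟨hf1, hf2, hf3⟩ ⟨hg1, hg2, hg3⟩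
    refine ⟨hf1.add hg1, fun γ hγ => ?_, fun γ => ?_⟩
    · rw [SlashAction.add_slash, hf2 γ hγ, hg2 γ hγ]
    · rw [SlashAction.add_slash]; exact (hf3 γ).add (hg3 γ)
  zero_mem' := by
    refine ⟨mdifferentiable_const (c := (0 : ℂ)), fun γ _ => SlashAction.zero_slash _ _, fun γ => ?_⟩
    rw [SlashAction.zero_slash]
    exact Filter.zero_zeroAtFilter _
  smul_mem' := by
    rintro c f ⟨hf1, hf2, hf3⟩
    refine ⟨hf1.const_smul c, fun γ hγ => ?_, fun γ => ?_⟩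
    · rw [SL_smul_slash, hf2 γ hγ]
    · rw [SL_smul_slash]
      exact (hf3 γ).smul c

variable {Γ : Subgroup SL(2, ℤ)} {k : ℤ}

lemma mem_MF {f : ℍ → ℂ} : f ∈ MF Γ k ↔ MDiff f ∧ (∀ γ ∈ Γ, f ∣[k] γ = f) ∧
    ∀ γ : SL(2, ℤ), IsBoundedAtImInfty (f ∣[k] γ) := Iff.rfl

lemma mem_CF {f : ℍ → ℂ} : f ∈ CF Γ k ↔ MDiff f ∧ (∀ γ ∈ Γ, f ∣[k] γ = f) ∧
    ∀ γ : SL(2, ℤ), IsZeroAtImInfty (f ∣[k] γ) := Iff.rfl

lemma CF_le_MF : CF Γ k ≤ MF Γ k := fun _ hf =>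
  ⟨hf.1, hf.2.1, fun γ => (hf.2.2 γ).isBoundedAtImInfty⟩

end Fermat.Agent.S20.H74

namespace Fermat.Agent.S20.H74

open UpperHalfPlane ModularForm MatrixGroups Filter
open scoped Manifold Topology

variable {Γ : Subgroup SL(2, ℤ)} {k l : ℤ}

/-! ### Translates -/

lemma MF.mdiff {f : ℍ → ℂ} (hf : f ∈ MF Γ k) : MDiff f := hf.1

lemma CF.mdiff {f : ℍ → ℂ} (hf : f ∈ CF Γ k) : MDiff f := hf.1

lemma mdiff_slash {f : ℍ → ℂ} (hf : MDiff f) (γ : SL(2, ℤ)) : MDiff (f ∣[k] γ) := by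
  rw [SL_slash]
  exact hf.slash k _

lemma MF.bdd_slash {f : ℍ → ℂ} (hf : f ∈ MF Γ k) (γ δ : SL(2, ℤ)) :
    IsBoundedAtImInfty ((f ∣[k] γ) ∣[k] δ) := by
  rw [← SlashAction.slash_mul]
  exact hf.2.2 _

lemma CF.zero_slash {f : ℍ → ℂ} (hf : f ∈ CF Γ k) (γ δ : SL(2, ℤ)) :
    IsZeroAtImInfty ((f ∣[k] γ) ∣[k] δ) := by
  rw [← SlashAction.slash_mul]
  exact hf.2.2 _

lemma MF.bdd {f : ℍ → ℂ} (hf : f ∈ MF Γ k) : IsBoundedAtImInfty f := by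
  simpa using hf.2.2 1

lemma CF.zero_at {f : ℍ → ℂ} (hf : f ∈ CF Γ k) : IsZeroAtImInfty f := by
  simpa using hf.2.2 1

/-- Level-one forms are invariant under all of `SL(2, ℤ)`. -/
lemma MF.slash_top {a : ℍ → ℂ} (ha : a ∈ MF ⊤ l) (γ : SL(2, ℤ)) : a ∣[l] γ = a :=
  ha.2.1 γ (Subgroup.mem_top γ)

lemma MF.mono {Γ' : Subgroup SL(2, ℤ)} (h : Γ' ≤ Γ) : MF Γ k ≤ MF Γ' k :=
  fun _ hf => ⟨hf.1, fun γ hγ => hf.2.1 γ (h hγ), hf.2.2⟩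

lemma CF.mono {Γ' : Subgroup SL(2, ℤ)} (h : Γ' ≤ Γ) : CF Γ k ≤ CF Γ' k :=
  fun _ hf => ⟨hf.1, fun γ hγ => hf.2.1 γ (h hγ), hf.2.2⟩

/-! ### Products -/

lemma MF.mul {a f : ℍ → ℂ} (ha : a ∈ MF ⊤ l) (hf : f ∈ MF Γ k) : a * f ∈ MF Γ (l + k) := by
  refine ⟨ha.1.mul hf.1, fun γ hγ => ?_, fun γ => ?_⟩
  · rw [mul_slash_SL2, MF.slash_top ha, hf.2.1 γ hγ]
  · rw [mul_slash_SL2]
    exact (ha.2.2 γ).mul (hf.2.2 γ)

lemma MF.mul' {a f : ℍ → ℂ} {m : ℤ} (ha : a ∈ MF ⊤ l) (hf : f ∈ MF Γ k) (hm : m = l + k) :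
    a * f ∈ MF Γ m := hm ▸ MF.mul ha hf

lemma CF.mul {a f : ℍ → ℂ} (ha : a ∈ MF ⊤ l) (hf : f ∈ CF Γ k) : a * f ∈ CF Γ (l + k) := by
  refine ⟨ha.1.mul hf.1, fun γ hγ => ?_, fun γ => ?_⟩
  · rw [mul_slash_SL2, MF.slash_top ha, hf.2.1 γ hγ]
  · rw [mul_slash_SL2]
    exact Filter.BoundedAtFilter.mul_zeroAtFilter (ha.2.2 γ) (hf.2.2 γ)

lemma MF.pow {a : ℍ → ℂ} (ha : a ∈ MF ⊤ l) (n : ℕ) : a ^ n ∈ MF ⊤ (n * l) := by
  induction n with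
  | zero =>
    simp only [pow_zero, Nat.cast_zero, zero_mul]
    refine ⟨mdifferentiable_const (c := (1 : ℂ)), fun γ _ => is_invariant_one γ, fun γ => ?_⟩
    rw [is_invariant_one]
    exact Filter.const_boundedAtFilter _ (1 : ℂ)
  | succ n ih =>
    rw [pow_succ']
    exact MF.mul' ha ih (by push_cast; ring)

end Fermat.Agent.S20.H74
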