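import Fermat.Agent.S20.H74_CoreAsm
import Fermat.Agent.S20.H25_E2
import Fermat.Agent.S20.H58_Dual
import Fermat.Agent.S20.H86_LevelOne
import Fermat.Agent.S20.H89_Weights
import Fermat.Agent.S20.H2_INF3
import Fermat.Agent.S20.H2_ExistsK

/-!
# S20 core (helper74): assembly of the work packages

`core_of_packages` derives the core count from the landed packages, taking the packages that are
not yet available (LI5 with B_div, RK1, RK2, INF1, INF2) as hypotheses.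
-/

set_option autoImplicit false

namespace Fermat.Agent.S20.H74

open UpperHalfPlane ModularForm MatrixGroups Filter EisensteinSeries
open scoped Manifold Topology

variable {Γ : Subgroup SL(2, ℤ)}

theorem core_of_packages (Γ : Subgroup SL(2, ℤ)) [Γ.FiniteIndex] (hneg : -1 ∈ Γ)
    (hLI : ∀ (b : RBasis Γ) (z : ℍ), b.LIAt z)
    (hRK1 : ∀ (b : RBasis Γ) (z : ℍ), b.LIAt z → Finite b.J ∧ Nat.card b.J ≤ Γ.index)
    (hRK2 : ∀ (b : RBasis Γ) [Finite b.J], Γ.index ≤ Nat.card b.J)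
    (hINF1 : ∀ K : ℤ, Module.Finite ℂ (MF Γ K) →
      Module.finrank ℂ (MF Γ K) = Module.finrank ℂ (MF Γ (K - 12)) + Γ.index →
      Module.finrank ℂ (MF Γ K) = Module.finrank ℂ (CF Γ K) + cuspNum Γ)
    (hINF2 : ∀ K : ℤ, Module.Finite ℂ (MF Γ K) →
      Module.finrank ℂ (MF Γ K) = Module.finrank ℂ (MF Γ (K - 12)) + Γ.index →
      ∃ (N : ℕ) (_ : 0 < N) (G : (SL(2, ℤ) ⧸ Γ) → ℍ → ℂ) (a : (SL(2, ℤ) ⧸ Γ) → ℕ)
        (E₀ : (SL(2, ℤ) ⧸ Γ) → (SL(2, ℤ) ⧸ Γ) → ℂ),
        (∀ i, G i ∈ MF Γ K) ∧ (∀ i, a i < N) ∧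
        LinearIndependent ℂ (fun i => fun q => E₀ q i) ∧
        ∀ q i, Tendsto (fun z : ℍ =>
          Complex.exp (-2 * Real.pi * Complex.I * (a i) * z / N) * cf Γ K (G i) q z)
          atImInfty (𝓝 (E₀ q i))) :
    12 * (Module.finrank ℂ (CF Γ 2) : ℤ) + 3 * ellTwo Γ + 4 * ellThree Γ + 6 * cuspNum Γ
      = 12 + Γ.index := by
  classical
  obtain ⟨b⟩ := H25.E2_exists_RBasis Γ
  obtain ⟨hfin, hle⟩ := hRK1 b I (hLI b I)
  have := hfin
  let _ : Fintype b.J := Fintype.ofFinite _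
  have hcardN : Nat.card b.J = Γ.index := le_antisymm hle (hRK2 b)
  have hcard : Fintype.card b.J = Γ.index := by
    rw [← Nat.card_eq_fintype_card]; exact hcardN
  have hr : ∀ k : ℕ, Even k → r (k : ℤ) = if k % 12 = 2 then k / 12 else k / 12 + 1 :=
    fun k hk => H86.L2_finrank_top k hk
  have hMF : ∀ k : ℤ, Module.Finite ℂ (MF Γ k) ∧
      Module.finrank ℂ (MF Γ k) = ∑ j, r (k - b.wt j) := fun k => H58.DU1_finrank_MF b k
  obtain ⟨d⟩ := H58.DU2_dual b (hLI b) hcardN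
  have heven : ∀ j, Even (b.wt j) := fun j => H89.W1_even hneg b j
  have hnn : ∀ j, 0 ≤ b.wt j := fun j => H89.W2_nonneg b j
  -- a weight `K` at which the cusp filtration is full
  obtain ⟨K, hKfin, hK⟩ := H2.exists_K_finrank b hcardN (fun k => H58.DU1_finrank_MF b k)
    (fun k hk => H86.L2_finrank_top k hk) heven
  have hadapt := hINF2 K hKfin hK
  have hzero' : ∀ j q, IsZeroAtImInfty (discriminant * d.H j q) :=
    fun j q => H2.INF3_dual_zero b d ⟨K, hadapt⟩ j q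
  have hCF : ∀ k : ℤ, Module.finrank ℂ (CF Γ k) = ∑ j, r (k + b.wt j - 12) :=
    fun k => H58.DU4_finrank_CF b d hzero' k
  exact core_of b hr hcard heven hnn (H89.W3_zero b)
    (H89.TR1_I b (hLI b I) hcardN) (H89.TR2_rho b (hLI b rho) hcardN) hMF hCF hINF1

end Fermat.Agent.S20.H74
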