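import Fermat.Agent.S20.H74_Defs

/-!
# S20 core (helper74): SKELETON of work packages (WIP file: every `sorry` is a package).

RULES for takers: prove the package in YOUR OWN file `Fermat/Agent/S20/H<seat>_<Pkg>.lean`,
namespace `Fermat.Agent.S20.H<seat>`, SAME statement (same name is fine inside your namespace).
Import `Fermat.Agent.S20.H74_Defs` (sorry-free) and any landed sorry-free file. Do NOT import this
skeleton. Anything you need from another package: take it as an explicit hypothesis.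
-/

set_option autoImplicit false

namespace Fermat.Agent.S20.H74

open UpperHalfPlane ModularForm MatrixGroups Filter EisensteinSeries
open scoped Manifold Topology

variable {Γ : Subgroup SL(2, ℤ)}

/-! ## P1. Holomorphic division (pure complex analysis) -/

theorem P1_exists_mdiff_quotient (B g : ℍ → ℂ) (hB : MDiff B) (hg : MDiff g)
    (hsimple : ∀ z : ℍ, B z = 0 → deriv (B ∘ ofComplex) z ≠ 0)
    (hvan : ∀ z : ℍ, B z = 0 → g z = 0) :
    ∃ h : ℍ → ℂ, MDiff h ∧ g = B * h := by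
  sorry

/-! ## P3. Trace of a permutation under conjugation (pure linear algebra) -/

theorem P3_sum_eq_card_fixed {C J : Type*} [Fintype C] [Fintype J] [DecidableEq C]
    (σ : Equiv.Perm C) (Φ : C → J → ℂ) (d : J → ℂ)
    (hΦ : LinearIndependent ℂ (fun j : J => fun q : C => Φ q j))
    (hcard : Fintype.card J = Fintype.card C)
    (h : ∀ q j, Φ (σ q) j = d j * Φ q j) :
    ∑ j, d j = (Fintype.card {q // σ q = q} : ℂ) := by
  sorry

/-! ## P4. Invariant functions on a finite `G`-set (pure linear algebra) -/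

/-- functions constant on orbits -/
def invFun (G C : Type*) [Group G] [MulAction G C] : Submodule ℂ (C → ℂ) where
  carrier := {v | ∀ (g : G) (q : C), v (g • q) = v q}
  add_mem' := by intro a b ha hb g q; simp [ha g q, hb g q]
  zero_mem' := by intro g q; rfl
  smul_mem' := by intro c a ha g q; simp [ha g q]

theorem P4_finrank_invFun (G C : Type*) [Group G] [MulAction G C] [Finite C] :
    Module.finrank ℂ (invFun G C) = Nat.card (MulAction.orbitRel.Quotient G C) := by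
  sorry

/-! ## L. Level one facts -/

/-- L1: `M_k(SL2Z) = E₄ M_{k-4} + ℂ E₆^{k/6}`. -/
theorem L1_decomp {k : ℤ} {a : ℍ → ℂ} (ha : a ∈ MF ⊤ k) :
    ∃ a' ∈ MF ⊤ (k - 4), ∃ c : ℂ,
      a = ⇑E₄ * a' + c • (if 0 ≤ k ∧ (6 : ℤ) ∣ k then (⇑E₆ : ℍ → ℂ) ^ (k / 6).toNat else 0) := by
  sorry

/-- L2: dimension of level one forms (from Mathlib `dimension_level_one`). -/
theorem L2_finrank_top (k : ℕ) (hk : Even k) :
    Module.finrank ℂ (MF ⊤ (k : ℤ)) = if k % 12 = 2 then k / 12 else k / 12 + 1 := by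
  sorry

theorem L2_finite_top (k : ℤ) : Module.Finite ℂ (MF ⊤ k) := by
  sorry

theorem L2_top_odd {k : ℤ} (hk : Odd k) : MF ⊤ k = ⊥ := by
  sorry

/-- L3: elliptic points. -/
theorem L3_S_smul_I : ModularGroup.S • (I : ℍ) = I := by
  sorry

theorem L3_denom_S_I : denom (ModularGroup.S : SL(2, ℤ)) (I : ℍ) = Complex.I := by
  sorry

theorem L3_ST_smul_rho : (ModularGroup.S * ModularGroup.T) • rho = rho := by
  sorry

theorem L3_denom_ST_rho :
    denom ((ModularGroup.S * ModularGroup.T : SL(2, ℤ))) rho = (rho : ℂ) + 1 := by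
  sorry

theorem L3_E₆_I : E₆ I = 0 := by
  sorry

theorem L3_E₄_rho : E₄ rho = 0 := by
  sorry

/-- L4: level one cusp forms are multiples of `Δ` (Mathlib `CuspForm.discriminantEquiv`). -/
theorem L4_cusp_div {k : ℤ} {f : ℍ → ℂ} (hf : f ∈ CF ⊤ k) :
    ∃ g ∈ MF ⊤ (k - 12), f = discriminant * g := by
  sorry

/-! ## E. Koszul exactness and existence of a free basis -/

/-- E1 (Koszul): `E₆ f = E₄ h  ⟹  E₄ ∣ f` in `M_*(Γ)`. Proof: patch `f / E₄` and `h / E₆`
(`E₄, E₆` have no common zero because `Δ ≠ 0`). -/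
theorem E1_koszul {k : ℤ} {f h : ℍ → ℂ} (hf : f ∈ MF Γ k) (hh : h ∈ MF Γ (k + 2))
    (heq : ⇑E₆ * f = ⇑E₄ * h) : ∃ f' ∈ MF Γ (k - 4), f = ⇑E₄ * f' := by
  sorry

/-- E2: a homogeneous free basis exists (index type possibly infinite at this stage).
Take for each weight `w` a basis of a complement of `E₄ M_{w-4} + E₆ M_{w-6}` in `M_w`;
generation by induction on `w` (`M_w = 0` for `w < 0`), independence by L1 + E1. -/
theorem E2_exists_RBasis (Γ : Subgroup SL(2, ℤ)) [Γ.FiniteIndex] : Nonempty (RBasis Γ) := by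
  sorry

/-! ## B. Division by a level one form with simple zeros -/

/-- B: division inside `M_*(Γ)` (from P1; boundedness at cusps because `B → c ≠ 0`). -/
theorem B_div {w : ℤ} {B : ℍ → ℂ} (hB : B ∈ MF ⊤ w)
    (hBinf : ∃ c : ℂ, c ≠ 0 ∧ Tendsto B atImInfty (𝓝 c))
    (hsimple : ∀ z : ℍ, B z = 0 → deriv (B ∘ ofComplex) z ≠ 0) : DivProp Γ w B := by
  sorry

/-! ## LI. Local independence of a basis at every point of `ℍ` -/

/-- LI1: generic points (uses `DivProp Γ 12 (Bform z₀)` and zeros of `Bform z₀` = orbit of `z₀`). -/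
theorem LI1_generic (hgeo : LevelOneGeometry) [Γ.FiniteIndex] (b : RBasis Γ) (z₀ : ℍ)
    (h4 : E₄ z₀ ≠ 0) (h6 : E₆ z₀ ≠ 0) (hdiv : DivProp Γ 12 (Bform z₀)) : b.LIAt z₀ := by
  sorry

/-- LI2: at `i` (split by the `S`-eigenvalue, then divide by `E₆`). -/
theorem LI2_I (hgeo : LevelOneGeometry) [Γ.FiniteIndex] (hneg : -1 ∈ Γ) (b : RBasis Γ)
    (hdiv : DivProp Γ 6 ⇑E₆) : b.LIAt I := by
  sorry

/-- LI3: at `ρ` (split by the `ST`-eigenvalue, then divide by `E₄`). -/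
theorem LI3_rho (hgeo : LevelOneGeometry) [Γ.FiniteIndex] (hneg : -1 ∈ Γ) (b : RBasis Γ)
    (hdiv : DivProp Γ 4 ⇑E₄) : b.LIAt rho := by
  sorry

/-- LI4: independence is invariant under `SL(2, ℤ)`. -/
theorem LI4_smul (b : RBasis Γ) (z : ℍ) (γ : SL(2, ℤ)) (h : b.LIAt z) : b.LIAt (γ • z) := by
  sorry

/-- LI5: all points. -/
theorem LI5_all (hgeo : LevelOneGeometry) [Γ.FiniteIndex] (hneg : -1 ∈ Γ) (b : RBasis Γ)
    (hdivAll : ∀ (w : ℤ) (B : ℍ → ℂ), B ∈ MF ⊤ w →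
      (∃ c : ℂ, c ≠ 0 ∧ Tendsto B atImInfty (𝓝 c)) →
      (∀ z : ℍ, B z = 0 → deriv (B ∘ ofComplex) z ≠ 0) → DivProp Γ w B)
    (z : ℍ) : b.LIAt z := by
  sorry

/-! ## RK. The rank is the index -/

theorem RK1_finite [Γ.FiniteIndex] (b : RBasis Γ) (z : ℍ) (h : b.LIAt z) :
    Finite b.J ∧ Nat.card b.J ≤ Γ.index := by
  sorry

/-- RK2: Vandermonde. `hsep` = Part D. -/
theorem RK2_card [Γ.FiniteIndex] (b : RBasis Γ) [Finite b.J]
    (hsep : ∃ (k : ℤ) (f : ℍ → ℂ), f ∈ MF Γ k ∧ ∀ g : SL(2, ℤ), f ∣[k] g = f → g ∈ Γ) :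
    Γ.index ≤ Nat.card b.J := by
  sorry

/-! ## W. Weights -/

theorem W1_even (hneg : -1 ∈ Γ) (b : RBasis Γ) (j : b.J) : Even (b.wt j) := by
  sorry

theorem W2_nonneg [Γ.FiniteIndex] (b : RBasis Γ) (j : b.J) : 0 ≤ b.wt j := by
  sorry

theorem W3_zero [Γ.FiniteIndex] (b : RBasis Γ) [Fintype b.J] :
    Fintype.card {j : b.J // b.wt j = 0} = 1 := by
  sorry

/-! ## TR. Trace relations at the elliptic points -/

theorem TR1_I [Γ.FiniteIndex] (b : RBasis Γ) [Fintype b.J] (hI : b.LIAt I)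
    (hcard : Nat.card b.J = Γ.index) :
    ∑ j, (Complex.I) ^ (-(b.wt j)) = (ellTwo Γ : ℂ) := by
  sorry

theorem TR2_rho [Γ.FiniteIndex] (b : RBasis Γ) [Fintype b.J] (hrho : b.LIAt rho)
    (hcard : Nat.card b.J = Γ.index) :
    ∑ j, ((rho : ℂ) + 1) ^ (-(b.wt j)) = (ellThree Γ : ℂ) := by
  sorry

/-! ## DU. Dimension formulas from the basis, duality -/

theorem DU1_finrank_MF [Γ.FiniteIndex] (b : RBasis Γ) [Fintype b.J] (k : ℤ) :
    Module.Finite ℂ (MF Γ k) ∧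
    Module.finrank ℂ (MF Γ k) = ∑ j, Module.finrank ℂ (MF ⊤ (k - b.wt j)) := by
  sorry

/-- DU2: the dual family exists when the evaluation matrix is invertible everywhere. -/
theorem DU2_dual [Γ.FiniteIndex] (b : RBasis Γ) [Finite b.J] (hLI : ∀ z, b.LIAt z)
    (hcard : Nat.card b.J = Γ.index) : Nonempty b.Dual := by
  sorry

/-- DU3: transformation law of the dual family. -/
theorem DU3_dual_slash [Γ.FiniteIndex] (b : RBasis Γ) [Finite b.J] (d : b.Dual) (j : b.J)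
    (q : SL(2, ℤ) ⧸ Γ) (δ : SL(2, ℤ)) :
    (d.H j q) ∣[-(b.wt j)] δ = d.H j (δ⁻¹ • q) := by
  sorry

/-- INF3: growth of the dual family at `i∞` (from the cusp filtration, INF2). -/
theorem INF3_dual_zero [Γ.FiniteIndex] (b : RBasis Γ) [Finite b.J] (d : b.Dual)
    (hcard : Nat.card b.J = Γ.index) (j : b.J) (q : SL(2, ℤ) ⧸ Γ) :
    IsZeroAtImInfty (discriminant * d.H j q) := by
  sorry

/-- DU4: `S_k(Γ) ≅ ⊕_j M_{k + wt j - 12}(SL2Z)`. -/
theorem DU4_finrank_CF [Γ.FiniteIndex] (b : RBasis Γ) [Fintype b.J] (d : b.Dual)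
    (hzero : ∀ j q, IsZeroAtImInfty (discriminant * d.H j q)) (k : ℤ) :
    Module.finrank ℂ (CF Γ k) = ∑ j, Module.finrank ℂ (MF ⊤ (k + b.wt j - 12)) := by
  sorry

/-! ## INF. The cusp filtration -/

/-- INF1: for `K` with `dim M_K = dim M_{K-12} + index`, the Eisenstein part has dimension
`cuspNum Γ`. -/
theorem INF1_eis [Γ.FiniteIndex] (K : ℤ) (hfin : Module.Finite ℂ (MF Γ K))
    (h : Module.finrank ℂ (MF Γ K) = Module.finrank ℂ (MF Γ (K - 12)) + Γ.index) :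
    Module.finrank ℂ (MF Γ K) = Module.finrank ℂ (CF Γ K) + cuspNum Γ := by
  sorry

/-- INF2: an adapted family: forms whose leading terms at `i∞` form an invertible matrix. -/
theorem INF2_adapted [Γ.FiniteIndex] (K : ℤ) (hfin : Module.Finite ℂ (MF Γ K))
    (h : Module.finrank ℂ (MF Γ K) = Module.finrank ℂ (MF Γ (K - 12)) + Γ.index) :
    ∃ (N : ℕ) (_ : 0 < N) (G : (SL(2, ℤ) ⧸ Γ) → ℍ → ℂ) (a : (SL(2, ℤ) ⧸ Γ) → ℕ)
      (E₀ : (SL(2, ℤ) ⧸ Γ) → (SL(2, ℤ) ⧸ Γ) → ℂ),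
      (∀ i, G i ∈ MF Γ K) ∧ (∀ i, a i < N) ∧
      LinearIndependent ℂ (fun i => fun q => E₀ q i) ∧
      ∀ q i, Tendsto (fun z : ℍ =>
        Complex.exp (-2 * Real.pi * Complex.I * (a i) * z / N) * cf Γ K (G i) q z)
        atImInfty (𝓝 (E₀ q i)) := by
  sorry

/-! ## FIN. Final count -/

/-- The core theorem. -/
theorem core (hgeo : LevelOneGeometry) (Γ : Subgroup SL(2, ℤ)) [Γ.FiniteIndex] (hneg : -1 ∈ Γ)
    (hsep : ∃ (k : ℤ) (f : ℍ → ℂ), f ∈ MF Γ k ∧ ∀ g : SL(2, ℤ), f ∣[k] g = f → g ∈ Γ) :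
    12 * (Module.finrank ℂ (CF Γ 2) : ℤ) + 3 * ellTwo Γ + 4 * ellThree Γ + 6 * cuspNum Γ
      = 12 + Γ.index := by
  sorry

end Fermat.Agent.S20.H74
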